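import Fermat.Agent.DeligneSerre.XOne.Hecke
import Mathlib.GroupTheory.QuotientGroup.Basic

/-!
# Units of the function field of `X₁(M)` over `ℚ̄` and the Kummer group
-/

set_option autoImplicit false

noncomputable section

open AlgebraicCurve ModularCurve IntermediateField CongruenceSubgroup

namespace Fermat.Agent.DeligneSerre.XOne

local notation "ℚ̄" => AlgebraicClosure ℚ
local notation "Γℚ" => (AlgebraicClosure ℚ ≃ₐ[ℚ] AlgebraicClosure ℚ)

variable (M ℓ : ℕ) [NeZero M]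

/-- The function field of `X₁(M)` over `ℚ̄`. -/
abbrev FQ : IntermediateField ℚ̄ (LaurentSeries ℚ̄) := FL M ℚ̄

/-- Units whose orders are all divisible by `ℓ`. -/
def divisibleUnits : Subgroup (FQ M)ˣ where
  carrier := {f | ∀ P : Place ℚ̄ (FQ M), (ℓ : ℤ) ∣ P.ord (f : FQ M)}
  one_mem' P := by simp
  mul_mem' {f g} hf hg P := by
    rw [Units.val_mul, P.ord_mul f.ne_zero g.ne_zero]
    exact dvd_add (hf P) (hg P)
  inv_mem' {f} hf P := by
    rw [Units.val_inv_eq_inv_val, P.ord_inv]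
    exact (hf P).neg_right

/-- Constants times `ℓ`-th powers. -/
def trivialUnits : Subgroup (FQ M)ˣ :=
  (Units.map (algebraMap ℚ̄ (FQ M)).toMonoidHom).range ⊔
    (powMonoidHom ℓ : (FQ M)ˣ →* (FQ M)ˣ).range

/-- The Kummer group. -/
abbrev Kummer : Type :=
  Additive (divisibleUnits M ℓ ⧸ (trivialUnits M ℓ).subgroupOf (divisibleUnits M ℓ))

variable {M ℓ}

/-- The class of a function. -/
def Kummer.mk (f : divisibleUnits M ℓ) : Kummer M ℓ :=
  Additive.ofMul (QuotientGroup.mk f)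

theorem Kummer.mk_surjective : Function.Surjective (Kummer.mk (M := M) (ℓ := ℓ)) :=
  QuotientGroup.mk_surjective

theorem Kummer.mk_eq_zero_iff (f : divisibleUnits M ℓ) :
    Kummer.mk f = 0 ↔ (f : (FQ M)ˣ) ∈ trivialUnits M ℓ :=
  (QuotientGroup.eq_one_iff f).trans Subgroup.mem_subgroupOf

/-- An operator on functions preserving both subgroups, on the Kummer group. -/
def Kummer.map (φ : (FQ M)ˣ →* (FQ M)ˣ) (h₁ : ∀ f ∈ divisibleUnits M ℓ, φ f ∈ divisibleUnits M ℓ)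
    (h₂ : ∀ f ∈ trivialUnits M ℓ, φ f ∈ trivialUnits M ℓ) : Kummer M ℓ →+ Kummer M ℓ :=
  MonoidHom.toAdditive <| QuotientGroup.map _ _
    ((φ.comp (divisibleUnits M ℓ).subtype).codRestrict _ fun f => h₁ f f.2)
    (fun f hf => h₂ f hf)

@[simp]
theorem Kummer.map_mk (φ : (FQ M)ˣ →* (FQ M)ˣ) (h₁ h₂) (f : divisibleUnits M ℓ) :
    Kummer.map φ h₁ h₂ (Kummer.mk f) = Kummer.mk ⟨φ f, h₁ f f.2⟩ :=
  rfl

/-- The Galois action on units. -/
def galUnits (σ : Γℚ) : (FQ M)ˣ →* (FQ M)ˣ :=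
  Units.map (SemilinearAut.toRingAut (arithmeticGalois (field M) σ) : FQ M →* FQ M)

/-- The diamond action on units. -/
def diamondUnits (d : (ZMod M)ˣ) : (FQ M)ˣ →* (FQ M)ˣ :=
  Units.map (diamond M ℚ̄ d : FQ M →* FQ M)

/-- `T_p` on units. -/
def heckeUnits {p : ℕ} [Fact p.Prime] (hp : p.Coprime M) : (FQ M)ˣ →* (FQ M)ˣ :=
  Units.map (heckeFun ℚ̄ hp)

end Fermat.Agent.DeligneSerre.XOne
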