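import Fermat.Agent.DeligneSerre.XOne.Field
import Fermat.Agent.DeligneSerre.XOne.KummerUnits
import Fermat.Agent.Reduction.PsiPrime
import Fermat.Agent.Curve.Fibre
import Mathlib.Data.Nat.Totient

/-!
# The auxiliary level: `F₁(M) → F₁(M')` for `M ∣ M'`

The inclusion of function fields, its degree, and descent of trivial classes when the degree is
prime to `ℓ`.
-/

set_option autoImplicit false

noncomputable section

open UpperHalfPlane hiding I
open AlgebraicCurve CongruenceSubgroup ModularCurve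
open Fermat.Agent.Modular Fermat.Agent.Curve
open scoped MatrixGroups IntermediateField

namespace Fermat.Agent.DeligneSerre.XOne

variable {M M' : ℕ} [NeZero M] [NeZero M'] [hM : Fact (3 ≤ M)] [hM' : Fact (3 ≤ M')]

omit [NeZero M] [NeZero M'] hM hM' in
theorem Gamma1_le_of_dvd (h : M ∣ M') : Gamma1 M' ≤ Gamma1 M := by
  intro g hg
  rw [Gamma1_mem] at hg ⊢
  have key : ∀ x y : ℤ, (x : ZMod M') = (y : ZMod M') → (x : ZMod M) = (y : ZMod M) := by
    intro x y hxy
    have := congrArg (ZMod.castHom h (ZMod M)) hxy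
    rwa [map_intCast, map_intCast] at this
  have h1 := key _ 1 (by push_cast; exact hg.1)
  have h2 := key _ 1 (by push_cast; exact hg.2.1)
  have h3 := key _ 0 (by push_cast; exact hg.2.2)
  push_cast at h1 h2 h3
  exact ⟨h1, h2, h3⟩

omit hM hM' in
theorem holExp_mono (h : M ∣ M') {F : Hol} (hF : F ∈ HolExp M) : F ∈ HolExp M' := by
  obtain ⟨x, hx⟩ := hF
  obtain ⟨c, rfl⟩ := h
  haveI : NeZero c := ⟨fun h0 => NeZero.ne (M * c) (by rw [h0, mul_zero])⟩
  refine ⟨qExpand ℂ c x, ?_⟩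
  have h1 := hx.dilate_period (Nat.cast_ne_zero.mpr (NeZero.ne M)) c
  rwa [← Nat.cast_mul] at h1

omit hM' in
theorem eisRatio_mem_FL_complex (h : M ∣ M') (a : (ZMod M)ˣ) :
    eisRatio ℂ M (a : ZMod M) ∈ FL M' ℂ := by
  have hinv : ∀ g ∈ Gamma1 M', translate g (rMero (a : ZMod M)) = rMero (a : ZMod M) :=
    fun g hg => translate_rMero_of_mem_Gamma1 hM.out (Gamma1_le_of_dvd h hg) _
  obtain ⟨f, hf⟩ := exists_evalMero1_eq M' hinv fun g => exists_bounded_of_mem_fieldRange M' (by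
    rw [translate_rMero]
    exact div_mem
      ⟨algebraMap (HolExp M') _ ⟨_, holExp_mono h (smul_eisTr_mem_holExp M _ _)⟩,
        expIntoMero_algebraMap M' _⟩
      ⟨algebraMap (HolExp M') _ ⟨_, holExp_mono h (smul_eisTr_mem_holExp M _ _)⟩,
        expIntoMero_algebraMap M' _⟩)
  obtain ⟨A, B, x, y, hB, hA, hB', hev, hs⟩ := evalMero1_spec M' f
  have h1 := hasQExp_eisHol M hM.out a
  have h2 := hasQExp_eisHol_one M hM.out
  have hE1 : eisExp ℂ M 1 ≠ 0 := eisExp_ne_zero ℂ M isUnit_one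
  have hH1 : eisHol (1 : ZMod M) ≠ 0 := fun h0 => hE1 (h2.unique (by
    rw [h0]; exact HasQExp.zero 1) one_pos)
  have hy : y ≠ 0 := fun h0 => hB (Subtype.ext (hB'.eq (h0 ▸ HasQExp.zero 1)))
  rw [hf, rMero, div_mul_eq_mul_div, div_eq_iff (algebraMap_hol_ne_zero hH1), ← map_mul,
    ← map_mul] at hev
  have heq := IsFractionRing.injective Hol Mero hev
  have hser : eisExp ℂ M (a : ZMod M) * y = x * eisExp ℂ M 1 := by
    refine (h1.mul hB').unique ?_ one_pos
    rw [show ((eisHol (a : ZMod M)).1 * B.1) = (A.1 * (eisHol (1 : ZMod M)).1) from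
      congrArg Subtype.val heq]
    exact hA.mul h2
  have : eisRatio ℂ M (a : ZMod M) = (f : LaurentSeries ℂ) := by
    rw [eisRatio, div_eq_iff hE1]
    refine mul_right_cancel₀ hy ?_
    rw [hser, ← hs]
    ring
  rw [this]
  exact f.2

theorem field_le (h : M ∣ M') : field M ≤ field M' := by
  refine IntermediateField.adjoin_le_iff.2 ?_
  rintro _ (⟨d, hd0, hd, rfl⟩ | ⟨a, ha, rfl⟩)
  · exact IntermediateField.subset_adjoin _ _
      (Or.inl (mem_divisorExpansionsC ℚ M' (hd.trans h)))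
  · have hC : coeffMap ((Algebra.ofId ℚ ℂ : ℚ →ₐ[ℚ] ℂ) : ℚ →+* ℂ) (eisRatio ℚ M a) ∈
        laurentBaseChange ℂ (field M') := by
      rw [coeffMap_eisRatio]
      exact eisRatio_mem_FL_complex h ha.unit
    exact laurentBaseChange_rat (field M') ▸ EichlerShimura.mem_of_coeffMap_mem _ _ hC

variable (L : Type*) [Field L] [Algebra ℚ L]

theorem FL_le (h : M ∣ M') : FL M L ≤ FL M' L :=
  IntermediateField.adjoin.mono L _ _ (Set.image_mono fun _ hx => field_le h hx)

/-- The inclusion `F₁(M) → F₁(M')`. -/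
def levelUp (h : M ∣ M') : FL M L →ₐ[L] FL M' L :=
  IntermediateField.inclusion (FL_le L h)

variable {L}

@[simp]
theorem coe_levelUp (h : M ∣ M') (x : FL M L) :
    (levelUp L h x : LaurentSeries L) = (x : LaurentSeries L) :=
  IntermediateField.coe_inclusion _ x

omit hM in
theorem coe_jElt_eq : (jElt M L : LaurentSeries L) = coeffEmb L jq := by
  rw [jElt, EichlerShimura.coe_jElt]

theorem levelUp_jElt (h : M ∣ M') : levelUp L h (jElt M L) = jElt M' L := by
  refine Subtype.ext ?_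
  rw [coe_levelUp, coe_jElt_eq, coe_jElt_eq]

theorem levelUp_jdElt (h : M ∣ M') {d : ℕ} [NeZero d] (hd : d ∣ M) :
    levelUp L h (jdElt M L hd) = jdElt M' L (hd.trans h) := by
  refine Subtype.ext ?_
  rw [coe_levelUp, coe_jdElt, coe_jdElt]

/-- The function on `ℍ` does not change. -/
theorem evalMero1_levelUp (h : M ∣ M') (f : FL M ℂ) :
    evalMero1 M' (levelUp ℂ h f) = evalMero1 M f := by
  obtain ⟨a, b, x, y, hb, ha, hb', hev, hs⟩ := evalMero1_spec M f
  obtain ⟨a', b', x', y', hb0', ha', hb'', hev', hs'⟩ := evalMero1_spec M' (levelUp ℂ h f)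
  rw [coe_levelUp] at hs'
  have hser : a' * b = a * b' := by
    refine Subtype.ext ((ha'.mul hb').eq ?_)
    rw [← hs', ← show x * y' = (f : LaurentSeries ℂ) * y' * y by rw [← hs]; ring]
    exact ha.mul hb''
  have h1 := congrArg (algebraMap Hol Mero) hser
  rw [map_mul, map_mul, ← hev', ← hev] at h1
  refine mul_right_cancel₀
    (mul_ne_zero (algebraMap_hol_ne_zero hb0') (algebraMap_hol_ne_zero hb)) ?_
  rw [← mul_assoc, h1, mul_assoc, mul_comm (algebraMap Hol Mero b)]

variable [CharZero L]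

theorem finiteAlong_levelUp (h : M ∣ M') : FiniteAlong L (levelUp L h) := by
  haveI := isFunctionField1_FL M L
  haveI := isFunctionField1_FL M' L
  exact Curve.finiteAlong _

set_option synthInstance.maxHeartbeats 200000 in
set_option maxHeartbeats 800000 in
/-- The degree of `levelUp` is the ratio of the indices. -/
theorem index_mul_finrankAlong_levelUp (h : M ∣ M') :
    (Gamma1 M).index * finrankAlong L (levelUp L h) = (Gamma1 M').index := by
  rw [← two_mul_finrank_FL M L hM.out, ← two_mul_finrank_FL M' L hM'.out, mul_assoc,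
    ← levelUp_jElt (L := L) h]
  congr 1
  letI := algebraAlong (levelUp L h)
  haveI := isScalarTower_along (levelUp L h)
  show Module.finrank L⟮jElt M L⟯ (FL M L) * Module.finrank (FL M L) (FL M' L) = _
  rw [Module.finrank_mul_finrank L⟮jElt M L⟯ (FL M L) (FL M' L)]
  let e : L⟮jElt M L⟯ ≃ₐ[L] L⟮levelUp L h (jElt M L)⟯ :=
    (IntermediateField.equivMap L⟮jElt M L⟯ (levelUp L h)).trans
      (IntermediateField.equivOfEq (by simp [IntermediateField.adjoin_map]))
  refine Algebra.finrank_eq_of_equiv_equiv e.toRingEquiv (RingEquiv.refl _) ?_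
  exact RingHom.ext fun _ => rfl

/-- `[F₁(Mt) : F₁(M)] = t² - 1` for a prime `t` prime to `M`. -/
theorem finrankAlong_levelUp_prime {t : ℕ} (ht : t.Prime) (htM : ¬ t ∣ M) (heq : M' = M * t)
    (h : M ∣ M') : finrankAlong L (levelUp L h) = (t - 1) * (t + 1) := by
  subst heq
  have h1 := index_mul_finrankAlong_levelUp (L := L) h
  rw [← card_units_mul_index M, ← card_units_mul_index (M * t),
    Reduction.index_Gamma0_mul_prime ht htM, Nat.card_eq_fintype_card, Nat.card_eq_fintype_card,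
    ZMod.card_units_eq_totient, ZMod.card_units_eq_totient,
    Nat.totient_mul ((ht.coprime_iff_not_dvd.mpr htM).symm), Nat.totient_prime ht] at h1
  refine Nat.eq_of_mul_eq_mul_left (Nat.mul_pos (Nat.totient_pos.mpr (NeZero.pos M))
    (Nat.pos_of_ne_zero (Subgroup.FiniteIndex.index_ne_zero (H := Gamma0 M)))) ?_
  rw [h1]
  ring

/-- Divisibility of all orders passes to the higher level. -/
theorem dvd_ord_levelUp (h : M ∣ M') {n : ℤ} {f : FL M L}
    (hf : ∀ P : Place L (FL M L), n ∣ P.ord f) (P : Place L (FL M' L)) :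
    n ∣ P.ord (levelUp L h f) := by
  haveI := isFunctionField1_FL M L
  haveI := isFunctionField1_FL M' L
  rw [Place.ord_restrictAlong (levelUp L h) (Curve.isIntegralAlong (levelUp L h)) P f]
  exact Dvd.dvd.mul_left (hf _) _

local notation "ℚ̄" => AlgebraicClosure ℚ

/-- The inclusion on units. -/
def levelUpUnits (h : M ∣ M') : (FQ M)ˣ →* (FQ M')ˣ := Units.map (levelUp ℚ̄ h)

theorem coe_levelUpUnits (h : M ∣ M') (f : (FQ M)ˣ) :
    ((levelUpUnits h f : (FQ M')ˣ) : FQ M') = levelUp ℚ̄ h (f : FQ M) := rfl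

theorem levelUpUnits_mem_divisibleUnits (h : M ∣ M') {ℓ : ℕ} {f : (FQ M)ˣ}
    (hf : f ∈ divisibleUnits M ℓ) : levelUpUnits h f ∈ divisibleUnits M' ℓ :=
  fun P => dvd_ord_levelUp h hf P

set_option synthInstance.maxHeartbeats 200000 in
set_option maxHeartbeats 800000 in
/-- A class which becomes trivial in an extension of degree prime to `ℓ` is trivial. -/
theorem mem_trivialUnits_of_levelUp (h : M ∣ M') {ℓ : ℕ}
    (hd : (finrankAlong ℚ̄ (levelUp ℚ̄ h)).Coprime ℓ) {f : (FQ M)ˣ}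
    (hf : levelUpUnits h f ∈ trivialUnits M' ℓ) : f ∈ trivialUnits M ℓ := by
  letI := algebraAlong (levelUp ℚ̄ h)
  haveI := isScalarTower_along (levelUp ℚ̄ h)
  haveI : Module.Finite (FQ M) (FQ M') := finiteAlong_levelUp h
  haveI : Module.Free (FQ M) (FQ M') := Module.Free.of_divisionRing _ _
  set d := finrankAlong ℚ̄ (levelUp ℚ̄ h) with hddef
  obtain ⟨x, ⟨c, rfl⟩, y, ⟨g, rfl⟩, hxy⟩ := Subgroup.mem_sup.mp hf
  have hgn : Algebra.norm (FQ M) (g : FQ M') ≠ 0 :=
    Algebra.norm_ne_zero_iff.mpr g.ne_zero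
  have hfd : f ^ d ∈ trivialUnits M ℓ := by
    refine Subgroup.mem_sup.mpr ⟨_, ⟨c ^ d, rfl⟩, _, ⟨Units.mk0 _ hgn, rfl⟩, Units.ext ?_⟩
    have hv := congrArg Units.val hxy
    rw [Units.val_mul, coe_levelUpUnits] at hv
    have hn := congrArg (Algebra.norm (FQ M)) hv
    rw [map_mul, show levelUp ℚ̄ h (f : FQ M) = algebraMap (FQ M) (FQ M') (f : FQ M) from rfl,
      Algebra.norm_algebraMap] at hn
    simp only [Units.coe_map, RingHom.toMonoidHom_eq_coe, MonoidHom.coe_coe,
      powMonoidHom_apply, Units.val_mul, Units.val_pow_eq_pow_val, Units.val_mk0, map_pow] at hn ⊢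
    rw [show algebraMap ℚ̄ (FQ M') (c : ℚ̄) = algebraMap (FQ M) (FQ M') (algebraMap ℚ̄ (FQ M) c)
      from IsScalarTower.algebraMap_apply ℚ̄ (FQ M) (FQ M') _, Algebra.norm_algebraMap] at hn
    exact hn
  have hfl : f ^ ℓ ∈ trivialUnits M ℓ := Subgroup.mem_sup_right ⟨f, rfl⟩
  have hgcd := Nat.gcd_eq_gcd_ab d ℓ
  rw [hd.gcd_eq_one, Nat.cast_one] at hgcd
  have e : f = (f ^ d) ^ Nat.gcdA d ℓ * (f ^ ℓ) ^ Nat.gcdB d ℓ := by
    rw [← zpow_natCast f d, ← zpow_natCast f ℓ, ← zpow_mul, ← zpow_mul, ← zpow_add, ← hgcd,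
      zpow_one]
  rw [e]
  exact mul_mem (Subgroup.zpow_mem _ hfd _) (Subgroup.zpow_mem _ hfl _)

end Fermat.Agent.DeligneSerre.XOne

end
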