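import Fermat.Agent.DeligneSerre.XOne.KummerUnits
import Fermat.Agent.BadPrime.GaussField

/-!
# Gauss reductions in the function field of `X₁(M)` over `ℚ̄`

Every element is a quotient of scalable series, every element of `k(j(q^d), e_a / e_1)` is a
reduction, and twisting the coefficients by powers of a unit preserves reductions.
-/

set_option autoImplicit false

noncomputable section

open ModularCurve IntermediateField

namespace Fermat.Agent.DeligneSerre.XOne

open Fermat.Agent.Reduction (IsScalable)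
open Fermat.Agent.BadPrime

local notation "ℚ̄" => AlgebraicClosure ℚ

local instance : Algebra.IsAlgebraic ℚ ℚ̄ := AlgebraicClosure.isAlgebraic ℚ

variable {M : ℕ} [NeZero M] [hM : Fact (3 ≤ M)] {k : Type*} [Field k] {A : ValuationSubring ℚ̄}
  {π : A →+* k}

theorem hasGaussRed_eisRatio (a : ZMod M) :
    HasGaussRed π (eisRatio ℚ̄ M a) (eisRatio k M a) := by
  have h := hasGaussRed_coeffMap (π := π) (rSeries M a A)
  rw [coeffMap_rSeries, coeffMap_rSeries] at h
  rwa [eisRatio_eq_rSeries _ _ hM.out, eisRatio_eq_rSeries _ _ hM.out]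

theorem hasGaussRed_jdElt {d : ℕ} [NeZero d] (hd : d ∣ M) :
    HasGaussRed π (jdElt M ℚ̄ hd : LaurentSeries ℚ̄) (qExpand k d (jqModC k)) := by
  have h := hasGaussRed_coeffMap (π := π) (qExpand A d (jqModC A))
  rw [coeffMap_qExpand, coeffMap_jqModC, coeffMap_qExpand, coeffMap_jqModC] at h
  rwa [coe_jdElt]

theorem isBoundedSeries_coeffMap (y : LaurentSeries A) :
    IsBoundedSeries A (coeffMap A.subtype y) :=
  (IsBoundedSeries.iff_exists _).2 ⟨1, y, one_ne_zero, by simp⟩

theorem isBoundedSeries_algebraMap (c : ℚ̄) :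
    IsBoundedSeries A (algebraMap ℚ̄ (LaurentSeries ℚ̄) c) :=
  isBoundedSeries_of_mem_adjoin (M := 1) (Subalgebra.algebraMap_mem _ c)

theorem isBoundedSeries_of_mem_adjoin_gens {x : LaurentSeries ℚ̄}
    (hx : x ∈ Algebra.adjoin ℚ̄ (gens ℚ̄ M)) : IsBoundedSeries A x := by
  induction hx using Algebra.adjoin_induction with
  | mem v hv =>
    rcases hv with ⟨d, hd0, hd, rfl⟩ | ⟨a, ha, rfl⟩
    · have e := coeffMap_qExpand (f := A.subtype) d (jqModC A)
      rw [coeffMap_jqModC] at e
      rw [← e]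
      exact isBoundedSeries_coeffMap _
    · rw [eisRatio_eq_rSeries _ _ hM.out, ← coeffMap_rSeries A.subtype]
      exact isBoundedSeries_coeffMap _
  | algebraMap c => exact isBoundedSeries_algebraMap c
  | add u v _ _ hu hv => exact hu.add hv
  | mul u v _ _ hu hv => exact hu.mul hv

theorem mem_FQ_of_mem_adjoin_gens {x : LaurentSeries ℚ̄}
    (hx : x ∈ Algebra.adjoin ℚ̄ (gens ℚ̄ M)) : x ∈ FQ M := by
  show x ∈ FL M ℚ̄
  rw [FL_eq_adjoin M ℚ̄]
  exact algebra_adjoin_le_adjoin ℚ̄ _ hx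

theorem isScalable_of_mem_adjoin_gens (π : A →+* k) {x : LaurentSeries ℚ̄}
    (hx : x ∈ Algebra.adjoin ℚ̄ (gens ℚ̄ M)) (hx0 : x ≠ 0) : IsScalable A π x := by
  obtain ⟨c, hc, hint⟩ := isBoundedSeries_of_mem_adjoin_gens (A := A) hx
  have hc' : (c : ℚ̄) ≠ 0 := fun h => hc (Subtype.ext h)
  obtain ⟨e, he, y, hy, hyπ⟩ := Reduction.isScalable_of_finiteCoeff (π := π)
    (x := HahnSeries.C (c : ℚ̄) * x)
    (Reduction.finiteCoeff_of_mem_laurentBaseChange (field M) (by
      refine mul_mem ?_ (mem_FQ_of_mem_adjoin_gens hx)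
      rw [HahnSeries.C_apply, ← algebraMap_laurentSeries_eq_single]
      exact IntermediateField.algebraMap_mem _ _))
    (fun n => by rw [Reduction.coeff_C_mul]; exact hint n)
    (mul_ne_zero (fun h => hc' (HahnSeries.C_injective (h.trans (map_zero _).symm))) hx0)
  exact ⟨e * c, mul_ne_zero he hc', y, by rw [hy, map_mul, mul_assoc], hyπ⟩

/-- Every element of the function field of `X₁(M)` is a quotient of scalable series. -/
theorem exists_scalable_quotient_FQ (π : A →+* k) :
    ∀ f ∈ FQ M, f ≠ 0 → ∃ u v : LaurentSeries ℚ̄, IsScalable A π u ∧ IsScalable A π v ∧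
      f * v = u := by
  intro f hf hf0
  have hgen : (FQ M : IntermediateField ℚ̄ (LaurentSeries ℚ̄)) = adjoin ℚ̄ (gens ℚ̄ M) :=
    FL_eq_adjoin M ℚ̄
  rw [hgen] at hf
  obtain ⟨r, hr, s, hs, rfl⟩ := IntermediateField.mem_adjoin_iff_div.1 hf
  obtain ⟨hr0, hs0⟩ : r ≠ 0 ∧ s ≠ 0 := by
    rwa [Ne, div_eq_zero_iff, not_or] at hf0
  exact ⟨r, s, isScalable_of_mem_adjoin_gens π hr hr0, isScalable_of_mem_adjoin_gens π hs hs0,
    div_mul_cancel₀ r hs0⟩

/-- Every element of `k(j(q^d), e_a / e_1)` is a reduction. -/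
theorem exists_hasGaussRed_of_mem_adjoin_gens (hπ : Function.Surjective π) {g : LaurentSeries k}
    (hg : g ∈ adjoin k (gens k M)) :
    ∃ f : FQ M, HasGaussRed π (f : LaurentSeries ℚ̄) g := by
  induction hg using IntermediateField.adjoin_induction with
  | mem x hx =>
    rcases hx with ⟨d, hd, hdM, rfl⟩ | ⟨a, ha, rfl⟩
    · exact ⟨jdElt M ℚ̄ hdM, hasGaussRed_jdElt hdM⟩
    · exact ⟨rElt M ℚ̄ ha.unit, by rw [coe_rElt]; exact hasGaussRed_eisRatio a⟩
  | algebraMap c =>
    obtain ⟨a, rfl⟩ := hπ c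
    refine ⟨algebraMap ℚ̄ _ (a : ℚ̄), ?_⟩
    show HasGaussRed π (algebraMap ℚ̄ (LaurentSeries ℚ̄) (a : ℚ̄)) _
    rw [algebraMap_laurentSeries_eq_single, algebraMap_laurentSeries_eq_single]
    simpa [HahnSeries.C_apply] using hasGaussRed_C (π := π) a
  | add x y _ _ hx hy =>
    obtain ⟨f, hf⟩ := hx
    obtain ⟨f', hf'⟩ := hy
    exact ⟨f + f', by simpa using hf.add hf'⟩
  | inv x _ hx =>
    rcases eq_or_ne x 0 with rfl | hx0
    · exact ⟨0, by simpa using hasGaussRed_zero⟩
    obtain ⟨f, hf⟩ := hx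
    exact ⟨f⁻¹, by rw [IntermediateField.coe_inv]; exact hf.inv hx0⟩
  | mul x y _ _ hx hy =>
    obtain ⟨f, hf⟩ := hx
    obtain ⟨f', hf'⟩ := hy
    exact ⟨f * f', by simpa using hf.mul hf'⟩

section Twist

/-- Multiply the `n`-th coefficient by `c ^ n`. -/
def twistCoeff {R : Type*} [CommRing R] (c : Rˣ) : LaurentSeries R →+* LaurentSeries R where
  toFun x := ⟨fun n => ((c ^ n : Rˣ) : R) * x.coeff n,
    x.isPWO_support.mono fun n hn => by
      simp only [Function.mem_support] at hn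
      exact right_ne_zero_of_mul hn⟩
  map_one' := by
    ext n
    rcases eq_or_ne n 0 with rfl | hn <;> simp [HahnSeries.coeff_one, *]
  map_zero' := by ext n; simp
  map_add' x y := by ext n; simp [mul_add]
  map_mul' x y := by
    ext n
    simp only [HahnSeries.coeff_mul, Finset.mul_sum]
    refine Finset.sum_congr ?_ fun ij hij => ?_
    · ext ij
      simp only [Finset.mem_antidiagonal, HahnSeries.mem_support, ne_eq,
        Units.mul_right_eq_zero]
    · obtain ⟨-, -, hn⟩ := Finset.mem_antidiagonal.1 hij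
      rw [← hn, zpow_add, Units.val_mul]
      ring

@[simp]
theorem twistCoeff_coeff {R : Type*} [CommRing R] (c : Rˣ) (x : LaurentSeries R) (n : ℤ) :
    (twistCoeff c x).coeff n = ((c ^ n : Rˣ) : R) * x.coeff n := rfl

theorem coeffMap_twistCoeff {R S : Type*} [CommRing R] [CommRing S] (f : R →+* S) (c : Rˣ)
    (x : LaurentSeries R) :
    coeffMap f (twistCoeff c x) = twistCoeff (Units.map (f : R →* S) c) (coeffMap f x) := by
  ext n
  rw [coeffMap_coeff, twistCoeff_coeff, twistCoeff_coeff, coeffMap_coeff, map_mul]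
  congr 1
  rw [← map_zpow]
  rfl

theorem twistCoeff_injective {R : Type*} [CommRing R] (c : Rˣ) :
    Function.Injective (twistCoeff c) := fun x y h => by
  ext n
  have := congrArg (fun z : LaurentSeries R => z.coeff n) h
  simpa using this

omit [NeZero M] hM in
/-- Twisting by a unit preserves reductions. -/
theorem hasGaussRed_twistCoeff (c : Aˣ) {f : LaurentSeries ℚ̄} {g : LaurentSeries k}
    (h : HasGaussRed π f g) :
    HasGaussRed π (twistCoeff (Units.map (A.subtype : A →* ℚ̄) c) f)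
      (twistCoeff (Units.map (π : A →* k) c) g) := by
  obtain ⟨a, b, hb, e₁, e₂⟩ := h
  refine ⟨twistCoeff c a, twistCoeff c b, ?_, ?_, ?_⟩
  · rw [coeffMap_twistCoeff]
    exact (map_ne_zero_iff _ (twistCoeff_injective _)).2 hb
  · rw [coeffMap_twistCoeff, coeffMap_twistCoeff, ← map_mul, e₁]
  · rw [coeffMap_twistCoeff, coeffMap_twistCoeff, ← map_mul, e₂]

end Twist

end Fermat.Agent.DeligneSerre.XOne
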