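import Fermat.Agent.DeligneSerre.XOne.Field
import Fermat.Agent.Reduction.Ramification

/-!
# Ramification of `j` on `X₁(M)` in characteristic zero

`e ≤ 3` above `0`, `e ≤ 2` above `1728` and `e = 1` elsewhere, via the cosets of `±Γ₁(M)`.
-/

set_option autoImplicit false
set_option linter.unusedSectionVars false

noncomputable section

open UpperHalfPlane hiding I
open Complex ModularForm EisensteinSeries CongruenceSubgroup ModularGroup AlgebraicCurve
open Fermat.Agent.Curve Fermat.Agent.Modular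
open scoped MatrixGroups IntermediateField

namespace Fermat.Agent.DeligneSerre.XOne

/-- `±Γ₁(M)`. -/
def signedGamma1 (M : ℕ) : Subgroup SL(2, ℤ) where
  carrier := {g | g ∈ Gamma1 M ∨ -g ∈ Gamma1 M}
  one_mem' := Or.inl (one_mem _)
  mul_mem' := by
    rintro a b (ha | ha) (hb | hb)
    · exact Or.inl (mul_mem ha hb)
    · exact Or.inr (by rw [← mul_neg]; exact mul_mem ha hb)
    · exact Or.inr (by rw [← neg_mul]; exact mul_mem ha hb)
    · exact Or.inl (by rw [← neg_mul_neg]; exact mul_mem ha hb)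
  inv_mem' := by
    rintro a (ha | ha)
    · exact Or.inl (inv_mem ha)
    · exact Or.inr (by rw [← inv_neg]; exact inv_mem ha)

theorem Gamma1_le_signedGamma1 (M : ℕ) : Gamma1 M ≤ signedGamma1 M := fun _ h => Or.inl h

theorem neg_one_mem_signedGamma1 (M : ℕ) : (-1 : SL(2, ℤ)) ∈ signedGamma1 M :=
  Or.inr (by rw [neg_neg]; exact one_mem _)

instance signedGamma1_finiteIndex (M : ℕ) [NeZero M] : (signedGamma1 M).FiniteIndex :=
  Subgroup.finiteIndex_of_le (Gamma1_le_signedGamma1 M)

theorem two_mul_index_signedGamma1 (M : ℕ) [NeZero M] (hM : 3 ≤ M) :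
    2 * (signedGamma1 M).index = (Gamma1 M).index := by
  rw [← Subgroup.relIndex_mul_index (Gamma1_le_signedGamma1 M)]
  congr 1
  symm
  rw [Subgroup.relIndex_eq_two_iff]
  refine ⟨-1, neg_one_mem_signedGamma1 M, fun b hb => ?_⟩
  rw [mul_neg, mul_one]
  have hno : ¬ (b ∈ Gamma1 M ∧ -b ∈ Gamma1 M) := by
    rintro ⟨h1, h2⟩
    have h3 := ((Gamma1_mem M b).1 h1).2.1
    have h4 := ((Gamma1_mem M (-b)).1 h2).2.1
    simp only [Matrix.SpecialLinearGroup.coe_neg, Matrix.neg_apply, Int.cast_neg, h3] at h4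
    have h5 : ((2 : ℕ) : ZMod M) = 0 := by push_cast; linear_combination -h4
    have := Nat.le_of_dvd two_pos ((ZMod.natCast_eq_zero_iff _ _).1 h5)
    omega
  rcases hb with h | h
  · exact Or.inr ⟨h, fun h' => hno ⟨h, h'⟩⟩
  · exact Or.inl ⟨h, fun h' => hno ⟨h', h⟩⟩

section Orbits

variable (M : ℕ)

/-- The cosets of `±Γ₁(M)`. -/
abbrev SignedCoset : Type := SL(2, ℤ) ⧸ signedGamma1 M

/-- The orbit of a coset under the stabiliser of `z`. -/
def pmClass (z : ℍ) (q : SignedCoset M) :
    Quotient (MulAction.orbitRel (MulAction.stabilizer SL(2, ℤ) z) (SignedCoset M)) :=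
  Quotient.mk'' q

theorem pmClass_surjective (z : ℍ) : Function.Surjective (pmClass M z) :=
  Quotient.mk''_surjective

theorem pmClass_eq_iff (z : ℍ) (q q' : SignedCoset M) :
    pmClass M z q = pmClass M z q' ↔ ∃ γ : SL(2, ℤ), γ • z = z ∧ γ • q' = q := by
  rw [pmClass, pmClass, Quotient.eq'', MulAction.orbitRel_apply]
  constructor
  · rintro ⟨γ, rfl⟩; exact ⟨γ, γ.2, rfl⟩
  · rintro ⟨γ, hγ, rfl⟩; exact ⟨⟨γ, hγ⟩, rfl⟩

variable {M}

theorem neg_one_smul_pmCoset (q : SignedCoset M) : (-1 : SL(2, ℤ)) • q = q := by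
  induction q using QuotientGroup.induction_on with
  | H g =>
    rw [MulAction.Quotient.smul_coe, smul_eq_mul, QuotientGroup.eq,
      show (-1 * g)⁻¹ * g = -1 by rw [mul_inv_rev, inv_neg, inv_one, mul_neg, mul_one, neg_mul,
        inv_mul_cancel]]
    exact neg_one_mem_signedGamma1 M

theorem neg_smul_pmCoset (g : SL(2, ℤ)) (q : SignedCoset M) : (-g) • q = g • q := by
  rw [show -g = -1 * g by simp, mul_smul, neg_one_smul_pmCoset]

theorem pmClass_pointRho_iff (q q' : SignedCoset M) :
    pmClass M pointRho q' = pmClass M pointRho q ↔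
      q' ∈ ({q, (S * T) • q, (S * T) ^ 2 • q} : Set (SignedCoset M)) := by
  rw [pmClass_eq_iff]
  simp only [Set.mem_insert_iff, Set.mem_singleton_iff]
  constructor
  · rintro ⟨γ, hγ, rfl⟩
    rcases (stabilizer_pointRho_iff γ).1 hγ with rfl | rfl | rfl | rfl | rfl | rfl <;>
      simp [neg_smul_pmCoset]
  · rintro (rfl | rfl | rfl)
    · exact ⟨1, one_smul _ _, one_smul _ _⟩
    · exact ⟨S * T, (stabilizer_pointRho_iff _).2 (by tauto), rfl⟩
    · exact ⟨(S * T) ^ 2, (stabilizer_pointRho_iff _).2 (by tauto), rfl⟩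

theorem natCard_pmClass_pointRho (q : SignedCoset M) :
    Nat.card {q' // pmClass M pointRho q' = pmClass M pointRho q} ≤ 3 ∧
      ((S * T) • q ≠ q →
        Nat.card {q' // pmClass M pointRho q' = pmClass M pointRho q} = 3) := by
  classical
  have e : Nat.card {q' // pmClass M pointRho q' = pmClass M pointRho q} =
      ({q, (S * T) • q, (S * T) ^ 2 • q} : Finset (SignedCoset M)).card := by
    rw [← Nat.card_eq_finsetCard]
    exact Nat.card_congr (Equiv.subtypeEquivRight fun q' => by rw [pmClass_pointRho_iff]; simp)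
  rw [e]
  refine ⟨Finset.card_le_three, fun h => ?_⟩
  have h3 : ∀ x : SignedCoset M, (S * T) ^ 3 • x = x := fun x => by
    rw [show (S * T) ^ 3 = (-1 : SL(2, ℤ)) by decide +kernel, neg_one_smul_pmCoset]
  rw [Finset.card_eq_three]
  refine ⟨q, (S * T) • q, (S * T) ^ 2 • q, h.symm, fun e => h ?_, fun e => h ?_, rfl⟩
  · calc (S * T) • q = (S * T) • ((S * T) ^ 2 • q) := by rw [← e]
      _ = q := by rw [← mul_smul, ← pow_succ', h3]
  · rw [pow_two, mul_smul (S * T) (S * T) q] at e
    exact (MulAction.injective (S * T) e).symm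

theorem pmClass_I_iff (q q' : SignedCoset M) :
    pmClass M UpperHalfPlane.I q' = pmClass M UpperHalfPlane.I q ↔
      q' ∈ ({q, S • q} : Set (SignedCoset M)) := by
  rw [pmClass_eq_iff]
  simp only [Set.mem_insert_iff, Set.mem_singleton_iff]
  constructor
  · rintro ⟨γ, hγ, rfl⟩
    rcases (stabilizer_I_iff γ).1 hγ with rfl | rfl | rfl | rfl <;> simp [neg_smul_pmCoset]
  · rintro (rfl | rfl)
    · exact ⟨1, one_smul _ _, one_smul _ _⟩
    · exact ⟨S, (stabilizer_I_iff S).2 (by tauto), rfl⟩

theorem natCard_pmClass_I (q : SignedCoset M) :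
    Nat.card {q' // pmClass M UpperHalfPlane.I q' = pmClass M UpperHalfPlane.I q} ≤ 2 ∧
      (S • q ≠ q →
        Nat.card {q' // pmClass M UpperHalfPlane.I q' = pmClass M UpperHalfPlane.I q} = 2) := by
  classical
  have e : Nat.card {q' // pmClass M UpperHalfPlane.I q' = pmClass M UpperHalfPlane.I q} =
      ({q, S • q} : Finset (SignedCoset M)).card := by
    rw [← Nat.card_eq_finsetCard]
    exact Nat.card_congr (Equiv.subtypeEquivRight fun q' => by rw [pmClass_I_iff]; simp)
  rw [e]
  exact ⟨Finset.card_le_two, fun h => Finset.card_pair h.symm⟩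

theorem subsingleton_pmClass_generic {z : ℍ} (h4 : E₄ z ≠ 0) (h6 : E₆ z ≠ 0) (q : SignedCoset M) :
    Subsingleton {q' // pmClass M z q' = pmClass M z q} := by
  refine subsingleton_of_forall_eq ⟨q, rfl⟩ fun x => Subtype.ext ?_
  obtain ⟨γ, hγ, e⟩ := (pmClass_eq_iff M z x.1 q).1 x.2
  rcases (stabilizer_generic h4 h6 γ).1 hγ with rfl | rfl <;>
    simp [neg_one_smul_pmCoset] at e ⊢ <;> exact e.symm

end Orbits

variable (M : ℕ) [NeZero M] [hM3 : Fact (3 ≤ M)] {L : Type*} [Field L] [Algebra ℚ L]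
  [IsAlgClosed L] [CharZero L] (ι : L →ₐ[ℚ] ℂ)

/-- Evaluation of `FL M L` through an embedding of the constants. -/
def evalOver : FL M L →+* Mero :=
  (evalMero1 M).toRingHom.comp (EichlerShimura.bcHom (field M) ι)

theorem evalOver_algebraMap (a : L) :
    evalOver M ι (algebraMap L (FL M L) a) = algebraMap ℂ Mero (ι a) := by
  show evalMero1 M (EichlerShimura.bcHom (field M) ι (algebraMap L _ a)) = _
  rw [EichlerShimura.bcHom_algebraMap, AlgHom.commutes]

theorem bcHom_rElt (a : (ZMod M)ˣ) :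
    EichlerShimura.bcHom (field M) ι (rElt M L a) = rElt M ℂ a := by
  refine Subtype.ext ?_
  rw [EichlerShimura.coe_bcHom, coe_rElt, coe_rElt, coeffMap_eisRatio]

theorem bcHom_jdElt {d : ℕ} [NeZero d] (hd : d ∣ M) :
    EichlerShimura.bcHom (field M) ι (jdElt M L hd) = jdElt M ℂ hd := by
  refine Subtype.ext ?_
  rw [EichlerShimura.coe_bcHom, coe_jdElt, coe_jdElt, ModularCurve.coeffMap_qExpand,
    ModularCurve.coeffMap_jqModC]

theorem evalOver_jElt : evalOver M ι (jElt M L) = algebraMap Hol Mero kleinJHol := by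
  show evalMero1 M (EichlerShimura.bcHom (field M) ι (jElt M L)) = _
  rw [← jdElt_one, bcHom_jdElt, jdElt_one, evalMero1_jElt, kleinJHol_eq]

theorem inv_mul_mem_signedGamma1 {g h : SL(2, ℤ)}
    (hgh : ∀ f : FL M L, translate g (evalOver M ι f) = translate h (evalOver M ι f)) :
    g⁻¹ * h ∈ signedGamma1 M := by
  refine mem_of_translate_eq M fun F => ?_
  refine mem_of_gens_mem M ℂ (RingHom.eqLocusField
    ((translate (g⁻¹ * h)).toRingHom.comp (evalMero1 M).toRingHom) (evalMero1 M).toRingHom)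
    (fun c => ?_) (fun d _ hd => ?_) (fun a => ?_) F
  · show translate (g⁻¹ * h) (evalMero1 M (algebraMap ℂ _ c)) = evalMero1 M (algebraMap ℂ _ c)
    rw [AlgHom.commutes, translate_const]
  · show translate (g⁻¹ * h) (evalMero1 M (jdElt M ℂ hd)) = evalMero1 M (jdElt M ℂ hd)
    rw [translate_mul, ← bcHom_jdElt M ι hd]
    show translate g⁻¹ (translate h (evalOver M ι _)) = evalOver M ι _
    rw [← hgh, ← translate_mul, inv_mul_cancel, map_one]
    rfl
  · show translate (g⁻¹ * h) (evalMero1 M (rElt M ℂ a)) = evalMero1 M (rElt M ℂ a)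
    rw [translate_mul, ← bcHom_rElt M ι a]
    show translate g⁻¹ (translate h (evalOver M ι _)) = evalOver M ι _
    rw [← hgh, ← translate_mul, inv_mul_cancel, map_one]
    rfl

theorem translate_evalOver {g : SL(2, ℤ)} (hg : g ∈ signedGamma1 M) (f : FL M L) :
    translate g (evalOver M ι f) = evalOver M ι f := by
  rcases hg with h | h
  · exact translate_evalMero1 M h _
  · rw [show g = -1 * -g by rw [neg_mul_neg, one_mul], translate_mul]
    exact (congrArg _ (translate_evalMero1 M h _)).trans (mero_translate_neg_one _)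

theorem finrank_FL_eq_index :
    Module.finrank L⟮jElt M L⟯ (FL M L) = (signedGamma1 M).index :=
  Nat.eq_of_mul_eq_mul_left two_pos
    ((two_mul_finrank_FL M L hM3.out).trans (two_mul_index_signedGamma1 M hM3.out).symm)

include ι in
/-- The ramification index above `j = c` is the size of a stabiliser orbit. -/
theorem exists_ord_eq_natCard_pmClass {c : L} {z : ℍ} (hz : kleinJ z = ι c)
    (hdiv : ∀ (q : SignedCoset M) (φ : Mero), φ ≠ 0 →
      (∀ γ : SL(2, ℤ), γ • q = q → translate γ φ = φ) →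
      (jDegree z : ℤ) ∣ (Nat.card {q' // pmClass M z q' = pmClass M z q} : ℤ) * ordPt z φ)
    (P : Place L (FL M L)) (hP : 0 < P.ord (jElt M L - algebraMap L (FL M L) c)) :
    ∃ q : SignedCoset M, P.ord (jElt M L - algebraMap L (FL M L) c) =
      (Nat.card {q' // pmClass M z q' = pmClass M z q} : ℤ) := by
  classical
  have := isFunctionField1_FL M L
  let _ : Fintype (SignedCoset M) := Fintype.ofFinite _
  let _ : Fintype (Quotient (MulAction.orbitRel (MulAction.stabilizer SL(2, ℤ) z) (SignedCoset M))) :=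
    Fintype.ofFinite _
  set ev := evalOver M ι
  let σ : SignedCoset M → FL M L →+* Mero := fun q => (translate q.out).toRingHom.comp ev
  have hσ : ∀ (g : SL(2, ℤ)) (f : FL M L), σ (g : SignedCoset M) f = translate g (ev f) := by
    intro g f
    obtain ⟨γ, hγ⟩ := QuotientGroup.mk_out_eq_mul (signedGamma1 M) g
    show translate _ (ev f) = _
    rw [hγ, translate_mul, translate_evalOver M ι γ.2]
  have hσm : ∀ (γ : SL(2, ℤ)) q f, translate γ (σ q f) = σ (γ • q) f := by
    intro γ q f
    induction q using QuotientGroup.induction_on with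
    | H g => rw [MulAction.Quotient.smul_coe, smul_eq_mul, hσ, hσ, translate_mul]
  set y := jElt M L - algebraMap L (FL M L) c with hy
  have hyt : Transcendental L y := fun h => transcendental_jElt M L (by
    have := h.add (isAlgebraic_algebraMap c)
    simpa [hy] using this)
  have hevy : ev y = algebraMap Hol Mero (kleinJHol - algebraMap ℂ Hol (kleinJ z)) := by
    rw [hy, map_sub, map_sub, evalOver_jElt, evalOver_algebraMap, hz,
      ← IsScalarTower.algebraMap_apply]
  have hσy : ∀ q, σ q y = ev y := by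
    intro q
    show translate _ (ev y) = ev y
    rw [hevy, map_sub, map_sub, translate_kleinJHol, ← IsScalarTower.algebraMap_apply, translate_const]
  obtain ⟨Φ, hΦ, -⟩ := exists_equiv_places_above (addOrd z) (pmClass M z)
    (pmClass_surjective M z) y hyt σ
    (fun q q' h => by
      induction q using QuotientGroup.induction_on with
      | H g =>
        induction q' using QuotientGroup.induction_on with
        | H g' =>
          rw [QuotientGroup.eq]
          exact inv_mul_mem_signedGamma1 M ι fun f => by rw [← hσ, ← hσ, h])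
    (by rw [← Nat.card_eq_fintype_card, hy, Modular.adjoin_sub_algebraMap (jElt M L) c,
          finrank_FL_eq_index]
        rfl)
    (fun q q' a => by
      show translate _ (ev _) = translate _ (ev _)
      rw [evalOver_algebraMap, translate_const, translate_const])
    (fun q q' => by rw [hσy, hσy])
    (fun q a ha => by
      show addOrd z (translate _ (ev _)) = 0
      rw [evalOver_algebraMap, translate_const]
      exact addOrd_const z (by simpa using ha))
    (jDegree z : ℤ) (by unfold jDegree; split_ifs <;> norm_num)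
    (fun q => by
      rw [hσy, hevy, addOrd_apply _ (fun h0 => kleinJHol_sub_const_ne_zero (kleinJ z)
          (IsFractionRing.injective Hol Mero (h0.trans (map_zero _).symm))),
        ordPt_algebraMap (kleinJHol_sub_const_ne_zero _), holOrd_kleinJHol_sub])
    (fun q q' h f => by
      obtain ⟨γ, hγ, rfl⟩ := (pmClass_eq_iff M z q q').1 h
      rw [← hσm, addOrd_translate, inv_smul_eq_iff.mpr hγ.symm])
    (fun q f m h => by
      obtain ⟨hne, rfl⟩ := ordPt_eq_of_addOrd h
      exact hdiv q _ hne fun γ hγ => by rw [hσm, hγ])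
  obtain ⟨o, ho⟩ := Φ.surjective ⟨P, hP⟩
  obtain ⟨q, rfl⟩ := pmClass_surjective M z o
  refine ⟨q, ?_⟩
  have h := hΦ (pmClass M z q)
  rw [ho] at h
  exact h

include ι

theorem jElt_ord_le_three (P : Place L (FL M L)) (h : 0 < P.ord (jElt M L)) :
    P.ord (jElt M L) ≤ 3 := by
  have hz : kleinJ pointRho = ι 0 := by rw [map_zero, kleinJ_eq_zero_iff]; exact E4_pointRho
  obtain ⟨q, hq⟩ := exists_ord_eq_natCard_pmClass M ι hz (fun q φ hφ hfix => by
      rw [jDegree_pointRho]
      by_cases hq : (S * T) • q = q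
      · exact Dvd.dvd.mul_left (three_dvd_ordPt_pointRho hφ (hfix _ hq)) _
      · rw [(natCard_pmClass_pointRho q).2 hq]
        exact dvd_mul_right _ _) P (by simpa using h)
  rw [map_zero, sub_zero] at hq
  rw [hq]
  exact_mod_cast (natCard_pmClass_pointRho q).1

theorem jElt_ord_le_two (P : Place L (FL M L))
    (h : 0 < P.ord (jElt M L - algebraMap L (FL M L) 1728)) :
    P.ord (jElt M L - algebraMap L (FL M L) 1728) ≤ 2 := by
  have hz : kleinJ UpperHalfPlane.I = ι 1728 := by
    rw [map_ofNat, kleinJ_eq_1728_iff]; exact E6_I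
  obtain ⟨q, hq⟩ := exists_ord_eq_natCard_pmClass M ι hz (fun q φ hφ hfix => by
      rw [jDegree_I]
      by_cases hq : S • q = q
      · exact Dvd.dvd.mul_left (two_dvd_ordPt_I hφ (hfix _ hq)) _
      · rw [(natCard_pmClass_I q).2 hq]
        exact dvd_mul_right _ _) P h
  rw [hq]
  exact_mod_cast (natCard_pmClass_I q).1

theorem jElt_ord_eq_one {c : L} (h0 : c ≠ 0) (h1 : c ≠ 1728) (P : Place L (FL M L))
    (h : 0 < P.ord (jElt M L - algebraMap L (FL M L) c)) :
    P.ord (jElt M L - algebraMap L (FL M L) c) = 1 := by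
  obtain ⟨z, hz⟩ := kleinJ_surjective (ι c)
  have hj0 : kleinJ z ≠ 0 := by rw [hz]; simpa using h0
  have hj1 : kleinJ z ≠ 1728 := by
    rw [hz, ← map_ofNat ι 1728]; exact fun h => h1 (ι.toRingHom.injective h)
  obtain ⟨q, hq⟩ := exists_ord_eq_natCard_pmClass M ι hz
    (fun q φ _ _ => by rw [jDegree_eq_one hj0 hj1]; exact one_dvd _) P h
  rw [hq]
  have := subsingleton_pmClass_generic (mt (kleinJ_eq_zero_iff z).2 hj0)
    (mt (kleinJ_eq_1728_iff z).2 hj1) q
  have h2 := Finite.card_le_one_iff_subsingleton.mpr this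
  omega

omit ι

/-- The three shapes over `ℚ̄`. -/
theorem jElt_ramification_Qbar :
    (∀ P : Place (AlgebraicClosure ℚ) (FL M (AlgebraicClosure ℚ)),
      0 < P.ord (jElt M (AlgebraicClosure ℚ)) → P.ord (jElt M (AlgebraicClosure ℚ)) ≤ 3) ∧
    (∀ P : Place (AlgebraicClosure ℚ) (FL M (AlgebraicClosure ℚ)),
      0 < P.ord (jElt M (AlgebraicClosure ℚ) - algebraMap (AlgebraicClosure ℚ) (FL M (AlgebraicClosure ℚ)) 1728) →
        P.ord (jElt M (AlgebraicClosure ℚ) - algebraMap (AlgebraicClosure ℚ) (FL M (AlgebraicClosure ℚ)) 1728) ≤ 2) ∧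
    ∀ c : AlgebraicClosure ℚ, c ≠ 0 → c ≠ 1728 →
      ∀ P : Place (AlgebraicClosure ℚ) (FL M (AlgebraicClosure ℚ)),
      0 < P.ord (jElt M (AlgebraicClosure ℚ) - algebraMap _ (FL M (AlgebraicClosure ℚ)) c) →
        P.ord (jElt M (AlgebraicClosure ℚ) - algebraMap _ (FL M (AlgebraicClosure ℚ)) c) = 1 := by
  have : Algebra.IsAlgebraic ℚ (AlgebraicClosure ℚ) := AlgebraicClosure.isAlgebraic ℚ
  have hι := (IsAlgClosed.lift (R := ℚ) (S := AlgebraicClosure ℚ) (M := ℂ) :
    AlgebraicClosure ℚ →ₐ[ℚ] ℂ)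
  exact ⟨jElt_ord_le_three M hι, jElt_ord_le_two M hι, fun c h0 h1 => jElt_ord_eq_one M hι h0 h1⟩

end Fermat.Agent.DeligneSerre.XOne
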