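import Fermat.Agent.DeligneSerre.XOne.GaussData
import Fermat.Agent.DeligneSerre.XOne.Ramification
import Fermat.Agent.Reduction.Genus
import Fermat.Agent.Reduction.ModularData

/-!
# The genus of `X₁(M)` is preserved by reduction, given the bound on the different
-/

set_option autoImplicit false
set_option synthInstance.maxHeartbeats 400000

noncomputable section

open ModularCurve IntermediateField AlgebraicCurve
open IsLocalRing (ResidueField)
open Fermat.Agent.Curve (IsFunctionField1)

namespace Fermat.Agent.DeligneSerre.XOne

local notation "ℚ̄" => AlgebraicClosure ℚ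

variable {M : ℕ} [NeZero M] [Fact (3 ≤ M)] {p : ℕ} [Fact p.Prime]

/-- `g(X₁(M)) ≤ g` of the reduction once the different of `j` is bounded. -/
theorem genusFF_le_of_differentBound (hpM : p.Coprime M) (A : ValuationSubring ℚ̄)
    (hA : A.LiesOverPrime p)
    (hsep : Algebra.IsSeparable (ResidueField A)⟮jResElt (ResidueField A) M⟯
      (FRes (ResidueField A) M))
    (hb : Reduction.DifferentBound (k := ResidueField A) (jResElt (ResidueField A) M)) :
    genusFF ℚ̄ (FQ M) ≤ genusFF (ResidueField A) (FRes (ResidueField A) M) := by
  have : IsAlgClosed (ResidueField A) := EC.isAlgClosed_residueField A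
  have : IsFunctionField1 ℚ̄ (FQ M) := isFunctionField1_FL M ℚ̄
  have : IsFunctionField1 (ResidueField A) (FRes (ResidueField A) M) :=
    isFunctionField1_FRes_of_coprime M hpM A hA
  obtain ⟨h0, h1728, hram⟩ := jElt_ramification_Qbar M
  exact (gaussDataXOne hpM A hA).genusFF_le_of_ramification (j := jElt M ℚ̄)
    (jb := jResElt (ResidueField A) M) (jElt_jResElt_mem_gaussRel (M := M) A) (transcendental_jqRes M _)
    (finrank_jResElt hpM A hA).2 hsep h0 h1728 hram hb

end Fermat.Agent.DeligneSerre.XOne
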