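import Fermat.Agent.DeligneSerre.XOne.KummerUnits
import Fermat.Agent.Reduction.PlaceReduction
import Fermat.Agent.Reduction.TorsionCore

/-!
# Injectivity of a smooth reduction on the Kummer group

If the reduction of a function is a constant times an `ℓ`-th power, the divisor `(f) / ℓ` reduces
to a principal divisor, hence is principal.
-/

set_option autoImplicit false
set_option synthInstance.maxHeartbeats 400000

noncomputable section

open AlgebraicCurve ModularCurve
open Fermat.Agent.Curve (IsFunctionField1)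

namespace Fermat.Agent.DeligneSerre.XOne

local notation "ℚ̄" => AlgebraicClosure ℚ

variable {M ℓ : ℕ} [NeZero M]

/-- A divisible unit whose reduction is a constant times an `ℓ`-th power is trivial, when the
reduction preserves the genus. -/
theorem mem_trivialUnits_of_gaussData {k : Type*} [Field k] [IsAlgClosed k] {Fb : Type*} [Field Fb]
    [Algebra k Fb] [IsFunctionField1 k Fb] {A : ValuationSubring ℚ̄} {π : A →+* k}
    (G : Reduction.GaussData π (FQ M) Fb) (hgenus : genusFF ℚ̄ (FQ M) ≤ genusFF k Fb)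
    (hℓ : (ℓ : k) ≠ 0) {f : (FQ M)ˣ} (hf : f ∈ divisibleUnits M ℓ) {fb ab : Fb} {c : k}
    (hgraph : ((f : FQ M), fb) ∈ G.graph) (hfb : fb ≠ 0) (heq : fb = algebraMap k Fb c * ab ^ ℓ) :
    f ∈ trivialUnits M ℓ := by
  have hℓ0 : ℓ ≠ 0 := fun h => hℓ (by rw [h, Nat.cast_zero])
  have : IsFunctionField1 ℚ̄ (FQ M) := isFunctionField1_FL M ℚ̄
  obtain ⟨r, hdeg, hr⟩ := G.exists_placeCompat hgenus
  have hS := G.smoothReduction hgenus hr hdeg
  have hc : c ≠ 0 := fun h => hfb (by rw [heq, h, map_zero, zero_mul])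
  have hab : ab ≠ 0 := fun h => hfb (by rw [heq, h, zero_pow hℓ0, mul_zero])
  obtain ⟨Df, hDf, hDf0⟩ := HasPrincipalDivisors.exists_divisor (K := ℚ̄) _ f.ne_zero
  let D : Divisor ℚ̄ (FQ M) := Finsupp.mapRange (fun z : ℤ => z / (ℓ : ℤ)) (Int.zero_ediv _) Df
  have hD : ℓ • D = Df := by
    ext P
    rw [Finsupp.smul_apply, nsmul_eq_mul, Finsupp.mapRange_apply]
    exact Int.mul_ediv_cancel' (hDf P ▸ hf P)
  have hD0 : Divisor.degree D = 0 := by
    have h := congrArg Divisor.degree hD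
    rw [map_nsmul, hDf0] at h
    exact (smul_eq_zero.1 h).resolve_left hℓ0
  have hrD : Divisor.IsPrincipal (Finsupp.mapDomain r D) := by
    refine ⟨ab, hab, fun Q => ?_⟩
    have h := hr _ _ hgraph hfb Df hDf Q
    rw [← hD, Finsupp.mapDomain_smul, Finsupp.smul_apply, nsmul_eq_mul, heq,
      Q.ord_mul ((map_ne_zero _).2 hc) (pow_ne_zero _ hab), Reduction.Torsion.ord_algebraMap,
      Reduction.Torsion.ord_pow, zero_add] at h
    exact mul_left_cancel₀ (Int.natCast_ne_zero.2 hℓ0) h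
  obtain ⟨g, hg, hgD⟩ := hS.mem_principal_of_nsmul hℓ hD0 ⟨f, f.ne_zero, fun P => hD ▸ hDf P⟩ hrD
  have hq : (f : FQ M) / g ^ ℓ ≠ 0 := div_ne_zero f.ne_zero (pow_ne_zero _ hg)
  obtain ⟨a, ha⟩ := hS.rr_zero ((f : FQ M) / g ^ ℓ) fun P => by
    have h := DFunLike.congr_fun hD P
    rw [Finsupp.smul_apply, nsmul_eq_mul, hgD, hDf] at h
    rw [P.adicValuation_eq_exp_neg_ord hq, div_eq_mul_inv,
      P.ord_mul f.ne_zero (inv_ne_zero (pow_ne_zero _ hg)), P.ord_inv, Reduction.Torsion.ord_pow, ← h]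
    simp
  have ha0 : a ≠ 0 := fun h0 => hq (by rw [← ha, h0, map_zero])
  refine Subgroup.mem_sup.2 ⟨_, ⟨Units.mk0 a ha0, rfl⟩, _, ⟨Units.mk0 g hg, rfl⟩, Units.ext ?_⟩
  simp [ha, div_mul_cancel₀ _ (pow_ne_zero ℓ hg)]

end Fermat.Agent.DeligneSerre.XOne
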