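import Fermat.Agent.DeligneSerre.XOne.Kummer
import Fermat.Agent.DeligneSerre.XOne.GaussFQ
import Fermat.Agent.DeligneSerre.XOne.Genus
import Fermat.Agent.DeligneSerre.XOne.Injective
import Fermat.Agent.DeligneSerre.XOne.Descend
import Fermat.Prelude.Def_FLTPrelim_Ramification

/-!
# Reduction of the Kummer group modulo a prime of good reduction

Reduction is injective: the genus is preserved, at `p = 2, 3` after passing to level `3M`, `2M`.
-/

set_option autoImplicit false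
set_option synthInstance.maxHeartbeats 400000

noncomputable section

open ModularCurve IntermediateField

namespace Fermat.Agent.DeligneSerre.XOne

local notation "ℚ̄" => AlgebraicClosure ℚ

variable {M ℓ : ℕ} [NeZero M] {p : ℕ} [Fact p.Prime]

omit [Fact p.Prime] in
/-- Every function is, up to a constant, a quotient of two integral functions with non-zero
reductions. (Integrality of the expansion of the function itself cannot always be achieved.) -/
theorem exists_integral_quotient [Fact (3 ≤ M)] (A : ValuationSubring ℚ̄) {f : FQ M} (hf : f ≠ 0) :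
    ∃ (c : ℚ̄) (a b : LaurentSeries A), c ≠ 0 ∧ coeffMap A.subtype a ∈ FQ M ∧
      coeffMap A.subtype b ∈ FQ M ∧
      algebraMap ℚ̄ (LaurentSeries ℚ̄) c * (f : LaurentSeries ℚ̄) * coeffMap A.subtype b =
        coeffMap A.subtype a ∧
      coeffMap (IsLocalRing.residue A) a ≠ 0 ∧ coeffMap (IsLocalRing.residue A) b ≠ 0 := by
  have hC : ∀ c : ℚ̄, HahnSeries.C c = algebraMap ℚ̄ (LaurentSeries ℚ̄) c := fun c => by
    rw [algebraMap_laurentSeries_eq_single, HahnSeries.C_apply]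
  have hgen : (FQ M : IntermediateField ℚ̄ (LaurentSeries ℚ̄)) = adjoin ℚ̄ (gens ℚ̄ M) :=
    FL_eq_adjoin M ℚ̄
  have hf' : (f : LaurentSeries ℚ̄) ∈ adjoin ℚ̄ (gens ℚ̄ M) := by
    rw [← hgen]
    exact f.2
  obtain ⟨r, hr, s, hs, hrs⟩ := IntermediateField.mem_adjoin_iff_div.1 hf'
  obtain ⟨hr0, hs0⟩ : r ≠ 0 ∧ s ≠ 0 := by
    have h : (f : LaurentSeries ℚ̄) ≠ 0 := fun h => hf (Subtype.ext h)
    rwa [hrs, Ne, div_eq_zero_iff, not_or] at h
  obtain ⟨c, hc, a, ha, haπ⟩ := isScalable_of_mem_adjoin_gens (IsLocalRing.residue A) hr hr0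
  obtain ⟨d, hd, b, hb, hbπ⟩ := isScalable_of_mem_adjoin_gens (IsLocalRing.residue A) hs hs0
  refine ⟨c / d, a, b, div_ne_zero hc hd, ?_, ?_, ?_, haπ, hbπ⟩
  · rw [ha, hC]
    exact mul_mem (IntermediateField.algebraMap_mem _ c) (mem_FQ_of_mem_adjoin_gens hr)
  · rw [hb, hC]
    exact mul_mem (IntermediateField.algebraMap_mem _ d) (mem_FQ_of_mem_adjoin_gens hs)
  · rw [ha, hb, hC, hC, hrs, map_div₀]
    have hd' : algebraMap ℚ̄ (LaurentSeries ℚ̄) d ≠ 0 := (map_ne_zero _).2 hd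
    field_simp

/-- The reduction of an integral function lies in `FRes`. -/
theorem coeffMap_residue_mem_FRes [Fact (3 ≤ M)] (hpM : p.Coprime M) (A : ValuationSubring ℚ̄)
    (hA : A.LiesOverPrime p) (a : LaurentSeries A) (ha : coeffMap A.subtype a ∈ FQ M) :
    coeffMap (IsLocalRing.residue A) a ∈ FRes (IsLocalRing.ResidueField A) M :=
  (isGaussPair hpM A hA).red _ _ ha (coeffMap_mem_gaussRel a)

/-- Injectivity at a level where the genus is preserved. -/
theorem mem_trivialUnits_of_reduction_of_genus [Fact (3 ≤ M)] (hpM : p.Coprime M)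
    (A : ValuationSubring ℚ̄) (hA : A.LiesOverPrime p) (hpℓ : ¬ p ∣ ℓ)
    (hgenus : AlgebraicCurve.genusFF ℚ̄ (FQ M) ≤ AlgebraicCurve.genusFF
      (IsLocalRing.ResidueField A) (FRes (IsLocalRing.ResidueField A) M))
    {f : (FQ M)ˣ} (hf : f ∈ divisibleUnits M ℓ)
    (u : LaurentSeries A) (hu : coeffMap A.subtype u = ((f : FQ M) : LaurentSeries ℚ̄))
    (a : LaurentSeries A) (ha : coeffMap A.subtype a ∈ FQ M) (c : IsLocalRing.ResidueField A)
    (hne : coeffMap (IsLocalRing.residue A) u ≠ 0)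
    (heq : coeffMap (IsLocalRing.residue A) u =
      algebraMap (IsLocalRing.ResidueField A) (LaurentSeries (IsLocalRing.ResidueField A)) c *
        coeffMap (IsLocalRing.residue A) a ^ ℓ) :
    f ∈ trivialUnits M ℓ := by
  have : IsAlgClosed (IsLocalRing.ResidueField A) := EC.isAlgClosed_residueField A
  have : Curve.IsFunctionField1 (IsLocalRing.ResidueField A)
      (FRes (IsLocalRing.ResidueField A) M) := isFunctionField1_FRes_of_coprime M hpM A hA
  refine mem_trivialUnits_of_gaussData (gaussDataXOne hpM A hA) hgenus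
    (EC.natCast_residue_ne_zero A Fact.out hA hpℓ) hf
    (fb := ⟨_, coeffMap_residue_mem_FRes hpM A hA u (by rw [hu]; exact (f : FQ M).2)⟩)
    (ab := ⟨_, coeffMap_residue_mem_FRes hpM A hA a ha⟩) (c := c) ?_ ?_ ?_
  · rw [mem_gaussDataXOne_graph]
    show ((((f : FQ M)) : LaurentSeries ℚ̄), coeffMap (IsLocalRing.residue A) u) ∈ _
    rw [← hu]
    exact coeffMap_mem_gaussRel u
  · exact fun h => hne (congrArg Subtype.val h)
  · exact Subtype.ext heq

/-- Injectivity at a level where the bound on the different holds. -/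
theorem mem_trivialUnits_of_reduction_of_level [Fact (3 ≤ M)] (hpM : p.Coprime M)
    (A : ValuationSubring ℚ̄) (hA : A.LiesOverPrime p) (hN : (p = 2 → 3 ∣ M) ∧ (p = 3 → 2 ∣ M))
    (hpℓ : ¬ p ∣ ℓ) {f : (FQ M)ˣ} (hf : f ∈ divisibleUnits M ℓ)
    (u : LaurentSeries A) (hu : coeffMap A.subtype u = ((f : FQ M) : LaurentSeries ℚ̄))
    (a : LaurentSeries A) (ha : coeffMap A.subtype a ∈ FQ M) (c : IsLocalRing.ResidueField A)
    (hne : coeffMap (IsLocalRing.residue A) u ≠ 0)
    (heq : coeffMap (IsLocalRing.residue A) u =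
      algebraMap (IsLocalRing.ResidueField A) (LaurentSeries (IsLocalRing.ResidueField A)) c *
        coeffMap (IsLocalRing.residue A) a ^ ℓ) :
    f ∈ trivialUnits M ℓ :=
  have := isFunctionField1_FRes_of_coprime M hpM A hA
  mem_trivialUnits_of_reduction_of_genus hpM A hA hpℓ
    (genusFF_le_of_differentBound hpM A hA (isSeparable_jResElt M hpM A hA)
      (differentBound_jResElt M hpM A hA hN)) hf u hu a ha c hne heq

/-- Reduction is injective on the Kummer group at a prime `p ∤ M`, `p ≠ ℓ`. -/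
theorem mem_trivialUnits_of_reduction [Fact ℓ.Prime] (hℓ : 5 ≤ ℓ) (hℓM : ℓ ∣ M)
    (hpM : p.Coprime M) (A : ValuationSubring ℚ̄) (hA : A.LiesOverPrime p) (f : divisibleUnits M ℓ)
    (u : LaurentSeries A)
    (hu : coeffMap A.subtype u = (((f : (FQ M)ˣ) : FQ M) : LaurentSeries ℚ̄))
    (a : LaurentSeries A) (ha : coeffMap A.subtype a ∈ FQ M) (c : IsLocalRing.ResidueField A)
    (hne : coeffMap (IsLocalRing.residue A) u ≠ 0)
    (heq : coeffMap (IsLocalRing.residue A) u =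
      algebraMap (IsLocalRing.ResidueField A) (LaurentSeries (IsLocalRing.ResidueField A)) c *
        coeffMap (IsLocalRing.residue A) a ^ ℓ) :
    (f : (FQ M)ˣ) ∈ trivialUnits M ℓ := by
  have hp : p.Prime := Fact.out
  have hl : ℓ.Prime := Fact.out
  have hM3 : 3 ≤ M := le_trans (by omega) (Nat.le_of_dvd (NeZero.pos M) hℓM)
  haveI : Fact (3 ≤ M) := ⟨hM3⟩
  have hpℓ : ¬ p ∣ ℓ := fun h => hp.ne_one (Nat.dvd_one.1 (hpM ▸ Nat.dvd_gcd dvd_rfl (h.trans hℓM)))
  -- at `p = 2, 3` pass to an auxiliary level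
  obtain ⟨t, ht, hN, hcop⟩ : ∃ t : ℕ, (t = 1 ∨ (t.Prime ∧ ¬ t ∣ M ∧ ¬ p ∣ t)) ∧
      ((p = 2 → 3 ∣ M * t) ∧ (p = 3 → 2 ∣ M * t)) ∧ (t = 2 ∨ t = 3 ∨ t = 1) := by
    by_cases h2 : p = 2 ∧ ¬ 3 ∣ M
    · exact ⟨3, Or.inr ⟨Nat.prime_three, h2.2, by rw [h2.1]; decide⟩,
        ⟨fun _ => dvd_mul_left 3 M, fun h => absurd (h2.1 ▸ h) (by decide)⟩, by omega⟩
    by_cases h3 : p = 3 ∧ ¬ 2 ∣ M
    · exact ⟨2, Or.inr ⟨Nat.prime_two, h3.2, by rw [h3.1]; decide⟩,
        ⟨fun h => absurd (h3.1 ▸ h) (by decide), fun _ => dvd_mul_left 2 M⟩, by omega⟩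
    refine ⟨1, Or.inl rfl, ⟨fun h => ?_, fun h => ?_⟩, by omega⟩
    · rw [mul_one]; exact not_not.1 fun h' => h2 ⟨h, h'⟩
    · rw [mul_one]; exact not_not.1 fun h' => h3 ⟨h, h'⟩
  rcases ht with rfl | ⟨ht, htM, hpt⟩
  · rw [mul_one] at hN
    exact mem_trivialUnits_of_reduction_of_level hpM A hA hN hpℓ f.2 u hu a ha c hne heq
  haveI : NeZero (M * t) := ⟨mul_ne_zero (NeZero.ne M) ht.ne_zero⟩
  haveI : Fact (3 ≤ M * t) := ⟨hM3.trans (Nat.le_mul_of_pos_right M ht.pos)⟩
  have hdvd : M ∣ M * t := dvd_mul_right M t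
  have hpMt : p.Coprime (M * t) := hpM.mul_right (hp.coprime_iff_not_dvd.2 hpt)
  refine mem_trivialUnits_of_levelUp hdvd ?_ ?_
  · rw [finrankAlong_levelUp_prime ht htM rfl hdvd]
    refine ((hl.coprime_iff_not_dvd).2 fun h => ?_).symm
    rcases hcop with rfl | rfl | rfl
    · have := Nat.le_of_dvd (by norm_num) h
      omega
    · have h8 : ℓ ∣ 2 ^ 3 := h
      have := (Nat.prime_dvd_prime_iff_eq hl Nat.prime_two).1 (hl.dvd_of_dvd_pow h8)
      omega
    · exact absurd ht (by decide)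
  · refine mem_trivialUnits_of_reduction_of_level hpMt A hA hN hpℓ
      (levelUpUnits_mem_divisibleUnits hdvd f.2) u ?_ a (FL_le ℚ̄ hdvd ha) c hne heq
    rw [hu, coe_levelUpUnits, coe_levelUp]

end Fermat.Agent.DeligneSerre.XOne
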