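import Fermat.Agent.DeligneSerre.XOne.Igusa
import Fermat.Agent.DeligneSerre.XOne.Reduction
import Fermat.Agent.EC.Red.ResidueQbar
import Fermat.Agent.EichlerShimura.GaloisHecke
import Fermat.Agent.Igusa.Base
import Fermat.Prelude.Def_EllipticCurve_FrobeniusTrace

/-!
# The Eichler–Shimura congruence relation on the Kummer group

For `g = σ f` the series `T_p g = (⟨p⟩ g)(q^p) · N g` reduces to `σ² f · (⟨p⟩ f)^p`, so the two
classes agree by injectivity of the reduction.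
-/

set_option autoImplicit false

noncomputable section

open ModularCurve IntermediateField
open IsLocalRing (residue ResidueField)

namespace Fermat.Agent.DeligneSerre.XOne

local notation "ℚ̄" => AlgebraicClosure ℚ
local notation "Γℚ" => (AlgebraicClosure ℚ ≃ₐ[ℚ] AlgebraicClosure ℚ)

namespace Congruence

theorem coeffMap_series {R S : Type*} [CommRing R] [CommRing S] (φ : R →+* S) (p : ℕ) [NeZero p]
    (x dx : LaurentSeries R) :
    coeffMap φ (heckeSeries p x dx) = heckeSeries p (coeffMap φ x) (coeffMap φ dx) := by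
  rw [heckeSeries, heckeSeries, map_mul, coeffMap_detNorm,
    EichlerShimura.coeffMap_qExpand_comm]

theorem heckeSeries_mul {R : Type*} [CommRing R] (p : ℕ) [NeZero p] (x dx y dy : LaurentSeries R) :
    heckeSeries p (x * y) (dx * dy) = heckeSeries p x dx * heckeSeries p y dy := by
  rw [heckeSeries, heckeSeries, heckeSeries, map_mul, detNorm_mul]
  ring

theorem coeffMap_C {R S : Type*} [CommRing R] [CommRing S] (φ : R →+* S) (r : R) :
    coeffMap φ (HahnSeries.C r) = HahnSeries.C (φ r) :=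
  coeffMap_single φ 0 r

variable (A : ValuationSubring ℚ̄)

/-- `r ≠ 0` is the reduction of the quotient `f` of two integral series. -/
def Red (f : LaurentSeries ℚ̄) (r : LaurentSeries (ResidueField A)) : Prop :=
  r ≠ 0 ∧ ∃ a b : LaurentSeries A, f * coeffMap A.subtype b = coeffMap A.subtype a ∧
    coeffMap (residue A) b ≠ 0 ∧ coeffMap (residue A) a = r * coeffMap (residue A) b

variable {A}

theorem Red.one : Red A 1 1 :=
  ⟨one_ne_zero, 1, 1, by simp, by simp, by simp⟩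

theorem Red.mul {f g : LaurentSeries ℚ̄} {r s : LaurentSeries (ResidueField A)}
    (hf : Red A f r) (hg : Red A g s) : Red A (f * g) (r * s) := by
  obtain ⟨hr, a, b, hab, hb, ha⟩ := hf
  obtain ⟨hs, c, d, hcd, hd, hc⟩ := hg
  refine ⟨mul_ne_zero hr hs, a * c, b * d, ?_, ?_, ?_⟩
  · rw [map_mul, map_mul, mul_mul_mul_comm, hab, hcd]
  · rw [map_mul]; exact mul_ne_zero hb hd
  · rw [map_mul, map_mul, ha, hc, mul_mul_mul_comm]

theorem Red.pow {f : LaurentSeries ℚ̄} {r : LaurentSeries (ResidueField A)} (hf : Red A f r)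
    (n : ℕ) : Red A (f ^ n) (r ^ n) := by
  induction n with
  | zero => simpa using Red.one
  | succ n ih => simpa [pow_succ] using ih.mul hf

/-- Automorphisms of `A` act on reductions through the residue field. -/
theorem Red.galois {f : LaurentSeries ℚ̄} {r : LaurentSeries (ResidueField A)} (hf : Red A f r)
    (σ : ℚ̄ →+* ℚ̄) (τ : A →+* A) (hτ : ∀ a : A, (τ a : ℚ̄) = σ a)
    (φ : ResidueField A →+* ResidueField A) (hφ : ∀ a : A, residue A (τ a) = φ (residue A a)) :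
    Red A (coeffMap σ f) (coeffMap φ r) := by
  obtain ⟨hr, a, b, hab, hb, ha⟩ := hf
  have h : ∀ x : LaurentSeries A,
      coeffMap (residue A) (coeffMap τ x) = coeffMap φ (coeffMap (residue A) x) := fun x => by
    rw [coeffMap_coeffMap, coeffMap_coeffMap]
    exact coeffMap_congr (RingHom.ext hφ) x
  have h' : ∀ x : LaurentSeries A,
      coeffMap σ (coeffMap A.subtype x) = coeffMap A.subtype (coeffMap τ x) := fun x => by
    rw [coeffMap_coeffMap, coeffMap_coeffMap]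
    exact coeffMap_congr (RingHom.ext fun a => (hτ a).symm) x
  refine ⟨(map_ne_zero _).mpr hr, coeffMap τ a, coeffMap τ b, ?_, ?_, ?_⟩
  · rw [← h', ← h', ← hab, map_mul]
  · rw [h]; exact (map_ne_zero _).mpr hb
  · rw [h, h, ha, map_mul]

/-- `T_p` on reductions: `(⟨p⟩ f)(q^p)` times the series with Frobenius applied to the
coefficients. -/
theorem Red.heckeSeries {p : ℕ} [Fact p.Prime] [CharP (ResidueField A) p]
    {f df : LaurentSeries ℚ̄} {r s : LaurentSeries (ResidueField A)}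
    (hf : Red A f r) (hdf : Red A df s) :
    Red A (XOne.heckeSeries p f df)
      (qExpand (ResidueField A) p s * coeffMap (frobenius (ResidueField A) p) r) := by
  obtain ⟨hr, a, b, hab, hb, ha⟩ := hf
  obtain ⟨hs, c, d, hcd, hd, hc⟩ := hdf
  refine ⟨mul_ne_zero ((map_ne_zero _).mpr hs) ((map_ne_zero _).mpr hr),
    XOne.heckeSeries p a c, XOne.heckeSeries p b d, ?_, ?_, ?_⟩
  · rw [coeffMap_series, coeffMap_series, ← heckeSeries_mul, hab, hcd]
  · rw [coeffMap_series, XOne.heckeSeries, detNorm_eq_coeffMap_frobenius]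
    exact mul_ne_zero ((map_ne_zero _).mpr hd) ((map_ne_zero _).mpr hb)
  · rw [coeffMap_series, coeffMap_series, ha, hc, XOne.heckeSeries, XOne.heckeSeries,
      detNorm_eq_coeffMap_frobenius, detNorm_eq_coeffMap_frobenius, map_mul, map_mul]
    ring

variable {M ℓ : ℕ} [NeZero M] {p : ℕ} [Fact p.Prime]

theorem Red.ne_zero {f : LaurentSeries ℚ̄} {r : LaurentSeries (ResidueField A)} (hf : Red A f r) :
    f ≠ 0 := by
  obtain ⟨hr, a, b, hab, hb, ha⟩ := hf
  rintro rfl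
  rw [zero_mul] at hab
  rw [Igusa.coeffMap_injective (f := A.subtype) Subtype.val_injective
    (hab.symm.trans (map_zero _).symm), map_zero] at ha
  exact mul_ne_zero hr hb ha.symm

/-- A reduction is computed by integral series inside the function field. -/
theorem Red.exists_mem [Fact (3 ≤ M)] {f : FQ M}
    {r : LaurentSeries (ResidueField A)} (hf : Red A (f : LaurentSeries ℚ̄) r) :
    ∃ a b : LaurentSeries A, coeffMap A.subtype a ∈ FQ M ∧ coeffMap A.subtype b ∈ FQ M ∧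
      (f : LaurentSeries ℚ̄) * coeffMap A.subtype b = coeffMap A.subtype a ∧
      coeffMap (residue A) b ≠ 0 ∧ coeffMap (residue A) a = r * coeffMap (residue A) b := by
  have hf0 : f ≠ 0 := fun h => hf.ne_zero (by rw [h]; rfl)
  obtain ⟨c, a₀, b₀, hc, ha₀, hb₀, hab₀, ha₀', hb₀'⟩ :=
    exists_integral_quotient A hf0
  obtain ⟨hr, a, b, hab, hb, ha⟩ := hf
  have hkey : algebraMap ℚ̄ (LaurentSeries ℚ̄) c * coeffMap A.subtype (a * b₀) =
      coeffMap A.subtype (a₀ * b) := by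
    rw [map_mul, map_mul, ← hab, ← hab₀]; ring
  have hC : ∀ e : A, coeffMap A.subtype (HahnSeries.C e) =
      algebraMap ℚ̄ (LaurentSeries ℚ̄) (e : ℚ̄) := fun e => by
    rw [coeffMap_C, algebraMap_laurentSeries_eq_single]; rfl
  have hn : coeffMap (residue A) (a * b₀) ≠ 0 := by
    rw [map_mul, ha]; exact mul_ne_zero (mul_ne_zero hr hb) hb₀'
  have hn₀ : coeffMap (residue A) (a₀ * b) ≠ 0 := by
    rw [map_mul]; exact mul_ne_zero ha₀' hb
  have hcA : c ∈ A := by
    refine (A.mem_or_inv_mem c).elim id fun hi => ?_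
    have e : HahnSeries.C (⟨c⁻¹, hi⟩ : A) * (a₀ * b) = a * b₀ :=
      Igusa.coeffMap_injective (f := A.subtype) Subtype.val_injective (by
        rw [map_mul, hC, ← hkey, ← mul_assoc, ← map_mul]
        rw [show (((⟨c⁻¹, hi⟩ : A) : ℚ̄)) * c = 1 from inv_mul_cancel₀ hc, map_one, one_mul])
    have hne : residue A ⟨c⁻¹, hi⟩ ≠ 0 := fun h0 => hn (by
      rw [← e, map_mul, coeffMap_C, h0, map_zero, zero_mul])
    obtain ⟨w, hw⟩ : IsUnit (⟨c⁻¹, hi⟩ : A) := by
      by_contra h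
      exact hne ((IsLocalRing.residue_eq_zero_iff _).mpr h)
    have hw' : ((w⁻¹ : Aˣ) : A).1 * c⁻¹ = 1 := by
      have := congrArg Subtype.val w.inv_mul
      rw [hw] at this
      exact this
    have hcw : ((w⁻¹ : Aˣ) : A).1 = c := by
      field_simp at hw'
      linear_combination hw'
    exact hcw ▸ ((w⁻¹ : Aˣ) : A).2
  have hcr : residue A ⟨c, hcA⟩ ≠ 0 := fun h0 => hn₀ (by
    rw [← Igusa.coeffMap_injective (f := A.subtype) Subtype.val_injective
      (show coeffMap A.subtype (HahnSeries.C (⟨c, hcA⟩ : A) * (a * b₀)) =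
        coeffMap A.subtype (a₀ * b) by rw [map_mul, hC, hkey]),
      map_mul, coeffMap_C, h0, map_zero, zero_mul])
  refine ⟨a₀, HahnSeries.C (⟨c, hcA⟩ : A) * b₀, ha₀, ?_, ?_, ?_, ?_⟩
  · rw [map_mul, hC]; exact mul_mem ((FQ M).algebraMap_mem c) hb₀
  · rw [map_mul, hC, ← hab₀]; ring
  · rw [map_mul, coeffMap_C]
    exact mul_ne_zero (HahnSeries.C_ne_zero hcr) hb₀'
  · have := congrArg (coeffMap (residue A))
      (Igusa.coeffMap_injective (f := A.subtype) Subtype.val_injective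
        (show coeffMap A.subtype (HahnSeries.C (⟨c, hcA⟩ : A) * (a * b₀)) =
          coeffMap A.subtype (a₀ * b) by rw [map_mul, hC, hkey]))
    rw [map_mul, map_mul, map_mul, ha] at this
    refine mul_right_cancel₀ hb ?_
    rw [← this, map_mul]
    ring

theorem mk_mul (f g : divisibleUnits M ℓ) : Kummer.mk (f * g) = Kummer.mk f + Kummer.mk g :=
  rfl

theorem mk_pow (f : divisibleUnits M ℓ) (n : ℕ) : Kummer.mk (f ^ n) = n • Kummer.mk f :=
  rfl

theorem nsmul_eq_zero' (x : Kummer M ℓ) : ℓ • x = 0 := by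
  obtain ⟨f, rfl⟩ := Kummer.mk_surjective x
  rw [← mk_pow, Kummer.mk_eq_zero_iff]
  exact Subgroup.mem_sup_right ⟨(f : (FQ M)ˣ), rfl⟩

theorem eq_of_add_eq_zero [Fact ℓ.Prime] {x y : Kummer M ℓ} (h : y + (ℓ - 1) • x = 0) : y = x := by
  have hx : (ℓ - 1) • x + x = 0 := by
    rw [← succ_nsmul, Nat.sub_add_cancel (Fact.out : ℓ.Prime).one_le]
    exact nsmul_eq_zero' x
  exact (eq_neg_of_add_eq_zero_left h).trans (neg_eq_of_add_eq_zero_right hx)

/-- `Red` for units of the function field. -/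
def RedU (A : ValuationSubring ℚ̄) (f : (FQ M)ˣ) (r : LaurentSeries (ResidueField A)) : Prop :=
  Red A ((f : FQ M) : LaurentSeries ℚ̄) r

theorem RedU.mul {f g : (FQ M)ˣ} {r s : LaurentSeries (ResidueField A)} (hf : RedU A f r)
    (hg : RedU A g s) : RedU A (f * g) (r * s) :=
  Red.mul hf hg

theorem RedU.pow {f : (FQ M)ˣ} {r : LaurentSeries (ResidueField A)} (hf : RedU A f r) (n : ℕ) :
    RedU A (f ^ n) (r ^ n) := by
  unfold RedU
  rw [Units.val_pow_eq_pow_val, SubmonoidClass.coe_pow]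
  exact Red.pow hf n

theorem RedU.galois {f : (FQ M)ˣ} {r : LaurentSeries (ResidueField A)} (hf : RedU A f r)
    (σ : Γℚ) (τ : A →+* A) (hτ : ∀ a : A, (τ a : ℚ̄) = σ a)
    (φ : ResidueField A →+* ResidueField A) (hφ : ∀ a : A, residue A (τ a) = φ (residue A a)) :
    RedU A (galUnits σ f) (coeffMap φ r) :=
  Red.galois hf (σ : ℚ̄ →+* ℚ̄) τ hτ φ hφ

theorem RedU.diamond [Fact (3 ≤ M)] (hp : p.Coprime M) (hA : A.LiesOverPrime p) (d : (ZMod M)ˣ)
    {f : (FQ M)ˣ} {r : LaurentSeries (ResidueField A)} (hf : RedU A f r) :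
    ∃ s, RedU A (diamondUnits d f) s := by
  obtain ⟨hr, a, b, hab, hb, ha⟩ := hf
  obtain ⟨a', b', hab', hb', ha'⟩ := exists_quotient_diamond hp A hA d (f : FQ M) a b hab hb
  exact ⟨coeffMap (residue A) a' / coeffMap (residue A) b',
    div_ne_zero (ha' (ha ▸ mul_ne_zero hr hb)) hb', a', b', hab', hb', (div_mul_cancel₀ _ hb').symm⟩

theorem RedU.hecke [CharP (ResidueField A) p] (hp : p.Coprime M) {f : (FQ M)ˣ}
    {r s : LaurentSeries (ResidueField A)} (hf : RedU A f r)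
    (hdf : RedU A (diamondUnits (ZMod.unitOfCoprime p hp) f) s) :
    RedU A (heckeUnits hp f)
      (qExpand (ResidueField A) p s * coeffMap (frobenius (ResidueField A) p) r) :=
  Red.heckeSeries hf hdf

theorem galUnits_diamondUnits (σ : Γℚ) (d : (ZMod M)ˣ) (f : (FQ M)ˣ) :
    galUnits σ (diamondUnits d f) = diamondUnits d (galUnits σ f) :=
  Units.ext (Subtype.ext (coeffMap_diamond M ℚ̄ (σ : ℚ̄ →ₐ[ℚ] ℚ̄) d (f : FQ M)))

theorem pow_mem_divisibleUnits (g : (FQ M)ˣ) : g ^ ℓ ∈ divisibleUnits M ℓ := by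
  intro P
  rw [Units.val_pow_eq_pow_val, Curve.ord_pow]
  exact dvd_mul_right _ _

/-- A class whose reduction is an `ℓ`-th power vanishes. -/
theorem eq_zero_of_red [Fact ℓ.Prime] [Fact (3 ≤ M)] (hℓ : 5 ≤ ℓ) (hℓM : ℓ ∣ M) (hp : p.Coprime M)
    (hA : A.LiesOverPrime p) (f : divisibleUnits M ℓ) (g : (FQ M)ˣ)
    {r s : LaurentSeries (ResidueField A)}
    (hf : RedU A (f : (FQ M)ˣ) r) (hg : RedU A g s) (h : r = s ^ ℓ) : Kummer.mk f = 0 := by
  obtain ⟨a, b, -, hbM, hab, hb, hab'⟩ := hf.exists_mem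
  obtain ⟨g₁, g₂, hg₁, hg₂, hgg, hg₂', hgs⟩ := hg.exists_mem
  have hne : (⟨coeffMap A.subtype b * coeffMap A.subtype g₂, mul_mem hbM hg₂⟩ : FQ M) ≠ 0 := by
    intro h0
    refine mul_ne_zero hb hg₂' ?_
    rw [← map_mul, Igusa.coeffMap_injective (f := A.subtype) Subtype.val_injective
      ((map_mul _ b g₂).trans ((congrArg Subtype.val h0).trans (map_zero _).symm)), map_zero]
  set W : (FQ M)ˣ := Units.mk0 _ hne
  have hW : Kummer.mk (⟨W ^ ℓ, pow_mem_divisibleUnits W⟩ : divisibleUnits M ℓ) = 0 := by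
    refine (Kummer.mk_eq_zero_iff (⟨W ^ ℓ, pow_mem_divisibleUnits W⟩ : divisibleUnits M ℓ)).mpr ?_
    show W ^ ℓ ∈ trivialUnits M ℓ
    exact Subgroup.mem_sup_right ⟨W, rfl⟩
  have hmain : Kummer.mk (f * (⟨W ^ ℓ, pow_mem_divisibleUnits W⟩ : divisibleUnits M ℓ)) = 0 := by
    refine (Kummer.mk_eq_zero_iff _).mpr (mem_trivialUnits_of_reduction hℓ hℓM hp A hA _
      (a * b ^ (ℓ - 1) * g₂ ^ ℓ) ?_ (g₁ * b) (by rw [map_mul]; exact mul_mem hg₁ hbM) 1 ?_ ?_)
    · show _ = ((((f : (FQ M)ˣ) : FQ M) * (W : FQ M) ^ ℓ : FQ M) : LaurentSeries ℚ̄)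
      rw [map_mul, map_mul, map_pow, map_pow, ← hab, IntermediateField.coe_mul,
        SubmonoidClass.coe_pow]
      show _ = _ * (coeffMap A.subtype b * coeffMap A.subtype g₂) ^ ℓ
      rw [mul_pow, ← pow_sub_one_mul (Fact.out : ℓ.Prime).ne_zero (coeffMap A.subtype b)]
      ring
    · rw [map_mul, map_mul, map_pow, map_pow, hab']
      exact mul_ne_zero (mul_ne_zero (mul_ne_zero hf.1 hb) (pow_ne_zero _ hb))
        (pow_ne_zero _ hg₂')
    · rw [map_one, one_mul, map_mul, map_mul, map_mul, map_pow, map_pow, hab', hgs, mul_pow,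
        mul_pow, ← h, ← pow_sub_one_mul (Fact.out : ℓ.Prime).ne_zero (coeffMap (residue A) b)]
      ring
  rw [mk_mul, hW] at hmain
  exact (add_zero (Kummer.mk f)).symm.trans hmain

/-- Every class has a representative with a reduction. -/
theorem exists_rep [Fact ℓ.Prime] [Fact (3 ≤ M)] (A : ValuationSubring ℚ̄) (x : Kummer M ℓ) :
    ∃ (f : divisibleUnits M ℓ) (r : LaurentSeries (ResidueField A)),
      RedU A (f : (FQ M)ˣ) r ∧ Kummer.mk f = x := by
  obtain ⟨f, rfl⟩ := Kummer.mk_surjective x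
  obtain ⟨c, a, b, hc, ha, hb, hab, ha0, hb0⟩ :=
    exists_integral_quotient A (f := ((f : (FQ M)ˣ) : FQ M)) (Units.ne_zero _)
  set C : (FQ M)ˣ := Units.map (algebraMap ℚ̄ (FQ M)).toMonoidHom (Units.mk0 c hc)
  have hdiv : C ∈ divisibleUnits M ℓ := by
    intro P
    show (ℓ : ℤ) ∣ P.ord (algebraMap ℚ̄ (FQ M) c)
    rw [Curve.ord_algebraMap P c]
    exact dvd_zero _
  refine ⟨⟨C, hdiv⟩ * f, coeffMap (residue A) a / coeffMap (residue A) b,
    ⟨div_ne_zero ha0 hb0, a, b, hab, hb0, (div_mul_cancel₀ _ hb0).symm⟩, ?_⟩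
  rw [mk_mul, (Kummer.mk_eq_zero_iff (⟨C, hdiv⟩ : divisibleUnits M ℓ)).mpr
    (Subgroup.mem_sup_left ⟨_, rfl⟩)]
  exact zero_add (Kummer.mk f)

theorem inertia [Fact ℓ.Prime] (hℓ : 5 ≤ ℓ) (hℓM : ℓ ∣ M) (hp : p.Coprime M)
    (hA : A.LiesOverPrime p) {σ : Γℚ} (hσ : σ ∈ A.inertiaSubgroupIn ℚ) (x : Kummer M ℓ) :
    galK M ℓ σ x = x := by
  have : Fact (3 ≤ M) :=
    ⟨le_trans (by omega) (Nat.le_of_dvd (Nat.pos_of_ne_zero (NeZero.ne M)) hℓM)⟩
  obtain ⟨f, r, hf, rfl⟩ := exists_rep A x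
  have hσ' := hσ
  obtain ⟨g, -, rfl⟩ := hσ
  have h1 := hf.galois (g : Γℚ)
    (MulSemiringAction.toRingHom (A.decompositionSubgroup ℚ) A g)
    (fun a => rfl) (RingHom.id _) (fun a => by
      obtain ⟨h, hr⟩ := EC.residue_apply_eq_of_mem_inertia A hσ' a.2
      exact hr)
  rw [coeffMap_id] at h1
  refine eq_of_add_eq_zero ?_
  rw [galK, Kummer.map_mk, ← mk_pow, ← mk_mul]
  refine eq_zero_of_red hℓ hℓM hp hA _ (f : (FQ M)ˣ) (h1.mul (hf.pow (ℓ - 1))) hf ?_
  rw [← pow_succ', Nat.sub_add_cancel (Fact.out : ℓ.Prime).one_le]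

set_option maxHeartbeats 800000 in
theorem frobenius_relation [Fact ℓ.Prime] (hℓ : 5 ≤ ℓ) (hℓM : ℓ ∣ M) (hp : p.Coprime M)
    (hA : A.LiesOverPrime p) {σ : Γℚ} (hσ : A.IsFrobeniusAt σ p) (x : Kummer M ℓ) :
    heckeK ℓ hp (galK M ℓ σ x) = galK M ℓ σ (galK M ℓ σ x) +
      p • diamondK M ℓ (ZMod.unitOfCoprime p hp) x := by
  have : Fact (3 ≤ M) :=
    ⟨le_trans (by omega) (Nat.le_of_dvd (Nat.pos_of_ne_zero (NeZero.ne M)) hℓM)⟩
  have : CharP (ResidueField A) p := EC.charP_residueField A Fact.out hA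
  have : ExpChar (ResidueField A) p := ExpChar.prime Fact.out
  obtain ⟨f, r, hf, rfl⟩ := exists_rep A x
  set τ := MulSemiringAction.toRingHom (A.decompositionSubgroup ℚ) A
    ⟨σ, hσ.mem_decompositionSubgroup⟩
  have hτ : ∀ a : A, (τ a : ℚ̄) = σ a := fun a => rfl
  have hφ : ∀ a : A, residue A (τ a) = frobenius (ResidueField A) p (residue A a) := by
    intro a
    obtain ⟨h, hr⟩ := EC.residue_apply_eq_of_isFrobeniusAt A hσ a.2
    rw [frobenius_def]
    exact hr
  have h1 := hf.galois σ τ hτ _ hφ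
  have h2 := h1.galois σ τ hτ _ hφ
  obtain ⟨s, hd⟩ := hf.diamond hp hA (ZMod.unitOfCoprime p hp)
  have hd1 := hd.galois σ τ hτ _ hφ
  rw [galUnits_diamondUnits] at hd1
  have hT := h1.hecke hp hd1
  rw [← laurent_pow_char, mul_comm] at hT
  refine eq_of_add_eq_zero ?_
  simp only [galK, heckeK, diamondK, Kummer.map_mk]
  rw [← mk_pow, ← mk_mul, ← mk_pow, ← mk_mul]
  have hF := h2.mul (hd.pow p)
  refine eq_zero_of_red hℓ hℓM hp hA _ _ (hT.mul (hF.pow (ℓ - 1))) hF ?_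
  rw [← pow_succ', Nat.sub_add_cancel (Fact.out : ℓ.Prime).one_le]

end Congruence

variable {M ℓ : ℕ} [NeZero M]

/-- Inertia at `p ∤ M` is trivial and Frobenius satisfies `F² - T_p F + p⟨p⟩ = 0`. -/
theorem unramified_and_congruence [Fact ℓ.Prime] (hℓ : 5 ≤ ℓ) (hℓM : ℓ ∣ M) {p : ℕ} [Fact p.Prime]
    (hp : p.Coprime M) (A : ValuationSubring ℚ̄) (hA : A.LiesOverPrime p) :
    (∀ σ ∈ A.inertiaSubgroupIn ℚ, ∀ x : Kummer M ℓ, galK M ℓ σ x = x) ∧
      ∀ σ : Γℚ, A.IsFrobeniusAt σ p → ∀ x : Kummer M ℓ,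
        galK M ℓ σ (galK M ℓ σ x) - heckeK ℓ hp (galK M ℓ σ x) +
          p • diamondK M ℓ (ZMod.unitOfCoprime p hp) x = 0 :=
  ⟨fun _ hσ x => Congruence.inertia hℓ hℓM hp hA hσ x, fun _ hσ x => by
    rw [Congruence.frobenius_relation hℓ hℓM hp hA hσ x]; abel⟩

end Fermat.Agent.DeligneSerre.XOne
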