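/-
The weight four Eisenstein series `e_a` (`a : ZMod M`) used to generate the function field of
`X₁(M)`: integral `q`-expansion, behaviour under `SL(2, ℤ)`, expansions at all cusps.
-/
import Mathlib.NumberTheory.ModularForms.EisensteinSeries.QExpansion
import Mathlib.NumberTheory.ModularForms.CongruenceSubgroups
import Mathlib.NumberTheory.TsumDivisorsAntidiagonal
import Mathlib.Data.ZMod.ValMinAbs
import Fermat.Agent.Modular.QExp

set_option autoImplicit false

noncomputable section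

open Complex Filter
open UpperHalfPlane hiding I
open scoped Real Topology Manifold MatrixGroups Nat
open EisensteinSeries Fermat.Agent.Modular
open scoped Matrix
open Matrix (vecMul vecMul_vecMul vecMul_one vec2_dotProduct)

namespace Fermat.Agent.DeligneSerre.XOne

/-! ### Sums over arbitrary sets of lattice vectors -/

/-- `∑ (c τ + d) ^ (-4)` over `(c, d) ∈ S`. -/
def eisOn (S : Set (Fin 2 → ℤ)) (τ : ℍ) : ℂ := ∑' x : S, eisSummand 4 x τ

theorem tendstoLocallyUniformly_eisOn (S : Set (Fin 2 → ℤ)) :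
    TendstoLocallyUniformly (fun (s : Finset S) τ => ∑ x ∈ s, eisSummand 4 x τ)
      (eisOn S) atTop := by
  have hk' : (2 : ℝ) < (4 : ℤ) := by norm_num
  have p_sum : Summable fun x : S => ‖x.val‖ ^ (-(4 : ℤ)) :=
    mod_cast (summable_one_div_norm_rpow hk').subtype (· ∈ S)
  rw [tendstoLocallyUniformly_iff_forall_isCompact]
  intro K hK
  obtain ⟨A, B, hB, HABK⟩ := subset_verticalStrip_of_isCompact hK
  refine (tendstoUniformlyOn_tsum (hu := p_sum.mul_left <| r ⟨⟨A, B⟩, hB⟩ ^ (-(4 : ℤ) : ℝ))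
    (fun p z hz => ?_)).mono HABK
  simpa only [eisSummand, one_div, ← zpow_neg, norm_zpow, ← Real.rpow_intCast,
    Int.cast_neg] using summand_bound_of_mem_verticalStrip (by positivity) p hB hz

theorem mdifferentiable_eisOn (S : Set (Fin 2 → ℤ)) : MDiff (eisOn S) := by
  have h : TendstoLocallyUniformlyOn (fun (s : Finset S) =>
      ↑ₕ(fun (z : ℍ) => ∑ x ∈ s, eisSummand 4 x z)) (↑ₕ(eisOn S))
      atTop {z : ℂ | 0 < z.im} := by
    rw [← upperHalfPlaneSet, ← range_coe, ← Set.image_univ]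
    apply TendstoLocallyUniformlyOn.comp (s := ⊤) _ _ _
      (OpenPartialHomeomorph.continuousOn_symm _)
    · simp only [Set.top_eq_univ, tendstoLocallyUniformlyOn_univ]
      exact tendstoLocallyUniformly_eisOn S
    · simp only [Topology.IsOpenEmbedding.toOpenPartialHomeomorph_target, Set.top_eq_univ,
        Set.mapsTo_range_iff, Set.mem_univ, forall_const]
  rw [UpperHalfPlane.mdifferentiable_iff]
  refine h.differentiableOn (Eventually.of_forall fun s => DifferentiableOn.fun_sum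
    fun x _ => ?_) isOpen_upperHalfPlaneSet
  exact eisSummand_extension_differentiableOn _ _

/-- The image of `S` under `x ↦ x g`. -/
def mulSet (S : Set (Fin 2 → ℤ)) (g : SL(2, ℤ)) : Set (Fin 2 → ℤ) :=
  {y | y ᵥ* (g⁻¹ : SL(2, ℤ)).1 ∈ S}

theorem coe_mul_coe_inv (g : SL(2, ℤ)) :
    g.1 * (g⁻¹ : SL(2, ℤ)).1 = 1 ∧ (g⁻¹ : SL(2, ℤ)).1 * g.1 = 1 := by
  constructor <;> simp only [← Matrix.SpecialLinearGroup.coe_mul, mul_inv_cancel, inv_mul_cancel,
    Matrix.SpecialLinearGroup.coe_one]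

theorem eisOn_smul (S : Set (Fin 2 → ℤ)) (g : SL(2, ℤ)) (τ : ℍ) :
    eisOn S (g • τ) = denom g τ ^ (4 : ℤ) * eisOn (mulSet S g) τ := by
  let e : S ≃ mulSet S g :=
    { toFun := fun x => ⟨x.1 ᵥ* g.1, by
        rw [mulSet, Set.mem_ofPred_eq, vecMul_vecMul, (coe_mul_coe_inv g).1, vecMul_one]
        exact x.2⟩
      invFun := fun y => ⟨y.1 ᵥ* (g⁻¹ : SL(2, ℤ)).1, y.2⟩
      left_inv := fun x => Subtype.ext
        (by simp only [vecMul_vecMul, (coe_mul_coe_inv g).1, vecMul_one])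
      right_inv := fun y => Subtype.ext
        (by simp only [vecMul_vecMul, (coe_mul_coe_inv g).2, vecMul_one]) }
  simp_rw [eisOn, eisSummand_SL2_apply, tsum_mul_left]
  congr 1
  exact e.tsum_eq (fun y => eisSummand 4 (y : Fin 2 → ℤ) τ)

theorem mulSet_mul (S : Set (Fin 2 → ℤ)) (g h : SL(2, ℤ)) :
    mulSet (mulSet S g) h = mulSet S (g * h) := by
  ext y
  simp only [mulSet, Set.mem_ofPred_eq, mul_inv_rev, Matrix.SpecialLinearGroup.coe_mul, vecMul_vecMul]

theorem denom_T_zpow (n : ℤ) (τ : ℍ) : denom (ModularGroup.T ^ n : SL(2, ℤ)) τ = 1 := by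
  have h10 : (ModularGroup.T ^ n : SL(2, ℤ)) 1 0 = 0 := by simp [ModularGroup.coe_T_zpow]
  have h11 : (ModularGroup.T ^ n : SL(2, ℤ)) 1 1 = 1 := by simp [ModularGroup.coe_T_zpow]
  rw [ModularGroup.denom_apply, h10, h11]
  simp

theorem eisOn_T_zpow_smul (S : Set (Fin 2 → ℤ)) (n : ℤ) (τ : ℍ) :
    eisOn S (ModularGroup.T ^ n • τ) = eisOn (mulSet S (ModularGroup.T ^ n)) τ := by
  rw [eisOn_smul, denom_T_zpow, one_zpow, one_mul]

theorem isBoundedAtImInfty_eisOn (S : Set (Fin 2 → ℤ)) : IsBoundedAtImInfty (eisOn S) := by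
  rw [UpperHalfPlane.isBoundedAtImInfty_iff]
  refine ⟨∑' x : Fin 2 → ℤ, r ⟨⟨(1 : ℕ), 2⟩, Nat.ofNat_pos⟩ ^ (-(4 : ℤ)) * ‖x‖ ^ (-(4 : ℤ)), 2,
    fun z hz => ?_⟩
  obtain ⟨n, hn⟩ := ModularGroup_T_zpow_mem_verticalStrip z one_pos
  simp only [Nat.cast_one, one_mul] at hn
  set z' := ModularGroup.T ^ n • z with hz'
  have e : eisOn S z = eisOn (mulSet S (ModularGroup.T ^ (-n))) z' := by
    rw [hz', eisOn_T_zpow_smul, mulSet_mul, ← zpow_add, neg_add_cancel, zpow_zero]
    congr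
    ext y
    simp [mulSet]
  rw [e]
  have hs := summable_norm_eisSummand (k := 4) (by norm_num) z'
  refine ((norm_tsum_le_tsum_norm (hs.subtype _)).trans
    (Summable.tsum_subtype_le (fun x : Fin 2 → ℤ => ‖eisSummand 4 x z'‖) _
      (fun _ => norm_nonneg _) hs)).trans ?_
  have hk' : (2 : ℝ) < (4 : ℤ) := by norm_num
  refine hs.tsum_le_tsum ?_ ?_
  · intro x
    simp_rw [eisSummand, norm_zpow]
    exact_mod_cast summand_bound_of_mem_verticalStrip (lt_trans two_pos hk').le x two_pos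
      (verticalStrip_anti_right 1 hz hn)
  · exact_mod_cast (summable_one_div_norm_rpow hk').mul_left <|
      r ⟨⟨(1 : ℕ), 2⟩, Nat.ofNat_pos⟩ ^ (-(4 : ℤ))

/-! ### The series `e_a` -/

variable (M : ℕ)

/-- `[m ≡ a] + [m ≡ -a]`. -/
def eisWeight (a : ZMod M) (m : ℤ) : ℤ :=
  (if (m : ZMod M) = a then 1 else 0) + (if (m : ZMod M) = -a then 1 else 0)

/-- The `n`-th coefficient of `e_a`: `∑_{mr = n} ([m ≡ a] + [m ≡ -a]) r³`. -/
def eisCoeff (a : ZMod M) (n : ℕ) : ℤ :=
  ∑ x ∈ n.divisorsAntidiagonal, eisWeight M a x.1 * (x.2 : ℤ) ^ 3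

/-- The integral `q`-expansion of `e_a`. -/
def eisSeries (a : ZMod M) : PowerSeries ℤ := PowerSeries.mk (eisCoeff M a)

/-- `(2πi)⁴ / 3!`. -/
def eisConst : ℂ := (-2 * π * I) ^ 4 / (3 : ℕ)!

theorem eisConst_ne_zero : eisConst ≠ 0 := by
  simp [eisConst, Real.pi_ne_zero, Nat.factorial_ne_zero]

/-- Lattice vectors `(c, d)` with `c ≡ a`. -/
def firstClass (a : ZMod M) : Set (Fin 2 → ℤ) := {x | (x 0 : ZMod M) = a}

/-- `e_a(τ) = C⁻¹ ∑_{c ≡ a} ∑_d (cτ + d) ^ (-4)`. -/
def eisFun (a : ZMod M) (τ : ℍ) : ℂ := eisConst⁻¹ * eisOn (firstClass M a) τ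

/-- `e_a` slashed by `g`. -/
def eisTr (a : ZMod M) (g : SL(2, ℤ)) (τ : ℍ) : ℂ :=
  eisConst⁻¹ * eisOn (mulSet (firstClass M a) g) τ

variable {M}

theorem eisFun_smul (a : ZMod M) (g : SL(2, ℤ)) (τ : ℍ) :
    eisFun M a (g • τ) = denom g τ ^ (4 : ℤ) * eisTr M a g τ := by
  rw [eisFun, eisTr, eisOn_smul]; ring

theorem mdifferentiable_eisFun (a : ZMod M) : MDiff (eisFun M a) :=
  (mdifferentiable_const).mul (mdifferentiable_eisOn _)

theorem mdifferentiable_eisTr (a : ZMod M) (g : SL(2, ℤ)) : MDiff (eisTr M a g) :=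
  (mdifferentiable_const).mul (mdifferentiable_eisOn _)

theorem mulSet_firstClass_of_mem_Gamma0 (a : ZMod M) {g : SL(2, ℤ)}
    (hg : g ∈ CongruenceSubgroup.Gamma0 M) :
    mulSet (firstClass M a) g = firstClass M (a * (g 0 0 : ℤ)) := by
  have hc : (g 1 0 : ZMod M) = 0 := CongruenceSubgroup.Gamma0_mem.mp hg
  have hdet : g 0 0 * g 1 1 - g 0 1 * g 1 0 = 1 := by
    rw [← Matrix.det_fin_two]; exact g.2
  have hd : ((g 0 0 : ℤ) : ZMod M) * ((g 1 1 : ℤ) : ZMod M) = 1 := by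
    have := congrArg (Int.cast : ℤ → ZMod M) hdet
    push_cast at this
    rw [hc, mul_zero, sub_zero] at this
    exact this
  ext y
  simp only [mulSet, firstClass, Set.mem_ofPred_eq, Matrix.SpecialLinearGroup.coe_inv,
    Matrix.adjugate_fin_two, vecMul, vec2_dotProduct, Matrix.of_apply, Matrix.cons_val',
    Matrix.cons_val_zero, Matrix.cons_val_one, Matrix.cons_val_fin_one]
  push_cast
  rw [hc, neg_zero, mul_zero, add_zero]
  constructor
  · rintro rfl
    rw [mul_assoc, mul_comm ((g 1 1 : ℤ) : ZMod M), hd, mul_one]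
  · intro h
    rw [h, mul_assoc, hd, mul_one]

/-- `e_a(γτ) = (cτ + d)⁴ e_{aγ₀₀}(τ)` for `γ ∈ Γ₀(M)`. -/
theorem eisTr_of_mem_Gamma0 (a : ZMod M) {g : SL(2, ℤ)}
    (hg : g ∈ CongruenceSubgroup.Gamma0 M) :
    eisTr M a g = eisFun M (a * (g 0 0 : ℤ)) := by
  funext τ
  rw [eisTr, eisFun, mulSet_firstClass_of_mem_Gamma0 a hg]

theorem eisFun_neg (a : ZMod M) : eisFun M (-a) = eisFun M a := by
  funext τ
  let e : firstClass M (-a) ≃ firstClass M a :=
    (Equiv.neg (Fin 2 → ℤ)).subtypeEquiv fun x => by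
      show ((x 0 : ℤ) : ZMod M) = -a ↔ (((-x) 0 : ℤ) : ZMod M) = a
      rw [Pi.neg_apply, Int.cast_neg, neg_eq_iff_eq_neg]
  rw [eisFun, eisFun, eisOn, eisOn, ← e.tsum_eq]
  refine congrArg _ (tsum_congr fun x => ?_)
  have hx : ((e x : firstClass M a) : Fin 2 → ℤ) = -(x : Fin 2 → ℤ) := rfl
  simp only [hx, eisSummand, Pi.neg_apply, Int.cast_neg]
  rw [show -((x.1 0 : ℤ) : ℂ) * τ + -((x.1 1 : ℤ) : ℂ) = -((x.1 0 : ℂ) * τ + x.1 1) by ring]
  exact ((by decide : Even (-(4 : ℤ))).neg_zpow _).symm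

theorem eisFun_T_zpow_smul (a : ZMod M) (g : SL(2, ℤ)) (τ : ℍ) :
    eisTr M a g (ModularGroup.T ^ (M : ℤ) • τ) = eisTr M a g τ := by
  have : mulSet (mulSet (firstClass M a) g) (ModularGroup.T ^ (M : ℤ)) =
      mulSet (firstClass M a) g := by
    rw [mulSet_mul]
    ext y
    simp only [mulSet, firstClass, Set.mem_ofPred_eq, _root_.mul_inv_rev, ← zpow_neg,
      Matrix.SpecialLinearGroup.coe_mul, ModularGroup.coe_T_zpow, ← vecMul_vecMul]
    simp [vecMul, vec2_dotProduct, Matrix.vecHead, Matrix.vecTail]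
  rw [eisTr, eisTr, eisOn_T_zpow_smul, this]

/-- Expansion of every slash of `e_a` in `exp (2πiτ/M)`, without negative terms. -/
theorem exists_hasQExp_eisTr [NeZero M] (a : ZMod M) (g : SL(2, ℤ)) :
    ∃ x, HasQExp (M : ℝ) (eisTr M a g) x ∧ ∀ n < 0, x.coeff n = 0 := by
  have hM : (0 : ℝ) < M := Nat.cast_pos.mpr (NeZero.pos M)
  have hper : Function.Periodic (eisTr M a g ∘ ofComplex) ((M : ℝ) : ℂ) := by
    intro w
    simp only [Function.comp_apply]
    by_cases hw : 0 < w.im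
    · have h2 : 0 < (w + ((M : ℝ) : ℂ)).im := by simpa using hw
      rw [ofComplex_apply_of_im_pos hw, ofComplex_apply_of_im_pos h2,
        ← eisFun_T_zpow_smul a g ⟨w, hw⟩]
      congr 1
      ext
      rw [ModularGroup.coe_T_zpow_smul_eq]
      simp
    · have : (w + ((M : ℝ) : ℂ)).im ≤ 0 := by simpa using not_lt.1 hw
      rw [ofComplex_apply_of_im_nonpos (not_lt.1 hw), ofComplex_apply_of_im_nonpos this]
  have hb : IsBoundedAtImInfty fun τ : ℍ =>
      Function.Periodic.qParam (M : ℝ) τ ^ (0 : ℤ) * eisTr M a g τ := by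
    simp only [zpow_zero, one_mul, eisTr]
    exact (isBoundedAtImInfty_eisOn (mulSet (firstClass M a) g)).const_mul_left _
  obtain ⟨x, hx, hx0⟩ := HasQExp.exists_of_isBoundedAtImInfty_mul hM hper
    (mdifferentiable_eisTr a g) 0 hb
  exact ⟨x, hx, fun n hn => hx0 n (by omega)⟩

theorem norm_eisWeight_le (a : ZMod M) (m : ℤ) : ‖((eisWeight M a m : ℤ) : ℂ)‖ ≤ 2 := by
  unfold eisWeight
  split_ifs <;> norm_num

theorem hasSum_eisFun [NeZero M] {a : ZMod M} (ha : a ≠ 0) (τ : ℍ) :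
    HasSum (fun n : ℕ => (eisCoeff M a n : ℂ) * cexp (2 * π * I * τ) ^ n) (eisFun M a τ) := by
  classical
  set q := cexp (2 * π * I * τ) with hqdef
  have hq : ‖q‖ < 1 := norm_exp_two_pi_I_lt_one τ
  let ind : ℤ → ℂ := fun c => if (c : ZMod M) = a then 1 else 0
  let f : ℤ × ℤ → ℂ := fun p => ind p.1 * eisSummand 4 ![p.1, p.2] τ
  have hf : Summable f := by
    refine Summable.of_norm_bounded (summable_prod_eisSummand (k := 4) (by norm_num) τ).norm
      fun p => ?_
    simp only [f, ind, norm_mul]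
    split_ifs <;> simp
  let S : ℤ → ℂ := fun c => ∑' d : ℤ, eisSummand 4 ![c, d] τ
  let F : ℤ → ℂ := fun c => ind c * S c
  have h1 : eisOn (firstClass M a) τ = ∑' c : ℤ, F c := by
    rw [eisOn, tsum_subtype (firstClass M a) fun x => eisSummand 4 x τ,
      ← (finTwoArrowEquiv ℤ).symm.tsum_eq]
    refine (tsum_congr fun p => ?_).trans ((hf.tsum_prod).trans
      (tsum_congr fun c => tsum_mul_left (a := ind c) (f := fun d : ℤ => eisSummand 4 ![c, d] τ)))
    simp only [f, ind, firstClass, Set.indicator, Set.mem_ofPred_eq, finTwoArrowEquiv_symm_apply]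
    by_cases hp : ((p.1 : ℤ) : ZMod M) = a <;> simp [hp]
  have hF : Summable F := by
    exact (hf.prod).congr fun c => tsum_mul_left (a := ind c) (f := fun d : ℤ => eisSummand 4 ![c, d] τ)
  have hS : ∀ c : ℤ, S (-c) = S c := by
    intro c
    simp only [S]
    rw [← tsum_comp_neg]
    refine tsum_congr fun d => ?_
    simp [eisSummand, ← neg_add _ (d : ℂ), -neg_add_rev, (by decide : Even (4 : ℤ)).neg_zpow]
  have hF0 : F 0 = 0 := by simp [F, ind, Ne.symm ha]
  have h2 : ∑' c : ℤ, F c = ∑' c : ℕ+, (eisWeight M a (c : ℕ) : ℂ) * S (c : ℕ) := by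
    have a1 : Summable fun n : ℕ => F n := (summable_int_iff_summable_nat_and_neg.mp hF).1
    have a2 : Summable fun n : ℕ => F (-n) := (summable_int_iff_summable_nat_and_neg.mp hF).2
    rw [tsum_int_eq_zero_add_tsum_pnat hF, hF0, zero_add,
      ← Summable.tsum_add (f := fun c : ℕ+ => F (c : ℕ)) (g := fun c : ℕ+ => F (-(c : ℕ)))
        (a1.comp_injective PNat.coe_injective) (a2.comp_injective PNat.coe_injective)]
    refine tsum_congr fun c => ?_
    simp only [F, ind, hS, ← add_mul, eisWeight, Int.cast_add, Int.cast_ite, Int.cast_one,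
      Int.cast_zero, Int.cast_neg, neg_eq_iff_eq_neg]
  have h3 : ∀ c : ℕ+, S (c : ℕ) =
      eisConst * ∑' r : ℕ+, (r : ℂ) ^ 3 * q ^ ((c : ℕ) * (r : ℕ)) := by
    intro c
    have := EisensteinSeries.qExpansion_identity_pnat (k := 3) (by norm_num)
      ⟨(c : ℕ) * (τ : ℂ), by simpa using τ.2⟩
    rw [eisConst]
    convert this using 1
    · simp only [S]
      refine tsum_congr fun d => ?_
      simp [eisSummand, _root_.one_div]
    · congr 1
      refine tsum_congr fun r => ?_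
      rw [hqdef, ← Complex.exp_nat_mul, ← Complex.exp_nat_mul]
      push_cast
      ring_nf
  let G : ℕ+ × ℕ+ → ℂ := fun p =>
    (eisWeight M a (p.1 : ℕ) : ℂ) * ((p.2 : ℂ) ^ 3 * q ^ ((p.1 : ℕ) * (p.2 : ℕ)))
  have hG : Summable G := by
    refine Summable.of_norm_bounded ((summable_prod_mul_pow 3 hq).norm.mul_left 2) fun p => ?_
    simp only [G, norm_mul]
    exact mul_le_mul_of_nonneg_right (norm_eisWeight_le a _) (by positivity)
  have h4 : eisFun M a τ = ∑' p, G p := by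
    rw [eisFun, h1, h2, hG.tsum_prod, ← tsum_mul_left]
    refine tsum_congr fun c => ?_
    rw [h3, mul_left_comm, ← mul_assoc (eisConst⁻¹), inv_mul_cancel₀ eisConst_ne_zero, one_mul,
      ← tsum_mul_left]
  have h5 : HasSum (fun n : ℕ+ => (eisCoeff M a n : ℂ) * q ^ (n : ℕ)) (eisFun M a τ) := by
    have hs : HasSum (G ∘ sigmaAntidiagonalEquivProd) (∑' p, G p) :=
      sigmaAntidiagonalEquivProd.hasSum_iff.2 hG.hasSum
    rw [h4]
    refine hs.sigma fun n => ?_
    have e : (eisCoeff M a n : ℂ) * q ^ (n : ℕ) =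
        ∑ x : (n : ℕ).divisorsAntidiagonal, G (sigmaAntidiagonalEquivProd ⟨n, x⟩) := by
      rw [eisCoeff, Int.cast_sum, Finset.sum_mul, ← Finset.sum_coe_sort]
      refine Finset.sum_congr rfl fun x _ => ?_
      simp [G, sigmaAntidiagonalEquivProd, divisorsAntidiagonalFactors,
        (Nat.mem_divisorsAntidiagonal.mp x.2).1, mul_assoc]
    rw [e]
    exact hasSum_fintype _
  have h0 : eisCoeff M a 0 = 0 := by simp [eisCoeff]
  have := (hasSum_pnat_iff (f := fun n : ℕ => (eisCoeff M a n : ℂ) * q ^ n)).1 h5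
  simpa [h0] using this

/-- The expansion of `e_a` at infinity. -/
theorem hasQExp_eisFun [NeZero M] {a : ZMod M} (ha : a ≠ 0) :
    HasQExp 1 (eisFun M a)
      (HahnSeries.ofPowerSeries ℤ ℂ (PowerSeries.map (Int.castRingHom ℂ) (eisSeries M a))) := by
  refine HasQExp.ofPowerSeries fun τ => ?_
  simpa [eisSeries, Function.Periodic.qParam] using hasSum_eisFun ha τ

theorem le_of_eisWeight_ne_zero [NeZero M] {a : ZMod M} {m : ℕ}
    (h : eisWeight M a m ≠ 0) : a.valMinAbs.natAbs ≤ m := by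
  have h' : (m : ZMod M) = a ∨ (m : ZMod M) = -a := by
    by_contra hc
    push Not at hc
    simp [eisWeight, hc.1, hc.2] at h
  by_contra hlt
  push Not at hlt
  have hm : m ≤ M / 2 := hlt.le.trans (ZMod.natAbs_valMinAbs_le a)
  have : (m : ZMod M).valMinAbs.natAbs = a.valMinAbs.natAbs :=
    ZMod.natAbs_valMinAbs_eq_natAbs_valMinAbs.2 h'
  rw [ZMod.valMinAbs_natCast_of_le_half hm, Int.natAbs_natCast] at this
  omega

theorem eisCoeff_eq_zero_of_lt [NeZero M] {a : ZMod M} {n : ℕ}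
    (hn : n < a.valMinAbs.natAbs) : eisCoeff M a n = 0 := by
  refine Finset.sum_eq_zero fun x hx => ?_
  rw [Nat.mem_divisorsAntidiagonal] at hx
  have hx1 : x.1 ≤ n := Nat.le_of_dvd (Nat.pos_of_ne_zero hx.2) ⟨x.2, hx.1.symm⟩
  by_contra hne
  have := le_of_eisWeight_ne_zero (left_ne_zero_of_mul hne)
  omega

theorem eisCoeff_natAbs [NeZero M] {a : ZMod M} (ha : 2 * a ≠ 0) :
    eisCoeff M a a.valMinAbs.natAbs = 1 := by
  set N := a.valMinAbs.natAbs with hN
  have hN0 : N ≠ 0 := by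
    rw [hN, Int.natAbs_ne_zero, Ne, ZMod.valMinAbs_eq_zero]
    rintro rfl
    simp at ha
  rw [eisCoeff, Finset.sum_eq_single (N, 1)]
  · have hne : a ≠ -a := fun h => ha (by rw [two_mul]; nth_rewrite 2 [h]; exact add_neg_cancel a)
    rcases Int.natAbs_eq a.valMinAbs with h | h
    · have e : ((N : ℤ) : ZMod M) = a := by rw [hN, ← h, ZMod.coe_valMinAbs]
      simp only [Int.cast_natCast] at e
      simp [eisWeight, e, hne]
    · have e : ((N : ℤ) : ZMod M) = -a := by
        rw [hN, show ((a.valMinAbs.natAbs : ℤ)) = -a.valMinAbs by omega, Int.cast_neg,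
          ZMod.coe_valMinAbs]
      simp only [Int.cast_natCast] at e
      simp [eisWeight, e, Ne.symm hne]
  · intro x hx hne
    rw [Nat.mem_divisorsAntidiagonal] at hx
    by_contra h
    have hle := le_of_eisWeight_ne_zero (left_ne_zero_of_mul h)
    have hx1 : x.1 ≤ N := Nat.le_of_dvd (Nat.pos_of_ne_zero hN0) ⟨x.2, hx.1.symm⟩
    have e1 : x.1 = N := le_antisymm hx1 hle
    have h1 := hx.1
    rw [e1] at h1
    have e2 : x.2 = 1 := by
      have := Nat.eq_of_mul_eq_mul_left (Nat.pos_of_ne_zero hN0)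
        (h1.trans (Nat.mul_one N).symm)
      exact this
    exact hne (Prod.ext e1 e2)
  · intro h
    exact absurd (Nat.mem_divisorsAntidiagonal.2 ⟨Nat.mul_one N, hN0⟩) h

theorem eisFun_ne_zero [NeZero M] {a : ZMod M} (ha : 2 * a ≠ 0) : eisFun M a ≠ 0 := by
  intro h
  have ha' : a ≠ 0 := by rintro rfl; simp at ha
  have := congrArg (fun x : LaurentSeries ℂ => x.coeff (a.valMinAbs.natAbs : ℕ))
    (((hasQExp_eisFun ha').eq_zero_iff one_pos).1 h)
  rw [HahnSeries.ofPowerSeries_apply_coeff] at this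
  simp [eisSeries, eisCoeff_natAbs ha] at this

theorem eisTr_ne_zero [NeZero M] {a : ZMod M} (ha : 2 * a ≠ 0) (g : SL(2, ℤ)) :
    eisTr M a g ≠ 0 := by
  intro h
  refine eisFun_ne_zero ha (funext fun τ => ?_)
  rw [← smul_inv_smul g τ, eisFun_smul, h]
  simp

end Fermat.Agent.DeligneSerre.XOne
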