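/-
The ratios `r_a = e_a / e_1` as meromorphic functions on `ℍ` and as Laurent series over any ring.
-/
import Fermat.Prelude.Def_ModularCurve_X0ModL
import Fermat.Agent.Modular.PoleClearing
import Fermat.Agent.DeligneSerre.XOne.Eisenstein

set_option autoImplicit false

noncomputable section

open Complex Filter
open UpperHalfPlane hiding I
open scoped Real Topology Manifold MatrixGroups
open Fermat.Agent.Modular ModularCurve

namespace Fermat.Agent.DeligneSerre.XOne

variable (M : ℕ)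

/-! ### Formal series -/

/-- The expansion of `e_a` over any ring. -/
def eisQ (a : ZMod M) (R : Type*) [CommRing R] : LaurentSeries R :=
  HahnSeries.ofPowerSeries ℤ R (PowerSeries.map (Int.castRingHom R) (eisSeries M a))

/-- The expansion of `r_a = e_a / e_1` over any ring. -/
def rSeries (a : ZMod M) (R : Type*) [CommRing R] : LaurentSeries R :=
  eisQ M a R * coeffMap (Int.castRingHom R) (Ring.inverse (eisQ M 1 ℤ))

variable {M}

theorem coeffMap_eisQ {R S : Type*} [CommRing R] [CommRing S] (f : R →+* S) (a : ZMod M) :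
    coeffMap f (eisQ M a R) = eisQ M a S := by
  rw [eisQ, eisQ, coeffMap_ofPowerSeries]
  congr 1
  ext n
  simp

theorem coeffMap_rSeries {R S : Type*} [CommRing R] [CommRing S] (f : R →+* S) (a : ZMod M) :
    coeffMap f (rSeries M a R) = rSeries M a S := by
  rw [rSeries, rSeries, map_mul, coeffMap_eisQ, coeffMap_coeffMap,
    RingHom.ext_int (f.comp (Int.castRingHom R)) (Int.castRingHom S)]

theorem eisCoeff_neg (a : ZMod M) (n : ℕ) : eisCoeff M (-a) n = eisCoeff M a n := by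
  refine Finset.sum_congr rfl fun x _ => ?_
  simp only [eisWeight, neg_neg]
  rw [add_comm]

theorem eisQ_neg (a : ZMod M) (R : Type*) [CommRing R] : eisQ M (-a) R = eisQ M a R := by
  have : eisSeries M (-a) = eisSeries M a := PowerSeries.ext fun n => by
    simp [eisSeries, eisCoeff_neg]
  rw [eisQ, eisQ, this]

theorem rSeries_neg (a : ZMod M) (R : Type*) [CommRing R] : rSeries M (-a) R = rSeries M a R := by
  rw [rSeries, rSeries, eisQ_neg]

theorem eisQ_coeff (a : ZMod M) (R : Type*) [CommRing R] (n : ℕ) :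
    (eisQ M a R).coeff n = (eisCoeff M a n : R) := by
  rw [eisQ, HahnSeries.ofPowerSeries_apply_coeff]
  simp [eisSeries]

variable [NeZero M]

theorem eisQ_coeff_of_lt (a : ZMod M) (R : Type*) [CommRing R] {n : ℤ}
    (hn : n < a.valMinAbs.natAbs) : (eisQ M a R).coeff n = 0 := by
  rcases lt_or_ge n 0 with h | h
  · exact ModularCurve.ofPowerSeries_coeff_of_neg _ h
  · lift n to ℕ using h
    rw [eisQ_coeff, eisCoeff_eq_zero_of_lt (by exact_mod_cast hn), Int.cast_zero]

theorem eisQ_coeff_natAbs {a : ZMod M} (ha : 2 * a ≠ 0) (R : Type*) [CommRing R] :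
    (eisQ M a R).coeff (a.valMinAbs.natAbs : ℕ) = 1 := by
  rw [eisQ_coeff, eisCoeff_natAbs ha, Int.cast_one]

theorem eisQ_ne_zero {a : ZMod M} (ha : 2 * a ≠ 0) (R : Type*) [CommRing R] [Nontrivial R] :
    eisQ M a R ≠ 0 := fun h => by
  simpa [h] using eisQ_coeff_natAbs ha R

theorem order_eisQ {a : ZMod M} (ha : 2 * a ≠ 0) (R : Type*) [CommRing R] [Nontrivial R] :
    (eisQ M a R).order = a.valMinAbs.natAbs := by
  refine le_antisymm (HahnSeries.order_le_of_coeff_ne_zero ?_) ?_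
  · rw [eisQ_coeff_natAbs ha]; exact one_ne_zero
  · by_contra h
    exact HahnSeries.coeff_order_eq_zero.not.2 (eisQ_ne_zero ha R)
      (eisQ_coeff_of_lt a R (not_le.1 h))

/-- `e_a` is a unit in Laurent series over any ring. -/
theorem isUnit_eisQ {a : ZMod M} (ha : 2 * a ≠ 0) (R : Type*) [CommRing R] :
    IsUnit (eisQ M a R) := by
  suffices IsUnit (eisQ M a ℤ) by
    simpa [coeffMap_eisQ] using this.map (coeffMap (Int.castRingHom R))
  let k : ℤ := (a.valMinAbs.natAbs : ℕ)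
  let u : PowerSeries ℤ := PowerSeries.mk fun n => eisCoeff M a (a.valMinAbs.natAbs + n)
  have hu : IsUnit u := by
    rw [PowerSeries.isUnit_iff_constantCoeff]
    simp [u, eisCoeff_natAbs ha]
  have e : eisQ M a ℤ = HahnSeries.single k (1 : ℤ) * HahnSeries.ofPowerSeries ℤ ℤ u := by
    ext n
    rw [HahnSeries.coeff_single_mul, one_mul]
    rcases lt_or_ge n k with h | h
    · rw [eisQ_coeff_of_lt a ℤ h, ModularCurve.ofPowerSeries_coeff_of_neg _ (by omega)]
    · obtain ⟨m, rfl⟩ : ∃ m : ℕ, n = ((a.valMinAbs.natAbs + m : ℕ) : ℤ) :=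
        ⟨(n - k).toNat, by simp only [k] at h ⊢; omega⟩
      rw [eisQ_coeff, show ((a.valMinAbs.natAbs + m : ℕ) : ℤ) - k = (m : ℤ) by simp [k],
        HahnSeries.ofPowerSeries_apply_coeff]
      simp [u]
  rw [e]
  refine IsUnit.mul ?_ (hu.map _)
  exact IsUnit.of_mul_eq_one (HahnSeries.single (-k) (1 : ℤ))
    (by rw [HahnSeries.single_mul_single, add_neg_cancel, mul_one]; rfl)

omit [NeZero M] in
theorem two_mul_ne_zero_of_isUnit (hM : 3 ≤ M) {a : ZMod M} (ha : IsUnit a) : 2 * a ≠ 0 := by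
  rw [Ne, ha.mul_left_eq_zero]
  intro h
  have h2 : ((2 : ℕ) : ZMod M) = 0 := by exact_mod_cast h
  have := Nat.le_of_dvd two_pos ((ZMod.natCast_eq_zero_iff _ _).1 h2)
  omega

theorem rSeries_mul_eisQ_one (hM : 3 ≤ M) (a : ZMod M) (R : Type*) [CommRing R] :
    rSeries M a R * eisQ M 1 R = eisQ M a R := by
  rw [rSeries, mul_assoc, ← coeffMap_eisQ (Int.castRingHom R) (1 : ZMod M), ← map_mul,
    Ring.inverse_mul_cancel _ (isUnit_eisQ (two_mul_ne_zero_of_isUnit hM isUnit_one) ℤ),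
    map_one, mul_one]

theorem rSeries_one (hM : 3 ≤ M) (R : Type*) [CommRing R] : rSeries M 1 R = 1 :=
  (isUnit_eisQ (two_mul_ne_zero_of_isUnit hM isUnit_one) R).mul_right_cancel
    (by rw [rSeries_mul_eisQ_one hM, one_mul])

theorem rSeries_ne_zero (hM : 3 ≤ M) {a : ZMod M} (ha : IsUnit a) (k : Type*) [Field k] :
    rSeries M a k ≠ 0 := fun h => by
  refine eisQ_ne_zero (two_mul_ne_zero_of_isUnit hM ha) k ?_
  rw [← rSeries_mul_eisQ_one hM, h, zero_mul]

/-- `r_a` has order `|a| - 1`. -/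
theorem order_rSeries (hM : 3 ≤ M) {a : ZMod M} (ha : IsUnit a) (k : Type*) [Field k] :
    (rSeries M a k).order = (a.valMinAbs.natAbs : ℤ) - 1 := by
  have h := congrArg HahnSeries.order (rSeries_mul_eisQ_one hM a k)
  rw [HahnSeries.order_mul (rSeries_ne_zero hM ha k)
    (eisQ_ne_zero (two_mul_ne_zero_of_isUnit hM isUnit_one) k),
    order_eisQ (two_mul_ne_zero_of_isUnit hM ha),
    order_eisQ (two_mul_ne_zero_of_isUnit hM isUnit_one)] at h
  have h1 : (1 : ZMod M).valMinAbs.natAbs = 1 := by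
    have := ZMod.valMinAbs_natCast_of_le_half (n := M) (a := 1) (by omega)
    simp only [Nat.cast_one] at this
    rw [this]; rfl
  rw [h1, Nat.cast_one] at h
  linarith

/-- The diamond action `r_a ↦ r_{da} / r_d` is faithful in every characteristic. -/
theorem exists_rSeries_mul_ne (hM : 3 ≤ M) {d : ZMod M} (hd : IsUnit d) (h1 : d ≠ 1)
    (h2 : d ≠ -1) (k : Type*) [Field k] :
    ∃ a : ZMod M, IsUnit a ∧ rSeries M (d * a) k ≠ rSeries M a k * rSeries M d k := by
  obtain ⟨u, rfl⟩ := hd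
  refine ⟨(u⁻¹ : (ZMod M)ˣ), Units.isUnit _, fun h => ?_⟩
  rw [Units.mul_inv, rSeries_one hM] at h
  have e := congrArg HahnSeries.order h
  rw [HahnSeries.order_one, HahnSeries.order_mul (rSeries_ne_zero hM (Units.isUnit _) k)
    (rSeries_ne_zero hM u.isUnit k), order_rSeries hM (Units.isUnit _),
    order_rSeries hM u.isUnit] at e
  have hpos : ∀ a : (ZMod M)ˣ, 1 ≤ ((a : ZMod M).valMinAbs.natAbs) := fun a => by
    rw [Nat.one_le_iff_ne_zero, Int.natAbs_ne_zero, Ne, ZMod.valMinAbs_eq_zero]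
    intro h0
    have := two_mul_ne_zero_of_isUnit hM a.isUnit
    simp [h0] at this
  have := hpos u⁻¹
  have := hpos u
  have hu : ((u : ZMod M).valMinAbs.natAbs : ℤ) = 1 := by omega
  have h1' : (1 : ZMod M).valMinAbs = 1 := by
    have := ZMod.valMinAbs_natCast_of_le_half (n := M) (a := 1) (by omega)
    simpa using this
  have : (u : ZMod M).valMinAbs.natAbs = (1 : ZMod M).valMinAbs.natAbs := by
    rw [h1']; exact_mod_cast hu
  rcases ZMod.natAbs_valMinAbs_eq_natAbs_valMinAbs.1 this with h | h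
  · exact h1 h
  · exact h2 h

/-! ### Meromorphic functions -/

omit [NeZero M] in
theorem algebraMap_hol_ne_zero {F : Hol} (h : F ≠ 0) : algebraMap Hol Mero F ≠ 0 :=
  (map_ne_zero_iff _ (IsFractionRing.injective Hol Mero)).2 h

/-- `e_a` as a holomorphic function. -/
def eisHol (a : ZMod M) : Hol := ⟨eisFun M a, mdifferentiable_eisFun a⟩

/-- `e_a` slashed by `g`, as a holomorphic function. -/
def eisTrHol (a : ZMod M) (g : SL(2, ℤ)) : Hol := ⟨eisTr M a g, mdifferentiable_eisTr a g⟩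

/-- `r_a` as a meromorphic function. -/
def rMero (a : ZMod M) : Mero :=
  algebraMap Hol Mero (eisHol a) / algebraMap Hol Mero (eisHol (1 : ZMod M))

omit [NeZero M] in
theorem rMero_neg (a : ZMod M) : rMero (-a) = rMero (M := M) a := by
  simp only [rMero, eisHol, eisFun_neg]

/-- `(cτ + d)⁴` as a holomorphic function. -/
def denomHol (g : SL(2, ℤ)) : Hol :=
  ⟨fun τ => denom g τ ^ (4 : ℤ), by
    rw [mem_hol, UpperHalfPlane.mdifferentiable_iff]
    intro z hz
    refine (DifferentiableAt.differentiableWithinAt (f := fun w : ℂ => denom g w ^ (4 : ℤ))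
      (DifferentiableAt.zpow (by unfold denom; fun_prop) (Or.inl ?_))).congr (fun w hw => ?_) ?_
    · exact denom_ne_zero _ ⟨z, hz⟩
    · simp [ofComplex_apply_of_im_pos hw]
    · simp [ofComplex_apply_of_im_pos hz]⟩

theorem denomHol_ne_zero (g : SL(2, ℤ)) : denomHol g ≠ 0 := fun h =>
  zpow_ne_zero (4 : ℤ) (denom_ne_zero g UpperHalfPlane.I)
    (congrFun (congrArg Subtype.val h) UpperHalfPlane.I)

omit [NeZero M] in
theorem smul_eisHol (g : SL(2, ℤ)) (a : ZMod M) :
    g • eisHol a = denomHol g⁻¹ * eisTrHol a g⁻¹ := by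
  refine Subtype.ext (funext fun τ => ?_)
  exact eisFun_smul a g⁻¹ τ

omit [NeZero M] in
theorem translate_rMero (g : SL(2, ℤ)) (a : ZMod M) :
    translate g (rMero a) =
      algebraMap Hol Mero (eisTrHol a g⁻¹) / algebraMap Hol Mero (eisTrHol (1 : ZMod M) g⁻¹) := by
  rw [rMero, map_div₀, translate_algebraMap, translate_algebraMap, smul_eisHol, smul_eisHol,
    map_mul, map_mul, mul_div_mul_left]
  exact algebraMap_hol_ne_zero (denomHol_ne_zero g⁻¹)

theorem eisHol_ne_zero (hM : 3 ≤ M) {a : ZMod M} (ha : IsUnit a) : eisHol a ≠ 0 := fun h =>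
  eisFun_ne_zero (two_mul_ne_zero_of_isUnit hM ha) (congrArg Subtype.val h)

theorem rMero_one (hM : 3 ≤ M) : rMero (1 : ZMod M) = 1 :=
  div_self (algebraMap_hol_ne_zero (eisHol_ne_zero hM isUnit_one))

omit [NeZero M] in
theorem coe_inv_apply_zero_zero (g : SL(2, ℤ)) : (g⁻¹ : SL(2, ℤ)) 0 0 = g 1 1 := by
  simp [Matrix.SpecialLinearGroup.coe_inv, Matrix.adjugate_fin_two]

/-- The diamond action: `γ r_a = r_{ad} / r_d`, `d = γ₁₁`, for `γ ∈ Γ₀(M)`. -/
theorem translate_rMero_of_mem_Gamma0 (hM : 3 ≤ M) {g : SL(2, ℤ)}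
    (hg : g ∈ CongruenceSubgroup.Gamma0 M) (a : ZMod M) :
    translate g (rMero a) =
      rMero (a * ((g 1 1 : ℤ) : ZMod M)) / rMero ((g 1 1 : ℤ) : ZMod M) := by
  have h1 : algebraMap Hol Mero (eisHol (1 : ZMod M)) ≠ 0 :=
    algebraMap_hol_ne_zero (eisHol_ne_zero hM isUnit_one)
  have e : ∀ b : ZMod M, eisTrHol b g⁻¹ = eisHol (b * ((g 1 1 : ℤ) : ZMod M)) := fun b => by
    refine Subtype.ext ?_
    have h := eisTr_of_mem_Gamma0 b (inv_mem hg)
    rw [coe_inv_apply_zero_zero] at h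
    exact h
  rw [translate_rMero, e, e, one_mul, rMero, rMero, div_div_div_cancel_right₀ h1]

/-- `r_a` is invariant under `Γ₁(M)`. -/
theorem translate_rMero_of_mem_Gamma1 (hM : 3 ≤ M) {g : SL(2, ℤ)}
    (hg : g ∈ CongruenceSubgroup.Gamma1 M) (a : ZMod M) : translate g (rMero a) = rMero a := by
  obtain ⟨-, h11, h10⟩ := (CongruenceSubgroup.Gamma1_mem M g).1 hg
  rw [translate_rMero_of_mem_Gamma0 hM (CongruenceSubgroup.Gamma0_mem.2 h10), h11, mul_one,
    rMero_one hM, div_one]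

/-- `r_a` has finite order at all cusps. -/
theorem hasFiniteOrderAtCusps_rMero (hM : 3 ≤ M) (a : ZMod M) :
    HasFiniteOrderAtCusps M (rMero a) := by
  intro g
  have hM' : (0 : ℝ) < M := Nat.cast_pos.mpr (NeZero.pos M)
  obtain ⟨x, hx, hx0⟩ := exists_hasQExp_eisTr a g⁻¹
  obtain ⟨y, hy, hy0⟩ := exists_hasQExp_eisTr (1 : ZMod M) g⁻¹
  have hne : y ≠ 0 := fun h =>
    eisTr_ne_zero (two_mul_ne_zero_of_isUnit hM isUnit_one) g⁻¹ ((hy.eq_zero_iff hM').2 h)
  obtain ⟨m, hm⟩ : ∃ m : ℕ, y.order = m := Int.eq_ofNat_of_zero_le (by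
    by_contra h
    exact HahnSeries.coeff_order_eq_zero.not.2 hne (hy0 _ (not_le.1 h)))
  have ht := hy.tendsto hM' (m := y.order) fun n hn => HahnSeries.coeff_eq_zero_of_lt_order hn
  have hc : y.coeff y.order ≠ 0 := HahnSeries.coeff_order_eq_zero.not.2 hne
  refine ⟨eisTrHol a g⁻¹, eisTrHol (1 : ZMod M) g⁻¹, ?_, ?_, m, ?_⟩
  · filter_upwards [ht.eventually_ne hc] with τ hτ
    exact left_ne_zero_of_mul hτ
  · rw [translate_rMero, div_mul_cancel₀]
    exact algebraMap_hol_ne_zero fun h => eisTr_ne_zero (two_mul_ne_zero_of_isUnit hM isUnit_one)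
      g⁻¹ (congrArg Subtype.val h)
  · have h1 : IsBoundedAtImInfty (eisTr M a g⁻¹) := hx.isBoundedAtImInfty hM' hx0
    have h2 := (ht.inv₀ hc).isBigO_one ℝ
    refine ((Asymptotics.IsBigO.mul h1 h2).congr' (Eventually.of_forall fun τ => ?_)
      (Eventually.of_forall fun τ => ?_))
    · simp only [eisTrHol, hm, zpow_natCast, mul_inv, inv_inv]
      ring
    · simp

end Fermat.Agent.DeligneSerre.XOne
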