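/-
The function field of `X₁(M)` over `ℚ` inside `ℚ((q))`: definitions and generators.
-/
import Fermat.Agent.DeligneSerre.XOne.Ratio
import Fermat.Agent.Modular.GAGA
import Fermat.Agent.EichlerShimura.BaseChangeDegree
import Fermat.Prelude.Def_ModularCurve_ArithmeticGalois

set_option autoImplicit false

noncomputable section

open UpperHalfPlane CongruenceSubgroup ModularCurve IntermediateField
open scoped Manifold MatrixGroups

namespace Fermat.Agent.DeligneSerre.XOne

open Fermat.Agent.Modular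

section Defs

variable (k : Type*) [Field k] (M : ℕ)

/-- The expansion of `e_a` with coefficients in `k`. -/
def eisExp (a : ZMod M) : LaurentSeries k :=
  coeffMap (Int.castRingHom k) (HahnSeries.ofPowerSeries ℤ ℤ (eisSeries M a))

/-- The expansion of `e_a / e_1`. -/
def eisRatio (a : ZMod M) : LaurentSeries k :=
  eisExp k M a / eisExp k M 1

/-- Generators of the function field of `X₁(M)`. -/
def gens : Set (LaurentSeries k) :=
  divisorExpansionsC k M ∪ {x | ∃ a : ZMod M, IsUnit a ∧ x = eisRatio k M a}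

/-- The function field of `X₁(M)` over `ℚ`. -/
def field : IntermediateField ℚ (LaurentSeries ℚ) :=
  IntermediateField.adjoin ℚ (gens ℚ M)

/-- The function field of `X₁(M)` over `L`. -/
abbrev FL (L : Type*) [Field L] [Algebra ℚ L] : IntermediateField L (LaurentSeries L) :=
  laurentBaseChange L (field M)

theorem modularFunctionFieldFull_le : modularFunctionFieldFull M ≤ field M :=
  IntermediateField.adjoin.mono ℚ _ _ fun _ hx => Or.inl hx

instance [NeZero M] : Fact (jq ∈ field M) :=
  ⟨modularFunctionFieldFull_le M (modularFunctionField_le_full M (jq_mem M))⟩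

theorem eisExp_eq_eisQ (a : ZMod M) : eisExp k M a = eisQ M a k := coeffMap_ofPowerSeries _ _

theorem coeffMap_eisExp {k' : Type*} [Field k'] (f : k →+* k') (a : ZMod M) :
    coeffMap f (eisExp k M a) = eisExp k' M a := by
  rw [eisExp_eq_eisQ, eisExp_eq_eisQ, coeffMap_eisQ]

theorem coeffMap_eisRatio {k' : Type*} [Field k'] (f : k →+* k') (a : ZMod M) :
    coeffMap f (eisRatio k M a) = eisRatio k' M a := by
  rw [eisRatio, map_div₀, coeffMap_eisExp, coeffMap_eisExp]; rfl

theorem eisRatio_neg (a : ZMod M) : eisRatio k M (-a) = eisRatio k M a := by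
  simp only [eisRatio, eisExp_eq_eisQ, eisQ_neg]

variable {M}

theorem unit_eq_one_of_le_two (hM : ¬ 3 ≤ M) [NeZero M] (a : (ZMod M)ˣ) : a = 1 := by
  have : M = 1 ∨ M = 2 := by have := NeZero.pos M; omega
  rcases this with rfl | rfl <;> revert a <;> decide

variable (M) [NeZero M]

theorem eisExp_one_ne_zero [CharZero k] : eisExp k M (1 : ZMod M) ≠ 0 := by
  intro h
  have h1 := congrArg (fun x : LaurentSeries k => x.coeff ((1 : ℕ) : ℤ)) h
  rw [eisExp_eq_eisQ, eisQ_coeff, HahnSeries.coeff_zero, Int.cast_eq_zero] at h1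
  simp only [eisCoeff, Nat.divisorsAntidiagonal_one, Finset.sum_singleton, eisWeight, Nat.cast_one,
    Int.cast_one, one_pow, mul_one, if_true] at h1
  split_ifs at h1 <;> omega

theorem eisRatio_one [CharZero k] : eisRatio k M (1 : ZMod M) = 1 :=
  div_self (eisExp_one_ne_zero k M)

theorem eisExp_ne_zero [CharZero k] {a : ZMod M} (ha : IsUnit a) : eisExp k M a ≠ 0 := by
  rcases em (3 ≤ M) with hM | hM
  · rw [eisExp_eq_eisQ]
    exact eisQ_ne_zero (two_mul_ne_zero_of_isUnit hM ha) k
  · rw [← ha.unit_spec, unit_eq_one_of_le_two hM ha.unit, Units.val_one]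
    exact eisExp_one_ne_zero k M

theorem eisRatio_ne_zero [CharZero k] {a : ZMod M} (ha : IsUnit a) : eisRatio k M a ≠ 0 :=
  div_ne_zero (eisExp_ne_zero k M ha) (eisExp_one_ne_zero k M)

theorem eisRatio_eq_rSeries (hM : 3 ≤ M) (a : ZMod M) : eisRatio k M a = rSeries M a k := by
  have h1 : eisExp k M (1 : ZMod M) ≠ 0 := by
    rw [eisExp_eq_eisQ]
    exact eisQ_ne_zero (two_mul_ne_zero_of_isUnit hM isUnit_one) k
  rw [eisRatio, div_eq_iff h1, eisExp_eq_eisQ, eisExp_eq_eisQ, rSeries_mul_eisQ_one hM]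

end Defs

section Model

variable (M : ℕ) (L : Type*) [Field L] [Algebra ℚ L]

/-- `FL M L` is generated over `L` by the expansions over `L` of the generators. -/
theorem FL_eq_adjoin : FL M L = IntermediateField.adjoin L (gens L M) := by
  apply le_antisymm
  · refine IntermediateField.adjoin_le_iff.2 ?_
    rintro _ ⟨x, hx, rfl⟩
    induction hx using IntermediateField.adjoin_induction with
    | mem y hy =>
      refine subset_adjoin L _ ?_
      rcases hy with ⟨d, hd0, hd, rfl⟩ | ⟨a, ha, rfl⟩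
      · rw [coeffEmb, coeffMap_qExpand, coeffMap_jqModC]
        exact Or.inl (mem_divisorExpansionsC L M hd)
      · exact Or.inr ⟨a, ha, coeffMap_eisRatio _ M _ a⟩
    | algebraMap c =>
      rw [algebraMap_laurentSeries_eq_single, coeffEmb, coeffMap_single,
        ← algebraMap_laurentSeries_eq_single]
      exact (adjoin L (gens L M)).algebraMap_mem _
    | add x y _ _ hx hy => rw [map_add]; exact add_mem hx hy
    | inv x _ hx => rw [map_inv₀]; exact inv_mem hx
    | mul x y _ _ hx hy => rw [map_mul]; exact mul_mem hx hy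
  · refine IntermediateField.adjoin_le_iff.2 fun y hy => ?_
    rcases hy with ⟨d, hd0, hd, rfl⟩ | ⟨a, ha, rfl⟩
    · rw [← coeffMap_jqModC (algebraMap ℚ L), ← coeffMap_qExpand]
      exact coeffEmb_mem_laurentBaseChange L (subset_adjoin ℚ _
        (Or.inl (mem_divisorExpansionsC ℚ M hd)))
    · rw [← coeffMap_eisRatio ℚ M (algebraMap ℚ L)]
      exact coeffEmb_mem_laurentBaseChange L (subset_adjoin ℚ _ (Or.inr ⟨a, ha, rfl⟩))

theorem mem_FL_of_mem_gens {x : LaurentSeries L} (hx : x ∈ gens L M) : x ∈ FL M L := by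
  rw [FL_eq_adjoin]; exact subset_adjoin L _ hx

/-- The generator `j(q^d)` in `FL M L`. -/
def jdElt {d : ℕ} [NeZero d] (hd : d ∣ M) : FL M L :=
  ⟨qExpand L d (jqModC L), mem_FL_of_mem_gens M L (Or.inl (mem_divisorExpansionsC L M hd))⟩

/-- The generator `e_a / e_1` in `FL M L`. -/
def rElt (a : (ZMod M)ˣ) : FL M L :=
  ⟨eisRatio L M (a : ZMod M), mem_FL_of_mem_gens M L (Or.inr ⟨a, a.isUnit, rfl⟩)⟩

/-- The `j`-function in `FL M L`. -/
def jElt [NeZero M] : FL M L := EichlerShimura.jElt L (field M)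

@[simp]
theorem coe_jdElt {d : ℕ} [NeZero d] (hd : d ∣ M) :
    (jdElt M L hd : LaurentSeries L) = qExpand L d (jqModC L) := rfl

@[simp]
theorem coe_rElt (a : (ZMod M)ˣ) :
    (rElt M L a : LaurentSeries L) = eisRatio L M (a : ZMod M) := rfl

theorem jdElt_one [NeZero M] : jdElt M L (one_dvd M) = jElt M L := by
  refine Subtype.ext ?_
  rw [coe_jdElt, qExpand_one_apply, jElt, EichlerShimura.coe_jElt, coeffEmb, ← jqModC_rat,
    coeffMap_jqModC]

/-- A subfield containing the constants and the generators contains everything. -/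
theorem mem_of_gens_mem (S : Subfield (FL M L)) (hc : ∀ c : L, algebraMap L (FL M L) c ∈ S)
    (hj : ∀ (d : ℕ) (_ : NeZero d) (hd : d ∣ M), jdElt M L hd ∈ S)
    (hr : ∀ a : (ZMod M)ˣ, rElt M L a ∈ S) (x : FL M L) : x ∈ S := by
  have h : (S.map (FL M L).val.toRingHom : Subfield (LaurentSeries L)) ≥
      (IntermediateField.adjoin L (gens L M)).toSubfield := by
    rw [IntermediateField.adjoin_toSubfield]
    refine Subfield.closure_le.2 ?_
    rintro _ (⟨c, rfl⟩ | ⟨d, hd0, hd, rfl⟩ | ⟨a, ha, rfl⟩)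
    · exact ⟨_, hc c, rfl⟩
    · exact ⟨_, hj d hd0 hd, rfl⟩
    · exact ⟨_, hr ha.unit, by simp⟩
  have hx : (x : LaurentSeries L) ∈ IntermediateField.adjoin L (gens L M) :=
    (FL_eq_adjoin M L) ▸ x.2
  obtain ⟨y, hy, hyx⟩ := h hx
  rwa [← Subtype.ext (a1 := y) (a2 := x) hyx]

/-- Two homomorphisms agreeing on constants and generators are equal. -/
theorem ringHom_ext_FL {R : Type*} [Field R] {f g : FL M L →+* R}
    (hc : ∀ c : L, f (algebraMap L (FL M L) c) = g (algebraMap L (FL M L) c))
    (hj : ∀ (d : ℕ) (_ : NeZero d) (hd : d ∣ M), f (jdElt M L hd) = g (jdElt M L hd))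
    (hr : ∀ a : (ZMod M)ˣ, f (rElt M L a) = g (rElt M L a)) : f = g :=
  RingHom.ext fun x => mem_of_gens_mem M L (f.eqLocusField g) hc hj hr x

end Model

end Fermat.Agent.DeligneSerre.XOne
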