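/-
The function field of `X₁(M)` over `ℂ` as meromorphic functions on `ℍ`.
-/
import Fermat.Agent.Modular.CuspPlaces
import Fermat.Agent.Modular.GAGA
import Fermat.Agent.DeligneSerre.XOne.Basic

set_option autoImplicit false
set_option linter.unusedSectionVars false

noncomputable section

open Filter
open UpperHalfPlane hiding I
open scoped Manifold MatrixGroups Topology
open CongruenceSubgroup ModularCurve
open Fermat.Agent.Modular

namespace Fermat.Agent.DeligneSerre.XOne

theorem coe_inclusion_gen {k E : Type*} [Field k] [Field E] [Algebra k E]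
    {A B : IntermediateField k E} (h : A ≤ B) (x : A) :
    (((IntermediateField.inclusion h).toRingHom x : B) : E) = (x : E) := rfl

variable (M : ℕ) [NeZero M]

theorem hasQExp_one_iff {f : ℍ → ℂ} {x : LaurentSeries ℂ} :
    HasQExp ((1 : ℕ) : ℝ) f x ↔ HasQExp 1 f x := by
  rw [Nat.cast_one]

/-- A holomorphic function with an expansion in `q`, as an element of the fraction field. -/
def expElt {F : Hol} {x : LaurentSeries ℂ} (h : HasQExp 1 F.1 x) : FractionRing (HolExp 1) :=
  algebraMap (HolExp 1) _ ⟨F, x, hasQExp_one_iff.2 h⟩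

theorem expIntoMero_expElt {F : Hol} {x : LaurentSeries ℂ} (h : HasQExp 1 F.1 x) :
    expIntoMero 1 (expElt h) = algebraMap Hol Mero F :=
  expIntoMero_algebraMap 1 _

theorem expIntoSeries_expElt {F : Hol} {x : LaurentSeries ℂ} (h : HasQExp 1 F.1 x) :
    expIntoSeries 1 (expElt h) = x :=
  (expIntoSeries_algebraMap 1 _).trans (qSeries_eq 1 (hasQExp_one_iff.2 h))

theorem hasQExp_eisHol (hM : 3 ≤ M) (a : (ZMod M)ˣ) :
    HasQExp 1 (eisHol (a : ZMod M)).1 (eisExp ℂ M (a : ZMod M)) := by
  rw [eisExp_eq_eisQ]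
  exact hasQExp_eisFun fun h =>
    two_mul_ne_zero_of_isUnit hM a.isUnit (by rw [h, mul_zero])

theorem hasQExp_eisHol_one (hM : 3 ≤ M) :
    HasQExp 1 (eisHol (1 : ZMod M)).1 (eisExp ℂ M 1) := by
  have h1 := hasQExp_eisHol M hM (1 : (ZMod M)ˣ)
  rwa [Units.val_one] at h1

theorem rElt_eq_one (hM : ¬ 3 ≤ M) (a : (ZMod M)ˣ) : rElt M ℂ a = 1 :=
  Subtype.ext (by rw [coe_rElt, unit_eq_one_of_le_two hM a, Units.val_one, eisRatio_one]; rfl)

theorem FL_le_fieldRange :
    (FL M ℂ).toSubfield ≤ (expIntoSeries 1).fieldRange := by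
  rw [FL_eq_adjoin, IntermediateField.adjoin_toSubfield, Subfield.closure_le]
  rintro _ (⟨c, rfl⟩ | ⟨d, hd0, hd, rfl⟩ | ⟨a, ha, rfl⟩)
  · exact ⟨expElt (F := algebraMap ℂ Hol c) (HasQExp.const_algebraMap 1 c), expIntoSeries_expElt _⟩
  · exact ⟨expElt (hasQExp_jHol d), expIntoSeries_expElt _⟩
  · by_cases hM : 3 ≤ M
    · refine ⟨expElt (hasQExp_eisHol M hM ha.unit) / expElt (hasQExp_eisHol_one M hM), ?_⟩
      rw [map_div₀, expIntoSeries_expElt, expIntoSeries_expElt]
      rfl
    · refine ⟨1, ?_⟩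
      rw [map_one, ← ha.unit_spec, unit_eq_one_of_le_two hM ha.unit, Units.val_one, eisRatio_one]

/-- The preimage in the fraction field of functions with expansions. -/
def expOne : FL M ℂ →+* FractionRing (HolExp 1) :=
  (expIntoSeries 1).rangeRestrictFieldEquiv.symm.toRingHom.comp
    ((FL M ℂ).val.toRingHom.codRestrict _ fun x => FL_le_fieldRange M x.2)

theorem expIntoSeries_expOne (x : FL M ℂ) :
    expIntoSeries 1 (expOne M x) = (x : LaurentSeries ℂ) :=
  RingHom.rangeRestrictFieldEquiv_apply_symm_apply _ _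

theorem expOne_eq {x : FL M ℂ} {y : FractionRing (HolExp 1)}
    (h : expIntoSeries 1 y = (x : LaurentSeries ℂ)) : expOne M x = y :=
  (expIntoSeries 1).injective ((expIntoSeries_expOne M x).trans h.symm)

/-- Elements of `FL M ℂ` as meromorphic functions on `ℍ`. -/
def evalMero1 : FL M ℂ →ₐ[ℂ] Mero where
  __ := (expIntoMero 1).comp (expOne M)
  commutes' c := by
    have h : HasQExp 1 (algebraMap ℂ Hol c).1 (algebraMap ℂ (LaurentSeries ℂ) c) :=
      HasQExp.const_algebraMap 1 c
    show expIntoMero 1 (expOne M _) = _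
    rw [expOne_eq M (y := expElt h) (expIntoSeries_expElt h), expIntoMero_expElt,
      ← IsScalarTower.algebraMap_apply]

theorem evalMero1_injective : Function.Injective (evalMero1 M) := RingHom.injective _

/-- `evalMero1` is characterised by `q`-expansions. -/
theorem evalMero1_spec (f : FL M ℂ) :
    ∃ (a b : Hol) (x y : LaurentSeries ℂ), b ≠ 0 ∧ HasQExp 1 a.1 x ∧ HasQExp 1 b.1 y ∧
      evalMero1 M f * algebraMap Hol Mero b = algebraMap Hol Mero a ∧
      (f : LaurentSeries ℂ) * y = x := by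
  obtain ⟨a, b, hb, hab⟩ := IsFractionRing.div_surjective (A := HolExp 1) (expOne M f)
  have hb0 : b ≠ 0 := nonZeroDivisors.ne_zero hb
  refine ⟨a, b, qSeries 1 a, qSeries 1 b, fun h => hb0 (Subtype.ext h),
    hasQExp_one_iff.1 (hasQExp_qSeries 1 a), hasQExp_one_iff.1 (hasQExp_qSeries 1 b), ?_, ?_⟩
  · show expIntoMero 1 (expOne M f) * _ = _
    rw [← hab, map_div₀, expIntoMero_algebraMap, expIntoMero_algebraMap, div_mul_cancel₀]
    exact algebraMap_hol_ne_zero fun h => hb0 (Subtype.ext h)
  · rw [← expIntoSeries_expOne M f, ← hab, map_div₀, expIntoSeries_algebraMap,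
      expIntoSeries_algebraMap, div_mul_cancel₀]
    exact (map_ne_zero_iff _ (qSeries_injective 1)).mpr hb0

/-- Functions are computed from their expansions. -/
theorem evalMero1_eq_algebraMap {x : FL M ℂ} {F : Hol}
    (h : HasQExp 1 F.1 (x : LaurentSeries ℂ)) : evalMero1 M x = algebraMap Hol Mero F := by
  show expIntoMero 1 (expOne M x) = _
  rw [expOne_eq M (y := expElt h) (expIntoSeries_expElt h), expIntoMero_expElt]

theorem evalMero1_eq_div {x : FL M ℂ} {F G : Hol} {A B : LaurentSeries ℂ}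
    (hF : HasQExp 1 F.1 A) (hG : HasQExp 1 G.1 B) (h : (x : LaurentSeries ℂ) = A / B) :
    evalMero1 M x = algebraMap Hol Mero F / algebraMap Hol Mero G := by
  show expIntoMero 1 (expOne M x) = _
  rw [expOne_eq M (y := expElt hF / expElt hG), map_div₀, expIntoMero_expElt, expIntoMero_expElt]
  rw [map_div₀, expIntoSeries_expElt, expIntoSeries_expElt]
  exact h.symm

theorem evalMero1_jdElt {d : ℕ} [NeZero d] (hd : d ∣ M) :
    evalMero1 M (jdElt M ℂ hd) = algebraMap Hol Mero (jHol d) :=
  evalMero1_eq_algebraMap M (x := jdElt M ℂ hd) (by rw [coe_jdElt]; exact hasQExp_jHol d)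

theorem evalMero1_jElt : evalMero1 M (jElt M ℂ) = algebraMap Hol Mero (jHol 1) := by
  rw [← jdElt_one, evalMero1_jdElt]

theorem evalMero1_rElt (hM : 3 ≤ M) (a : (ZMod M)ˣ) :
    evalMero1 M (rElt M ℂ a) = rMero (a : ZMod M) :=
  evalMero1_eq_div M (hasQExp_eisHol M hM a) (hasQExp_eisHol_one M hM) (by rw [coe_rElt, eisRatio])

theorem modularFunctionFieldFullC_le_FL : modularFunctionFieldFullC ℂ M ≤ FL M ℂ := by
  rw [FL_eq_adjoin]
  exact IntermediateField.adjoin.mono ℂ _ _ Set.subset_union_left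

/-- The inclusion of the function field of `X₀(M)`. -/
def ofFC : FC M →+* FL M ℂ :=
  (IntermediateField.inclusion (modularFunctionFieldFullC_le_FL M)).toRingHom

theorem coe_ofFC (x : FC M) : (ofFC M x : LaurentSeries ℂ) = (x : LaurentSeries ℂ) :=
  coe_inclusion_gen (modularFunctionFieldFullC_le_FL M) x

theorem evalMero1_ofFC (x : FC M) : evalMero1 M (ofFC M x) = evalMero M x := by
  obtain ⟨a, b, hb, rfl⟩ := IsFractionRing.div_surjective (A := RC M) x
  have key : ∀ c : RC M,
      evalMero1 M (ofFC M (algebraMap (RC M) (FC M) c)) = algebraMap Hol Mero (evalHol M c) :=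
    fun c => evalMero1_eq_algebraMap M (by rw [coe_ofFC]; exact hasQExp_evalHol M c)
  simp only [map_div₀, key, evalMero_algebraMap]

/-- Translations as `ℂ`-algebra automorphisms. -/
def translateAlg (g : SL(2, ℤ)) : Mero ≃ₐ[ℂ] Mero :=
  AlgEquiv.ofRingEquiv (f := translate g) (translate_const g)

@[simp]
theorem translateAlg_apply (g : SL(2, ℤ)) (φ : Mero) : translateAlg g φ = translate g φ := rfl

theorem translate_algebraMap_jHol {g : SL(2, ℤ)} (hg : g ∈ Gamma0 M) {d : ℕ} [NeZero d]
    (hd : d ∣ M) :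
    translate g (algebraMap Hol Mero (jHol d)) = algebraMap Hol Mero (jHol d) := by
  rw [translate_algebraMap]
  refine congrArg _ (Subtype.ext (funext fun z => ?_))
  rw [smul_hol_apply]
  exact jHol_smul_of_mem M hd (inv_mem hg) z

/-- The functions are invariant under `Γ₁(M)`. -/
theorem translate_evalMero1 {g : SL(2, ℤ)} (hg : g ∈ Gamma1 M) (f : FL M ℂ) :
    translate g (evalMero1 M f) = evalMero1 M f := by
  have h : ((translate g).toRingHom.comp (evalMero1 M).toRingHom) = (evalMero1 M).toRingHom := by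
    refine ringHom_ext_FL M ℂ (fun c => ?_) (fun d _ hd => ?_) (fun a => ?_)
    · show translate g (evalMero1 M (algebraMap ℂ _ c)) = evalMero1 M (algebraMap ℂ _ c)
      rw [AlgHom.commutes, translate_const]
    · show translate g (evalMero1 M (jdElt M ℂ hd)) = evalMero1 M (jdElt M ℂ hd)
      rw [evalMero1_jdElt, translate_algebraMap_jHol M (Gamma1_in_Gamma0 M hg) hd]
    · show translate g (evalMero1 M (rElt M ℂ a)) = evalMero1 M (rElt M ℂ a)
      by_cases hM : 3 ≤ M
      · rw [evalMero1_rElt M hM, translate_rMero_of_mem_Gamma1 hM hg]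
      · rw [rElt_eq_one M hM, map_one, map_one]
  exact RingHom.congr_fun h f

theorem mero_translate_neg_one (φ : Mero) : Modular.translate (-1) φ = φ := by
  have h : (Modular.translate (-1)).toRingHom = RingHom.id Mero := by
    refine IsLocalization.ringHom_ext (nonZeroDivisors Hol) ?_
    refine RingHom.ext fun F => ?_
    show Modular.translate (-1) (algebraMap Hol Mero F) = algebraMap Hol Mero F
    rw [translate_algebraMap]
    refine congrArg _ (Subtype.ext (funext fun z => ?_))
    rw [smul_hol_apply, inv_neg, inv_one, ModularGroup.SL_neg_smul, one_smul]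
  exact RingHom.congr_fun h φ

/-! ### Expansions at the cusps -/

theorem smul_eisTr_mem_holExp (a : ZMod M) (g : SL(2, ℤ)) : eisTrHol a g ∈ HolExp M :=
  let ⟨x, hx, _⟩ := exists_hasQExp_eisTr a g
  ⟨x, hx⟩

/-- Every translate of a function has an expansion in `exp (2πiτ/M)`. -/
theorem translate_evalMero1_mem (g : SL(2, ℤ)) (f : FL M ℂ) :
    translate g (evalMero1 M f) ∈ (expIntoMero M).fieldRange := by
  refine mem_of_gens_mem M ℂ
    ((expIntoMero M).fieldRange.comap ((translate g).toRingHom.comp (evalMero1 M).toRingHom))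
    (fun c => ?_) (fun d _ hd => ?_) (fun a => ?_) f
  · show translate g (evalMero1 M (algebraMap ℂ _ c)) ∈ (expIntoMero M).fieldRange
    rw [AlgHom.commutes, translate_const, IsScalarTower.algebraMap_apply ℂ Hol Mero]
    exact ⟨algebraMap (HolExp M) _ (algebraMap ℂ (HolExp M) c), expIntoMero_algebraMap M _⟩
  · show translate g (evalMero1 M (jdElt M ℂ hd)) ∈ (expIntoMero M).fieldRange
    rw [evalMero1_jdElt, translate_algebraMap]
    exact ⟨algebraMap (HolExp M) _ ⟨_, smul_jHol_mem M g hd⟩, expIntoMero_algebraMap M _⟩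
  · show translate g (evalMero1 M (rElt M ℂ a)) ∈ (expIntoMero M).fieldRange
    by_cases hM : 3 ≤ M
    swap
    · rw [rElt_eq_one M hM, map_one, map_one]
      exact one_mem _
    rw [evalMero1_rElt M hM, translate_rMero]
    exact div_mem
      ⟨algebraMap (HolExp M) _ ⟨_, smul_eisTr_mem_holExp M _ _⟩, expIntoMero_algebraMap M _⟩
      ⟨algebraMap (HolExp M) _ ⟨_, smul_eisTr_mem_holExp M _ _⟩, expIntoMero_algebraMap M _⟩

/-- Quotients of expansions have finite order at the cusp. -/
theorem exists_bounded_of_mem_fieldRange {φ : Mero} (hφ : φ ∈ (expIntoMero M).fieldRange) :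
    ∃ a b : Hol, (∀ᶠ τ in atImInfty, b.1 τ ≠ 0) ∧
      φ * algebraMap Hol Mero b = algebraMap Hol Mero a ∧
      ∃ m : ℕ, IsBoundedAtImInfty fun τ : ℍ =>
        Function.Periodic.qParam (M : ℝ) τ ^ m * (a.1 τ / b.1 τ) := by
  obtain ⟨z, rfl⟩ := hφ
  obtain ⟨a, b, hb, rfl⟩ := IsFractionRing.div_surjective (A := HolExp M) z
  have hb0 : b ≠ 0 := nonZeroDivisors.ne_zero hb
  have hM' : (0 : ℝ) < M := Nat.cast_pos.mpr (NeZero.pos M)
  have hy : qSeries M b ≠ 0 := (map_ne_zero_iff _ (qSeries_injective M)).mpr hb0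
  set x := qSeries M a with hxdef
  set y := qSeries M b with hydef
  have hbt := (hasQExp_qSeries M b).tendsto hM' (m := y.order)
    fun n hn => HahnSeries.coeff_eq_zero_of_lt_order hn
  have hat := (hasQExp_qSeries M a).tendsto hM' (m := x.order)
    fun n hn => HahnSeries.coeff_eq_zero_of_lt_order hn
  have hc := HahnSeries.coeff_order_eq_zero.not.mpr hy
  obtain ⟨m, hm⟩ : ∃ m : ℕ, y.order - x.order ≤ m := ⟨(y.order - x.order).toNat, Int.self_le_toNat _⟩
  refine ⟨a, b, (hbt.eventually_ne hc).mono fun τ h => left_ne_zero_of_mul h, ?_, m, ?_⟩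
  · rw [map_div₀, expIntoMero_algebraMap, expIntoMero_algebraMap, div_mul_cancel₀]
    exact algebraMap_hol_ne_zero fun h => hb0 (Subtype.ext h)
  · obtain ⟨k, hk⟩ : ∃ k : ℕ, (m : ℤ) = y.order - x.order + k :=
      ⟨((m : ℤ) - (y.order - x.order)).toNat, by omega⟩
    have h1 : IsBoundedAtImInfty fun τ : ℍ => Function.Periodic.qParam (M : ℝ) τ ^ k :=
      (((UpperHalfPlane.qParam_tendsto_atImInfty hM').pow k).isBigO_one ℝ)
    have h2 : IsBoundedAtImInfty fun τ : ℍ =>
        ((a : Hol).1 τ * (Function.Periodic.qParam (M : ℝ) τ ^ x.order)⁻¹) /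
          ((b : Hol).1 τ * (Function.Periodic.qParam (M : ℝ) τ ^ y.order)⁻¹) :=
      (hat.div hbt hc).isBigO_one ℝ
    refine (Filter.BoundedAtFilter.mul h1 h2).congr_left fun τ => ?_
    have hq : Function.Periodic.qParam (M : ℝ) τ ≠ 0 := Function.Periodic.qParam_ne_zero _
    simp only [Pi.mul_apply]
    rw [← zpow_natCast _ m, hk, zpow_add₀ hq, zpow_sub₀ hq, zpow_natCast]
    field_simp

/-- The functions have finite order at all cusps. -/
theorem hasFiniteOrderAtCusps_evalMero1 (f : FL M ℂ) :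
    HasFiniteOrderAtCusps M (evalMero1 M f) :=
  fun g => exists_bounded_of_mem_fieldRange M (translate_evalMero1_mem M g f)

theorem translate_neg_one_evalMero1 (f : FL M ℂ) :
    translate (-1) (evalMero1 M f) = evalMero1 M f :=
  mero_translate_neg_one _

end Fermat.Agent.DeligneSerre.XOne
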