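/-
Diamond operators on the function field of `X₁(M)` over `ℂ`, and GAGA.
-/
import Fermat.Agent.DeligneSerre.XOne.Eval
import Mathlib.Algebra.Module.Submodule.Union

set_option autoImplicit false
set_option linter.unusedSectionVars false
set_option synthInstance.maxHeartbeats 100000

noncomputable section

open Filter
open UpperHalfPlane hiding I
open scoped Manifold MatrixGroups Topology
open CongruenceSubgroup ModularCurve Polynomial
open Fermat.Agent.Modular

namespace Fermat.Agent.DeligneSerre.XOne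

variable (M : ℕ)

/-! ### The lower right entry -/

theorem lowerEntry_mul_upperEntry (γ : Gamma0 M) :
    (((γ : SL(2, ℤ)) 1 1 : ℤ) : ZMod M) * (((γ : SL(2, ℤ)) 0 0 : ℤ) : ZMod M) = 1 := by
  have hc : (((γ : SL(2, ℤ)) 1 0 : ℤ) : ZMod M) = 0 := Gamma0_mem.mp γ.2
  have hdet : (γ : SL(2, ℤ)) 0 0 * (γ : SL(2, ℤ)) 1 1 - (γ : SL(2, ℤ)) 0 1 * (γ : SL(2, ℤ)) 1 0 = 1 := by
    rw [← Matrix.det_fin_two]; exact (γ : SL(2, ℤ)).2
  have := congrArg (Int.cast : ℤ → ZMod M) hdet
  push_cast at this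
  rw [hc, mul_zero, sub_zero] at this
  rw [mul_comm]; exact this

/-- `γ ↦ γ₁₁` as a unit. -/
def lowerUnit : Gamma0 M →* (ZMod M)ˣ where
  toFun γ := Units.mkOfMulEqOne _ _ (lowerEntry_mul_upperEntry M γ)
  map_one' := Units.ext (by simp)
  map_mul' γ δ := Units.ext (by
    have hc : (((γ : SL(2, ℤ)) 1 0 : ℤ) : ZMod M) = 0 := Gamma0_mem.mp γ.2
    simp [Matrix.mul_apply, Fin.sum_univ_two, hc])

theorem coe_lowerUnit (γ : Gamma0 M) :
    (lowerUnit M γ : ZMod M) = (((γ : SL(2, ℤ)) 1 1 : ℤ) : ZMod M) := rfl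

theorem coe_lowerUnit_inv (γ : Gamma0 M) :
    (((lowerUnit M γ)⁻¹ : (ZMod M)ˣ) : ZMod M) = (((γ : SL(2, ℤ)) 0 0 : ℤ) : ZMod M) :=
  Units.inv_eq_of_mul_eq_one_right (lowerEntry_mul_upperEntry M γ)

theorem mem_Gamma1_of_lowerUnit_eq_one {γ : Gamma0 M} (h : lowerUnit M γ = 1) :
    (γ : SL(2, ℤ)) ∈ Gamma1 M := by
  refine (Gamma1_mem M _).2 ⟨?_, ?_, Gamma0_mem.mp γ.2⟩
  · rw [← coe_lowerUnit_inv, h, inv_one, Units.val_one]
  · rw [← coe_lowerUnit, h, Units.val_one]

theorem lowerUnit_surjective [NeZero M] : Function.Surjective (lowerUnit M) := by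
  intro d
  have hcop : IsCoprime ((d : ZMod M).val : ℤ) (M : ℤ) :=
    Int.isCoprime_iff_gcd_eq_one.mpr (by
      rw [Int.gcd_natCast_natCast]
      exact ZMod.val_coe_unit_coprime d)
  obtain ⟨a, b, hab⟩ := hcop
  let γ : SL(2, ℤ) := ⟨!![a, -b; (M : ℤ), ((d : ZMod M).val : ℤ)],
    by rw [Matrix.det_fin_two_of]; linear_combination hab⟩
  have hmem : γ ∈ Gamma0 M := Gamma0_mem.mpr (by simp [γ])
  exact ⟨⟨γ, hmem⟩, Units.ext (by simp [coe_lowerUnit, γ])⟩

variable [NeZero M]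

/-- A matrix in `Γ₀(M)` with given lower right entry. -/
def gammaLift (d : (ZMod M)ˣ) : Gamma0 M := (lowerUnit_surjective M d).choose

theorem lowerUnit_gammaLift (d : (ZMod M)ˣ) : lowerUnit M (gammaLift M d) = d :=
  (lowerUnit_surjective M d).choose_spec

/-- Invariant functions only see the lower right entry up to sign. -/
theorem translate_inv_eq_of_lowerUnit {φ : Mero} (hφ : ∀ g ∈ Gamma1 M, translate g φ = φ)
    {γ δ : Gamma0 M} (h : lowerUnit M γ = lowerUnit M δ ∨ lowerUnit M γ = -lowerUnit M δ) :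
    translate (γ : SL(2, ℤ))⁻¹ φ = translate (δ : SL(2, ℤ))⁻¹ φ := by
  have key : translate ((δ : SL(2, ℤ)) * (γ : SL(2, ℤ))⁻¹) φ = φ := by
    rcases h with h | h
    · exact hφ _ (mem_Gamma1_of_lowerUnit_eq_one M (γ := δ * γ⁻¹) (by rw [map_mul, map_inv, h, mul_inv_cancel]))
    · have hm : (-1 : SL(2, ℤ)) ∈ Gamma0 M := by simp [Gamma0_mem]
      have hm1 : lowerUnit M ⟨-1, hm⟩ = -1 := Units.ext (by simp [coe_lowerUnit])
      have := hφ _ (mem_Gamma1_of_lowerUnit_eq_one M (γ := ⟨-1, hm⟩ * (δ * γ⁻¹))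
        (by rw [map_mul, map_mul, map_inv, hm1, h, inv_neg, mul_neg, mul_inv_cancel,
          neg_mul_neg, one_mul]))
      rw [Subgroup.coe_mul, translate_mul, mero_translate_neg_one] at this
      exact this
  calc translate (γ : SL(2, ℤ))⁻¹ φ
      = translate (δ : SL(2, ℤ))⁻¹ (translate ((δ : SL(2, ℤ)) * (γ : SL(2, ℤ))⁻¹) φ) := by
        rw [← translate_mul, inv_mul_cancel_left]
    _ = translate (δ : SL(2, ℤ))⁻¹ φ := by rw [key]


theorem translate_inv_evalMero1_rElt (γ : Gamma0 M) (a : (ZMod M)ˣ) :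
    translate (γ : SL(2, ℤ))⁻¹ (evalMero1 M (rElt M ℂ a)) =
      evalMero1 M (rElt M ℂ ((lowerUnit M γ)⁻¹ * a) / rElt M ℂ (lowerUnit M γ)⁻¹) := by
  by_cases hM : 3 ≤ M
  swap
  · rw [rElt_eq_one M hM, rElt_eq_one M hM, rElt_eq_one M hM, div_one, map_one, map_one]
  rw [map_div₀, evalMero1_rElt M hM, evalMero1_rElt M hM, evalMero1_rElt M hM,
    translate_rMero_of_mem_Gamma0 hM (inv_mem γ.2)]
  have e : (((γ : SL(2, ℤ))⁻¹ 1 1 : ℤ) : ZMod M) = ((lowerUnit M γ)⁻¹ : (ZMod M)ˣ) := by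
    rw [coe_lowerUnit_inv]
    simp [Matrix.SpecialLinearGroup.coe_inv, Matrix.adjugate_fin_two]
  rw [e, Units.val_mul, mul_comm]

theorem translate_inv_mem_range (γ : Gamma0 M) (f : FL M ℂ) :
    translate (γ : SL(2, ℤ))⁻¹ (evalMero1 M f) ∈ (evalMero1 M).fieldRange := by
  refine mem_of_gens_mem M ℂ ((evalMero1 M).fieldRange.toSubfield.comap
    ((translate (γ : SL(2, ℤ))⁻¹).toRingHom.comp (evalMero1 M).toRingHom))
    (fun c => ?_) (fun d _ hd => ?_) (fun a => ?_) f
  · show translate (γ : SL(2, ℤ))⁻¹ (evalMero1 M (algebraMap ℂ _ c)) ∈ (evalMero1 M).fieldRange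
    rw [AlgHom.commutes, translate_const]
    exact (evalMero1 M).fieldRange.algebraMap_mem c
  · show translate (γ : SL(2, ℤ))⁻¹ (evalMero1 M (jdElt M ℂ hd)) ∈ (evalMero1 M).fieldRange
    rw [evalMero1_jdElt, translate_algebraMap_jHol M (inv_mem γ.2) hd, ← evalMero1_jdElt M hd]
    exact ⟨_, rfl⟩
  · show translate (γ : SL(2, ℤ))⁻¹ (evalMero1 M (rElt M ℂ a)) ∈ (evalMero1 M).fieldRange
    rw [translate_inv_evalMero1_rElt]
    exact ⟨_, rfl⟩

/-- `f ↦ f ∘ γ` on the function field. -/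
def pullC (γ : Gamma0 M) : FL M ℂ →ₐ[ℂ] FL M ℂ :=
  (AlgEquiv.ofInjectiveField (evalMero1 M)).symm.toAlgHom.comp
    (((translateAlg (γ : SL(2, ℤ))⁻¹).toAlgHom.comp (evalMero1 M)).codRestrict
      (evalMero1 M).range fun f => translate_inv_mem_range M γ f)

theorem evalMero1_pullC (γ : Gamma0 M) (f : FL M ℂ) :
    evalMero1 M (pullC M γ f) = translate (γ : SL(2, ℤ))⁻¹ (evalMero1 M f) :=
  congrArg Subtype.val ((AlgEquiv.ofInjectiveField (evalMero1 M)).apply_symm_apply
    ⟨translate (γ : SL(2, ℤ))⁻¹ (evalMero1 M f), translate_inv_mem_range M γ f⟩)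

theorem pullC_one : pullC M 1 = AlgHom.id ℂ _ :=
  AlgHom.ext fun f => evalMero1_injective M (by
    rw [evalMero1_pullC, OneMemClass.coe_one, inv_one, map_one]; rfl)

theorem pullC_mul (γ δ : Gamma0 M) : pullC M (γ * δ) = (pullC M δ).comp (pullC M γ) :=
  AlgHom.ext fun f => evalMero1_injective M (by
    rw [AlgHom.comp_apply, evalMero1_pullC, evalMero1_pullC, evalMero1_pullC, Subgroup.coe_mul,
      mul_inv_rev, translate_mul])

theorem pullC_congr {γ δ : Gamma0 M}
    (h : lowerUnit M γ = lowerUnit M δ ∨ lowerUnit M γ = -lowerUnit M δ) :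
    pullC M γ = pullC M δ :=
  AlgHom.ext fun f => evalMero1_injective M (by
    rw [evalMero1_pullC, evalMero1_pullC,
      translate_inv_eq_of_lowerUnit M (fun g hg => translate_evalMero1 M hg f) h])

/-- The diamond operators over `ℂ`. -/
def diamondC : (ZMod M)ˣ →* (FL M ℂ ≃ₐ[ℂ] FL M ℂ) where
  toFun d := AlgEquiv.ofAlgHom (pullC M (gammaLift M d)) (pullC M (gammaLift M d)⁻¹)
    (by rw [← pullC_mul, inv_mul_cancel, pullC_one])
    (by rw [← pullC_mul, mul_inv_cancel, pullC_one])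
  map_one' := AlgEquiv.ext fun f => by
    show pullC M (gammaLift M 1) f = f
    rw [pullC_congr M (δ := 1) (Or.inl (by rw [lowerUnit_gammaLift, map_one])), pullC_one]
    rfl
  map_mul' d e := AlgEquiv.ext fun f => by
    show pullC M (gammaLift M (d * e)) f = pullC M (gammaLift M d) (pullC M (gammaLift M e) f)
    rw [← AlgHom.comp_apply, ← pullC_mul,
      pullC_congr M (δ := gammaLift M e * gammaLift M d) (Or.inl (by
        rw [map_mul, lowerUnit_gammaLift, lowerUnit_gammaLift, lowerUnit_gammaLift, mul_comm]))]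

/-- Over `ℂ` the diamond operators are the translations by `Γ₀(M)`. -/
theorem evalMero1_diamondC (γ : Gamma0 M) (f : FL M ℂ) :
    evalMero1 M (diamondC M (lowerUnit M γ) f) =
      translate (γ : SL(2, ℤ))⁻¹ (evalMero1 M f) := by
  show evalMero1 M (pullC M _ f) = _
  rw [pullC_congr M (δ := γ) (Or.inl (lowerUnit_gammaLift M _)), evalMero1_pullC]

theorem diamondC_jdElt (d : (ZMod M)ˣ) {n : ℕ} [NeZero n] (hn : n ∣ M) :
    diamondC M d (jdElt M ℂ hn) = jdElt M ℂ hn := by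
  refine evalMero1_injective M ?_
  rw [← lowerUnit_gammaLift M d, evalMero1_diamondC, evalMero1_jdElt,
    translate_algebraMap_jHol M (inv_mem (gammaLift M d).2) hn]

theorem diamondC_rElt (d a : (ZMod M)ˣ) :
    diamondC M d (rElt M ℂ a) = rElt M ℂ (d⁻¹ * a) / rElt M ℂ d⁻¹ := by
  refine evalMero1_injective M ?_
  conv_lhs => rw [← lowerUnit_gammaLift M d]
  rw [evalMero1_diamondC, translate_inv_evalMero1_rElt, lowerUnit_gammaLift]

theorem eq_one_or_eq_neg_one_of_diamondC_eq_one {d : (ZMod M)ˣ} (h : diamondC M d = 1) :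
    d = 1 ∨ d = -1 := by
  by_cases hM : 3 ≤ M
  swap
  · exact Or.inl (unit_eq_one_of_le_two hM d)
  by_contra hd
  push Not at hd
  have hd1 : ((d⁻¹ : (ZMod M)ˣ) : ZMod M) ≠ 1 := fun e =>
    hd.1 (inv_eq_one.mp (Units.ext e))
  have hd2 : ((d⁻¹ : (ZMod M)ˣ) : ZMod M) ≠ -1 := fun e =>
    hd.2 (by rw [← inv_inv d, show d⁻¹ = -1 from Units.ext (by simpa using e), inv_neg, inv_one])
  obtain ⟨a, ha, hne⟩ := exists_rSeries_mul_ne hM (Units.isUnit d⁻¹) hd1 hd2 ℂ
  have e : ((diamondC M d (rElt M ℂ ha.unit) : FL M ℂ) : LaurentSeries ℂ) =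
      (rElt M ℂ ha.unit : LaurentSeries ℂ) := by
    rw [h]; rfl
  rw [diamondC_rElt] at e
  have e' : eisRatio ℂ M (((d⁻¹ : (ZMod M)ˣ) : ZMod M) * a) /
      eisRatio ℂ M ((d⁻¹ : (ZMod M)ˣ) : ZMod M) = eisRatio ℂ M a := by
    simpa [Units.val_mul] using e
  rw [div_eq_iff (eisRatio_ne_zero ℂ M (Units.isUnit _)), eisRatio_eq_rSeries ℂ M hM,
    eisRatio_eq_rSeries ℂ M hM, eisRatio_eq_rSeries ℂ M hM] at e'
  exact hne e'

theorem diamondC_neg_one : diamondC M (-1) = 1 := by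
  refine AlgEquiv.ext fun f => ?_
  show pullC M (gammaLift M (-1)) f = f
  rw [pullC_congr M (δ := 1) (Or.inr (by rw [lowerUnit_gammaLift, map_one])), pullC_one]
  rfl

theorem diamondC_eq_iff (d e : (ZMod M)ˣ) :
    diamondC M d = diamondC M e ↔ d = e ∨ d = -e := by
  constructor
  · intro h
    have : diamondC M (d * e⁻¹) = 1 := by rw [map_mul, map_inv, h, mul_inv_cancel]
    rcases eq_one_or_eq_neg_one_of_diamondC_eq_one M this with h | h
    · exact Or.inl (mul_inv_eq_one.mp h)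
    · right
      rw [← mul_inv_cancel_right d e⁻¹, inv_inv, h, neg_one_mul]
  · rintro (rfl | rfl)
    · rfl
    · rw [neg_eq_neg_one_mul, map_mul, diamondC_neg_one, one_mul]

/-! ### GAGA -/

section Interp

variable {K : Type*} [Field K] {G : Type*} [Group G] [Fintype G] [DecidableEq G]

/-- Lagrange interpolation along a finite group. -/
def interpPoly (a b : G → K) : K[X] := ∑ s, C (a s) * ∏ u ∈ Finset.univ.erase s, (X - C (b u))

theorem map_interpPoly (a b : G → K) (f : K →+* K) (u : G) (ha : ∀ s, f (a s) = a (u * s))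
    (hb : ∀ s, f (b s) = b (u * s)) : (interpPoly a b).map f = interpPoly a b := by
  rw [interpPoly, Polynomial.map_sum]
  refine Fintype.sum_equiv (Equiv.mulLeft u) _ _ fun s => ?_
  simp only [Polynomial.map_mul, Polynomial.map_prod, Polynomial.map_sub, map_X, map_C, ha, hb,
    Equiv.coe_mulLeft]
  congr 1
  exact Finset.prod_equiv (Equiv.mulLeft u) (fun t => by simp) fun t _ => rfl

theorem eval_interpPoly (a b : G → K) :
    (interpPoly a b).eval (b 1) = a 1 * ∏ u ∈ Finset.univ.erase 1, (b 1 - b u) := by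
  rw [interpPoly, Polynomial.eval_finsetSum, Finset.sum_eq_single 1]
  · simp [eval_prod]
  · intro s _ hs
    simp only [eval_mul, eval_prod]
    rw [Finset.prod_eq_zero (Finset.mem_erase.mpr ⟨Ne.symm hs, Finset.mem_univ _⟩), mul_zero]
    simp
  · simp

theorem coeff_interpPoly_mem (S : Subring K) (a b : G → K) (ha : ∀ s, a s ∈ S) (hb : ∀ s, b s ∈ S)
    (i : ℕ) : (interpPoly a b).coeff i ∈ S := by
  have h : interpPoly a b = (∑ s, C (⟨a s, ha s⟩ : S) *
      ∏ u ∈ Finset.univ.erase s, (X - C (⟨b u, hb u⟩ : S))).map S.subtype := by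
    simp [interpPoly, Polynomial.map_sum, Polynomial.map_prod]
  rw [h, Polynomial.coeff_map]
  exact SetLike.coe_mem _

theorem exists_eq_of_interpPoly {E : Type*} [Field E] (f : E →+* K) (a : G → K) (b : G → E)
    (hb : ∀ u, b u = b 1 → u = 1)
    (hc : ∀ i, ∃ c, f c = (interpPoly a fun s => f (b s)).coeff i) : ∃ x, f x = a 1 := by
  choose c hc using hc
  let den : E := ∏ u ∈ Finset.univ.erase (1 : G), (b 1 - b u)
  have hden : den ≠ 0 := Finset.prod_ne_zero_iff.mpr fun u hu h0 =>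
    (Finset.mem_erase.mp hu).1 (hb u (sub_eq_zero.mp h0).symm)
  refine ⟨(∑ i ∈ Finset.range ((interpPoly a fun s => f (b s)).natDegree + 1), c i * b 1 ^ i) / den,
    ?_⟩
  rw [map_div₀, div_eq_iff ((map_ne_zero f).mpr hden)]
  calc f (∑ i ∈ Finset.range ((interpPoly a fun s => f (b s)).natDegree + 1), c i * b 1 ^ i)
      = (interpPoly a fun s => f (b s)).eval (f (b 1)) := by
        rw [Polynomial.eval_eq_sum_range, map_sum]
        exact Finset.sum_congr rfl fun i _ => by rw [map_mul, map_pow, hc]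
    _ = a 1 * ∏ u ∈ Finset.univ.erase 1, (f (b 1) - f (b u)) := eval_interpPoly a fun s => f (b s)
    _ = a 1 * f den := by simp [den, map_prod]

end Interp

/-- Functions of finite order at the cusps form a ring. -/
def focSubring : Subring Mero where
  carrier := {φ | HasFiniteOrderAtCusps M φ}
  zero_mem' g := ⟨0, 1, Eventually.of_forall fun _ => one_ne_zero, by simp,
    0, (Asymptotics.isBigO_const_one ℝ (0 : ℂ) atImInfty).congr_left fun τ => by simp⟩
  one_mem' g := ⟨1, 1, Eventually.of_forall fun _ => one_ne_zero, by simp,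
    0, (Asymptotics.isBigO_const_one ℝ (1 : ℂ) atImInfty).congr_left fun τ => by simp⟩
  neg_mem' := fun {φ} hφ g => by
    obtain ⟨a, b, hb, hab, m, hm⟩ := hφ g
    exact ⟨-a, b, hb, by rw [map_neg, map_neg, neg_mul, hab], m, by
      refine hm.neg_left.congr_left fun τ => ?_
      show _ = _ * (-(a.1 τ) / b.1 τ)
      ring⟩
  add_mem' := fun {φ ψ} hφ hψ g => by
    obtain ⟨a, b, hb, hab, m, hm⟩ := hφ g
    obtain ⟨c, d, hd, hcd, n, hn⟩ := hψ g
    refine ⟨a * d + c * b, b * d, ?_, ?_, m + n, ?_⟩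
    · filter_upwards [hb, hd] with τ h1 h2 using mul_ne_zero h1 h2
    · rw [map_add, add_mul, map_add, map_mul, map_mul, map_mul]
      linear_combination algebraMap Hol Mero d * hab + algebraMap Hol Mero b * hcd
    · have hq : IsBoundedAtImInfty fun τ : ℍ => Function.Periodic.qParam (M : ℝ) τ :=
        (UpperHalfPlane.qParam_tendsto_atImInfty (Nat.cast_pos.mpr (NeZero.pos M))).isBigO_one ℝ
      have hqn : IsBoundedAtImInfty fun τ : ℍ => Function.Periodic.qParam (M : ℝ) τ ^ n := by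
        exact (hq.pow n).congr_right fun τ => one_pow n
      have hqm : IsBoundedAtImInfty fun τ : ℍ => Function.Periodic.qParam (M : ℝ) τ ^ m := by
        exact (hq.pow m).congr_right fun τ => one_pow m
      have h := Asymptotics.IsBigO.add (Filter.BoundedAtFilter.mul hqn hm)
        (Filter.BoundedAtFilter.mul hqm hn)
      refine h.congr' ?_ EventuallyEq.rfl
      filter_upwards [hb, hd] with τ h1 h2
      show _ = _ * ((a.1 τ * d.1 τ + c.1 τ * b.1 τ) / (b.1 τ * d.1 τ))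
      simp only [Pi.mul_apply]
      field_simp
      ring
  mul_mem' := fun {φ ψ} hφ hψ g => by
    obtain ⟨a, b, hb, hab, m, hm⟩ := hφ g
    obtain ⟨c, d, hd, hcd, n, hn⟩ := hψ g
    refine ⟨a * c, b * d, ?_, ?_, m + n, ?_⟩
    · filter_upwards [hb, hd] with τ h1 h2 using mul_ne_zero h1 h2
    · rw [map_mul, map_mul, map_mul]
      linear_combination (translate g ψ * algebraMap Hol Mero d) * hab +
        algebraMap Hol Mero a * hcd
    · refine (Filter.BoundedAtFilter.mul hm hn).congr' (Eventually.of_forall fun τ => ?_)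
        EventuallyEq.rfl
      show _ = _ * ((a.1 τ * c.1 τ) / (b.1 τ * d.1 τ))
      simp only [Pi.mul_apply]
      rw [pow_add, ← div_mul_div_comm]
      ring

theorem translate_mem_focSubring (h : SL(2, ℤ)) {φ : Mero} (hφ : φ ∈ focSubring M) :
    translate h φ ∈ focSubring M := fun g => by
  rw [← translate_mul]; exact hφ (g * h)

theorem exists_separating :
    ∃ θ : FL M ℂ, ∀ s : (diamondC M).range, (s : FL M ℂ ≃ₐ[ℂ] FL M ℂ) θ = θ → s = 1 := by
  classical
  let ι := {s : (diamondC M).range // s ≠ 1}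
  have : Fintype (diamondC M).range := Fintype.ofFinite _
  let p : ι → Submodule ℂ (FL M ℂ) := fun s =>
    LinearMap.eqLocus (((s.1 : (diamondC M).range) : FL M ℂ ≃ₐ[ℂ] FL M ℂ).toLinearMap)
      LinearMap.id
  have hp : ∀ s, p s ≠ ⊤ := by
    rintro ⟨s, hs⟩ htop
    refine hs (Subtype.ext (AlgEquiv.ext fun x => ?_))
    have hx : x ∈ p ⟨s, hs⟩ := htop ▸ Submodule.mem_top
    exact hx
  obtain ⟨θ, hθ⟩ := Submodule.exists_forall_notMem_of_forall_ne_top p hp
  exact ⟨θ, fun s hs => by_contra fun hne => hθ ⟨s, hne⟩ hs⟩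

/-- GAGA for `X₁(M)`. -/
theorem exists_evalMero1_eq {φ : Mero} (hinv : ∀ g ∈ Gamma1 M, translate g φ = φ)
    (hcusp : HasFiniteOrderAtCusps M φ) : ∃ f : FL M ℂ, evalMero1 M f = φ := by
  classical
  have : Fintype (diamondC M).range := Fintype.ofFinite _
  obtain ⟨θ, hθ⟩ := exists_separating M
  have hex : ∀ s : (diamondC M).range, ∃ γ : Gamma0 M, diamondC M (lowerUnit M γ) = s := by
    rintro ⟨_, d, rfl⟩
    exact ⟨gammaLift M d, by rw [lowerUnit_gammaLift]⟩
  choose rep hrep using hex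
  have hswap : ∀ (s : (diamondC M).range) (γ : Gamma0 M), diamondC M (lowerUnit M γ) = s →
      translate ((rep s : SL(2, ℤ)))⁻¹ φ = translate (γ : SL(2, ℤ))⁻¹ φ := fun s γ h =>
    translate_inv_eq_of_lowerUnit M hinv ((diamondC_eq_iff M _ _).mp ((hrep s).trans h.symm))
  let A : (diamondC M).range → Mero := fun s => translate ((rep s : SL(2, ℤ)))⁻¹ φ
  let B : (diamondC M).range → Mero :=
    fun s => evalMero1 M ((s : FL M ℂ ≃ₐ[ℂ] FL M ℂ) θ)
  let Q : Mero[X] := interpPoly A B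
  have hQinv : ∀ h : Gamma0 M, Q.map (translate (h : SL(2, ℤ))).toRingHom = Q := by
    intro h
    refine map_interpPoly A B _ (⟨diamondC M (lowerUnit M h⁻¹), _, rfl⟩ : (diamondC M).range)
      (fun s => ?_) fun s => ?_
    · show translate (h : SL(2, ℤ)) (translate ((rep s : SL(2, ℤ)))⁻¹ φ) =
        translate ((rep (_ * s) : SL(2, ℤ)))⁻¹ φ
      rw [hswap (_ * s) (rep s * h⁻¹) (by
        rw [map_mul, mul_comm, map_mul, hrep]
        rfl), ← translate_mul]
      refine congrArg (fun g : SL(2, ℤ) => translate g φ) ?_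
      rw [Subgroup.coe_mul, InvMemClass.coe_inv, mul_inv_rev, inv_inv]
    · show translate (h : SL(2, ℤ)) (evalMero1 M ((s : FL M ℂ ≃ₐ[ℂ] FL M ℂ) θ)) =
        evalMero1 M (diamondC M (lowerUnit M h⁻¹) ((s : FL M ℂ ≃ₐ[ℂ] FL M ℂ) θ))
      rw [evalMero1_diamondC, InvMemClass.coe_inv, inv_inv]
  have hcoef : ∀ i, ∃ c : FL M ℂ, evalMero1 M c = Q.coeff i := by
    intro i
    obtain ⟨c, hc⟩ := exists_evalMero_eq (N := M) (φ := Q.coeff i)
      (fun g hg => by
        have := congrArg (fun R => R.coeff i) (hQinv ⟨g, hg⟩)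
        rw [Polynomial.coeff_map] at this
        exact this)
      (coeff_interpPoly_mem (focSubring M) A B (fun s => translate_mem_focSubring M _ hcusp)
        (fun s => hasFiniteOrderAtCusps_evalMero1 M _) i)
    exact ⟨ofFC M c, by rw [evalMero1_ofFC, hc]⟩
  have hA1 : A 1 = φ := by
    show translate ((rep 1 : SL(2, ℤ)))⁻¹ φ = φ
    rw [hswap 1 1 (by rw [map_one, map_one]; rfl), OneMemClass.coe_one, inv_one, map_one]
    rfl
  obtain ⟨x, hx⟩ := exists_eq_of_interpPoly (evalMero1 M).toRingHom A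
    (fun s : (diamondC M).range => (s : FL M ℂ ≃ₐ[ℂ] FL M ℂ) θ) (fun u hu => hθ u hu) hcoef
  exact ⟨x, hx.trans hA1⟩

/-- The translates separate the cosets of `±Γ₁(M)`. -/
theorem mem_Gamma1_of_pullC_eq_one {γ : Gamma0 M} (h : diamondC M (lowerUnit M γ) = 1) :
    (γ : SL(2, ℤ)) ∈ Gamma1 M ∨ -(γ : SL(2, ℤ)) ∈ Gamma1 M := by
  rcases eq_one_or_eq_neg_one_of_diamondC_eq_one M h with h | h
  · exact Or.inl (mem_Gamma1_of_lowerUnit_eq_one M h)
  · right
    have hm : (-1 : SL(2, ℤ)) ∈ Gamma0 M := by simp [Gamma0_mem]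
    have := mem_Gamma1_of_lowerUnit_eq_one M (γ := ⟨-1, hm⟩ * γ) (by
      rw [map_mul, h, show lowerUnit M ⟨-1, hm⟩ = -1 from Units.ext (by simp [coe_lowerUnit]),
        neg_mul_neg, one_mul])
    rwa [Subgroup.coe_mul, neg_one_mul] at this

end Fermat.Agent.DeligneSerre.XOne
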