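/-
Extension of automorphisms of a Laurent series field over `K` to a constant extension, through the
injectivity of `L ⊗ F₀ → L((q))`.
-/
import Fermat.Prelude.Def_ModularCurve_LaurentCoeff
import Mathlib.RingTheory.TensorProduct.Maps
import Mathlib.LinearAlgebra.TensorProduct.Basis
import Mathlib.RingTheory.Localization.FractionRing

set_option autoImplicit false

noncomputable section

open TensorProduct ModularCurve

namespace Fermat.Agent.DeligneSerre.XOne

variable {K : Type*} [Field K] (L : Type*) [Field L] [Algebra K L]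
  (F₀ : IntermediateField K (LaurentSeries K))

instance isScalarTower_laurentSeries :
    @IsScalarTower K L (LaurentSeries L) Algebra.toSMul Algebra.toSMul Algebra.toSMul :=
  IsScalarTower.of_algebraMap_eq (R := K) (S := L) (A := LaurentSeries L) fun c => by
    rw [HahnSeries.algebraMap_apply', HahnSeries.algebraMap_apply',
      IsScalarTower.algebraMap_apply K L (PowerSeries L)]

/-- The compositum of `L` and `F₀` inside `L((q))`. -/
def extField : IntermediateField L (LaurentSeries L) :=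
  IntermediateField.adjoin L (⇑(coeffMap (algebraMap K L)) '' (F₀ : Set (LaurentSeries K)))

theorem coeffMap_mem_extField {x : LaurentSeries K} (hx : x ∈ F₀) :
    coeffMap (algebraMap K L) x ∈ extField L F₀ :=
  IntermediateField.subset_adjoin L _ ⟨x, hx, rfl⟩


/-- `coeffEmb` on `F₀`, as an algebra map. -/
def coeffEmbAlg : F₀ →ₐ[K] LaurentSeries L :=
  { (coeffMap (algebraMap K L)).comp F₀.val.toRingHom with
    commutes' := fun c => by
      show coeffMap (algebraMap K L) (algebraMap K (LaurentSeries K) c) = _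
      rw [algebraMap_laurentSeries_eq_single, coeffMap_single, ← algebraMap_laurentSeries_eq_single,
        ← IsScalarTower.algebraMap_apply] }

/-- `L ⊗ F₀ → L((q))`. -/
def tensorEmb : L ⊗[K] F₀ →ₐ[L] LaurentSeries L :=
  Algebra.TensorProduct.lift (Algebra.ofId L (LaurentSeries L)) (coeffEmbAlg L F₀)
    (fun _ _ => Commute.all _ _)

theorem tensorEmb_tmul (c : L) (x : F₀) :
    tensorEmb L F₀ (c ⊗ₜ x) =
      algebraMap L (LaurentSeries L) c * coeffMap (algebraMap K L) (x : LaurentSeries K) :=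
  Algebra.TensorProduct.lift_tmul _ _ _ _ _

theorem coeff_tensorEmb_tmul (c : L) (x : F₀) (n : ℤ) :
    (tensorEmb L F₀ (c ⊗ₜ x)).coeff n =
      c * algebraMap K L ((x : LaurentSeries K).coeff n) := by
  rw [tensorEmb_tmul, algebraMap_laurentSeries_eq_single, HahnSeries.single_zero_mul_eq_smul,
    HahnSeries.coeff_smul, smul_eq_mul, coeffMap_coeff]

/-- Linear disjointness. -/
theorem tensorEmb_injective : Function.Injective (tensorEmb L F₀) := by
  rw [injective_iff_map_eq_zero]
  intro s hs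
  classical
  let b := Module.Basis.ofVectorSpace K L
  let f := TensorProduct.equivFinsuppOfBasisLeft (N := F₀) b s
  have hsum : s = ∑ i ∈ f.support, b i ⊗ₜ f i := by
    conv_lhs => rw [← (TensorProduct.equivFinsuppOfBasisLeft (N := F₀) b).symm_apply_apply s]
    rw [TensorProduct.equivFinsuppOfBasisLeft_symm_apply]
    rfl
  suffices f = 0 by rw [hsum, this]; simp
  refine Finsupp.ext fun i => Subtype.ext (HahnSeries.ext (funext fun n => ?_))
  have h := congrArg (fun y : LaurentSeries L => y.coeff n) hs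
  rw [hsum, map_sum] at h
  simp only [HahnSeries.coeff_sum, coeff_tensorEmb_tmul, HahnSeries.coeff_zero] at h
  have hlin : ∑ j ∈ f.support, ((f j : LaurentSeries K).coeff n) • b j = 0 := by
    rw [← h]
    exact Finset.sum_congr rfl fun j _ => by rw [Algebra.smul_def, mul_comm]
  by_cases hi : i ∈ f.support
  · exact linearIndependent_iff'.mp b.linearIndependent f.support
      (fun j => (f j : LaurentSeries K).coeff n) hlin i hi
  · rw [Finsupp.notMem_support_iff.mp hi]; simp

instance : IsDomain (L ⊗[K] F₀) := (tensorEmb_injective L F₀).isDomain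

/-- `Frac (L ⊗ F₀) → L((q))`. -/
def fracEmb : FractionRing (L ⊗[K] F₀) →ₐ[L] LaurentSeries L :=
  IsFractionRing.liftAlgHom (tensorEmb_injective L F₀)

theorem fracEmb_algebraMap (s : L ⊗[K] F₀) :
    fracEmb L F₀ (algebraMap _ _ s) = tensorEmb L F₀ s := by
  rw [fracEmb, IsFractionRing.liftAlgHom_apply]
  exact IsFractionRing.lift_algebraMap _ _

theorem tensorEmb_mem (s : L ⊗[K] F₀) : tensorEmb L F₀ s ∈ extField L F₀ := by
  induction s using TensorProduct.induction_on with
  | zero => rw [map_zero]; exact zero_mem _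
  | tmul c x =>
    rw [tensorEmb_tmul]
    exact mul_mem ((extField L F₀).algebraMap_mem c)
      (coeffMap_mem_extField L F₀ x.2)
  | add a b ha hb => rw [map_add]; exact add_mem ha hb

theorem fieldRange_fracEmb : (fracEmb L F₀).fieldRange = extField L F₀ := by
  apply le_antisymm
  · rintro _ ⟨z, rfl⟩
    obtain ⟨a, b, -, rfl⟩ := IsFractionRing.div_surjective (A := L ⊗[K] F₀) z
    show fracEmb L F₀ _ ∈ _
    rw [map_div₀, fracEmb_algebraMap, fracEmb_algebraMap]
    exact div_mem (tensorEmb_mem L F₀ a) (tensorEmb_mem L F₀ b)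
  · refine IntermediateField.adjoin_le_iff.2 ?_
    rintro _ ⟨x, hx, rfl⟩
    refine ⟨algebraMap _ _ ((1 : L) ⊗ₜ[K] (⟨x, hx⟩ : F₀)), ?_⟩
    show fracEmb L F₀ _ = _
    rw [fracEmb_algebraMap, tensorEmb_tmul, map_one, one_mul]

/-- The element of the base change attached to an element of `F₀`. -/
def bcElt : F₀ →+* extField L F₀ :=
  ((coeffMap (algebraMap K L)).comp (algebraMap F₀ (LaurentSeries K))).codRestrict _
    fun x => coeffMap_mem_extField L F₀ x.2

theorem coe_bcElt (x : F₀) :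
    (bcElt L F₀ x : LaurentSeries L) = coeffMap (algebraMap K L) (x : LaurentSeries K) := rfl

variable {L F₀}

/-- A homomorphism on the base change is determined on `F₀`. -/
theorem algHom_ext_baseChange {R : Type*} [Field R] [Algebra L R]
    {f g : extField L F₀ →ₐ[L] R}
    (h : ∀ x : F₀, f (bcElt L F₀ x) = g (bcElt L F₀ x)) : f = g := by
  refine AlgHom.ext fun x => ?_
  obtain ⟨x, hx⟩ := x
  induction hx using IntermediateField.adjoin_induction with
  | mem y hy =>
    obtain ⟨z, hz, rfl⟩ := hy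
    exact h ⟨z, hz⟩
  | algebraMap c => exact (f.commutes c).trans (g.commutes c).symm
  | add a b ha hb iha ihb =>
    exact (map_add f (⟨a, ha⟩ : extField L F₀) ⟨b, hb⟩).trans
      ((congrArg₂ (· + ·) iha ihb).trans (map_add g _ _).symm)
  | inv a ha iha =>
    exact (map_inv₀ f (⟨a, ha⟩ : extField L F₀)).trans
      ((congrArg Inv.inv iha).trans (map_inv₀ g _).symm)
  | mul a b ha hb iha ihb =>
    exact (map_mul f (⟨a, ha⟩ : extField L F₀) ⟨b, hb⟩).trans
      ((congrArg₂ (· * ·) iha ihb).trans (map_mul g _ _).symm)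

variable (L)

/-- `id ⊗ σ`. -/
def tensorEnd (σ : F₀ ≃ₐ[K] F₀) : L ⊗[K] F₀ ≃ₐ[L] L ⊗[K] F₀ :=
  Algebra.TensorProduct.congr AlgEquiv.refl σ

/-- `L ⊗ F₀ → L((q))` twisted by `σ`, on the fraction field. -/
def fracTwist (σ : F₀ ≃ₐ[K] F₀) : FractionRing (L ⊗[K] F₀) →ₐ[L] LaurentSeries L :=
  IsFractionRing.liftAlgHom (g := (tensorEmb L F₀).comp (tensorEnd L σ).toAlgHom)
    ((tensorEmb_injective L F₀).comp (tensorEnd L σ).injective)

theorem fracTwist_algebraMap (σ : F₀ ≃ₐ[K] F₀) (s : L ⊗[K] F₀) :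
    fracTwist L σ (algebraMap _ _ s) = tensorEmb L F₀ (tensorEnd L σ s) := by
  unfold fracTwist
  exact (IsFractionRing.liftAlgHom_apply _ _).trans (IsFractionRing.lift_algebraMap _ _)

/-- The identification of the base change with `Frac (L ⊗ F₀)`. -/
def fracInv (F₀ : IntermediateField K (LaurentSeries K)) : extField L F₀ →ₐ[L] FractionRing (L ⊗[K] F₀) :=
  (AlgEquiv.ofInjectiveField (fracEmb L F₀)).symm.toAlgHom.comp
    (IntermediateField.inclusion (fieldRange_fracEmb L F₀).ge)

theorem fracEmb_fracInv (x : extField L F₀) :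
    fracEmb L F₀ (fracInv L F₀ x) = (x : LaurentSeries L) :=
  congrArg Subtype.val ((AlgEquiv.ofInjectiveField (fracEmb L F₀)).apply_symm_apply
    (IntermediateField.inclusion (fieldRange_fracEmb L F₀).ge x))

theorem fracInv_bcElt (x : F₀) :
    fracInv L F₀ (bcElt L F₀ x) = algebraMap _ _ ((1 : L) ⊗ₜ[K] x) := by
  apply (fracEmb L F₀).toRingHom.injective
  show fracEmb L F₀ _ = fracEmb L F₀ _
  rw [fracEmb_fracInv, fracEmb_algebraMap, tensorEmb_tmul, map_one, one_mul, coe_bcElt]

theorem fracTwist_mem (σ : F₀ ≃ₐ[K] F₀) (z : FractionRing (L ⊗[K] F₀)) :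
    fracTwist L σ z ∈ extField L F₀ := by
  obtain ⟨a, b, -, rfl⟩ := IsFractionRing.div_surjective (A := L ⊗[K] F₀) z
  rw [map_div₀, fracTwist_algebraMap, fracTwist_algebraMap]
  exact div_mem (tensorEmb_mem L F₀ _) (tensorEmb_mem L F₀ _)

/-- The endomorphism of the base change induced by `σ`. -/
def bcEnd (σ : F₀ ≃ₐ[K] F₀) : extField L F₀ →ₐ[L] extField L F₀ :=
  ((fracTwist L σ).comp (fracInv L F₀)).codRestrict (extField L F₀).toSubalgebra
    fun x => fracTwist_mem L σ (fracInv L F₀ x)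

theorem bcEnd_bcElt (σ : F₀ ≃ₐ[K] F₀) (x : F₀) :
    bcEnd L σ (bcElt L F₀ x) = bcElt L F₀ (σ x) := by
  apply Subtype.ext
  show fracTwist L σ (fracInv L F₀ (bcElt L F₀ x)) = _
  rw [fracInv_bcElt, fracTwist_algebraMap, tensorEnd, Algebra.TensorProduct.congr_apply,
    Algebra.TensorProduct.map_tmul, tensorEmb_tmul, map_one, map_one, one_mul, coe_bcElt]
  rfl

theorem bcEnd_comp (σ τ : F₀ ≃ₐ[K] F₀) : (bcEnd L σ).comp (bcEnd L τ) = bcEnd L (σ * τ) :=
  algHom_ext_baseChange fun x => by
    rw [AlgHom.comp_apply, bcEnd_bcElt, bcEnd_bcElt, bcEnd_bcElt, AlgEquiv.mul_apply]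

theorem bcEnd_one : bcEnd L (1 : F₀ ≃ₐ[K] F₀) = AlgHom.id L _ :=
  algHom_ext_baseChange fun x => by rw [bcEnd_bcElt]; rfl

/-- Automorphisms of `F₀` extended to the base change. -/
def bcAut : (F₀ ≃ₐ[K] F₀) →* (extField L F₀ ≃ₐ[L] extField L F₀) where
  toFun σ := AlgEquiv.ofAlgHom (bcEnd L σ) (bcEnd L σ⁻¹)
    (by rw [bcEnd_comp, mul_inv_cancel, bcEnd_one])
    (by rw [bcEnd_comp, inv_mul_cancel, bcEnd_one])
  map_one' := AlgEquiv.ext fun x => by
    show bcEnd L 1 x = x
    rw [bcEnd_one]; rfl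
  map_mul' σ τ := AlgEquiv.ext fun x => by
    show bcEnd L (σ * τ) x = bcEnd L σ (bcEnd L τ x)
    rw [← bcEnd_comp]; rfl

theorem bcAut_bcElt (σ : F₀ ≃ₐ[K] F₀) (x : F₀) :
    bcAut L σ (bcElt L F₀ x) = bcElt L F₀ (σ x) :=
  bcEnd_bcElt L σ x

variable (hK : ∀ (σ : F₀ ≃+* F₀) (c : K), σ (algebraMap K F₀ c) = algebraMap K F₀ c)

/-- Ring automorphisms of `F₀` extended to the base change, when they all fix `K`. -/
def bcRingAut : (F₀ ≃+* F₀) →* (extField L F₀ ≃ₐ[L] extField L F₀) :=
  (bcAut L).comp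
    { toFun := fun σ => AlgEquiv.ofRingEquiv (f := σ) (hK σ)
      map_one' := AlgEquiv.ext fun _ => rfl
      map_mul' := fun _ _ => AlgEquiv.ext fun _ => rfl }

theorem bcRingAut_bcElt (σ : F₀ ≃+* F₀) (x : F₀) :
    bcRingAut L hK σ (bcElt L F₀ x) = bcElt L F₀ (σ x) :=
  bcAut_bcElt L (AlgEquiv.ofRingEquiv (f := σ) (hK σ)) x

end Fermat.Agent.DeligneSerre.XOne
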