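import Mathlib.RingTheory.Valuation.ValuationSubring
import Mathlib.RingTheory.Ideal.Operations
import Mathlib.GroupTheory.OrderOfElement
import Mathlib.Algebra.BigOperators.Field
import Mathlib.Algebra.Polynomial.BigOperators

/-!
# Valuation subrings with the same trace on a fixed field are conjugate

A finite group acts on a field `Ω`; two valuation subrings which agree on the fixed elements are
moved to one another by the group.
-/

set_option autoImplicit false

noncomputable section

open Polynomial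

namespace Fermat.Agent.DeligneSerre.XOne

variable {Ω : Type*} [Field Ω] {G : Type*} [Group G] [Finite G] [MulSemiringAction G Ω]

/-- The elements all whose conjugates lie in both valuation subrings. -/
def conjCore (V V' : ValuationSubring Ω) : Subring Ω where
  carrier := {x | ∀ g : G, g • x ∈ V ∧ g • x ∈ V'}
  one_mem' g := by simp
  mul_mem' {x y} hx hy g := by
    rw [smul_mul']; exact ⟨mul_mem (hx g).1 (hy g).1, mul_mem (hx g).2 (hy g).2⟩
  zero_mem' g := by simp
  add_mem' {x y} hx hy g := by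
    rw [smul_add]; exact ⟨add_mem (hx g).1 (hy g).1, add_mem (hx g).2 (hy g).2⟩
  neg_mem' {x} hx g := by
    rw [smul_neg]; exact ⟨neg_mem (hx g).1, neg_mem (hx g).2⟩

theorem mem_valuationSubring_of_comap_nonunit {W : ValuationSubring Ω} {x : Ω} :
    x ∈ W.nonunits ↔ x ∈ W ∧ (x = 0 ∨ x⁻¹ ∉ W) := by
  constructor
  · intro h
    refine ⟨ValuationSubring.nonunits_subset h, (eq_or_ne x 0).imp id fun hx hinv => ?_⟩
    rw [ValuationSubring.mem_nonunits_iff] at h
    rw [← W.valuation_le_one_iff, map_inv₀, inv_le_one₀ (zero_lt_iff.2 ((_root_.map_ne_zero _).2 hx))] at hinv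
    exact absurd hinv (not_le.2 h)
  · rintro ⟨-, h⟩
    rw [ValuationSubring.mem_nonunits_iff]
    rcases h with rfl | h
    · simp
    · rcases eq_or_ne x 0 with rfl | hx
      · simp
      rw [← W.valuation_le_one_iff, map_inv₀,
        inv_le_one₀ (zero_lt_iff.2 ((_root_.map_ne_zero _).2 hx)), not_le] at h
      exact h

variable {V V' : ValuationSubring Ω}

omit [Finite G] in
/-- Agreement on fixed elements also holds for nonunits. -/
theorem nonunit_iff_of_fixed (hfix : ∀ x : Ω, (∀ g : G, g • x = x) → (x ∈ V ↔ x ∈ V')) {x : Ω}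
    (hx : ∀ g : G, g • x = x) : x ∈ V.nonunits ↔ x ∈ V'.nonunits := by
  rw [mem_valuationSubring_of_comap_nonunit, mem_valuationSubring_of_comap_nonunit, hfix x hx,
    hfix x⁻¹ fun g => by rw [smul_inv'', hx g]]

/-- Membership in a valuation subring is a quotient of elements of the core. -/
theorem exists_core_quotient (hfix : ∀ x : Ω, (∀ g : G, g • x = x) → (x ∈ V ↔ x ∈ V')) {x : Ω}
    {W : ValuationSubring Ω} (hW : W = V ∨ W = V') (hx : x ∈ W) :
    ∃ s ∈ conjCore (G := G) V V', s ∉ W.nonunits ∧ x * s ∈ conjCore (G := G) V V' := by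
  classical
  let _ : Fintype G := Fintype.ofFinite G
  let P : Ω[X] := ∏ g : G, (X - C (g • x))
  have hP : P.eval x = 0 := by
    rw [eval_prod]
    exact Finset.prod_eq_zero (Finset.mem_univ 1) (by simp)
  have hPmon : P.Monic := monic_prod_of_monic _ _ fun g _ => monic_X_sub_C _
  have hPfix : ∀ (h : G) i, h • P.coeff i = P.coeff i := by
    intro h i
    have e : P.map (MulSemiringAction.toRingHom G Ω h) = P := by
      rw [Polynomial.map_prod]
      refine Fintype.prod_equiv (Equiv.mulLeft h) _ _ fun g => ?_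
      simp [mul_smul]
    conv_rhs => rw [← e, coeff_map]
    rfl
  -- the largest index whose coefficient has maximal value
  obtain ⟨m, hm, hmax⟩ := (Finset.range (P.natDegree + 1)).exists_max_image
    (fun i => W.valuation (P.coeff i)) ⟨0, by simp⟩
  let T := (Finset.range (P.natDegree + 1)).filter
    fun i => W.valuation (P.coeff i) = W.valuation (P.coeff m)
  have hT : T.Nonempty := ⟨m, Finset.mem_filter.2 ⟨hm, rfl⟩⟩
  set k := T.max' hT with hk
  have hkT := Finset.mem_filter.1 (T.max'_mem hT)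
  have hkn : k ≤ P.natDegree := Nat.le_of_lt_succ (Finset.mem_range.1 hkT.1)
  have hgt : ∀ i, k < i → W.valuation (P.coeff i) < W.valuation (P.coeff k) := by
    intro i hi
    rcases le_or_gt i P.natDegree with hin | hin
    · rw [hkT.2]
      refine lt_of_le_of_ne (hmax i (Finset.mem_range.2 (Nat.lt_succ_of_le hin))) fun he => ?_
      have := T.le_max' i (Finset.mem_filter.2 ⟨Finset.mem_range.2 (Nat.lt_succ_of_le hin), he⟩)
      omega
    · rw [coeff_eq_zero_of_natDegree_lt hin, map_zero, hkT.2]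
      have h1 : W.valuation (P.coeff P.natDegree) ≤ W.valuation (P.coeff m) :=
        hmax _ (by simp)
      rw [hPmon.coeff_natDegree, map_one] at h1
      exact lt_of_lt_of_le zero_lt_one h1
  have hle : ∀ i, W.valuation (P.coeff i) ≤ W.valuation (P.coeff k) := by
    intro i
    rcases le_or_gt i P.natDegree with hin | hin
    · rw [hkT.2]; exact hmax i (Finset.mem_range.2 (Nat.lt_succ_of_le hin))
    · rw [coeff_eq_zero_of_natDegree_lt hin, map_zero]; exact zero_le
  have hk0 : P.coeff k ≠ 0 := by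
    intro h0
    have := hle P.natDegree
    rw [hPmon.coeff_natDegree, map_one, h0, map_zero, le_zero_iff] at this
    exact one_ne_zero this
  let a : ℕ → Ω := fun i => P.coeff i / P.coeff k
  have hafix : ∀ i (h : G), h • a i = a i := fun i h => by
    simp only [a, div_eq_mul_inv, smul_mul', smul_inv'', hPfix]
  have hvk : (0 : W.ValueGroup) < W.valuation (P.coeff k) :=
    zero_lt_iff.2 ((_root_.map_ne_zero _).2 hk0)
  have haW : ∀ i, a i ∈ W := fun i => by
    rw [← W.valuation_le_one_iff, map_div₀, div_le_one₀ hvk]; exact hle i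
  have haV : ∀ i, a i ∈ V ∧ a i ∈ V' := fun i => by
    rcases hW with rfl | rfl
    · exact ⟨haW i, (hfix _ (hafix i)).1 (haW i)⟩
    · exact ⟨(hfix _ (hafix i)).2 (haW i), haW i⟩
  have hanu : ∀ i, k < i → W.valuation (a i) < 1 := fun i hi => by
    rw [map_div₀, div_lt_one₀ hvk]; exact hgt i hi
  set s : Ω := ∑ i ∈ Finset.Icc k P.natDegree, a i * x ^ (i - k) with hs
  have hsum : ∑ i ∈ Finset.range (P.natDegree + 1), a i * x ^ i = 0 := by
    simp only [a, div_mul_eq_mul_div, ← Finset.sum_div]
    rw [← eval_eq_sum_range, hP, zero_div]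
  have hsplit : s * x ^ k + ∑ i ∈ Finset.range k, a i * x ^ i = 0 := by
    rw [← hsum, hs, Finset.sum_mul, Finset.range_eq_Ico, Finset.range_eq_Ico,
      ← Finset.sum_Ico_consecutive _ (Nat.zero_le k) (Nat.le_succ_of_le hkn), add_comm,
      Nat.succ_eq_add_one, Finset.Ico_add_one_right_eq_Icc]
    congr 1
    refine Finset.sum_congr rfl fun i hi => ?_
    rw [mul_assoc, ← pow_add, Nat.sub_add_cancel (Finset.mem_Icc.1 hi).1]
  -- `s` and `x s` are integral for every valuation subring containing the coefficients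
  have key : ∀ U : ValuationSubring Ω, (∀ i, a i ∈ U) → s ∈ U ∧ x * s ∈ U := by
    intro U hU
    rcases U.mem_or_inv_mem x with hxU | hxU
    · have : s ∈ U := sum_mem fun i _ => mul_mem (hU i) (pow_mem hxU _)
      exact ⟨this, mul_mem hxU this⟩
    · rcases eq_or_ne x 0 with hx0 | hx0
      · have : s ∈ U := sum_mem fun i _ => mul_mem (hU i) (pow_mem (hx0 ▸ zero_mem U) _)
        exact ⟨this, mul_mem (hx0 ▸ zero_mem U) this⟩
      have hs' : s = -∑ i ∈ Finset.range k, a i * x⁻¹ ^ (k - i) := by
        rw [eq_neg_iff_add_eq_zero, ← mul_left_inj' (pow_ne_zero k hx0), zero_mul, ← hsplit,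
          add_mul]
        simp only [Finset.sum_mul]
        refine congrArg _ (Finset.sum_congr rfl fun i hi => ?_)
        have hik : i ≤ k := (Finset.mem_range.1 hi).le
        rw [mul_assoc, inv_pow]
        congr 1
        conv_lhs => rw [← Nat.sub_add_cancel hik, pow_add]
        rw [← mul_assoc, Nat.add_sub_cancel, inv_mul_cancel₀ (pow_ne_zero _ hx0), one_mul]
      refine ⟨hs' ▸ neg_mem (sum_mem fun i _ => mul_mem (hU i) (pow_mem hxU _)), ?_⟩
      rw [hs', mul_neg, Finset.mul_sum]
      refine neg_mem (sum_mem fun i hi => ?_)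
      have hik : i < k := Finset.mem_range.1 hi
      obtain ⟨j, hj⟩ : ∃ j, k - i = j + 1 := ⟨k - i - 1, by omega⟩
      rw [mul_left_comm, hj, pow_succ, mul_left_comm x, mul_inv_cancel₀ hx0, mul_one]
      exact mul_mem (hU i) (pow_mem hxU _)
  have hcore : ∀ g : G, (g • s ∈ V ∧ g • s ∈ V') ∧ (g • (x * s) ∈ V ∧ g • (x * s) ∈ V') := by
    intro g
    let f : Ω →+* Ω := MulSemiringAction.toRingHom G Ω g
    have hV := key (V.comap f) fun i => by
      show g • a i ∈ V; rw [hafix]; exact (haV i).1
    have hV' := key (V'.comap f) fun i => by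
      show g • a i ∈ V'; rw [hafix]; exact (haV i).2
    exact ⟨⟨hV.1, hV'.1⟩, hV.2, hV'.2⟩
  refine ⟨s, fun g => (hcore g).1, fun hsn => ?_, fun g => (hcore g).2⟩
  have hsk : s = 1 + ∑ i ∈ Finset.Ioc k P.natDegree, a i * x ^ (i - k) := by
    rw [hs, ← Finset.add_sum_Ioc_eq_sum_Icc (f := fun i => a i * x ^ (i - k)) hkn, Nat.sub_self,
      pow_zero, mul_one]
    simp [a, div_self hk0]
  have hlt : W.valuation (∑ i ∈ Finset.Ioc k P.natDegree, a i * x ^ (i - k)) < 1 := by
    refine Valuation.map_sum_lt _ one_ne_zero fun i hi => ?_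
    rw [map_mul, map_pow]
    exact lt_of_le_of_lt (mul_le_of_le_one_right' (pow_le_one' ((W.valuation_le_one_iff x).2 hx) _))
      (hanu i (Finset.mem_Ioc.1 hi).1)
  rw [ValuationSubring.mem_nonunits_iff, hsk,
    Valuation.map_add_eq_of_lt_left _ (by rwa [map_one]), map_one] at hsn
  exact lt_irrefl _ hsn

/-- The centre of `W` on the core. -/
def coreCentre (V V' W : ValuationSubring Ω) (hW : ∀ x ∈ conjCore (G := G) V V', x ∈ W) :
    Ideal (conjCore (G := G) V V') :=
  (IsLocalRing.maximalIdeal W).comap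
    (((conjCore (G := G) V V').subtype).codRestrict W.toSubring fun x => hW _ x.2)

omit [Finite G] in
theorem mem_coreCentre {W : ValuationSubring Ω} {hW : ∀ x ∈ conjCore (G := G) V V', x ∈ W}
    {x : conjCore (G := G) V V'} : x ∈ coreCentre V V' W hW ↔ (x : Ω) ∈ W.nonunits := by
  rw [coreCentre, Ideal.mem_comap, ← ValuationSubring.coe_mem_nonunits_iff]
  rfl

omit [Finite G] in
theorem isPrime_coreCentre (W : ValuationSubring Ω)
    (hW : ∀ x ∈ conjCore (G := G) V V', x ∈ W) : (coreCentre V V' W hW).IsPrime :=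
  Ideal.comap_isPrime _ _

/-- The centre of `V'` is contained in a translate of the centre of `V`. -/
theorem exists_centre_le (hfix : ∀ x : Ω, (∀ g : G, g • x = x) → (x ∈ V ↔ x ∈ V')) :
    ∃ g : G, ∀ x ∈ conjCore (G := G) V V', x ∈ V'.nonunits → g • x ∈ V.nonunits := by
  classical
  let _ : Fintype G := Fintype.ofFinite G
  have hV : ∀ (g : G), ∀ x ∈ conjCore (G := G) V V', g • x ∈ V := fun g x hx => (hx g).1
  let P : G → Ideal (conjCore (G := G) V V') := fun g =>
    coreCentre V V' (V.comap (MulSemiringAction.toRingHom G Ω g)) fun x hx => (hx g).1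
  let Q : Ideal (conjCore (G := G) V V') :=
    coreCentre V V' V' fun x hx => by simpa using (hx 1).2
  have hnu : ∀ (g : G) (x : Ω),
      x ∈ (V.comap (MulSemiringAction.toRingHom G Ω g)).nonunits ↔ g • x ∈ V.nonunits := by
    intro g x
    rw [mem_valuationSubring_of_comap_nonunit, mem_valuationSubring_of_comap_nonunit,
      smul_eq_zero_iff_eq, ← smul_inv'']
    rfl
  have hsub : (Q : Set (conjCore (G := G) V V')) ⊆ ⋃ g ∈ (↑(Finset.univ : Finset G) : Set G), P g := by
    intro x hx
    have hx' : (x : Ω) ∈ V'.nonunits := mem_coreCentre.1 hx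
    have hN : ∀ h : G, h • (∏ g : G, g • (x : Ω)) = ∏ g : G, g • (x : Ω) := fun h => by
      rw [Finset.smul_prod']
      exact Fintype.prod_equiv (Equiv.mulLeft h) _ _ fun g => by simp [mul_smul]
    have hN' : (∏ g : G, g • (x : Ω)) ∈ V'.nonunits := by
      rw [← Finset.mul_prod_erase _ _ (Finset.mem_univ 1), one_smul,
        ValuationSubring.mem_nonunits_iff, map_mul]
      exact lt_of_le_of_lt (mul_le_of_le_one_right' ((V'.valuation_le_one_iff _).2
        (prod_mem fun g _ => (x.2 g).2))) (V'.mem_nonunits_iff.1 hx')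
    rw [← nonunit_iff_of_fixed hfix hN, ValuationSubring.mem_nonunits_iff, map_prod] at hN'
    obtain ⟨g, hg⟩ : ∃ g : G, V.valuation (g • (x : Ω)) < 1 := by
      by_contra hall
      push Not at hall
      exact not_le.2 hN' (Finset.one_le_prod' fun g _ => hall g)
    refine Set.mem_iUnion₂.2 ⟨g, Finset.mem_univ g, ?_⟩
    exact mem_coreCentre.2 ((hnu g x).2 (V.mem_nonunits_iff.2 hg))
  obtain ⟨g, -, hg⟩ := (Ideal.subset_union_prime (s := (Finset.univ : Finset G)) 1 1
    fun g _ _ _ => isPrime_coreCentre _ _).1 hsub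
  exact ⟨g, fun x hx hxn => (hnu g x).1 (mem_coreCentre.1
    (hg (show (⟨x, hx⟩ : conjCore (G := G) V V') ∈ Q from mem_coreCentre.2 hxn)))⟩

/-- Valuation subrings agreeing on the fixed elements are conjugate. -/
theorem exists_smul_mem_iff (hfix : ∀ x : Ω, (∀ g : G, g • x = x) → (x ∈ V ↔ x ∈ V')) :
    ∃ g : G, ∀ x : Ω, x ∈ V' ↔ g • x ∈ V := by
  classical
  obtain ⟨g, hg⟩ := exists_centre_le hfix
  obtain ⟨h, hh⟩ := exists_centre_le (V := V') (V' := V) fun x hx => (hfix x hx).symm
  have hswap : conjCore (G := G) V' V = conjCore (G := G) V V' :=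
    SetLike.ext fun x => forall_congr' fun _ => and_comm
  rw [hswap] at hh
  have hsmul : ∀ (g : G) {x : Ω}, x ∈ conjCore (G := G) V V' → g • x ∈ conjCore (G := G) V V' :=
    fun g x hx k => by rw [← mul_smul]; exact hx (k * g)
  -- the inclusion of centres is an equality
  have hback : ∀ x ∈ conjCore (G := G) V V', g • x ∈ V.nonunits → x ∈ V'.nonunits := by
    intro x hx hxn
    have hc : ∀ y ∈ conjCore (G := G) V V', y ∈ V'.nonunits → (h * g) • y ∈ V'.nonunits :=
      fun y hy hyn => by
        rw [mul_smul]; exact hh _ (hsmul g hy) (hg y hy hyn)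
    have hpow : ∀ n : ℕ, ∀ y ∈ conjCore (G := G) V V', y ∈ V'.nonunits →
        (h * g) ^ n • y ∈ V'.nonunits := by
      intro n
      induction n with
      | zero => intro y _ hy; simpa using hy
      | succ n ih =>
        intro y hy hyn
        rw [pow_succ', mul_smul]
        exact hc _ (hsmul _ hy) (ih y hy hyn)
    have h1 : (h * g) • x ∈ V'.nonunits := by rw [mul_smul]; exact hh _ (hsmul g hx) hxn
    have h2 := hpow (orderOf (h * g) - 1) _ (hsmul _ hx) h1
    rwa [← mul_smul, ← pow_succ, Nat.sub_add_cancel (orderOf_pos _), pow_orderOf_eq_one,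
      one_smul] at h2
  refine ⟨g, fun x => ⟨fun hx => ?_, fun hx => ?_⟩⟩
  · obtain ⟨s, hs, hsn, hxs⟩ := exists_core_quotient hfix (Or.inr rfl) hx
    have hgs : g • s ∉ V.nonunits := fun h0 => hsn (hback s hs h0)
    have hgs0 : g • s ≠ 0 := fun h0 => hgs (by rw [h0]; simp)
    have : g • x = g • (x * s) * (g • s)⁻¹ := by
      rw [smul_mul', mul_inv_cancel_right₀ hgs0]
    rw [this]
    refine mul_mem (hxs g).1 ?_
    by_contra hinv
    exact hgs (mem_valuationSubring_of_comap_nonunit.2 ⟨(hs g).1, Or.inr hinv⟩)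
  · obtain ⟨s, hs, hsn, hxs⟩ := exists_core_quotient hfix (Or.inl rfl) hx
    have hs' : g⁻¹ • s ∈ conjCore (G := G) V V' := hsmul _ hs
    have hsn' : g⁻¹ • s ∉ V'.nonunits := fun h0 => hsn (by simpa using hg _ hs' h0)
    have hs0 : g⁻¹ • s ≠ 0 := fun h0 => hsn' (by rw [h0]; simp)
    have : x = g⁻¹ • (g • x * s) * (g⁻¹ • s)⁻¹ := by
      rw [smul_mul', inv_smul_smul, mul_inv_cancel_right₀ hs0]
    rw [this]
    refine mul_mem (hxs g⁻¹).2 ?_
    by_contra hinv
    exact hsn' (mem_valuationSubring_of_comap_nonunit.2 ⟨(hs g⁻¹).2, Or.inr hinv⟩)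

end Fermat.Agent.DeligneSerre.XOne
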