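/-
Diamond operators on `FL M L` for every field `L` of characteristic zero.
-/
import Fermat.Agent.DeligneSerre.XOne.DiamondC
import Fermat.Agent.DeligneSerre.XOne.BaseChangeAut

set_option autoImplicit false
set_option linter.unusedSectionVars false

noncomputable section

open scoped MatrixGroups
open CongruenceSubgroup ModularCurve
open Fermat.Agent.Modular

namespace Fermat.Agent.DeligneSerre.XOne

variable (M : ℕ) [NeZero M]

/-- The generator `j(q^d)` over `ℚ`. -/
def jdQ {d : ℕ} [NeZero d] (hd : d ∣ M) : field M :=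
  ⟨qExpand ℚ d (jqModC ℚ),
    IntermediateField.subset_adjoin ℚ _ (Or.inl (mem_divisorExpansionsC ℚ M hd))⟩

/-- The generator `e_a / e_1` over `ℚ`. -/
def rQ (a : (ZMod M)ˣ) : field M :=
  ⟨eisRatio ℚ M (a : ZMod M), IntermediateField.subset_adjoin ℚ _ (Or.inr ⟨a, a.isUnit, rfl⟩)⟩

variable (L : Type*) [Field L] [Algebra ℚ L]

/-- The inclusion of the model over `ℚ`. -/
def bcQ : field M →+* FL M L := bcElt L (field M)

theorem coe_bcQ (x : field M) : (bcQ M L x : LaurentSeries L) = coeffEmb L (x : LaurentSeries ℚ) :=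
  rfl

theorem bcQ_jdQ {d : ℕ} [NeZero d] (hd : d ∣ M) :
    (bcQ M L (jdQ M hd) : FL M L) = jdElt M L hd :=
  Subtype.ext (by
    rw [coe_bcQ, coe_jdElt]
    show coeffMap _ (qExpand ℚ d (jqModC ℚ)) = _
    rw [coeffMap_qExpand, coeffMap_jqModC])

theorem bcQ_rQ (a : (ZMod M)ˣ) : (bcQ M L (rQ M a) : FL M L) = rElt M L a :=
  Subtype.ext (by
    rw [coe_bcQ, coe_rElt]
    exact coeffMap_eisRatio ℚ M _ _)

theorem mem_field_of_gens_mem (S : Subfield (field M))
    (hj : ∀ (n : ℕ) (_ : NeZero n) (hn : n ∣ M), jdQ M hn ∈ S)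
    (hr : ∀ a : (ZMod M)ˣ, rQ M a ∈ S) (x : field M) : x ∈ S := by
  let v : field M →+* LaurentSeries ℚ := algebraMap (field M) (LaurentSeries ℚ)
  have h : (IntermediateField.adjoin ℚ (gens ℚ M)).toSubfield ≤ S.map v := by
    rw [IntermediateField.adjoin_toSubfield]
    refine Subfield.closure_le.2 ?_
    rintro _ (⟨c, rfl⟩ | ⟨n, hn0, hn, rfl⟩ | ⟨a, ha, rfl⟩)
    · exact ⟨(c : field M), SubfieldClass.ratCast_mem S c,
        (map_ratCast v c).trans (eq_ratCast (algebraMap ℚ (LaurentSeries ℚ)) c).symm⟩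
    · exact ⟨_, hj n hn0 hn, rfl⟩
    · exact ⟨_, hr ha.unit, rfl⟩
  obtain ⟨y, hy, hyx⟩ := h x.2
  rwa [← Subtype.ext (a1 := y) (a2 := x) hyx]

theorem diamondC_bcQ_mem (d : (ZMod M)ˣ) (x : field M) :
    diamondC M d (bcQ M ℂ x) ∈ (bcQ M ℂ).fieldRange := by
  refine mem_field_of_gens_mem M
    ((bcQ M ℂ).fieldRange.comap ((diamondC M d).toAlgHom.toRingHom.comp (bcQ M ℂ)))
    (fun n _ hn => ⟨jdQ M hn, ?_⟩) (fun a => ⟨rQ M (d⁻¹ * a) / rQ M d⁻¹, ?_⟩) x
  · show bcQ M ℂ (jdQ M hn) = diamondC M d (bcQ M ℂ (jdQ M hn))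
    rw [bcQ_jdQ, diamondC_jdElt]
  · show bcQ M ℂ (rQ M (d⁻¹ * a) / rQ M d⁻¹) = diamondC M d (bcQ M ℂ (rQ M a))
    rw [map_div₀, bcQ_rQ, bcQ_rQ, bcQ_rQ, diamondC_rElt]

/-- A diamond operator over `ℚ`, as a ring homomorphism. -/
def endQ (d : (ZMod M)ˣ) : field M →+* field M :=
  (bcQ M ℂ).rangeRestrictFieldEquiv.symm.toRingHom.comp
    (((diamondC M d).toAlgHom.toRingHom.comp (bcQ M ℂ)).codRestrict _
      fun x => diamondC_bcQ_mem M d x)

theorem bcQ_endQ (d : (ZMod M)ˣ) (x : field M) :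
    (bcQ M ℂ (endQ M d x) : FL M ℂ) = diamondC M d (bcQ M ℂ x) :=
  RingHom.rangeRestrictFieldEquiv_apply_symm_apply _ _

theorem endQ_comp (d e : (ZMod M)ˣ) : (endQ M d).comp (endQ M e) = endQ M (d * e) :=
  RingHom.ext fun x => (bcQ M ℂ).injective (by
    rw [RingHom.comp_apply, bcQ_endQ, bcQ_endQ, bcQ_endQ, map_mul]; rfl)

theorem endQ_one : endQ M 1 = RingHom.id _ :=
  RingHom.ext fun x => (bcQ M ℂ).injective (by rw [bcQ_endQ, map_one]; rfl)

/-- The diamond operators over `ℚ`. -/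
def diamondQ : (ZMod M)ˣ →* (field M ≃+* field M) where
  toFun d := RingEquiv.ofRingHom (endQ M d) (endQ M d⁻¹)
      (by rw [endQ_comp, mul_inv_cancel, endQ_one]) (by rw [endQ_comp, inv_mul_cancel, endQ_one])
  map_one' := RingEquiv.ext fun x => by
    show endQ M 1 x = x
    rw [endQ_one]; rfl
  map_mul' d e := RingEquiv.ext fun x => by
    show endQ M (d * e) x = endQ M d (endQ M e x)
    rw [← endQ_comp]; rfl

theorem bcQ_diamondQ (d : (ZMod M)ˣ) (x : field M) :
    (bcQ M ℂ (diamondQ M d x) : FL M ℂ) = diamondC M d (bcQ M ℂ x) :=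
  bcQ_endQ M d x

/-- The diamond operators: `⟨d⟩ f = f ∘ γ` for `γ ∈ Γ₀(M)` with lower right entry `d`. -/
def diamond : (ZMod M)ˣ →* (FL M L ≃ₐ[L] FL M L) :=
  (bcRingAut L (F₀ := field M) (by
    intro σ c
    have h : ∀ A : ℚ →+* field M, σ (A c) = A c := fun A =>
      RingHom.congr_fun (Subsingleton.elim (σ.toRingHom.comp A) A) c
    exact h _)).comp (diamondQ M)

theorem diamond_bcQ (d : (ZMod M)ˣ) (x : field M) :
    diamond M L d (bcQ M L x) = bcQ M L (diamondQ M d x) :=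
  bcRingAut_bcElt L _ (diamondQ M d) x

theorem diamond_jdElt (d : (ZMod M)ˣ) {n : ℕ} [NeZero n] (hn : n ∣ M) :
    diamond M L d (jdElt M L hn) = jdElt M L hn := by
  rw [← bcQ_jdQ, diamond_bcQ]
  congr 1
  apply (bcQ M ℂ).injective
  rw [bcQ_diamondQ, bcQ_jdQ, diamondC_jdElt]

theorem diamond_jElt (d : (ZMod M)ˣ) : diamond M L d (jElt M L) = jElt M L := by
  rw [← jdElt_one, diamond_jdElt]

theorem diamond_rElt (d a : (ZMod M)ˣ) :
    diamond M L d (rElt M L a) = rElt M L (d⁻¹ * a) / rElt M L d⁻¹ := by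
  have e : diamondQ M d (rQ M a) = rQ M (d⁻¹ * a) / rQ M d⁻¹ := by
    apply (bcQ M ℂ).injective
    rw [bcQ_diamondQ, bcQ_rQ, diamondC_rElt, map_div₀, bcQ_rQ, bcQ_rQ]
  rw [← bcQ_rQ, diamond_bcQ, e, map_div₀, bcQ_rQ, bcQ_rQ]

theorem diamond_eisRatio (d : (ZMod M)ˣ) (a : ZMod M) (ha : IsUnit a) {x : FL M L}
    (hx : (x : LaurentSeries L) = eisRatio L M a) :
    (diamond M L d x : LaurentSeries L) =
      eisRatio L M (((d⁻¹ : (ZMod M)ˣ) : ZMod M) * a) /
        eisRatio L M ((d⁻¹ : (ZMod M)ˣ) : ZMod M) := by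
  obtain rfl : x = rElt M L ha.unit := Subtype.ext (by rw [hx, coe_rElt]; rfl)
  rw [diamond_rElt]
  rfl

theorem diamond_neg_one : diamond M L (-1) = 1 := by
  have : diamondQ M (-1) = 1 := RingEquiv.ext fun x => (bcQ M ℂ).injective (by
    rw [bcQ_diamondQ, diamondC_neg_one]; rfl)
  exact (congrArg (bcRingAut L _) this).trans (map_one _)

/-- Over `ℂ` this is the translation action. -/
theorem diamond_complex : diamond M ℂ = diamondC M :=
  MonoidHom.ext fun d => AlgEquiv.ext fun x => RingHom.congr_fun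
    (ringHom_ext_FL M ℂ (f := (diamond M ℂ d).toAlgHom.toRingHom)
      (g := (diamondC M d).toAlgHom.toRingHom)
      (fun c => ((diamond M ℂ d).commutes c).trans ((diamondC M d).commutes c).symm)
      (fun n _ hn => (diamond_jdElt M ℂ d hn).trans (diamondC_jdElt M d hn).symm)
      (fun a => (diamond_rElt M ℂ d a).trans (diamondC_rElt M d a).symm)) x

/-- Over `ℂ` the diamond operators are the translations by `Γ₀(M)`. -/
theorem evalMero1_diamond (γ : Gamma0 M) (d : (ZMod M)ˣ)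
    (hd : (d : ZMod M) = (((γ : SL(2, ℤ)) 1 1 : ℤ) : ZMod M)) (f : FL M ℂ) :
    evalMero1 M (diamond M ℂ d f) = translate (γ : SL(2, ℤ))⁻¹ (evalMero1 M f) := by
  rw [diamond_complex, show d = lowerUnit M γ from Units.ext hd, evalMero1_diamondC]

/-- Diamond operators commute with extensions and automorphisms of the constants. -/
theorem coeffMap_diamond {L' : Type*} [Field L'] [Algebra ℚ L'] (ι : L →ₐ[ℚ] L')
    (d : (ZMod M)ˣ) (x : FL M L) :
    coeffMap (ι : L →+* L') (diamond M L d x : LaurentSeries L) =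
      (diamond M L' d (EichlerShimura.bcHom (field M) ι x) : LaurentSeries L') := by
  let b : FL M L →+* FL M L' := EichlerShimura.bcHom (field M) ι
  have key : b.comp (diamond M L d).toAlgHom.toRingHom =
      (diamond M L' d).toAlgHom.toRingHom.comp b := by
    have hj : ∀ {n : ℕ} [NeZero n] (hn : n ∣ M), b (jdElt M L hn) = jdElt M L' hn :=
      fun hn => Subtype.ext (by
        simp only [b, EichlerShimura.coe_bcHom, coe_jdElt, coeffMap_qExpand, coeffMap_jqModC])
    have hr : ∀ a : (ZMod M)ˣ, b (rElt M L a) = rElt M L' a :=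
      fun a => Subtype.ext (by
        simp only [b, EichlerShimura.coe_bcHom, coe_rElt, coeffMap_eisRatio])
    refine ringHom_ext_FL M L (fun c => ?_) (fun n _ hn => ?_) (fun a => ?_)
    · show b (diamond M L d (algebraMap L _ c)) = diamond M L' d (b (algebraMap L _ c))
      simp only [b]
      rw [(diamond M L d).commutes, EichlerShimura.bcHom_algebraMap, (diamond M L' d).commutes]
    · show b (diamond M L d (jdElt M L hn)) = diamond M L' d (b (jdElt M L hn))
      rw [diamond_jdElt, hj, diamond_jdElt]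
    · show b (diamond M L d (rElt M L a)) = diamond M L' d (b (rElt M L a))
      rw [diamond_rElt, map_div₀, hr, hr, hr, diamond_rElt]
  exact congrArg Subtype.val (RingHom.congr_fun key x)

end Fermat.Agent.DeligneSerre.XOne
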