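/-
Degree of the function field of `X₁(M)` over `L(j)`, separation of the cosets of `±Γ₁(M)`.
-/
import Fermat.Agent.Modular.DegreeC
import Fermat.Agent.EichlerShimura.BaseChangeDegree
import Fermat.Agent.DeligneSerre.XOne.Diamond
import Mathlib.FieldTheory.Relrank
import Mathlib.FieldTheory.Fixed

set_option autoImplicit false
set_option linter.unusedSectionVars false
set_option synthInstance.maxHeartbeats 100000

noncomputable section

open scoped MatrixGroups
open CongruenceSubgroup ModularCurve IntermediateField
open Fermat.Agent.Modular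

attribute [-instance] DivisionRing.toRatAlgebra

namespace Fermat.Agent.DeligneSerre.XOne

/-- Degrees over a simple extension, computed in the ambient field. -/
theorem finrank_adjoin_eq_relfinrank {K E : Type*} [Field K] [Field E] [Algebra K E]
    (F : IntermediateField K E) (x : F) :
    Module.finrank K⟮x⟯ F = IntermediateField.relfinrank K⟮(x : E)⟯ F := by
  have h := IntermediateField.relfinrank_map_map K⟮x⟯ (⊤ : IntermediateField K F) F.val
  have htop : (⊤ : IntermediateField K F).map F.val = F := by
    rw [← AlgHom.fieldRange_eq_map, IntermediateField.fieldRange_val]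
  rw [IntermediateField.adjoin_map, Set.image_singleton, htop,
    IntermediateField.relfinrank_top_right] at h
  exact h.symm

theorem laurentBaseChange_rat (F₀ : IntermediateField ℚ (LaurentSeries ℚ)) :
    laurentBaseChange ℚ F₀ = F₀ := by
  have e : ∀ x, coeffEmb ℚ x = x := fun x => by ext n; simp
  apply le_antisymm
  · refine IntermediateField.adjoin_le_iff.2 ?_
    rintro _ ⟨x, hx, rfl⟩
    rwa [e]
  · exact fun x hx => e x ▸ coeffEmb_mem_laurentBaseChange ℚ hx

variable (M : ℕ) [NeZero M]

theorem mem_ker_diamondQ {d : (ZMod M)ˣ} : d ∈ (diamondQ M).ker ↔ d = 1 ∨ d = -1 := by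
  rw [MonoidHom.mem_ker]
  constructor
  · intro h
    refine eq_one_or_eq_neg_one_of_diamondC_eq_one M (AlgEquiv.ext fun x => ?_)
    rw [← diamond_complex]
    exact AlgEquiv.congr_fun (show diamond M ℂ d = 1 from
      (congrArg (bcRingAut ℂ _) h).trans (map_one _)) x
  · rintro (rfl | rfl)
    · exact map_one _
    · exact RingEquiv.ext fun x => (bcQ M ℂ).injective (by
        rw [bcQ_diamondQ, diamondC_neg_one]; rfl)

theorem two_mul_card_range_diamondQ (hM : 3 ≤ M) :
    2 * Nat.card (diamondQ M).range = Nat.card (ZMod M)ˣ := by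
  have hne : (1 : (ZMod M)ˣ) ≠ -1 := fun h => by
    have h2 : (2 : ZMod M) * 1 = 0 := by
      have := congrArg Units.val h
      rw [Units.val_one, Units.val_neg, Units.val_one] at this
      linear_combination this
    exact two_mul_ne_zero_of_isUnit hM isUnit_one h2
  have hker : Nat.card (diamondQ M).ker = 2 := by
    rw [← SetLike.coe_sort_coe, Nat.card_coe_set_eq,
      show ((diamondQ M).ker : Set (ZMod M)ˣ) = {1, -1} from Set.ext fun d => mem_ker_diamondQ M]
    exact Set.ncard_pair hne
  rw [← Subgroup.card_mul_index (diamondQ M).ker, Subgroup.index_ker, hker]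

theorem coe_bcQ_mem_iff (x : field M) :
    (x : LaurentSeries ℚ) ∈ modularFunctionFieldFull M ↔ ∀ d, diamondQ M d x = x := by
  constructor
  · intro hx d
    apply (bcQ M ℂ).injective
    rw [bcQ_diamondQ]
    have hmem : coeffEmb ℂ (x : LaurentSeries ℚ) ∈ FC M :=
      FL_complex_eq_FC M ▸ coeffEmb_mem_laurentBaseChange ℂ hx
    have e : bcQ M ℂ x = ofFC M ⟨_, hmem⟩ := Subtype.ext (by rw [coe_bcQ, coe_ofFC])
    rw [e]
    refine evalMero1_injective M ?_
    rw [← lowerUnit_gammaLift M d, evalMero1_diamondC, evalMero1_ofFC,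
      translate_evalMero M (inv_mem (gammaLift M d).2)]
  · intro hx
    obtain ⟨c, hc⟩ := exists_evalMero_eq (N := M) (φ := evalMero1 M (bcQ M ℂ x))
      (fun g hg => by
        have h := evalMero1_diamondC M ⟨g⁻¹, inv_mem hg⟩ (bcQ M ℂ x)
        rw [← bcQ_diamondQ, hx, inv_inv] at h
        exact h.symm)
      (hasFiniteOrderAtCusps_evalMero1 M _)
    have e : ofFC M c = bcQ M ℂ x := evalMero1_injective M (by rw [evalMero1_ofFC, hc])
    have hmem : coeffMap ((Algebra.ofId ℚ ℂ : ℚ →ₐ[ℚ] ℂ) : ℚ →+* ℂ) (x : LaurentSeries ℚ) ∈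
        laurentBaseChange ℂ (modularFunctionFieldFull M) := by
      have := congrArg Subtype.val e
      rw [coe_ofFC, coe_bcQ] at this
      show coeffEmb ℂ (x : LaurentSeries ℚ) ∈ _
      rw [show laurentBaseChange ℂ (modularFunctionFieldFull M) = FC M from FL_complex_eq_FC M,
        ← this]
      exact c.2
    exact laurentBaseChange_rat (modularFunctionFieldFull M) ▸
      EichlerShimura.mem_of_coeffMap_mem _ _ hmem

/-- `[field M : ℚ(j(q^d) : d ∣ M)]` is the order of the diamond group. -/
theorem relfinrank_field : IntermediateField.relfinrank (modularFunctionFieldFull M) (field M) =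
    Nat.card (diamondQ M).range := by
  classical
  let G := (diamondQ M).range
  have : Fintype G := Fintype.ofFinite _
  let S : IntermediateField ℚ (field M) :=
    { carrier := {x | ∀ d, diamondQ M d x = x}
      mul_mem' := fun ha hb d => by rw [map_mul, ha d, hb d]
      one_mem' := fun d => map_one _
      add_mem' := fun ha hb d => by rw [map_add, ha d, hb d]
      zero_mem' := fun d => map_zero _
      algebraMap_mem' := fun c d => RingHom.congr_fun
        (Subsingleton.elim ((diamondQ M d).toRingHom.comp (algebraMap ℚ (field M)))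
          (algebraMap ℚ (field M))) c
      inv_mem' := fun x hx d => by rw [map_inv₀, hx d] }
  have hS : S.map (field M).val = modularFunctionFieldFull M := by
    ext y
    constructor
    · rintro ⟨x, hx, rfl⟩
      exact (coe_bcQ_mem_iff M x).2 hx
    · intro hy
      exact ⟨⟨y, modularFunctionFieldFull_le M hy⟩, (coe_bcQ_mem_iff M _).1 hy, rfl⟩
  have h := IntermediateField.relfinrank_map_map S ⊤ (field M).val
  rw [hS, ← AlgHom.fieldRange_eq_map, IntermediateField.fieldRange_val,
    IntermediateField.relfinrank_top_right] at h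
  rw [h, Nat.card_eq_fintype_card, ← FixedPoints.finrank_eq_card G (field M)]
  have e : S.toSubfield = FixedPoints.subfield G (field M) := by
    ext x
    refine ⟨fun hx => ?_, fun hx d => hx ⟨_, d, rfl⟩⟩
    rintro ⟨σ, d, rfl⟩
    exact hx d
  have key : ∀ A B : Subfield (field M), A = B →
      Module.finrank A (field M) = Module.finrank B (field M) := by rintro A B rfl; rfl
  exact key _ _ e

theorem card_units_mul_index : Nat.card (ZMod M)ˣ * (Gamma0 M).index = (Gamma1 M).index := by
  rw [← Subgroup.relIndex_mul_index (Gamma1_in_Gamma0 M)]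
  congr 1
  have hker : (lowerUnit M).ker = (Gamma1 M).subgroupOf (Gamma0 M) := by
    ext γ
    rw [MonoidHom.mem_ker, Subgroup.mem_subgroupOf]
    refine ⟨mem_Gamma1_of_lowerUnit_eq_one M, fun h => Units.ext ?_⟩
    rw [coe_lowerUnit, Units.val_one]
    exact ((Gamma1_mem M _).1 h).2.1
  rw [Subgroup.relIndex, ← hker, Subgroup.index_ker,
    MonoidHom.range_eq_top.mpr (lowerUnit_surjective M), Subgroup.card_top]

theorem coe_jElt_rat : (jElt M ℚ : LaurentSeries ℚ) = jq := by
  show coeffEmb ℚ jq = jq
  ext n
  simp

theorem finrank_rat :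
    Module.finrank ℚ⟮jElt M ℚ⟯ (FL M ℚ) = (Gamma0 M).index * Nat.card (diamondQ M).range := by
  rw [finrank_adjoin_eq_relfinrank, coe_jElt_rat]
  have hFL : FL M ℚ = field M := laurentBaseChange_rat _
  have hle : ℚ⟮jq⟯ ≤ modularFunctionFieldFull M :=
    IntermediateField.adjoin_simple_le_iff.mpr (modularFunctionField_le_full M (jq_mem M))
  have h0 : IntermediateField.relfinrank ℚ⟮jq⟯ (modularFunctionFieldFull M) = (Gamma0 M).index := by
    have h := finrank_FL_index M (algebraMap ℚ ℂ) (L := ℚ)
    rw [finrank_adjoin_eq_relfinrank] at h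
    have hj : (jL M ℚ : LaurentSeries ℚ) = jq := by
      show coeffEmb ℚ jq = jq
      ext n
      simp
    rw [hj, show Modular.FL M ℚ = modularFunctionFieldFull M from laurentBaseChange_rat _] at h
    exact h
  rw [hFL, ← IntermediateField.relfinrank_mul_relfinrank hle (modularFunctionFieldFull_le M), h0,
    relfinrank_field]

theorem transcendental_jElt_rat : Transcendental ℚ (jElt M ℚ) := by
  intro h
  have h1 : IsAlgebraic ℚ (jq : LaurentSeries ℚ) :=
    coe_jElt_rat M ▸ h.algHom (FL M ℚ).val
  refine transcendental_jL M (algebraMap ℚ ℂ) (L := ℚ) ?_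
  refine (isAlgebraic_algHom_iff (Modular.FL M ℚ).val Subtype.val_injective).mp ?_
  have hj : (Modular.FL M ℚ).val (jL M ℚ) = jq := by
    show coeffEmb ℚ jq = jq
    ext n
    simp
  rwa [hj]

theorem finiteDimensional_rat : FiniteDimensional ℚ⟮jElt M ℚ⟯ (FL M ℚ) :=
  Module.finite_of_finrank_pos (by
    rw [finrank_rat M]
    have : Finite (diamondQ M).range :=
      Finite.of_surjective _ (diamondQ M).rangeRestrict_surjective
    exact Nat.mul_pos (Nat.pos_of_ne_zero Subgroup.FiniteIndex.index_ne_zero) Nat.card_pos)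

variable (L : Type*) [Field L] [Algebra ℚ L]

theorem finrank_FL :
    FiniteDimensional L⟮jElt M L⟯ (FL M L) ∧
      Module.finrank L⟮jElt M L⟯ (FL M L) = (Gamma0 M).index * Nat.card (diamondQ M).range ∧
      Transcendental L (jElt M L) := by
  have := finiteDimensional_rat M
  have e : EichlerShimura.bcHom (field M) (Algebra.ofId ℚ L) (jElt M ℚ) = jElt M L :=
    Subtype.ext (EichlerShimura.coeffMap_coeffEmb_base _ jq)
  have h := EichlerShimura.finrank_bcHom (field M) (Algebra.ofId ℚ L) (x := jElt M ℚ)
    (transcendental_jElt_rat M)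
  have ht := EichlerShimura.transcendental_bcHom (field M) (Algebra.ofId ℚ L)
    (transcendental_jElt_rat M)
  rw [e] at h ht
  exact ⟨h.1, by rw [h.2, finrank_rat], ht⟩

theorem transcendental_jElt : Transcendental L (jElt M L) := (finrank_FL M L).2.2

theorem finiteDimensional_FL : FiniteDimensional L⟮jElt M L⟯ (FL M L) := (finrank_FL M L).1

theorem isFunctionField1_FL : Curve.IsFunctionField1 L (FL M L) :=
  .of_finite_adjoin (transcendental_jElt M L) (finiteDimensional_FL M L)

theorem two_mul_finrank_FL (h : 3 ≤ M) :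
    2 * Module.finrank L⟮jElt M L⟯ (FL M L) = (Gamma1 M).index := by
  rw [(finrank_FL M L).2.1, mul_left_comm, two_mul_card_range_diamondQ M h, mul_comm,
    card_units_mul_index]

/-- The translates of `evalMero1` separate the cosets of `±Γ₁(M)`. -/
theorem mem_of_translate_eq {g : SL(2, ℤ)}
    (h : ∀ f : FL M ℂ, translate g (evalMero1 M f) = evalMero1 M f) :
    g ∈ Gamma1 M ∨ -g ∈ Gamma1 M := by
  have hg : g ∈ Gamma0 M := by
    have h1 := h (jdElt M ℂ dvd_rfl)
    rw [evalMero1_jdElt, translate_algebraMap] at h1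
    have h2 : g • jHol M = jHol M := IsFractionRing.injective Hol Mero h1
    have hF : IsModFun M (jLevel M) := isModFun_jLevel M dvd_rfl
    have h3 : conjAt (N := M) (jLevel M) (QuotientGroup.mk g) =
        conjAt (N := M) (jLevel M) (QuotientGroup.mk 1) := by
      funext z
      rw [hF.conjAt_mk, hF.conjAt_mk, inv_one, one_smul]
      exact congrFun (congrArg Subtype.val h2) z
    have h4 := QuotientGroup.eq.mp (conjAt_jLevel_injective M h3)
    rwa [mul_one, inv_mem_iff] at h4
  have hd : diamondC M (lowerUnit M ⟨g⁻¹, inv_mem hg⟩) = 1 := by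
    refine AlgEquiv.ext fun f => evalMero1_injective M ?_
    rw [evalMero1_diamondC, inv_inv]
    exact h f
  rcases mem_Gamma1_of_pullC_eq_one M hd with h' | h'
  · exact Or.inl (inv_mem_iff.mp h')
  · right
    have := inv_mem h'
    rwa [inv_neg, inv_inv] at this

end Fermat.Agent.DeligneSerre.XOne
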