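import Mathlib.RingTheory.LaurentSeries
import Mathlib.LinearAlgebra.Matrix.Determinant.Basic
import Fermat.Prelude.Def_ModularCurve_X0
import Fermat.Prelude.Def_ModularCurve_LaurentCoeff

/-!
# The norm from `R((q^{1/p}))` to `R((q))` as a determinant

`detNorm p x` is the determinant of multiplication by `x(q^{1/p})` in the basis `q^{i/p}`, `i < p`,
of `R((q^{1/p}))` over `R((q))`.  Over `ℂ` it is the product of the `x(ζ^j q^{1/p})`; in
characteristic `p` it is the series with `p`-th powers of coefficients.
-/

set_option autoImplicit false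

noncomputable section

open HahnSeries ModularCurve

namespace Fermat.Agent.DeligneSerre.XOne

variable {R : Type*} [CommRing R]

/-- The series `n ↦ x_{pn + i}`. -/
def component (p : ℕ) [NeZero p] (i : ℤ) (x : LaurentSeries R) : LaurentSeries R where
  coeff n := x.coeff (p * n + i)
  isPWO_support' := by
    set b := x.order
    refine BddBelow.isWF ⟨-(|b| + |i| + 1), fun n hn => ?_⟩ |>.isPWO
    have h : b ≤ (p : ℤ) * n + i := HahnSeries.order_le_of_coeff_ne_zero hn
    have hp : (1 : ℤ) ≤ p := by exact_mod_cast NeZero.pos p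
    by_contra hlt
    nlinarith [abs_nonneg b, abs_nonneg i, neg_abs_le b, le_abs_self i]

@[simp]
theorem coeff_component (p : ℕ) [NeZero p] (i : ℤ) (x : LaurentSeries R) (n : ℤ) :
    (component p i x).coeff n = x.coeff (p * n + i) :=
  rfl

/-- Multiplication by `x(q^{1/p})` on the basis `q^{i/p}`. -/
def mulMatrix (p : ℕ) [NeZero p] (x : LaurentSeries R) :
    Matrix (Fin p) (Fin p) (LaurentSeries R) :=
  Matrix.of fun r c => component p ((r : ℤ) - (c : ℤ)) x

/-- The norm from `R((q^{1/p}))` to `R((q))` of `x(q^{1/p})`. -/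
def detNorm (p : ℕ) [NeZero p] (x : LaurentSeries R) : LaurentSeries R :=
  (mulMatrix p x).det

theorem coeffMap_detNorm {S : Type*} [CommRing S] (φ : R →+* S) (p : ℕ) [NeZero p]
    (x : LaurentSeries R) : coeffMap φ (detNorm p x) = detNorm p (coeffMap φ x) := by
  rw [detNorm, detNorm, RingHom.map_det]
  congr 1

/-- `T_p` on functions: `(⟨p⟩ f)(q^p) · N f`. -/
def heckeSeries (p : ℕ) [NeZero p] (x dx : LaurentSeries R) : LaurentSeries R :=
  qExpand R p dx * detNorm p x

end Fermat.Agent.DeligneSerre.XOne
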