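import Fermat.Agent.DeligneSerre.XOne.DetNorm
import Fermat.Prelude.Def_ModularCurve_X0ModL
import Fermat.Agent.Modular.QExp
import Mathlib.RingTheory.PowerSeries.Expand
import Mathlib.RingTheory.RootsOfUnity.Complex
import Mathlib.LinearAlgebra.Vandermonde

/-!
# Multiplicativity, characteristic `p` and complex product formula of the norm

`x ↦ mulMatrix p x` is a ring homomorphism, characterised by
`∑ᵣ q^r · (M r c)(q^p) = x · q^c`.  Over `ℂ` it is diagonalised by a Vandermonde matrix.
-/

set_option autoImplicit false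

noncomputable section

open HahnSeries ModularCurve

namespace Fermat.Agent.DeligneSerre.XOne

section Ring

variable {R : Type*} [CommRing R] (p : ℕ) [NeZero p]

/-- `∑ᵣ q^r f_r(q^p)`. -/
def recombine (f : Fin p → LaurentSeries R) : LaurentSeries R :=
  ∑ r : Fin p, HahnSeries.single ((r : ℕ) : ℤ) 1 * qExpand R p (f r)

theorem coeff_recombine (f : Fin p → LaurentSeries R) (i : Fin p) (m : ℤ) :
    (recombine p f).coeff ((p : ℤ) * m + (i : ℕ)) = (f i).coeff m := by
  classical
  rw [recombine, HahnSeries.coeff_sum, Finset.sum_eq_single i]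
  · rw [HahnSeries.coeff_single_mul, one_mul, add_sub_cancel_right, qExpand_coeff_mul]
  · intro r _ hr
    rw [HahnSeries.coeff_single_mul, one_mul]
    refine qExpand_coeff_of_not_dvd p _ fun hdvd => hr ?_
    have h1 : ((p : ℕ) : ℤ) ∣ ((i : ℕ) : ℤ) - ((r : ℕ) : ℤ) := by
      have := Int.dvd_sub hdvd (dvd_mul_right (p : ℤ) m)
      rwa [show (p : ℤ) * m + (i : ℕ) - (r : ℕ) - (p : ℤ) * m = (i : ℕ) - (r : ℕ) by ring] at this
    have h2 := Int.eq_zero_of_dvd_of_natAbs_lt_natAbs h1 (by
      have := i.isLt
      have := r.isLt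
      omega)
    exact Fin.ext (by omega)
  · simp

theorem recombine_injective : Function.Injective (recombine (R := R) p) := fun f g h =>
  funext fun i => HahnSeries.ext (funext fun m => by
    rw [← coeff_recombine p f i m, h, coeff_recombine])

theorem recombine_mulMatrix (x : LaurentSeries R) (c : Fin p) :
    recombine p (fun r => mulMatrix p x r c) = x * HahnSeries.single ((c : ℕ) : ℤ) 1 := by
  refine HahnSeries.ext (funext fun n => ?_)
  have hp : (p : ℤ) ≠ 0 := by exact_mod_cast NeZero.ne p
  obtain ⟨m, i, rfl⟩ : ∃ (m : ℤ) (i : Fin p), n = (p : ℤ) * m + (i : ℕ) :=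
    ⟨n / p, ⟨(n % p).toNat, by
      have h1 := Int.emod_lt_of_pos n (show (0 : ℤ) < p by exact_mod_cast NeZero.pos p)
      have h2 := Int.emod_nonneg n hp
      omega⟩, by
      rw [show (((n % p).toNat : ℕ) : ℤ) = n % p from Int.toNat_of_nonneg (Int.emod_nonneg n hp)]
      exact (Int.mul_ediv_add_emod n p).symm⟩
  rw [coeff_recombine, HahnSeries.coeff_mul_single, mul_one, mulMatrix, Matrix.of_apply,
    coeff_component, add_sub_assoc]

theorem mulMatrix_ext {x : LaurentSeries R} {A : Matrix (Fin p) (Fin p) (LaurentSeries R)}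
    (h : ∀ c : Fin p, recombine p (fun r => A r c) = x * HahnSeries.single ((c : ℕ) : ℤ) 1) :
    mulMatrix p x = A :=
  Matrix.ext fun r c =>
    congrFun (recombine_injective p ((recombine_mulMatrix p x c).trans (h c).symm)) r

theorem recombine_mul (f : Fin p → LaurentSeries R) (y : LaurentSeries R) :
    recombine p (fun r => f r * y) = recombine p f * qExpand R p y := by
  simp [recombine, Finset.sum_mul, mul_assoc]

theorem mulMatrix_qExpand (y : LaurentSeries R) :
    mulMatrix p (qExpand R p y) = y • (1 : Matrix (Fin p) (Fin p) (LaurentSeries R)) := by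
  classical
  refine mulMatrix_ext p fun c => ?_
  rw [recombine, Finset.sum_eq_single c]
  · simp [mul_comm]
  · intro r _ hr
    simp [Matrix.one_apply_ne hr]
  · simp

/-- The regular representation of `R((q^{1/p}))` over `R((q))`. -/
def mulMatrixHom : LaurentSeries R →+* Matrix (Fin p) (Fin p) (LaurentSeries R) where
  toFun := mulMatrix p
  map_one' := by
    have := mulMatrix_qExpand (R := R) p 1
    rwa [map_one, one_smul] at this
  map_mul' x y := by
    refine mulMatrix_ext p fun c => ?_
    rw [mul_assoc, ← recombine_mulMatrix p y c]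
    simp only [recombine, Matrix.mul_apply, map_sum, map_mul, Finset.mul_sum]
    rw [Finset.sum_comm]
    refine Finset.sum_congr rfl fun s _ => ?_
    rw [← mul_assoc, ← recombine_mulMatrix p x s, recombine, Finset.sum_mul]
    exact Finset.sum_congr rfl fun r _ => by rw [mul_assoc]
  map_zero' := by ext r c n; simp [mulMatrix]
  map_add' x y := by ext r c n; simp [mulMatrix]

@[simp]
theorem mulMatrixHom_apply (x : LaurentSeries R) : mulMatrixHom p x = mulMatrix p x := rfl

theorem detNorm_one' : detNorm p (1 : LaurentSeries R) = 1 := by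
  rw [detNorm, ← mulMatrixHom_apply, map_one, Matrix.det_one]

theorem detNorm_mul' (x y : LaurentSeries R) :
    detNorm p (x * y) = detNorm p x * detNorm p y := by
  rw [detNorm, ← mulMatrixHom_apply, map_mul, Matrix.det_mul]
  rfl

theorem detNorm_ne_zero' {K : Type*} [Field K] {x : LaurentSeries K} (hx : x ≠ 0) :
    detNorm p x ≠ 0 :=
  left_ne_zero_of_mul_eq_one (b := detNorm p x⁻¹) (by
    rw [← detNorm_mul', mul_inv_cancel₀ hx, detNorm_one'])

theorem detNorm_C (r : R) : detNorm p (HahnSeries.C r) = HahnSeries.C (r ^ p) := by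
  rw [detNorm, show HahnSeries.C r = qExpand R p (HahnSeries.C r) from (qExpand_C p r).symm,
    mulMatrix_qExpand, Matrix.det_smul, Matrix.det_one, mul_one, Fintype.card_fin,
    map_pow]

end Ring

section Frobenius

variable {R : Type*} [CommRing R] (p : ℕ) [hp : Fact p.Prime] [CharP R p]

/-- The `p`-th power of a Laurent series in characteristic `p`. -/
theorem laurent_pow_char (x : LaurentSeries R) :
    x ^ p = qExpand R p (coeffMap (frobenius R p) x) := by
  conv_lhs => rw [← x.single_order_mul_powerSeriesPart]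
  conv_rhs => rw [← x.single_order_mul_powerSeriesPart]
  rw [mul_pow, map_mul, map_mul, coeffMap_single, qExpand_single, HahnSeries.single_pow,
    coeffMap_ofPowerSeries, map_one, one_pow, nsmul_eq_mul, ← map_pow]
  congr 1
  have e : x.powerSeriesPart ^ p =
      PowerSeries.map (frobenius R p) (PowerSeries.expand p (NeZero.ne p) x.powerSeriesPart) :=
    (MvPowerSeries.map_frobenius_expand p (NeZero.ne p)).symm
  rw [e]
  ext m
  by_cases hm : (p : ℤ) ∣ m
  · obtain ⟨i, rfl⟩ := hm
    rw [qExpand_coeff_mul]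
    rcases le_or_gt 0 i with hi | hi
    · lift i to ℕ using hi
      rw [show ((p : ℤ) * (i : ℤ)) = ((p * i : ℕ) : ℤ) by push_cast; ring,
        HahnSeries.ofPowerSeries_apply_coeff, HahnSeries.ofPowerSeries_apply_coeff,
        PowerSeries.coeff_map, PowerSeries.coeff_expand_mul, PowerSeries.coeff_map]
    · rw [ofPowerSeries_coeff_of_neg _ hi, ofPowerSeries_coeff_of_neg]
      exact mul_neg_of_pos_of_neg (by exact_mod_cast hp.out.pos) hi
  · rw [qExpand_coeff_of_not_dvd p _ hm]
    rcases le_or_gt 0 m with h0 | h0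
    · lift m to ℕ using h0
      rw [HahnSeries.ofPowerSeries_apply_coeff, PowerSeries.coeff_map,
        PowerSeries.coeff_expand_of_not_dvd _ _ _ fun h => hm (by exact_mod_cast h), map_zero]
    · rw [ofPowerSeries_coeff_of_neg _ h0]

theorem detNorm_eq_coeffMap_frobenius' [IsReduced R] (x : LaurentSeries R) :
    detNorm p x = coeffMap (frobenius R p) x := by
  have : Nontrivial R := CharP.nontrivial_of_char_ne_one hp.out.ne_one
  have : CharP (LaurentSeries R) p :=
    charP_of_injective_ringHom (HahnSeries.C_injective (Γ := ℤ) (R := R)) p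
  refine eq_of_sub_eq_zero ?_
  have h : (detNorm p x - coeffMap (frobenius R p) x) ^ p = 0 := by
    rw [sub_pow_char, detNorm, ← Matrix.det_pow, ← mulMatrixHom_apply, ← map_pow,
      mulMatrixHom_apply, laurent_pow_char p x, mulMatrix_qExpand, Matrix.det_smul,
      Matrix.det_one, mul_one, Fintype.card_fin, sub_self]
  rw [laurent_pow_char] at h
  ext n
  have := congrArg (fun z : LaurentSeries R => z.coeff ((p : ℤ) * n)) h
  simp only [qExpand_coeff_mul, coeffMap_coeff, HahnSeries.coeff_zero, frobenius_def] at this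
  simpa using IsNilpotent.eq_zero ⟨p, this⟩

end Frobenius

section Complex

open Fermat.Agent.Modular UpperHalfPlane

variable (p : ℕ) [NeZero p]

local notation "𝕢" => Function.Periodic.qParam

/-- `exp (2πi j / p)`. -/
def rootTwist (j : Fin p) : ℂˣ :=
  Units.mk0 (𝕢 (p : ℝ) ((j : ℕ) : ℂ)) (Function.Periodic.qParam_ne_zero _)

omit [NeZero p] in
theorem coe_rootTwist (j : Fin p) :
    (rootTwist p j : ℂ) = Complex.exp (2 * Real.pi * Complex.I / p) ^ (j : ℕ) := by
  rw [rootTwist, Units.val_mk0, Function.Periodic.qParam, ← Complex.exp_nat_mul]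
  congr 1
  push_cast
  ring

theorem rootTwist_pow (j : Fin p) : rootTwist p j ^ p = 1 := by
  refine Units.ext ?_
  rw [Units.val_pow_eq_pow_val, coe_rootTwist, pow_right_comm,
    (Complex.isPrimitiveRoot_exp p (NeZero.ne p)).pow_eq_one, one_pow, Units.val_one]

theorem rootTwist_injective : Function.Injective (rootTwist p) := fun i j h =>
  Fin.ext ((Complex.isPrimitiveRoot_exp p (NeZero.ne p)).pow_inj i.isLt j.isLt
    (by rw [← coe_rootTwist, ← coe_rootTwist, h]))

theorem twistSeries_qExpand (j : Fin p) (y : LaurentSeries ℂ) :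
    twistSeries (rootTwist p j) (qExpand ℂ p y) = qExpand ℂ p y := by
  ext n
  rw [twistSeries_coeff]
  by_cases hn : (p : ℤ) ∣ n
  · obtain ⟨k, rfl⟩ := hn
    rw [zpow_mul, zpow_natCast, rootTwist_pow, one_zpow, Units.val_one, one_mul]
  · rw [qExpand_coeff_of_not_dvd p _ hn, mul_zero]

/-- Over `ℂ` the norm is the product of the conjugates. -/
theorem qExpand_detNorm (x : LaurentSeries ℂ) :
    qExpand ℂ p (detNorm p x) = ∏ j : Fin p, twistSeries (rootTwist p j) x := by
  classical
  let v : Fin p → LaurentSeries ℂ :=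
    fun j => twistSeries (rootTwist p j) (HahnSeries.single (1 : ℤ) 1)
  have hv : Function.Injective v := fun i j h => rootTwist_injective p <| Units.ext <| by
    have := congrArg (fun z : LaurentSeries ℂ => z.coeff 1) h
    simpa [v] using this
  have hpow : ∀ (j : Fin p) (r : ℕ),
      v j ^ r = twistSeries (rootTwist p j) (HahnSeries.single (r : ℤ) 1) := fun j r => by
    rw [← map_pow, HahnSeries.single_pow, one_pow, nsmul_eq_mul, mul_one]
  have key : Matrix.vandermonde v * (mulMatrix p x).map (qExpand ℂ p) =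
      Matrix.diagonal (fun j => twistSeries (rootTwist p j) x) * Matrix.vandermonde v := by
    refine Matrix.ext fun j c => ?_
    rw [Matrix.diagonal_mul, Matrix.mul_apply, Matrix.vandermonde_apply, hpow, ← map_mul,
      ← recombine_mulMatrix p x c, recombine, map_sum]
    refine Finset.sum_congr rfl fun r _ => ?_
    rw [map_mul, twistSeries_qExpand, Matrix.vandermonde_apply, hpow, Matrix.map_apply]
  have h := congrArg Matrix.det key
  rw [Matrix.det_mul, Matrix.det_mul, Matrix.det_diagonal, mul_comm (∏ j, _)] at h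
  rw [detNorm, RingHom.map_det]
  exact mul_left_cancel₀ (Matrix.det_vandermonde_ne_zero_iff.mpr hv) h

theorem hasQExp_of_qExpand {G : ℍ → ℂ} {z : LaurentSeries ℂ}
    (hG : HasQExp (p : ℝ) G (qExpand ℂ p z)) : HasQExp 1 G z := by
  intro τ
  have hinj : Function.Injective fun n : ℤ => (p : ℤ) * n :=
    mul_right_injective₀ (by exact_mod_cast NeZero.ne p)
  refine ((hinj.hasSum_iff (f := fun n => (qExpand ℂ p z).coeff n * 𝕢 (p : ℝ) τ ^ n) ?_).mpr
    (hG τ)).congr_fun fun n => ?_
  · intro n hn
    rw [qExpand_coeff_of_not_dvd p _ fun ⟨k, hk⟩ => hn ⟨k, hk.symm⟩, zero_mul]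
  · simp only [Function.comp_apply, qExpand_coeff_mul, Function.Periodic.qParam]
    rw [zpow_mul, zpow_natCast, ← Complex.exp_nat_mul]
    congr 2
    have hp : (p : ℂ) ≠ 0 := Nat.cast_ne_zero.mpr (NeZero.ne p)
    congr 1
    push_cast
    field_simp

/-- The product of the `F ((τ + j) / p)` has expansion the norm. -/
theorem hasQExp_detNorm {F : ℍ → ℂ} {x : LaurentSeries ℂ} (hF : HasQExp 1 F x) :
    HasQExp 1 (fun τ => ∏ j : Fin p, F (affineH 1 ((j : ℕ) : ℤ) p τ)) (detNorm p x) := by
  refine hasQExp_of_qExpand p ?_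
  rw [qExpand_detNorm]
  refine (HasQExp.prod Finset.univ (F := fun (j : Fin p) τ => F (affineH 1 ((j : ℕ) : ℤ) p τ))
    fun j _ => ?_).congr fun τ => by simp
  have h := hF.comp_affineH 1 ((j : ℕ) : ℤ) p
  rw [qExpand_one_apply] at h
  exact h

end Complex

end Fermat.Agent.DeligneSerre.XOne
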