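import Fermat.Agent.DeligneSerre.XOne.Igusa
import Fermat.Agent.DeligneSerre.XOne.Degree
import Fermat.Agent.Reduction.AuxLevel
import Fermat.Agent.Curve.Pullback

/-!
# The function field of `X₁(M)` in characteristic `p ∤ M`

`FRes k M` is generated over the function field of `X₀(M)` by the reduction of a combination `θ`
of the diamond translates of the `r_a` with pairwise distinct conjugates: the polynomial with these
roots, and the interpolation polynomials, have integral diamond-invariant coefficients, hence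
reduce into the function field of `X₀(M)`. So the extension is finite separable, and the bound on
the different of `j` is inherited.
-/

set_option autoImplicit false
set_option linter.unusedSectionVars false
set_option synthInstance.maxHeartbeats 100000

noncomputable section

open ModularCurve IntermediateField Polynomial AlgebraicCurve
open Fermat.Agent.Modular
open scoped MatrixGroups

namespace Fermat.Agent.DeligneSerre.XOne

local notation "ℚ̄" => AlgebraicClosure ℚ

variable (M : ℕ) [NeZero M]

/-- A function over `ℚ̄` fixed by the diamond operators lives on `X₀(M)`. -/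
theorem mem_bar_of_diamond_eq {x : FL M ℚ̄} (hx : ∀ d, diamond M ℚ̄ d x = x) :
    (x : LaurentSeries ℚ̄) ∈ modularFunctionFieldBar M := by
  have : Algebra.IsAlgebraic ℚ ℚ̄ := AlgebraicClosure.isAlgebraic ℚ
  have ι := (IsAlgClosed.lift (R := ℚ) (S := ℚ̄) (M := ℂ) : ℚ̄ →ₐ[ℚ] ℂ)
  let y : FL M ℂ := EichlerShimura.bcHom (field M) ι x
  have hy : ∀ d, diamondC M d y = y := fun d => by
    rw [← diamond_complex]
    refine Subtype.ext ?_
    rw [← coeffMap_diamond, hx, EichlerShimura.coe_bcHom]
  obtain ⟨c, hc⟩ := exists_evalMero_eq (N := M) (φ := evalMero1 M y)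
    (fun g hg => by
      have h := evalMero1_diamondC M ⟨g⁻¹, inv_mem hg⟩ y
      rw [hy, inv_inv] at h
      exact h.symm)
    (hasFiniteOrderAtCusps_evalMero1 M _)
  have e : ofFC M c = y := evalMero1_injective M (by rw [evalMero1_ofFC, hc])
  refine EichlerShimura.mem_of_coeffMap_mem (modularFunctionFieldFull M) ι ?_
  have h := congrArg Subtype.val e
  rw [coe_ofFC, EichlerShimura.coe_bcHom] at h
  rw [show laurentBaseChange ℂ (modularFunctionFieldFull M) = FC M from FL_complex_eq_FC M, ← h]
  exact c.2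

/-! ### Integral translates -/

/-- The classes of `(ZMod M)ˣ` modulo sign. -/
abbrev PMUnits : Type := (ZMod M)ˣ ⧸ Subgroup.zpowers (-1 : (ZMod M)ˣ)

/-- The expansion `e_{d⁻¹a} / e_{d⁻¹}` of `⟨d⟩ r_a`, over any ring. -/
def twist (R : Type*) [CommRing R] (d a : (ZMod M)ˣ) : LaurentSeries R :=
  eisQ M ((d⁻¹ * a : (ZMod M)ˣ) : ZMod M) R *
    coeffMap (Int.castRingHom R) (Ring.inverse (eisQ M ((d⁻¹ : (ZMod M)ˣ) : ZMod M) ℤ))

theorem coeffMap_twist {R S : Type*} [CommRing R] [CommRing S] (f : R →+* S) (d a : (ZMod M)ˣ) :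
    coeffMap f (twist M R d a) = twist M S d a := by
  rw [twist, twist, map_mul, coeffMap_eisQ, coeffMap_coeffMap,
    RingHom.ext_int (f.comp (Int.castRingHom R)) (Int.castRingHom S)]

theorem twist_neg (R : Type*) [CommRing R] (d a : (ZMod M)ˣ) :
    twist M R (-d) a = twist M R d a := by
  simp only [twist, inv_neg, neg_mul, Units.val_neg, eisQ_neg]

theorem twist_congr (R : Type*) [CommRing R] {d e : (ZMod M)ˣ}
    (h : (d : PMUnits M) = e) (a : (ZMod M)ˣ) : twist M R d a = twist M R e a := by
  obtain ⟨n, hn⟩ := Subgroup.mem_zpowers_iff.1 (QuotientGroup.eq.1 h)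
  rcases Int.even_or_odd n with hn' | hn'
  · rw [hn'.neg_one_zpow] at hn
    rw [inv_mul_eq_one.1 hn.symm]
  · rw [hn'.neg_one_zpow] at hn
    rw [eq_inv_mul_iff_mul_eq.1 hn |>.symm, mul_neg, mul_one, twist_neg]

variable [hM : Fact (3 ≤ M)]

theorem twist_eq_div (k : Type*) [Field k] (d a : (ZMod M)ˣ) :
    twist M k d a = eisQ M ((d⁻¹ * a : (ZMod M)ˣ) : ZMod M) k /
      eisQ M ((d⁻¹ : (ZMod M)ˣ) : ZMod M) k := by
  have h2 := two_mul_ne_zero_of_isUnit hM.out (d⁻¹).isUnit
  rw [eq_div_iff (eisQ_ne_zero h2 k), twist, mul_assoc,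
    ← coeffMap_eisQ (Int.castRingHom k) ((d⁻¹ : (ZMod M)ˣ) : ZMod M), ← map_mul,
    Ring.inverse_mul_cancel _ (isUnit_eisQ h2 ℤ), map_one, mul_one]

theorem twist_one (k : Type*) [Field k] (a : (ZMod M)ˣ) :
    twist M k 1 a = eisRatio k M (a : ZMod M) := by
  rw [twist_eq_div, inv_one, one_mul, Units.val_one, eisRatio, eisExp_eq_eisQ, eisExp_eq_eisQ]

theorem coe_diamond_rElt (L : Type*) [Field L] [Algebra ℚ L] (d a : (ZMod M)ˣ) :
    (diamond M L d (rElt M L a) : LaurentSeries L) = twist M L d a := by
  have h1 : eisExp L M (1 : ZMod M) ≠ 0 := by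
    rw [eisExp_eq_eisQ]
    exact eisQ_ne_zero (two_mul_ne_zero_of_isUnit hM.out isUnit_one) L
  rw [diamond_rElt, twist_eq_div]
  show eisRatio L M _ / eisRatio L M _ = _
  rw [eisRatio, eisRatio, div_div_div_cancel_right₀ h1, eisExp_eq_eisQ, eisExp_eq_eisQ]

/-- The translates separate the classes, in every characteristic. -/
theorem exists_twist_ne (k : Type*) [Field k] {d e : (ZMod M)ˣ}
    (h : (d : PMUnits M) ≠ e) : ∃ a, twist M k d a ≠ twist M k e a := by
  by_contra hall
  push Not at hall
  have hne : e * d⁻¹ ≠ 1 ∧ e * d⁻¹ ≠ -1 := by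
    refine ⟨fun h1 => h (by rw [mul_inv_eq_one.1 h1]), fun h1 => h ?_⟩
    rw [eq_comm, QuotientGroup.eq]
    have : e⁻¹ * d = -1 := by rw [← inv_inj, mul_inv_rev, inv_inv, mul_comm, h1, inv_neg, inv_one]
    rw [this]
    exact Subgroup.mem_zpowers _
  obtain ⟨b, hb, hbne⟩ := exists_rSeries_mul_ne (d := ((e * d⁻¹ : (ZMod M)ˣ) : ZMod M)) hM.out
    (Units.isUnit _) (fun h1 => hne.1 (Units.ext h1))
    (fun h1 => hne.2 (Units.ext (by simpa using h1))) k
  lift b to (ZMod M)ˣ using hb
  have q : ∀ x : (ZMod M)ˣ, eisQ M (x : ZMod M) k ≠ 0 := fun x =>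
    eisQ_ne_zero (two_mul_ne_zero_of_isUnit hM.out x.isUnit) k
  have key : ∀ x : (ZMod M)ˣ, eisQ M ((e * d⁻¹ * x : (ZMod M)ˣ) : ZMod M) k *
      eisQ M ((e⁻¹ : (ZMod M)ˣ) : ZMod M) k =
      eisQ M (x : ZMod M) k * eisQ M ((d⁻¹ : (ZMod M)ˣ) : ZMod M) k := fun x => by
    have h0 := hall (e * x)
    rw [twist_eq_div, twist_eq_div, inv_mul_cancel_left, div_eq_div_iff (q _) (q _),
      show d⁻¹ * (e * x) = e * d⁻¹ * x by rw [mul_comm e d⁻¹, mul_assoc]] at h0
    exact h0
  have k1 := key 1
  rw [mul_one, Units.val_one] at k1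
  refine hbne (mul_right_cancel₀ (b := eisQ M 1 k * eisQ M 1 k) ?_ ?_)
  · exact mul_ne_zero (by simpa using q 1) (by simpa using q 1)
  · rw [← Units.val_mul,
      show rSeries M ((e * d⁻¹ * b : (ZMod M)ˣ) : ZMod M) k * (eisQ M 1 k * eisQ M 1 k) =
        eisQ M ((e * d⁻¹ * b : (ZMod M)ˣ) : ZMod M) k * eisQ M 1 k by
        rw [← mul_assoc, rSeries_mul_eisQ_one hM.out],
      mul_mul_mul_comm, rSeries_mul_eisQ_one hM.out, rSeries_mul_eisQ_one hM.out]
    refine mul_right_cancel₀ (q e⁻¹) ?_
    linear_combination eisQ M 1 k * key b - eisQ M (b : ZMod M) k * k1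

/-- The combination `Σ c_a ⟨d⟩ r_a`. -/
def theta (R : Type*) [CommRing R] (c : (ZMod M)ˣ → R) (s : PMUnits M) : LaurentSeries R :=
  ∑ a, HahnSeries.C (c a) * twist M R s.out a

theorem coeffMap_theta {R S : Type*} [CommRing R] [CommRing S] (f : R →+* S)
    (c : (ZMod M)ˣ → R) (s : PMUnits M) :
    coeffMap f (theta M R c s) = theta M S (fun a => f (c a)) s := by
  simp only [theta, map_sum, map_mul, coeffMap_twist, HahnSeries.C_apply, coeffMap_single]

theorem exists_injective_theta (k : Type*) [Field k] [Infinite k] :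
    ∃ c : (ZMod M)ˣ → k, Function.Injective (theta M k c) := by
  classical
  let Φ : PMUnits M → (((ZMod M)ˣ → k) →ₗ[k] LaurentSeries k) := fun s =>
    { toFun := fun c => theta M k c s
      map_add' := fun x y => by simp [theta, add_mul, Finset.sum_add_distrib]
      map_smul' := fun r x => by
        simp only [theta, Pi.smul_apply, smul_eq_mul, map_mul, RingHom.id_apply, Finset.smul_sum,
          ← HahnSeries.C_mul_eq_smul, mul_assoc] }
  obtain ⟨c, hc⟩ := Submodule.exists_forall_notMem_of_forall_ne_top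
    (fun p : {p : PMUnits M × PMUnits M // p.1 ≠ p.2} => LinearMap.eqLocus (Φ p.1.1) (Φ p.1.2)) (by
      rintro ⟨⟨s, t⟩, hst⟩ htop
      obtain ⟨a, ha⟩ := exists_twist_ne M k (d := s.out) (e := t.out) (by simpa using hst)
      have hm : Pi.single a (1 : k) ∈ LinearMap.eqLocus (Φ s) (Φ t) := htop ▸ Submodule.mem_top
      exact ha (by simpa [Φ, theta, Pi.single_apply, apply_ite, ite_mul] using hm))
  exact ⟨c, fun s t h => by_contra fun hne => hc ⟨(s, t), hne⟩ h⟩

/-! ### Interpolation -/

section Interp

variable {G : Type*} [Fintype G] [DecidableEq G] {R : Type*} [CommRing R]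

/-- `∏ (X - b_s)`. -/
def rootPoly (b : G → R) : R[X] := ∏ s, (X - C (b s))

/-- Interpolation at the `b_s`, cleared of denominators. -/
def lagrangePoly (a b : G → R) : R[X] :=
  ∑ s, C (a s) * ∏ u ∈ Finset.univ.erase s, (X - C (b u))

theorem map_rootPoly {S : Type*} [CommRing S] (f : R →+* S) (b : G → R) :
    (rootPoly b).map f = rootPoly fun s => f (b s) := by
  simp [rootPoly, Polynomial.map_prod]

theorem map_lagrangePoly {S : Type*} [CommRing S] (f : R →+* S) (a b : G → R) :
    (lagrangePoly a b).map f = lagrangePoly (fun s => f (a s)) fun s => f (b s) := by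
  simp [lagrangePoly, Polynomial.map_prod, Polynomial.map_sum]

theorem rootPoly_comp_equiv (b : G → R) (e : G ≃ G) : rootPoly (b ∘ e) = rootPoly b :=
  e.prod_comp fun s => X - C (b s)

theorem lagrangePoly_comp_equiv (a b : G → R) (e : G ≃ G) :
    lagrangePoly (a ∘ e) (b ∘ e) = lagrangePoly a b := by
  refine Fintype.sum_equiv e _ _ fun s => ?_
  simp only [Function.comp_apply]
  congr 1
  exact Finset.prod_equiv e (fun t => by simp) fun t _ => rfl

theorem eval_lagrangePoly (a b : G → R) (s₀ : G) :
    (lagrangePoly a b).eval (b s₀) = a s₀ * ∏ u ∈ Finset.univ.erase s₀, (b s₀ - b u) := by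
  rw [lagrangePoly, Polynomial.eval_finsetSum, Finset.sum_eq_single s₀]
  · simp [eval_prod]
  · intro s _ hs
    simp only [eval_mul, eval_prod]
    rw [Finset.prod_eq_zero (Finset.mem_erase.mpr ⟨Ne.symm hs, Finset.mem_univ _⟩) (by simp),
      mul_zero]
  · simp

end Interp

variable {p : ℕ} [Fact p.Prime] (hpM : p.Coprime M) (A : ValuationSubring ℚ̄)
  (hA : A.LiesOverPrime p)

include hpM hA in
/-- An integral polynomial whose image is diamond invariant reduces into the field of `X₀(M)`. -/
theorem coeff_map_residue_mem_fullC (P : (LaurentSeries A)[X]) (Q : (FL M ℚ̄)[X])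
    (hPQ : P.map (coeffMap A.subtype) = Q.map (FL M ℚ̄).val.toRingHom)
    (hQ : ∀ d, Q.map (diamond M ℚ̄ d).toAlgHom.toRingHom = Q) (i : ℕ) :
    (P.map (coeffMap (IsLocalRing.residue A))).coeff i ∈
      modularFunctionFieldFullC (IsLocalRing.ResidueField A) M := by
  have hnd : ¬ p ∣ M := (Nat.Prime.coprime_iff_not_dvd Fact.out).1 hpM
  rw [Polynomial.coeff_map]
  refine Reduction.coeffMap_residue_mem_fullC M hnd A hA _ ?_
  have h := congrArg (fun q : (LaurentSeries ℚ̄)[X] => q.coeff i) hPQ
  simp only [Polynomial.coeff_map] at h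
  rw [h]
  refine mem_bar_of_diamond_eq M fun d => ?_
  have := congrArg (fun q => Polynomial.coeff q i) (hQ d)
  rwa [Polynomial.coeff_map] at this

/-- `θ` over `ℚ̄`, as a function. -/
def thetaElt (c : (ZMod M)ˣ → A) (s : PMUnits M) : FL M ℚ̄ :=
  ∑ a, algebraMap ℚ̄ (FL M ℚ̄) (c a) * diamond M ℚ̄ s.out (rElt M ℚ̄ a)

theorem coe_thetaElt (c : (ZMod M)ˣ → A) (s : PMUnits M) :
    (thetaElt M A c s : LaurentSeries ℚ̄) = coeffMap A.subtype (theta M A c s) := by
  rw [coeffMap_theta, theta, thetaElt, IntermediateField.coe_sum]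
  refine Finset.sum_congr rfl fun a _ => ?_
  rw [IntermediateField.coe_mul, coe_diamond_rElt, IntermediateField.coe_algebraMap_apply,
    algebraMap_laurentSeries_eq_single]
  rfl

theorem diamond_diamond_rElt (d : (ZMod M)ˣ) (s : PMUnits M) (a : (ZMod M)ˣ) :
    diamond M ℚ̄ d (diamond M ℚ̄ s.out (rElt M ℚ̄ a)) =
      diamond M ℚ̄ ((d : PMUnits M) * s).out (rElt M ℚ̄ a) := by
  refine Subtype.ext ?_
  rw [← AlgEquiv.mul_apply, ← map_mul, coe_diamond_rElt, coe_diamond_rElt]
  exact twist_congr M _ (by simp) a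

theorem diamond_thetaElt (d : (ZMod M)ˣ) (c : (ZMod M)ˣ → A) (s : PMUnits M) :
    diamond M ℚ̄ d (thetaElt M A c s) = thetaElt M A c ((d : PMUnits M) * s) := by
  simp only [thetaElt, map_sum, map_mul, AlgEquiv.commutes, diamond_diamond_rElt]

include hpM hA in
/-- The data: over the field of `X₀(M)` in characteristic `p`, `θ` has a separable equation and
every `r_a` is rational in `θ`. -/
theorem exists_primitive_FRes :
    ∃ θ : FRes (IsLocalRing.ResidueField A) M,
      (∃ P : (modularFunctionFieldFullC (IsLocalRing.ResidueField A) M)[X],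
        P.Separable ∧ Polynomial.aeval (θ : LaurentSeries (IsLocalRing.ResidueField A)) P = 0) ∧
      ∀ a : (ZMod M)ˣ, ∃ Q R : (modularFunctionFieldFullC (IsLocalRing.ResidueField A) M)[X],
        Polynomial.aeval (θ : LaurentSeries (IsLocalRing.ResidueField A)) R ≠ 0 ∧
        eisRatio (IsLocalRing.ResidueField A) M (a : ZMod M) *
            Polynomial.aeval (θ : LaurentSeries (IsLocalRing.ResidueField A)) R =
          Polynomial.aeval (θ : LaurentSeries (IsLocalRing.ResidueField A)) Q := by
  classical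
  set k := IsLocalRing.ResidueField A
  have : IsAlgClosed k := EC.isAlgClosed_residueField A
  set π := IsLocalRing.residue A with hπ
  let F0 := modularFunctionFieldFullC k M
  obtain ⟨cb, hcb⟩ := exists_injective_theta M k
  choose c hc using fun a => IsLocalRing.residue_surjective (cb a)
  have hred : ∀ s, coeffMap π (theta M A c s) = theta M k cb s := fun s => by
    rw [coeffMap_theta]
    simp only [hπ, hc]
    rfl
  let e : (ZMod M)ˣ → PMUnits M ≃ PMUnits M := fun d => Equiv.mulLeft (d : PMUnits M)
  have hθ : theta M k cb 1 ∈ FRes k M := by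
    refine sum_mem fun a _ => mul_mem ?_ ?_
    · rw [HahnSeries.C_apply, ← algebraMap_laurentSeries_eq_single]
      exact IntermediateField.algebraMap_mem _ _
    · rw [twist_congr M k (e := 1) (by simp) a, twist_one]
      exact subset_adjoin k _ (Or.inr ⟨a, a.isUnit, rfl⟩)
  have lift : ∀ (P : (LaurentSeries A)[X]) (Q : (FL M ℚ̄)[X]),
      P.map (coeffMap A.subtype) = Q.map (FL M ℚ̄).val.toRingHom →
      (∀ d, Q.map (diamond M ℚ̄ d).toAlgHom.toRingHom = Q) →
      ∃ P0 : F0[X], P0.map (algebraMap F0 (LaurentSeries k)) = P.map (coeffMap π) := by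
    intro P Q hPQ hQ
    exact (Polynomial.mem_lifts _).1 ((Polynomial.lifts_iff_coeff_lifts _).2 fun i =>
      ⟨⟨_, coeff_map_residue_mem_fullC M hpM A hA P Q hPQ hQ i⟩, rfl⟩)
  obtain ⟨P0, hP0⟩ := lift (rootPoly (theta M A c)) (rootPoly (thetaElt M A c))
    (by
      rw [map_rootPoly, map_rootPoly]
      congr 1; funext s
      exact (coe_thetaElt M A c s).symm)
    (fun d => by
      rw [map_rootPoly]
      conv_rhs => rw [← rootPoly_comp_equiv _ (e d)]
      congr 1; funext s
      exact diamond_thetaElt M A d c s)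
  rw [map_rootPoly, funext hred] at hP0
  obtain ⟨R0, hR0⟩ := lift (lagrangePoly 1 (theta M A c)) (lagrangePoly 1 (thetaElt M A c))
    (by
      rw [map_lagrangePoly, map_lagrangePoly]
      congr 1 <;> funext s
      · simp
      · exact (coe_thetaElt M A c s).symm)
    (fun d => by
      rw [map_lagrangePoly]
      conv_rhs => rw [← lagrangePoly_comp_equiv _ _ (e d)]
      congr 1 <;> funext s
      · simp
      · exact diamond_thetaElt M A d c s)
  rw [map_lagrangePoly, funext hred] at hR0
  refine ⟨⟨theta M k cb 1, hθ⟩, ⟨P0, ?_, ?_⟩, fun a => ?_⟩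
  · rw [← Polynomial.separable_map (algebraMap F0 (LaurentSeries k)), hP0]
    exact Polynomial.separable_prod_X_sub_C_iff.2 hcb
  · rw [Polynomial.aeval_def, ← Polynomial.eval_map, hP0, rootPoly, Polynomial.eval_prod]
    exact Finset.prod_eq_zero (Finset.mem_univ (1 : PMUnits M)) (by simp)
  · obtain ⟨Q0, hQ0⟩ := lift
      (lagrangePoly (fun s : PMUnits M => twist M A s.out a) (theta M A c))
      (lagrangePoly (fun s : PMUnits M => diamond M ℚ̄ s.out (rElt M ℚ̄ a)) (thetaElt M A c))
      (by
        rw [map_lagrangePoly, map_lagrangePoly]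
        congr 1 <;> funext s
        · exact (coeffMap_twist M _ _ _).trans (coe_diamond_rElt M ℚ̄ _ _).symm
        · exact (coe_thetaElt M A c s).symm)
      (fun d => by
        rw [map_lagrangePoly]
        conv_rhs => rw [← lagrangePoly_comp_equiv _ _ (e d)]
        exact congrArg₂ lagrangePoly (funext fun s => diamond_diamond_rElt M d s a)
          (funext fun s => diamond_thetaElt M A d c s))
    rw [map_lagrangePoly, funext hred] at hQ0
    have hR : Polynomial.aeval (theta M k cb 1) R0 =
        ∏ u ∈ Finset.univ.erase (1 : PMUnits M), (theta M k cb 1 - theta M k cb u) := by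
      rw [Polynomial.aeval_def, ← Polynomial.eval_map, hR0,
        eval_lagrangePoly _ (theta M k cb) 1, Pi.one_apply, map_one, one_mul]
    have hQ : Polynomial.aeval (theta M k cb 1) Q0 = eisRatio k M (a : ZMod M) *
        ∏ u ∈ Finset.univ.erase (1 : PMUnits M), (theta M k cb 1 - theta M k cb u) := by
      rw [Polynomial.aeval_def, ← Polynomial.eval_map, hQ0,
        eval_lagrangePoly _ (theta M k cb) 1, coeffMap_twist, twist_congr M k (e := 1) (by simp) a,
        twist_one]
    refine ⟨Q0, R0, fun h => ?_, ?_⟩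
    · exact (Finset.prod_ne_zero_iff.2 fun u hu => sub_ne_zero.2 fun h' =>
        (Finset.mem_erase.1 hu).1 (hcb h').symm) (hR.symm.trans h)
    · exact (congrArg _ hR).trans hQ.symm

/-! ### The extension `FRes / X₀(M)` -/

omit [NeZero M] hM in
theorem fullC_le_FRes (k : Type*) [Field k] : modularFunctionFieldFullC k M ≤ FRes k M :=
  IntermediateField.adjoin.mono k _ _ fun _ hx => Or.inl hx

/-- `FRes k M` over the function field of `X₀(M)`. -/
instance algebraFullCFRes (k : Type*) [Field k] :
    Algebra (modularFunctionFieldFullC k M) (FRes k M) :=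
  (IntermediateField.inclusion (fullC_le_FRes M k)).toRingHom.toAlgebra

instance tower_fullC_FRes (k : Type*) [Field k] :
    IsScalarTower k (modularFunctionFieldFullC k M) (FRes k M) :=
  IsScalarTower.of_algebraMap_eq fun _ => rfl

instance tower_fullC_FRes_series (k : Type*) [Field k] :
    IsScalarTower (modularFunctionFieldFullC k M) (FRes k M) (LaurentSeries k) :=
  IsScalarTower.of_algebraMap_eq fun _ => rfl

omit hM in
theorem algebraMap_jRes (k : Type*) [Field k] :
    algebraMap (modularFunctionFieldFullC k M) (FRes k M) (Reduction.jRes k M) = jResElt k M := rfl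

set_option maxHeartbeats 1000000 in
theorem isSeparable_of_primitive {k : Type*} [Field k] {θ : FRes k M}
    {P : (modularFunctionFieldFullC k M)[X]} (hP : P.Separable)
    (hPθ : Polynomial.aeval (θ : LaurentSeries k) P = 0)
    (hr : ∀ a : (ZMod M)ˣ, ∃ Q R : (modularFunctionFieldFullC k M)[X],
      Polynomial.aeval (θ : LaurentSeries k) R ≠ 0 ∧
      eisRatio k M (a : ZMod M) * Polynomial.aeval (θ : LaurentSeries k) R =
        Polynomial.aeval (θ : LaurentSeries k) Q) :
    Algebra.IsSeparable (modularFunctionFieldFullC k M) (FRes k M) ∧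
      Module.Finite (modularFunctionFieldFullC k M) (FRes k M) := by
  have hev : ∀ Q : (modularFunctionFieldFullC k M)[X],
      ((Polynomial.aeval θ Q : FRes k M) : LaurentSeries k) =
        Polynomial.aeval (θ : LaurentSeries k) Q := fun Q =>
    (Polynomial.aeval_algebraMap_apply (LaurentSeries k) θ Q).symm
  have hθ0 : Polynomial.aeval θ P = 0 := Subtype.ext ((hev P).trans hPθ)
  have hsep : IsSeparable (modularFunctionFieldFullC k M) θ := hP.of_dvd (minpoly.dvd _ _ hθ0)
  let E : IntermediateField (modularFunctionFieldFullC k M) (FRes k M) :=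
    (modularFunctionFieldFullC k M)⟮θ⟯
  have hae : ∀ Q : (modularFunctionFieldFullC k M)[X], Polynomial.aeval θ Q ∈ E := fun Q => by
    have h := Polynomial.aeval_algebraMap_apply (R := modularFunctionFieldFullC k M) (FRes k M)
      (⟨θ, mem_adjoin_simple_self _ θ⟩ : E) Q
    exact h ▸ (Polynomial.aeval (⟨θ, mem_adjoin_simple_self _ θ⟩ : E) Q).2
  have hgen : E = ⊤ := by
    refine eq_top_iff.2 fun x _ => ?_
    have hle : FRes k M ≤ (E.restrictScalars k).map (FRes k M).val := by
      rw [IntermediateField.adjoin_le_iff]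
      rintro y (hy | ⟨a, ha, rfl⟩)
      · exact (IntermediateField.mem_map _).2
          ⟨algebraMap (modularFunctionFieldFullC k M) (FRes k M) ⟨y, subset_adjoin k _ hy⟩,
            E.algebraMap_mem _, rfl⟩
      · obtain ⟨Q, R, hR, hQ⟩ := hr ha.unit
        refine (IntermediateField.mem_map _).2
          ⟨Polynomial.aeval θ Q / Polynomial.aeval θ R, div_mem (hae Q) (hae R), ?_⟩
        show ((Polynomial.aeval θ Q / Polynomial.aeval θ R : FRes k M) : LaurentSeries k) = _
        rw [IntermediateField.coe_div, hev, hev, div_eq_iff hR, ← hQ, IsUnit.unit_spec]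
    obtain ⟨y, hy, hyx⟩ := (IntermediateField.mem_map _).1 (hle x.2)
    rwa [← Subtype.ext (a1 := y) (a2 := x) hyx]
  have s : Algebra.IsSeparable (modularFunctionFieldFullC k M) E :=
    (isSeparable_adjoin_simple_iff_isSeparable _ _).2 hsep
  have f : Module.Finite (modularFunctionFieldFullC k M) E :=
    adjoin.finiteDimensional hsep.isIntegral
  rw [hgen] at s f
  exact ⟨AlgEquiv.Algebra.isSeparable IntermediateField.topEquiv,
    Module.Finite.equiv IntermediateField.topEquiv.toLinearEquiv⟩

include hpM hA in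
theorem isSeparable_fullC_FRes :
    Algebra.IsSeparable (modularFunctionFieldFullC (IsLocalRing.ResidueField A) M)
        (FRes (IsLocalRing.ResidueField A) M) ∧
      Module.Finite (modularFunctionFieldFullC (IsLocalRing.ResidueField A) M)
        (FRes (IsLocalRing.ResidueField A) M) :=
  let ⟨_, ⟨_, hP, hPθ⟩, hr⟩ := exists_primitive_FRes M hpM A hA
  isSeparable_of_primitive M hP hPθ hr

omit hM in
theorem transcendental_jqRes (k : Type*) [Field k] : Transcendental k (jResElt k M) := fun h =>
  Reduction.transcendental_jqModC k (h.algHom (FRes k M).val)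

/-- `k(j)` inside the two function fields. -/
def adjoinJEquiv (k : Type*) [Field k] :
    k⟮Reduction.jRes k M⟯ ≃ₐ[k] k⟮jResElt k M⟯ :=
  (k⟮Reduction.jRes k M⟯.equivMap
      (IntermediateField.inclusion (fullC_le_FRes M k))).trans
    (IntermediateField.equivOfEq (by rw [IntermediateField.adjoin_map, Set.image_singleton]; rfl))

omit hM in
theorem separable_finite_of_fullC {k : Type*} [Field k]
    (hs : Algebra.IsSeparable (modularFunctionFieldFullC k M) (FRes k M))
    (hf : Module.Finite (modularFunctionFieldFullC k M) (FRes k M))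
    (hs0 : Algebra.IsSeparable k⟮Reduction.jRes k M⟯ (modularFunctionFieldFullC k M)) :
    Algebra.IsSeparable k⟮jResElt k M⟯ (FRes k M) ∧
      FiniteDimensional k⟮jResElt k M⟯ (FRes k M) := by
  have hf0 : FiniteDimensional k⟮Reduction.jRes k M⟯ (modularFunctionFieldFullC k M) :=
    Curve.finiteDimensional_adjoin (Reduction.transcendental_jRes M k)
  have : Algebra.IsSeparable k⟮Reduction.jRes k M⟯ (FRes k M) :=
    Algebra.IsSeparable.trans k⟮Reduction.jRes k M⟯ (modularFunctionFieldFullC k M) (FRes k M)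
  have : Module.Finite k⟮Reduction.jRes k M⟯ (FRes k M) :=
    Module.Finite.trans (modularFunctionFieldFullC k M) (FRes k M)
  have he : RingHom.comp (algebraMap k⟮jResElt k M⟯ (FRes k M)) (adjoinJEquiv M k).toRingEquiv =
      RingHom.comp (RingEquiv.refl (FRes k M))
        (algebraMap k⟮Reduction.jRes k M⟯ (FRes k M)) :=
    RingHom.ext fun _ => rfl
  exact ⟨Algebra.IsSeparable.of_equiv_equiv (adjoinJEquiv M k).toRingEquiv (RingEquiv.refl _) he,
    Module.Finite.of_equiv_equiv (adjoinJEquiv M k).toRingEquiv (RingEquiv.refl _) he⟩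

include hpM hA in
theorem isSeparable_jResElt :
    Algebra.IsSeparable (IsLocalRing.ResidueField A)⟮jResElt (IsLocalRing.ResidueField A) M⟯
      (FRes (IsLocalRing.ResidueField A) M) :=
  let ⟨hs, hf⟩ := isSeparable_fullC_FRes M hpM A hA
  (separable_finite_of_fullC M hs hf
    (Reduction.isSeparable_jRes M ((Nat.Prime.coprime_iff_not_dvd Fact.out).1 hpM) A hA)).1

include hpM hA in
theorem isFunctionField1_FRes_of_coprime :
    Curve.IsFunctionField1 (IsLocalRing.ResidueField A) (FRes (IsLocalRing.ResidueField A) M) :=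
  let ⟨hs, hf⟩ := isSeparable_fullC_FRes M hpM A hA
  .of_finite_adjoin (transcendental_jqRes M _) (separable_finite_of_fullC M hs hf
    (Reduction.isSeparable_jRes M ((Nat.Prime.coprime_iff_not_dvd Fact.out).1 hpM) A hA)).2

omit hM in
/-- The bound on the different goes up a finite separable extension. -/
theorem differentBound_of_fullC {k : Type*} [Field k] [IsAlgClosed k]
    [Curve.IsFunctionField1 k (FRes k M)]
    (hf : Module.Finite (modularFunctionFieldFullC k M) (FRes k M))
    (hs : Algebra.IsSeparable k⟮jResElt k M⟯ (FRes k M))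
    (hb : Reduction.DifferentBound (k := k) (Reduction.jRes k M)) :
    Reduction.DifferentBound (k := k) (jResElt k M) := by
  intro Q hQ
  have hepos : (1 : ℤ) ≤ Place.ramificationIndex (F := modularFunctionFieldFullC k M) Q := by
    exact_mod_cast Q.ramificationIndex_pos (F := modularFunctionFieldFullC k M)
  have hQ0 : 0 ≤ (Q.restrict (modularFunctionFieldFullC k M)).ord (Reduction.jRes k M) := by
    rw [← algebraMap_jRes, Place.ord_restrict] at hQ
    exact nonneg_of_mul_nonneg_right hQ (by linarith)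
  have h := hb (Q.restrict (modularFunctionFieldFullC k M)) hQ0
  have hD : KaehlerDifferential.map k k (modularFunctionFieldFullC k M) (FRes k M)
      (KaehlerDifferential.D k (modularFunctionFieldFullC k M) (Reduction.jRes k M)) ≠ 0 := by
    rw [KaehlerDifferential.map_D, algebraMap_jRes]
    exact Curve.D_ne_zero_of_isSeparable (transcendental_jqRes M k)
  have h2 := Curve.ordDifferential_map_ge_of_fg (F := modularFunctionFieldFullC k M) Q hD
  rw [KaehlerDifferential.map_D, algebraMap_jRes] at h2
  have e1 : jResElt k M ^ 4 * (jResElt k M - algebraMap k (FRes k M) 1728) ^ 3 =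
      algebraMap (modularFunctionFieldFullC k M) (FRes k M) (Reduction.jRes k M ^ 4 *
        (Reduction.jRes k M - algebraMap k (modularFunctionFieldFullC k M) 1728) ^ 3) := by
    rw [map_mul, map_pow, map_pow, map_sub, algebraMap_jRes, ← IsScalarTower.algebraMap_apply]
  rw [e1, Place.ord_restrict]
  nlinarith

include hpM hA in
/-- The bound on the different of `j` on `X₁(M)` in characteristic `p`. -/
theorem differentBound_jResElt (hN : (p = 2 → 3 ∣ M) ∧ (p = 3 → 2 ∣ M))
    [Curve.IsFunctionField1 (IsLocalRing.ResidueField A) (FRes (IsLocalRing.ResidueField A) M)] :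
    Reduction.DifferentBound (k := IsLocalRing.ResidueField A)
      (jResElt (IsLocalRing.ResidueField A) M) :=
  have := EC.isAlgClosed_residueField A
  differentBound_of_fullC M (isSeparable_fullC_FRes M hpM A hA).2
    (isSeparable_jResElt M hpM A hA)
    (Reduction.differentBound_jRes M ((Nat.Prime.coprime_iff_not_dvd Fact.out).1 hpM) A hA hN)

end Fermat.Agent.DeligneSerre.XOne
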