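import Fermat.Agent.DeligneSerre.XOne.Degree

/-!
# The function field of `X₁(M)` over `ℚ` inside `ℚ((q))`

Generated by `j(q^d)`, `d ∣ M`, and the ratios `e_a / e_1` of weight four Eisenstein series.
`Basic` has the definitions, `Eval` and `DiamondC` the complex theory (GAGA), `Diamond` the
diamond operators over any field of characteristic zero, `Degree` the degree over `L(j)`.
-/
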