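import Fermat.Agent.Reduction.Core
import Fermat.Agent.Reduction.GaussNorm
import Fermat.Agent.Reduction.Series
import Fermat.Agent.EichlerShimura.BaseChangeDegree
import Fermat.Agent.Igusa.Base

/-!
# Gauss reduction of a function field generated by integral series

`gaussRel π` is the graph of the reduction of Laurent series which are quotients of integral series
with non-zero reduction of the denominator.  A pair of function fields whose elements are quotients
of combinations of series with coefficients in `ℤ`, whose residue field is known, gives `GaussData`.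
-/

set_option autoImplicit false
set_option synthInstance.maxHeartbeats 400000

noncomputable section

open ModularCurve HahnSeries
open Fermat.Agent.Igusa (castSeries)
open scoped IntermediateField

namespace Fermat.Agent.DeligneSerre.XOne

open Fermat.Agent.Reduction (IsScalable IndepReduction)

section Rel

variable {L k : Type*} [Field L] [Field k] {A : ValuationSubring L}

/-- The graph of the Gauss reduction. -/
def gaussRel (π : A →+* k) : Subring (LaurentSeries L × LaurentSeries k) where
  carrier := {p | ∃ a b : LaurentSeries A, coeffMap π b ≠ 0 ∧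
    p.1 * coeffMap A.subtype b = coeffMap A.subtype a ∧ p.2 * coeffMap π b = coeffMap π a}
  mul_mem' := by
    rintro p q ⟨a, b, hb, h1, h2⟩ ⟨a', b', hb', h1', h2'⟩
    refine ⟨a * a', b * b', by rw [map_mul]; exact mul_ne_zero hb hb', ?_, ?_⟩
    · simp only [Prod.fst_mul, map_mul, ← h1, ← h1']; ring
    · simp only [Prod.snd_mul, map_mul, ← h2, ← h2']; ring
  one_mem' := ⟨1, 1, by simp, by simp, by simp⟩
  add_mem' := by
    rintro p q ⟨a, b, hb, h1, h2⟩ ⟨a', b', hb', h1', h2'⟩
    refine ⟨a * b' + a' * b, b * b', by rw [map_mul]; exact mul_ne_zero hb hb', ?_, ?_⟩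
    · simp only [Prod.fst_add, map_add, map_mul, ← h1, ← h1']; ring
    · simp only [Prod.snd_add, map_add, map_mul, ← h2, ← h2']; ring
  zero_mem' := ⟨0, 1, by simp, by simp, by simp⟩
  neg_mem' := by
    rintro p ⟨a, b, hb, h1, h2⟩
    exact ⟨-a, b, hb, by simp [← h1], by simp [← h2]⟩

variable {π : A →+* k}

theorem mem_gaussRel {x : LaurentSeries L} {y : LaurentSeries k} :
    (x, y) ∈ gaussRel π ↔ ∃ a b : LaurentSeries A, coeffMap π b ≠ 0 ∧
      x * coeffMap A.subtype b = coeffMap A.subtype a ∧ y * coeffMap π b = coeffMap π a := Iff.rfl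

theorem coeffMap_mem_gaussRel (a : LaurentSeries A) :
    (coeffMap A.subtype a, coeffMap π a) ∈ gaussRel π :=
  ⟨a, 1, by simp, by simp, by simp⟩

theorem C_mem_gaussRel (c : A) :
    ((HahnSeries.C (c : L) : LaurentSeries L), (HahnSeries.C (π c) : LaurentSeries k)) ∈
      gaussRel π := by
  have h := coeffMap_mem_gaussRel (π := π) (HahnSeries.C c)
  rwa [Igusa.coeffMap_C, Igusa.coeffMap_C] at h

theorem castSeries_mem_gaussRel (y : LaurentSeries ℤ) :
    (castSeries L y, castSeries k y) ∈ gaussRel π := by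
  have h := coeffMap_mem_gaussRel (π := π) (castSeries A y)
  rwa [Igusa.coeffMap_castSeries, Igusa.coeffMap_castSeries] at h

theorem gaussRel_unique {y : LaurentSeries k} (h : ((0 : LaurentSeries L), y) ∈ gaussRel π) :
    y = 0 := by
  obtain ⟨a, b, hb, h1, h2⟩ := h
  rw [zero_mul, eq_comm, ← map_zero (coeffMap A.subtype),
    (Igusa.coeffMap_injective (f := A.subtype) Subtype.val_injective).eq_iff] at h1
  rw [h1, map_zero] at h2
  exact (mul_eq_zero.1 h2).resolve_right hb

theorem gaussRel_right_unique {x : LaurentSeries L} {y y' : LaurentSeries k}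
    (h : (x, y) ∈ gaussRel π) (h' : (x, y') ∈ gaussRel π) : y = y' := by
  refine sub_eq_zero.1 (gaussRel_unique (π := π) ?_)
  simpa using (gaussRel π).sub_mem h h'

theorem gaussRel_inv {x : LaurentSeries L} {y : LaurentSeries k} (h : (x, y) ∈ gaussRel π)
    (hy : y ≠ 0) : (x⁻¹, y⁻¹) ∈ gaussRel π := by
  have hx : x ≠ 0 := fun h0 => hy (gaussRel_unique (h0 ▸ h))
  obtain ⟨a, b, hb, h1, h2⟩ := h
  refine ⟨b, a, h2 ▸ mul_ne_zero hy hb, ?_, ?_⟩
  · rw [← h1, inv_mul_cancel_left₀ hx]
  · rw [← h2, inv_mul_cancel_left₀ hy]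

variable (π) in
/-- The series with an integral representative. -/
def gaussInt : Subring (LaurentSeries L) :=
  (gaussRel π).map (RingHom.fst (LaurentSeries L) (LaurentSeries k))

theorem mem_gaussInt {x : LaurentSeries L} : x ∈ gaussInt π ↔ ∃ y, (x, y) ∈ gaussRel π :=
  ⟨fun ⟨p, hp, hx⟩ => ⟨p.2, by rw [← hx]; exact hp⟩, fun ⟨y, h⟩ => ⟨(x, y), h, rfl⟩⟩

theorem C_mem_gaussInt {c : L} (hc : c ∈ A) : (HahnSeries.C c : LaurentSeries L) ∈ gaussInt π :=
  mem_gaussInt.2 ⟨_, C_mem_gaussRel (⟨c, hc⟩ : A)⟩

variable (π) in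
/-- A constant multiple has a non-zero reduction. -/
def HasGaussValue (x : LaurentSeries L) : Prop :=
  ∃ c : L, c ≠ 0 ∧ ∃ y : LaurentSeries k, y ≠ 0 ∧ (HahnSeries.C c * x, y) ∈ gaussRel π

theorem hasGaussValue_of_isScalable {x : LaurentSeries L} (h : IsScalable A π x) :
    HasGaussValue π x := by
  obtain ⟨c, hc, y, hy, hyπ⟩ := h
  exact ⟨c, hc, _, hyπ, hy ▸ coeffMap_mem_gaussRel y⟩

theorem HasGaussValue.div {x x' : LaurentSeries L} (h : HasGaussValue π x)
    (h' : HasGaussValue π x') : HasGaussValue π (x / x') := by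
  obtain ⟨c, hc, y, hy, hxy⟩ := h
  obtain ⟨c', hc', y', hy', hxy'⟩ := h'
  refine ⟨c / c', div_ne_zero hc hc', y * y'⁻¹, mul_ne_zero hy (inv_ne_zero hy'), ?_⟩
  have := (gaussRel π).mul_mem hxy (gaussRel_inv hxy' hy')
  convert this using 1
  simp only [Prod.mk_mul_mk, Prod.mk.injEq, and_true, mul_inv, ← map_inv₀, div_eq_mul_inv, map_mul]
  ring

theorem inv_mem_of_map_ne_zero [IsLocalHom π] {a : A} (ha : π a ≠ 0) : (a : L)⁻¹ ∈ A := by
  obtain ⟨w, hw⟩ := isUnit_iff_exists_inv.1 (isUnit_of_map_unit π _ (isUnit_iff_ne_zero.2 ha))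
  exact inv_eq_of_mul_eq_one_right (congrArg Subtype.val hw) ▸ w.2

/-- Integrality is read on the normalising constant. -/
theorem mem_gaussInt_iff_inv_mem [IsLocalHom π] {x : LaurentSeries L} {c : L} (hc : c ≠ 0)
    {y : LaurentSeries k} (hy : y ≠ 0) (h : (HahnSeries.C c * x, y) ∈ gaussRel π) :
    x ∈ gaussInt π ↔ c⁻¹ ∈ A := by
  constructor
  · intro hx
    obtain ⟨z, hz⟩ := mem_gaussInt.1 hx
    by_contra hinv
    have hcA : c ∈ A := (A.mem_or_inv_mem c).resolve_right hinv
    have h0 : π ⟨c, hcA⟩ = 0 := by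
      by_contra hne
      exact hinv (inv_mem_of_map_ne_zero hne)
    have hp := (gaussRel π).mul_mem (C_mem_gaussRel (⟨c, hcA⟩ : A)) hz
    rw [Prod.mk_mul_mk, h0, map_zero, zero_mul] at hp
    exact hy (gaussRel_right_unique h hp)
  · intro hinv
    have hp := (gaussRel π).mul_mem (C_mem_gaussRel (⟨c⁻¹, hinv⟩ : A)) h
    rw [Prod.mk_mul_mk, ← mul_assoc, ← map_mul, inv_mul_cancel₀ hc, map_one, one_mul] at hp
    exact mem_gaussInt.2 ⟨_, hp⟩

theorem mem_gaussInt_or_inv_mem [IsLocalHom π] {x : LaurentSeries L}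
    (h : x ≠ 0 → HasGaussValue π x) : x ∈ gaussInt π ∨ x⁻¹ ∈ gaussInt π := by
  rcases eq_or_ne x 0 with rfl | hx
  · exact Or.inl (gaussInt π).zero_mem
  obtain ⟨c, hc, y, hy, hxy⟩ := h hx
  rcases A.mem_or_inv_mem c⁻¹ with hinv | hinv
  · exact Or.inl ((mem_gaussInt_iff_inv_mem hc hy hxy).2 hinv)
  · right
    rw [inv_inv] at hinv
    have hp := (gaussRel π).mul_mem (C_mem_gaussRel (⟨c, hinv⟩ : A)) (gaussRel_inv hxy hy)
    rw [Prod.mk_mul_mk, mul_inv, ← mul_assoc, ← map_inv₀, ← map_mul, mul_inv_cancel₀ hc, map_one,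
      one_mul] at hp
    exact mem_gaussInt.2 ⟨_, hp⟩

end Rel

section IntSpan

/-- Combinations of series with coefficients in `ℤ`. -/
def intSpan (L : Type*) [Field L] : Subalgebra L (LaurentSeries L) :=
  Algebra.adjoin L (Set.range (castSeries L))

theorem castSeries_mem_intSpan (L : Type*) [Field L] (y : LaurentSeries ℤ) :
    castSeries L y ∈ intSpan L :=
  Algebra.subset_adjoin ⟨y, rfl⟩

theorem mem_intSpan_iff {L : Type*} [Field L] {x : LaurentSeries L} :
    x ∈ intSpan L ↔ ∃ (n : ℕ) (c : Fin n → L) (y : Fin n → LaurentSeries ℤ),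
      x = ∑ i, HahnSeries.C (c i) * castSeries L (y i) := by
  constructor
  · intro hx
    induction hx using Algebra.adjoin_induction with
    | mem z hz =>
      obtain ⟨y, rfl⟩ := hz
      exact ⟨1, fun _ => 1, fun _ => y, by simp⟩
    | algebraMap r =>
      exact ⟨1, fun _ => r, fun _ => 1, by simp [algebraMap_laurentSeries_eq_single]⟩
    | add z w _ _ h1 h2 =>
      obtain ⟨n, c, y, rfl⟩ := h1
      obtain ⟨m, c', y', rfl⟩ := h2
      exact ⟨n + m, Fin.append c c', Fin.append y y', by simp [Fin.sum_univ_add]⟩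
    | mul z w _ _ h1 h2 =>
      obtain ⟨n, c, y, rfl⟩ := h1
      obtain ⟨m, c', y', rfl⟩ := h2
      refine ⟨n * m, fun i => c (finProdFinEquiv.symm i).1 * c' (finProdFinEquiv.symm i).2,
        fun i => y (finProdFinEquiv.symm i).1 * y' (finProdFinEquiv.symm i).2, ?_⟩
      rw [Finset.sum_mul_sum, ← Fintype.sum_prod_type', ← finProdFinEquiv.symm.sum_comp]
      refine Finset.sum_congr rfl fun i _ => ?_
      simp only [castSeries, map_mul]
      ring
  · rintro ⟨n, c, y, rfl⟩
    refine sum_mem fun i _ => mul_mem ?_ (castSeries_mem_intSpan L _)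
    rw [Reduction.C_eq_algebraMap]
    exact (intSpan L).algebraMap_mem _

variable {L k : Type*} [Field L] [Field k] {A : ValuationSubring L}

/-- Non-zero combinations of integral series are scalable. -/
def SpanScalable (π : A →+* k) : Prop :=
  ∀ x ∈ intSpan L, x ≠ 0 → IsScalable A π x

theorem hasGaussValue_div {π : A →+* k} (h : SpanScalable π) {u v : LaurentSeries L}
    (hu : u ∈ intSpan L) (hv : v ∈ intSpan L) (hne : u / v ≠ 0) : HasGaussValue π (u / v) :=
  (hasGaussValue_of_isScalable (h u hu fun e => hne (by rw [e, zero_div]))).div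
    (hasGaussValue_of_isScalable (h v hv fun e => hne (by rw [e, div_zero])))

theorem spanScalable_of_isAlgebraic [Algebra ℚ L] [Algebra.IsAlgebraic ℚ L] (π : A →+* k) :
    SpanScalable π := by
  classical
  intro x hx hx0
  obtain ⟨n, c, y, rfl⟩ := mem_intSpan_iff.1 hx
  obtain ⟨i₀, -, hi0, hmax⟩ := Reduction.exists_max (A := A) Finset.univ c (by
    by_contra hall
    push Not at hall
    exact hx0 (Finset.sum_eq_zero fun i hi => by rw [hall i hi, map_zero, zero_mul]))
  let F₀ : IntermediateField ℚ (LaurentSeries ℚ) :=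
    IntermediateField.adjoin ℚ (Set.range (castSeries ℚ))
  let z : LaurentSeries A := ∑ i, HahnSeries.C (⟨_, hmax i (Finset.mem_univ i)⟩ : A) * castSeries A (y i)
  have hzx : coeffMap A.subtype z = HahnSeries.C (c i₀)⁻¹ * ∑ i, HahnSeries.C (c i) * castSeries L (y i) := by
    rw [map_sum, Finset.mul_sum]
    refine Finset.sum_congr rfl fun i _ => ?_
    rw [map_mul, Igusa.coeffMap_C, Igusa.coeffMap_castSeries, ← mul_assoc, ← map_mul, inv_mul_eq_div]
    rfl
  have hmem : coeffMap A.subtype z ∈ laurentBaseChange L F₀ := by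
    rw [map_sum]
    refine sum_mem fun i _ => ?_
    rw [map_mul, Igusa.coeffMap_C, Igusa.coeffMap_castSeries, Reduction.C_eq_algebraMap,
      ← Igusa.coeffMap_castSeries (algebraMap ℚ L)]
    exact mul_mem (IntermediateField.algebraMap_mem _ _)
      (coeffEmb_mem_laurentBaseChange L (IntermediateField.subset_adjoin _ _ ⟨y i, rfl⟩))
  have hC : (HahnSeries.C (c i₀)⁻¹ : LaurentSeries L) ≠ 0 := by
    rw [ne_eq, ← map_zero HahnSeries.C, HahnSeries.C_injective.eq_iff, inv_eq_zero]
    exact hi0
  obtain ⟨d, hd, w, hw, hwπ⟩ := Reduction.isScalable_of_mem (π := π) z hmem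
    (hzx ▸ mul_ne_zero hC hx0)
  refine ⟨d * (c i₀)⁻¹, mul_ne_zero hd (inv_ne_zero hi0), w, ?_, hwπ⟩
  rw [hw, hzx, ← mul_assoc, ← map_mul]

/-- Scalability of combinations extends to a larger field of constants. -/
theorem SpanScalable.extend {π : A →+* k} [IsLocalHom π] (h : SpanScalable π) {E k' : Type*}
    [Field E] [Field k'] (ι : L →+* E) {B : ValuationSubring E} (ρ : B →+* k') (χ : k →+* k')
    (hcomp : ∀ a : A, ∃ hb : ι a ∈ B, ρ ⟨ι a, hb⟩ = χ (π a)) : SpanScalable ρ := by
  classical
  intro x hx hx0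
  obtain ⟨n, c, y, rfl⟩ := mem_intSpan_iff.1 hx
  let T : IntermediateField L (LaurentSeries L) := ⊤
  let g : Fin n → T := fun i => ⟨castSeries L (y i), IntermediateField.mem_top⟩
  let V : Submodule L T := Submodule.span L (Set.range g)
  have : FiniteDimensional L V := FiniteDimensional.span_of_finite L (Set.finite_range g)
  have hVspan : ∀ f ∈ V, (f : LaurentSeries L) ∈ intSpan L := by
    intro f hf
    induction hf using Submodule.span_induction with
    | mem z hz => obtain ⟨i, rfl⟩ := hz; exact castSeries_mem_intSpan L _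
    | zero => exact zero_mem _
    | add z w _ _ hz hw => exact add_mem hz hw
    | smul a z _ hz =>
      rw [Reduction.coeff_algebra_smul, Reduction.C_eq_algebraMap]
      exact mul_mem ((intSpan L).algebraMap_mem _) hz
  have hV : ∀ f ∈ V, f ≠ 0 → IsScalable A π (f : LaurentSeries L) := fun f hf hf0 =>
    h _ (hVspan f hf) fun e => hf0 (Subtype.ext e)
  obtain ⟨v, w, hv, hvw, hw⟩ := Reduction.exists_basis_indepReduction V hV
  -- coordinates of the generators on the orthogonal basis
  have hcoord : ∀ i, ∃ a : Fin (Module.finrank L V) → L,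
      castSeries L (y i) = ∑ j, HahnSeries.C (a j) * coeffMap A.subtype (w j) := by
    intro i
    have hgV : g i ∈ V := Submodule.subset_span ⟨i, rfl⟩
    by_cases hgi : g i = 0
    · refine ⟨0, ?_⟩
      have h1 : castSeries L (y i) = 0 := congrArg Subtype.val hgi
      simp [h1]
    obtain ⟨d, hd, z, hz, -⟩ := hV _ hgV hgi
    obtain ⟨e, he, -⟩ := Reduction.exists_integral_combination hv hvw hw (V.smul_mem d hgV) z
      (by rw [hz, Reduction.coeff_algebra_smul])
    refine ⟨fun j => d⁻¹ * e j, ?_⟩
    have h1 := congrArg (fun t : T => HahnSeries.C d⁻¹ * (t : LaurentSeries L)) he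
    simp only [AddSubmonoidClass.coe_finsetSum, Reduction.coeff_algebra_smul, ← hvw, Finset.mul_sum,
      ← mul_assoc, ← map_mul, inv_mul_cancel₀ hd, map_one, one_mul] at h1
    exact h1
  choose a ha using hcoord
  let d : Fin (Module.finrank L V) → E := fun j => ∑ i, c i * ι (a i j)
  let B' : LaurentSeries A →+* LaurentSeries B :=
    coeffMap ((ι.comp A.subtype).codRestrict B.toSubring fun t => (hcomp t).1)
  have hB' : ∀ t, coeffMap B.subtype (B' t) = coeffMap ι (coeffMap A.subtype t) := fun t => by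
    rw [coeffMap_coeffMap, coeffMap_coeffMap]; rfl
  have hB'π : ∀ t, coeffMap ρ (B' t) = coeffMap χ (coeffMap π t) := fun t => by
    rw [coeffMap_coeffMap, coeffMap_coeffMap]
    exact coeffMap_congr (RingHom.ext fun u => (hcomp u).2) t
  have hsum : ∑ i, HahnSeries.C (c i) * castSeries E (y i) =
      ∑ j, HahnSeries.C (d j) * coeffMap B.subtype (B' (w j)) := by
    simp only [hB', d, map_sum, map_mul, Finset.sum_mul]
    rw [Finset.sum_comm]
    refine Finset.sum_congr rfl fun i _ => ?_
    rw [← Igusa.coeffMap_castSeries ι, ha i, map_sum, Finset.mul_sum]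
    refine Finset.sum_congr rfl fun j _ => ?_
    rw [map_mul, Igusa.coeffMap_C, mul_assoc]
  rw [hsum] at hx0 ⊢
  obtain ⟨m, -, hm0, hmax⟩ := Reduction.exists_max (A := B) Finset.univ d (by
    by_contra hall
    push Not at hall
    exact hx0 (Finset.sum_eq_zero fun i hi => by rw [hall i hi, map_zero, zero_mul]))
  let e : Fin (Module.finrank L V) → B := fun j => ⟨_, hmax j (Finset.mem_univ j)⟩
  refine ⟨(d m)⁻¹, inv_ne_zero hm0, ∑ j, HahnSeries.C (e j) * B' (w j), ?_, fun h0 => ?_⟩
  · rw [map_sum, Finset.mul_sum]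
    refine Finset.sum_congr rfl fun j _ => ?_
    rw [map_mul, Igusa.coeffMap_C, ← mul_assoc, ← map_mul, inv_mul_eq_div]
    rfl
  -- independence survives extension of the residue field
  have hem : ρ (e m) = 1 := by
    rw [show e m = 1 from Subtype.ext (div_self hm0), map_one]
  let _ : Algebra k k' := χ.toAlgebra
  obtain ⟨φ, hφ⟩ : ∃ φ : k' →ₗ[k] k, φ (ρ (e m)) ≠ 0 := by
    by_contra hall
    push Not at hall
    exact one_ne_zero (hem ▸ (Module.forall_dual_apply_eq_zero_iff k _).1 hall)
  refine hφ (congrFun (hw (fun j => φ (ρ (e j))) (HahnSeries.ext (funext fun t => ?_))) m)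
  have h1 := congrArg (fun s : LaurentSeries k' => φ (s.coeff t)) h0
  simp only [map_sum, map_mul, Igusa.coeffMap_C, hB'π, HahnSeries.coeff_sum,
    Reduction.coeff_C_mul, coeffMap_coeff, HahnSeries.coeff_zero, map_zero] at h1 ⊢
  refine Eq.trans (Finset.sum_congr rfl fun j _ => ?_) h1
  rw [mul_comm (φ _), mul_comm (ρ _), show χ (π ((w j).coeff t)) * ρ (e j) =
    (π ((w j).coeff t)) • ρ (e j) from rfl, map_smul, smul_eq_mul]

end IntSpan

section Pair

variable {L k : Type*} [Field L] [Field k] {A : ValuationSubring L} (π : A →+* k)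
variable (F : IntermediateField L (LaurentSeries L)) (Fb : IntermediateField k (LaurentSeries k))

/-- The graph on a pair of fields. -/
def gaussGraph : Subring (F × Fb) :=
  (gaussRel π).comap (RingHom.prodMap F.val.toRingHom Fb.val.toRingHom)

theorem mem_gaussGraph {f : F} {g : Fb} :
    (f, g) ∈ gaussGraph π F Fb ↔ ((f : LaurentSeries L), (g : LaurentSeries k)) ∈ gaussRel π :=
  Iff.rfl

/-- What is needed from a pair of fields. -/
structure IsGaussPair : Prop where
  span : SpanScalable π
  quot : ∀ x ∈ F, ∃ u v : LaurentSeries L, u ∈ intSpan L ∧ v ∈ intSpan L ∧ u ∈ F ∧ v ∈ F ∧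
    v ≠ 0 ∧ x * v = u
  lift : ∀ y ∈ Fb, ∃ x ∈ F, (x, y) ∈ gaussRel π
  red : ∀ x y, x ∈ F → (x, y) ∈ gaussRel π → y ∈ Fb

variable {π F Fb}

theorem IsGaussPair.hasGaussValue (h : IsGaussPair π F Fb) {x : LaurentSeries L} (hx : x ∈ F)
    (hx0 : x ≠ 0) : HasGaussValue π x := by
  obtain ⟨u, v, hu, hv, -, -, hv0, hxv⟩ := h.quot x hx
  rw [eq_div_of_mul_eq hv0 hxv] at hx0 ⊢
  exact hasGaussValue_div h.span hu hv hx0

set_option maxHeartbeats 1600000 in
theorem IsGaussPair.finrank_span [IsLocalHom π] (h : IsGaussPair π F Fb) (W : Submodule L F)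
    (hW : FiniteDimensional L W) :
    Module.finrank k (Submodule.span k {g : Fb | ∃ f ∈ W, (f, g) ∈ gaussGraph π F Fb}) =
      Module.finrank L W := by
  classical
  let bW := Module.finBasis L W
  choose u v hu hv huF hvF hv0 huv using fun i => h.quot _ ((bW i : F).2)
  let Q₀ : LaurentSeries L := ∏ i, v i
  have hQspan : Q₀ ∈ intSpan L := prod_mem fun i _ => hv i
  have hQF : Q₀ ∈ F := prod_mem fun i _ => hvF i
  have hQ00 : Q₀ ≠ 0 := Finset.prod_ne_zero_iff.2 fun i _ => hv0 i
  obtain ⟨c, hc, Qy, hQy, hQπ⟩ := h.span _ hQspan hQ00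
  let Qel : F := c • ⟨Q₀, hQF⟩
  have hQel : (Qel : LaurentSeries L) = coeffMap A.subtype Qy := by
    rw [Reduction.coeff_algebra_smul, hQy]
  have hQ0 : Qel ≠ 0 := smul_ne_zero hc fun e => hQ00 (congrArg Subtype.val e)
  set M := LinearMap.mulLeft L Qel with hM
  set W' : Submodule L F := W.map M with hW'
  have hspanW : ∀ w ∈ W, ((Qel * w : F) : LaurentSeries L) ∈ intSpan L := by
    intro w hw
    have hwsum : w = ((∑ i, bW.repr ⟨w, hw⟩ i • bW i : W) : F) := by rw [bW.sum_repr]
    rw [hwsum, Submodule.coe_sum, Finset.mul_sum, AddSubmonoidClass.coe_finsetSum]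
    refine sum_mem fun i _ => ?_
    rw [Submodule.coe_smul, IntermediateField.coe_mul, Reduction.coeff_algebra_smul,
      Reduction.coeff_algebra_smul]
    show HahnSeries.C c * (∏ j, v j) * (HahnSeries.C _ * _) ∈ _
    rw [Reduction.C_eq_algebraMap, Reduction.C_eq_algebraMap,
      ← Finset.prod_erase_mul _ _ (Finset.mem_univ i),
      show ∀ a P q b w : LaurentSeries L, a * (P * q) * (b * w) = a * b * P * (w * q) from
        fun _ _ _ _ _ => by ring, huv i]
    exact mul_mem (mul_mem (mul_mem ((intSpan L).algebraMap_mem _) ((intSpan L).algebraMap_mem _))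
      (prod_mem fun j _ => hv j)) (hu i)
  have hscal : ∀ f ∈ W', f ≠ 0 → IsScalable A π (f : LaurentSeries L) := by
    rintro _ ⟨w, hw, rfl⟩ hne
    exact h.span _ (hspanW w hw) fun e => hne (Subtype.ext e)
  have : FiniteDimensional L W' := by rw [hW']; infer_instance
  have hinj : Function.Injective M := mul_right_injective₀ hQ0
  have hfr : Module.finrank L W' = Module.finrank L W :=
    (Submodule.equivMapOfInjective M hinj W).finrank_eq.symm
  obtain ⟨v', y, hv', hvy, hy⟩ := Reduction.exists_basis_indepReduction (π := π) W' hscal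
  choose w hwW hwv using fun i => Submodule.mem_map.1 (hv' i)
  have hgraph0 : ∀ i, ((w i : LaurentSeries L), coeffMap π (y i) / coeffMap π Qy) ∈ gaussRel π :=
    fun i => by
      refine ⟨y i, Qy, hQπ, ?_, div_mul_cancel₀ _ hQπ⟩
      rw [hvy i, ← hwv i, ← hQel, mul_comm]
      rfl
  set g : Fin (Module.finrank L W') → Fb :=
    fun i => ⟨_, h.red _ _ (w i).2 (hgraph0 i)⟩ with hg
  have hli : LinearIndependent k g := by
    refine Fintype.linearIndependent_iff.2 fun a ha i => congrFun (hy a ?_) i
    have h1 := congrArg (fun z : Fb => (z : LaurentSeries k) * coeffMap π Qy) ha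
    simp only [hg, AddSubmonoidClass.coe_finsetSum, Reduction.coeff_algebra_smul,
      ZeroMemClass.coe_zero, zero_mul, Finset.sum_mul] at h1
    rw [← h1]
    refine Finset.sum_congr rfl fun j _ => ?_
    rw [mul_assoc, div_mul_cancel₀ _ hQπ]
  have hspan : Submodule.span k {g' : Fb | ∃ f ∈ W, (f, g') ∈ gaussGraph π F Fb} =
      Submodule.span k (Set.range g) := by
    refine le_antisymm (Submodule.span_le.2 ?_)
      (Submodule.span_mono fun x ⟨i, hi⟩ => ⟨w i, hwW i, hi ▸ hgraph0 i⟩)
    rintro g' ⟨f, hfW, a, b, hb, h1, h2⟩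
    have hxW : Qel * f ∈ W' := ⟨f, hfW, rfl⟩
    rcases eq_or_ne f 0 with rfl | hf0
    · rw [show g' = 0 from Subtype.ext (gaussRel_unique ⟨a, b, hb, h1, h2⟩)]
      exact zero_mem _
    have hx0 : Qel * f ≠ 0 := mul_ne_zero hQ0 hf0
    obtain ⟨d, hd, z, hz, -⟩ := hscal _ hxW hx0
    obtain ⟨e, he, -⟩ := Reduction.exists_integral_combination (π := π) hv' hvy hy
      (W'.smul_mem d hxW) z (by rw [hz, Reduction.coeff_algebra_smul])
    have hexp : ((Qel * f : F) : LaurentSeries L)
        = ∑ i, HahnSeries.C (d⁻¹ * (e i : L)) * coeffMap A.subtype (y i) := by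
      have h3 := congrArg (fun z : F => HahnSeries.C d⁻¹ * (z : LaurentSeries L)) he
      simp only [AddSubmonoidClass.coe_finsetSum, Reduction.coeff_algebra_smul, ← hvy,
        Finset.mul_sum, ← mul_assoc, ← map_mul, inv_mul_cancel₀ hd, map_one, one_mul] at h3
      exact h3
    have hyb : IndepReduction A π (fun i => y i * b) := fun a' ha' => by
      refine hy a' ((mul_eq_zero.1 (?_ : _ * coeffMap π b = 0)).resolve_right hb)
      rw [← ha', Finset.sum_mul]
      simp only [map_mul, mul_assoc]
    have hprod : coeffMap A.subtype (a * Qy)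
        = ∑ i, HahnSeries.C (d⁻¹ * (e i : L)) * coeffMap A.subtype (y i * b) := by
      rw [map_mul, ← h1]
      simp only [map_mul, ← mul_assoc]
      rw [← Finset.sum_mul]
      simp only [← map_mul]
      rw [← hexp, IntermediateField.coe_mul, hQel]
      show (f : LaurentSeries L) * _ * _ = _
      ring
    have hmem := Reduction.coeff_mem_of_indep hyb _ (a * Qy) hprod
    have heq : a * Qy = ∑ i, HahnSeries.C (⟨_, hmem i⟩ : A) * (y i * b) := by
      apply Igusa.coeffMap_injective (f := A.subtype) Subtype.val_injective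
      rw [hprod, map_sum]
      refine Finset.sum_congr rfl fun i _ => ?_
      rw [map_mul (coeffMap A.subtype) (HahnSeries.C _), Igusa.coeffMap_C]
      rfl
    have hg' : g' = ∑ i, π ⟨_, hmem i⟩ • g i := by
      apply Subtype.ext
      simp only [AddSubmonoidClass.coe_finsetSum, Reduction.coeff_algebra_smul]
      refine mul_right_cancel₀ hb (mul_right_cancel₀ hQπ ?_)
      rw [show (g' : LaurentSeries k) * coeffMap π b = coeffMap π a from h2, ← map_mul, heq,
        map_sum, Finset.sum_mul, Finset.sum_mul]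
      refine Finset.sum_congr rfl fun i _ => ?_
      simp only [map_mul, Igusa.coeffMap_C, hg]
      field_simp
    rw [hg']
    exact sum_mem fun i _ => Submodule.smul_mem _ _ (Submodule.subset_span ⟨i, rfl⟩)
  rw [hspan, finrank_span_eq_card hli, Fintype.card_fin, hfr]

/-- The reduction data of a pair. -/
def IsGaussPair.gaussData [IsLocalHom π] (hsurj : Function.Surjective π)
    (h : IsGaussPair π F Fb) : Reduction.GaussData π F Fb where
  graph := gaussGraph π F Fb
  unique g hg := Subtype.ext (gaussRel_unique hg)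
  algebraMap_mem a := by
    refine (mem_gaussGraph π F Fb).2 ?_
    rw [IntermediateField.coe_algebraMap_apply, IntermediateField.coe_algebraMap_apply,
      ← Reduction.C_eq_algebraMap, ← Reduction.C_eq_algebraMap]
    exact C_mem_gaussRel a
  residue_surjective := hsurj
  residue_eq_zero a ha := by
    by_contra hne
    exact ha (inv_mem_of_map_ne_zero hne)
  exists_lift g := by
    obtain ⟨x, hx, hxg⟩ := h.lift _ g.2
    exact ⟨⟨x, hx⟩, hxg⟩
  finrank_span := h.finrank_span

end Pair

section Degree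

variable {L k : Type*} [Field L] [Field k] {A : ValuationSubring L} {π : A →+* k}

theorem aeval_mem_gaussRel {t : LaurentSeries L} {tb : LaurentSeries k}
    (ht : (t, tb) ∈ gaussRel π) (P : Polynomial A) :
    (Polynomial.aeval t (P.map A.subtype), Polynomial.aeval tb (P.map π)) ∈ gaussRel π := by
  induction P using Polynomial.induction_on' with
  | add p q hp hq =>
    rw [Polynomial.map_add, Polynomial.map_add, map_add, map_add, ← Prod.mk_add_mk]
    exact (gaussRel π).add_mem hp hq
  | monomial m a =>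
    rw [Polynomial.map_monomial, Polynomial.map_monomial, Polynomial.aeval_monomial,
      Polynomial.aeval_monomial]
    have := (gaussRel π).mul_mem (C_mem_gaussRel a) ((gaussRel π).pow_mem ht m)
    rw [Reduction.C_eq_algebraMap, Reduction.C_eq_algebraMap] at this
    exact this

set_option maxHeartbeats 1600000 in
/-- Elements with independent reductions are independent. -/
theorem finrank_ge_of_independent_red (F : IntermediateField L (LaurentSeries L)) (t : F)
    (htr : Transcendental L t) {tb : LaurentSeries k}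
    (ht : ((t : LaurentSeries L), tb) ∈ gaussRel π) [FiniteDimensional L⟮t⟯ F] {ι : Type*}
    [Fintype ι] (x : ι → F) (g : ι → LaurentSeries k)
    (hg : ∀ i, ((x i : LaurentSeries L), g i) ∈ gaussRel π)
    (hind : ∀ p : ι → Polynomial k, ∑ i, Polynomial.aeval tb (p i) * g i = 0 → ∀ i, p i = 0) :
    Fintype.card ι ≤ Module.finrank L⟮t⟯ F := by
  classical
  refine (EichlerShimura.linearIndependent_of_aeval (b := x) htr fun P hP i => ?_).fintype_card_le_finrank
  by_contra hi
  obtain ⟨n, hn⟩ : ∃ n, (P i).coeff n ≠ 0 := by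
    by_contra hall
    push Not at hall
    exact hi (Polynomial.ext fun n => by simp [hall])
  obtain ⟨⟨i₀, n₀⟩, -, h0, hmax⟩ := Reduction.exists_max (A := A)
    (Finset.univ.sigma fun j => Finset.range ((P j).natDegree + 1))
    (fun s : (_ : ι) × ℕ => (P s.1).coeff s.2)
    ⟨⟨i, n⟩, Finset.mem_sigma.2 ⟨Finset.mem_univ _, Finset.mem_range.2
      (Nat.lt_succ_of_le (Polynomial.le_natDegree_of_ne_zero hn))⟩, hn⟩
  set a := ((P i₀).coeff n₀)⁻¹ with ha
  have hmem : ∀ j m, a * (P j).coeff m ∈ A := fun j m => by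
    rcases le_or_gt m (P j).natDegree with hm | hm
    · rw [ha, inv_mul_eq_div]
      exact hmax ⟨j, m⟩ (Finset.mem_sigma.2 ⟨Finset.mem_univ _, Finset.mem_range.2 (Nat.lt_succ_of_le hm)⟩)
    · rw [Polynomial.coeff_eq_zero_of_natDegree_lt hm, mul_zero]; exact zero_mem A
  have hlift : ∀ j, ∃ Q : Polynomial A, Q.map A.subtype = Polynomial.C a * P j := fun j =>
    (Polynomial.mem_lifts _).1 ((Polynomial.lifts_iff_coeff_lifts _).2 fun m =>
      ⟨⟨_, hmem j m⟩, by simp [Polynomial.coeff_C_mul]⟩)
  choose Q hQ using hlift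
  have hrel : (∑ j, Polynomial.aeval (t : LaurentSeries L) ((Q j).map A.subtype) * (x j : LaurentSeries L),
      ∑ j, Polynomial.aeval tb ((Q j).map π) * g j) ∈ gaussRel π := by
    have hpair : ((∑ j, Polynomial.aeval (t : LaurentSeries L) ((Q j).map A.subtype) * (x j : LaurentSeries L),
        ∑ j, Polynomial.aeval tb ((Q j).map π) * g j) : LaurentSeries L × LaurentSeries k) =
        ∑ j, (Polynomial.aeval (t : LaurentSeries L) ((Q j).map A.subtype),
          Polynomial.aeval tb ((Q j).map π)) * ((x j : LaurentSeries L), g j) := by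
      simp [Prod.ext_iff, Prod.fst_sum, Prod.snd_sum]
    rw [hpair]
    exact Subring.sum_mem _ fun j _ => (gaussRel π).mul_mem (aeval_mem_gaussRel ht _) (hg j)
  have hz : ∑ j, Polynomial.aeval (t : LaurentSeries L) ((Q j).map A.subtype) *
      (x j : LaurentSeries L) = 0 := by
    have h1 := congrArg (fun z : F => algebraMap L (LaurentSeries L) a * (z : LaurentSeries L)) hP
    simp only [AddSubmonoidClass.coe_finsetSum, IntermediateField.coe_mul, ZeroMemClass.coe_zero,
      mul_zero, Finset.mul_sum] at h1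
    rw [← h1]
    refine Finset.sum_congr rfl fun j _ => ?_
    rw [hQ, map_mul, Polynomial.aeval_C, ← mul_assoc]
    congr 1
    congr 1
    exact (Polynomial.aeval_algHom_apply F.val t (P j))
  rw [hz] at hrel
  have h2 := congrArg (fun p : Polynomial k => p.coeff n₀) (hind _ (gaussRel_unique hrel) i₀)
  simp only [Polynomial.coeff_map, Polynomial.coeff_zero] at h2
  have h3 : (Q i₀).coeff n₀ = 1 := Subtype.ext (by
    have := congrArg (fun p : Polynomial L => p.coeff n₀) (hQ i₀)
    simp only [Polynomial.coeff_map, Polynomial.coeff_C_mul, ha, inv_mul_cancel₀ h0] at this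
    exact this)
  rw [h3, map_one] at h2
  exact one_ne_zero h2

theorem aeval_independent_of_linearIndependent {Fb : IntermediateField k (LaurentSeries k)}
    {tb : Fb} (htr : Transcendental k tb) {ι : Type*} [Fintype ι] {b : ι → Fb}
    (hb : LinearIndependent k⟮tb⟯ b) (p : ι → Polynomial k)
    (h : ∑ i, Polynomial.aeval (tb : LaurentSeries k) (p i) * (b i : LaurentSeries k) = 0) (i : ι) :
    p i = 0 := by
  let c : ι → k⟮tb⟯ := fun j => ⟨Polynomial.aeval tb (p j),
    IntermediateField.algebra_adjoin_le_adjoin k _ (Polynomial.aeval_mem_adjoin_singleton k tb)⟩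
  have hsum : ∑ j, c j • b j = 0 := by
    apply Subtype.ext
    rw [ZeroMemClass.coe_zero, AddSubmonoidClass.coe_finsetSum, ← h]
    refine Finset.sum_congr rfl fun j _ => ?_
    show ((Polynomial.aeval tb (p j) : Fb) : LaurentSeries k) * (b j : LaurentSeries k) = _
    congr 1
    exact (Polynomial.aeval_algHom_apply Fb.val tb (p j)).symm
  exact transcendental_iff.mp htr _
    (congrArg Subtype.val (Fintype.linearIndependent_iff.1 hb c hsum i))

set_option maxHeartbeats 1600000 in
/-- The residue field is `Fb` as soon as the degree of `Fb` is large enough. -/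
theorem red_of_finrank (F : IntermediateField L (LaurentSeries L))
    (Fb : IntermediateField k (LaurentSeries k)) (t : F) (tb : Fb) (htr : Transcendental L t)
    (htrb : Transcendental k tb) (ht : ((t : LaurentSeries L), (tb : LaurentSeries k)) ∈ gaussRel π)
    [FiniteDimensional L⟮t⟯ F] (hlift : ∀ y ∈ Fb, ∃ x ∈ F, (x, y) ∈ gaussRel π) :
    FiniteDimensional k⟮tb⟯ Fb ∧ Module.finrank k⟮tb⟯ Fb ≤ Module.finrank L⟮t⟯ F ∧
      (Module.finrank L⟮t⟯ F ≤ Module.finrank k⟮tb⟯ Fb →
        ∀ x y, x ∈ F → (x, y) ∈ gaussRel π → y ∈ Fb) := by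
  classical
  have hle : ∀ s : Finset Fb, LinearIndependent k⟮tb⟯ ((↑) : s → Fb) →
      s.card ≤ Module.finrank L⟮t⟯ F := by
    intro s hs
    choose x hxF hx using fun i : s => hlift _ ((i : Fb)).2
    rw [← Fintype.card_coe]
    exact finrank_ge_of_independent_red F t htr ht (fun i => ⟨x i, hxF i⟩) _ hx
      (aeval_independent_of_linearIndependent htrb hs)
  have hfin : FiniteDimensional k⟮tb⟯ Fb :=
    Module.rank_lt_aleph0_iff.1
      (lt_of_le_of_lt (rank_le hle) (Cardinal.natCast_lt_aleph0))
  have hle' : Module.finrank k⟮tb⟯ Fb ≤ Module.finrank L⟮t⟯ F :=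
    Module.finrank_le_of_rank_le (rank_le hle)
  refine ⟨hfin, hle', fun hge x y hxF hxy => ?_⟩
  let b := Module.finBasis k⟮tb⟯ Fb
  choose z hzF hz using fun i => hlift _ (b i).2
  by_contra hy
  let z' : Option (Fin (Module.finrank k⟮tb⟯ Fb)) → F := fun o => o.elim ⟨x, hxF⟩ fun i => ⟨z i, hzF i⟩
  let g' : Option (Fin (Module.finrank k⟮tb⟯ Fb)) → LaurentSeries k :=
    fun o => o.elim y fun i => (b i : LaurentSeries k)
  have hcard := finrank_ge_of_independent_red F t htr ht z' g'
    (fun o => match o with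
      | none => hxy
      | some i => hz i)
    (fun p hp => by
      rw [Fintype.sum_option] at hp
      have hp0 : p none = 0 := by
        by_contra hne
        refine hy ?_
        have hne' : Polynomial.aeval (tb : LaurentSeries k) (p none) ≠ 0 := fun h0 =>
          hne (transcendental_iff.mp htrb _ (Subtype.ext (by
            rw [ZeroMemClass.coe_zero, ← h0]
            exact (Polynomial.aeval_algHom_apply Fb.val tb (p none)).symm)))
        have hmem : ∀ q : Polynomial k, Polynomial.aeval (tb : LaurentSeries k) q ∈ Fb := fun q =>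
          (Polynomial.aeval_algHom_apply Fb.val tb q) ▸ (Polynomial.aeval tb q).2
        have hy' : y = -(∑ i, Polynomial.aeval (tb : LaurentSeries k) (p (some i)) *
            (b i : LaurentSeries k)) / Polynomial.aeval (tb : LaurentSeries k) (p none) := by
          rw [eq_div_iff hne', eq_neg_iff_add_eq_zero, mul_comm]
          exact hp
        rw [hy']
        exact div_mem (neg_mem (sum_mem fun i _ => mul_mem (hmem _) (b i).2)) (hmem _)
      rintro (_ | i)
      · exact hp0
      · rw [hp0, map_zero, zero_mul, zero_add] at hp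
        exact aeval_independent_of_linearIndependent htrb b.linearIndependent
          (fun i => p (some i)) hp i)
  rw [Fintype.card_option, Fintype.card_fin] at hcard
  omega

end Degree

end Fermat.Agent.DeligneSerre.XOne
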