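import Fermat.Agent.DeligneSerre.XOne.LevelField
import Fermat.Agent.DeligneSerre.XOne.GaussFQ
import Fermat.Agent.DeligneSerre.XOne.ConjValuation
import Fermat.Agent.LevelP.X0.FieldsAux
import Fermat.Agent.EC.Red.ResidueQbar

/-!
# `SL₂(ℤ)` fixes the Gauss valuation of the field of level `Γ(M)` at `p ∤ M`

The valuations above the Gauss valuation of `X₀(M)` are conjugate under `Γ₀(M)`; the latter is the
only one above that of the `j`-line, so the stabiliser meets every coset of `Γ₀(M)`.  It contains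
`T`, hence all conjugates of `T`, hence everything.
-/

set_option autoImplicit false
set_option synthInstance.maxHeartbeats 400000
set_option linter.style.haveILetI false

noncomputable section

open ModularCurve CongruenceSubgroup IntermediateField
open IsLocalRing (residue ResidueField)
open scoped MatrixGroups IntermediateField

namespace Fermat.Agent.DeligneSerre.XOne

open Fermat.Agent.Modular (translate jHol jL evalHol)
open Fermat.Agent.BadPrime
open Fermat.Agent.Reduction (IsScalable)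

local notation "ℚ̄" => AlgebraicClosure ℚ

local instance : Algebra.IsAlgebraic ℚ ℚ̄ := AlgebraicClosure.isAlgebraic ℚ

section Generic

variable {L k : Type*} [Field L] [Field k] {A : ValuationSubring L} {π : A →+* k}

/-- A reduction of `f(q^n)` gives one of `f`. -/
theorem exists_hasGaussRed_of_qExpand [IsLocalHom π] {F : IntermediateField L (LaurentSeries L)}
    (hF : ∀ f ∈ F, f ≠ 0 →
      ∃ u v : LaurentSeries L, IsScalable A π u ∧ IsScalable A π v ∧ f * v = u)
    (n : ℕ) [NeZero n] {f : LaurentSeries L} (hf : f ∈ F) {g : LaurentSeries k}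
    (h : HasGaussRed π (qExpand L n f) g) : ∃ g', HasGaussRed π f g' := by
  set x : F := ⟨f, hf⟩
  by_contra hne
  have hx : x ∉ gaussRing π F hF := hne
  have hinv : x⁻¹ ∈ (gaussRing π F hF).nonunits := by
    refine mem_valuationSubring_of_comap_nonunit.2
      ⟨((gaussRing π F hF).mem_or_inv_mem x).resolve_left hx, Or.inr ?_⟩
    rwa [inv_inv]
  have h0 := ((mem_nonunits_gaussRing π F hF).1 hinv).qExpand n
  rw [map_zero, IntermediateField.coe_inv, map_inv₀] at h0
  have hf0 : qExpand L n f ≠ 0 := by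
    refine (map_ne_zero _).2 fun hf0 => hne ⟨0, ?_⟩
    rw [hf0]; exact hasGaussRed_zero
  have h1 := h.mul h0
  rw [mul_zero, mul_inv_cancel₀ hf0] at h1
  exact one_ne_zero (hasGaussRed_one.unique h1)

/-- Scaling by a constant gives a non-zero reduction. -/
theorem exists_const_mul_hasGaussRed {f : LaurentSeries L}
    (hf : ∃ u v : LaurentSeries L, IsScalable A π u ∧ IsScalable A π v ∧ f * v = u) :
    ∃ c : L, c ≠ 0 ∧ ∃ g : LaurentSeries k, g ≠ 0 ∧ HasGaussRed π (HahnSeries.C c * f) g := by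
  obtain ⟨u, v, ⟨e, he, y, hy, hyπ⟩, ⟨d, hd, z, hz, hzπ⟩, huv⟩ := hf
  refine ⟨e / d, div_ne_zero he hd, coeffMap π y / coeffMap π z, div_ne_zero hyπ hzπ, y, z, hzπ, ?_,
    div_mul_cancel₀ _ hzπ⟩
  rw [hy, hz, ← huv]
  have hC : HahnSeries.C (e / d) * HahnSeries.C d = (HahnSeries.C e : LaurentSeries L) := by
    rw [← map_mul, div_mul_cancel₀ _ hd]
  linear_combination (f * v) * hC

end Generic

variable (M : ℕ) [NeZero M]

theorem bar_le_FQ : modularFunctionFieldBar M ≤ FQ M := by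
  show laurentBaseChange ℚ̄ (modularFunctionFieldFull M) ≤ laurentBaseChange ℚ̄ (field M)
  refine IntermediateField.adjoin_le_iff.2 ?_
  rintro _ ⟨x, hx, rfl⟩
  exact coeffEmb_mem_laurentBaseChange ℚ̄ (modularFunctionFieldFull_le M hx)

/-- The field of `X₀(M)` inside the field of level `Γ(M)`. -/
def ofBar : modularFunctionFieldBar M →+* FM M :=
  (ofFQ M).comp (IntermediateField.inclusion (bar_le_FQ M)).toRingHom

theorem coe_ofBar (x : modularFunctionFieldBar M) :
    (ofBar M x : LaurentSeries ℚ̄) = qExpand ℚ̄ M (x : LaurentSeries ℚ̄) := by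
  rw [ofBar, RingHom.comp_apply, coe_ofFQ, coe_inclusion_gen]

theorem evQ_jdElt {d : ℕ} [NeZero d] (hd : d ∣ M) :
    evQ M (jdElt M ℚ̄ hd) = algebraMap Fermat.Agent.Modular.Hol Fermat.Agent.Modular.Mero (jHol d) := by
  rw [evQ_apply, ← evalMero1_jdElt M hd]
  exact congrArg _ (Subtype.ext (by
    rw [EichlerShimura.coe_bcHom, coe_jdElt, coe_jdElt, coeffMap_qExpand, coeffMap_jqModC]))

theorem ofFQ_algebraMap (c : ℚ̄) :
    ofFQ M (algebraMap ℚ̄ (FQ M) c) = algebraMap ℚ̄ (FM M) c :=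
  (evFM M).injective (by rw [evFM_ofFQ, evQ_algebraMap, evFM_algebraMap])

theorem ofBar_algebraMap (c : ℚ̄) :
    ofBar M (algebraMap ℚ̄ (modularFunctionFieldBar M) c) = algebraMap ℚ̄ (FM M) c := by
  show ofFQ M (IntermediateField.inclusion (bar_le_FQ M) _) = _
  rw [AlgHom.commutes, ofFQ_algebraMap]

/-- `SL₂(ℤ)` fixes the functions of `j`. -/
theorem smul_ofBar_of_mem_adjoin (g : SL(2, ℤ)) {x : modularFunctionFieldBar M}
    (hx : x ∈ ℚ̄⟮jL M ℚ̄⟯) : g • ofBar M x = ofBar M x := by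
  induction hx using IntermediateField.adjoin_induction with
  | mem y hy =>
    obtain rfl : y = jL M ℚ̄ := hy
    refine (evFM M).injective ?_
    have e : IntermediateField.inclusion (bar_le_FQ M) (jL M ℚ̄) = jdElt M ℚ̄ (one_dvd M) := by
      refine Subtype.ext ?_
      rw [coe_jdElt, qExpand_one_apply]
      show coeffEmb ℚ̄ jq = _
      rw [coeffEmb, ← jqModC_rat, coeffMap_jqModC]
    rw [evFM_smul]
    show translate g (evFM M (ofFQ M (IntermediateField.inclusion (bar_le_FQ M) (jL M ℚ̄)))) =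
      evFM M (ofFQ M (IntermediateField.inclusion (bar_le_FQ M) (jL M ℚ̄)))
    rw [e, evFM_ofFQ, evQ_jdElt, Fermat.Agent.Modular.translate_algebraMap,
      Fermat.Agent.Modular.smul_jHol_one]
  | algebraMap c => rw [ofBar_algebraMap, smul_algebraMap_FM]
  | add a b _ _ ha hb => rw [map_add, smul_add, ha, hb]
  | inv a _ ha => rw [map_inv₀, smul_inv'', ha]
  | mul a b _ _ ha hb => rw [map_mul, smul_mul', ha, hb]

variable {M} [hM : Fact (3 ≤ M)] {p : ℕ} [Fact p.Prime] (A : ValuationSubring ℚ̄)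

omit hM in
theorem exists_scalable_quotient_FM (hM : 3 ≤ M) :
    ∀ f ∈ FM M, f ≠ 0 → ∃ u v : LaurentSeries ℚ̄,
      IsScalable A (residue A) u ∧ IsScalable A (residue A) v ∧ f * v = u := fun f hf =>
  have : Fact (3 ≤ M * M) := ⟨hM.trans (Nat.le_mul_self M)⟩
  exists_scalable_quotient_FQ (M := M * M) (residue A) f (FM_le M hf)

/-- The Gauss valuation ring of the field of level `Γ(M)`. -/
def gaussFM : ValuationSubring (FM M) :=
  gaussRing (residue A) (FM M) (exists_scalable_quotient_FM A hM.out)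

theorem mem_gaussFM {f : FM M} :
    f ∈ gaussFM A ↔ ∃ g, HasGaussRed (residue A) (f : LaurentSeries ℚ̄) g := Iff.rfl

theorem ofBar_mem_gaussFM {x : modularFunctionFieldBar M} :
    ofBar M x ∈ gaussFM A ↔
      ∃ g, HasGaussRed (residue A) (qExpand ℚ̄ M (x : LaurentSeries ℚ̄)) g := by
  rw [mem_gaussFM, coe_ofBar]

theorem ofFQ_mem_gaussFM {f : FQ M} :
    ofFQ M f ∈ gaussFM A ↔ ∃ g, HasGaussRed (residue A) (qExpand ℚ̄ M (f : LaurentSeries ℚ̄)) g := by
  rw [mem_gaussFM, coe_ofFQ]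

/-- `ofBar` carries the Gauss ring of `X₀(M)` into every translate of that of level `Γ(M)`. -/
theorem smul_ofBar_mem (hpM : ¬p ∣ M) (hA : A.LiesOverPrime p) (g : SL(2, ℤ))
    {x : modularFunctionFieldBar M} (hx : ofBar M x ∈ gaussFM A) :
    g • ofBar M x ∈ gaussFM A := by
  obtain ⟨r, hr⟩ := (ofBar_mem_gaussFM A).1 hx
  have hx' : x ∈ gaussFL (residue A) M := exists_hasGaussRed_of_qExpand
    (exists_scalable_quotient A (residue A) M) M x.2 hr
  let K1 := ℚ̄⟮jL M ℚ̄⟯
  let R := gaussJ (residue A) M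
  letI alg : Algebra R (modularFunctionFieldBar M) :=
    ((algebraMap K1 (modularFunctionFieldBar M)).comp R.subtype).toAlgebra
  haveI : IsScalarTower R K1 (modularFunctionFieldBar M) := IsScalarTower.of_algebraMap_eq' rfl
  have hint : IsIntegral R x :=
    isIntegral_gaussFL IsLocalRing.residue_surjective
      (LevelP.X0.hasFullResidueDegree_qbar A hpM hA) hx'
  set B : ValuationSubring (FM M) :=
    (gaussFM A).comap (MulSemiringAction.toRingHom SL(2, ℤ) (FM M) g)
  have hmap : ∀ c : R, ofBar M (algebraMap R (modularFunctionFieldBar M) c) ∈ B.toSubring := by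
    intro c
    obtain ⟨s, hs⟩ := c.2
    show g • ofBar M ((c : K1) : modularFunctionFieldBar M) ∈ gaussFM A
    rw [smul_ofBar_of_mem_adjoin M g (c : K1).2]
    exact (ofBar_mem_gaussFM A).2 ⟨_, hs.qExpand M⟩
  let φ : R →+* B :=
    ((ofBar M).comp (algebraMap R (modularFunctionFieldBar M))).codRestrict B.toSubring hmap
  have hint' : IsIntegral B (ofBar M x) :=
    hint.map_of_comp_eq (φ := φ) (ψ := ofBar M) (RingHom.ext fun _ => rfl)
  obtain ⟨y, hy⟩ := IsIntegrallyClosed.isIntegral_iff.1 hint'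
  show ofBar M x ∈ B
  rw [← hy]
  exact y.2

/-- The trace on `X₀(M)` of a translate of the Gauss ring is the Gauss ring. -/
theorem smul_ofBar_mem_iff (hpM : ¬p ∣ M) (hA : A.LiesOverPrime p) (g : SL(2, ℤ))
    (x : modularFunctionFieldBar M) : g • ofBar M x ∈ gaussFM A ↔ ofBar M x ∈ gaussFM A := by
  refine ⟨fun h => ?_, smul_ofBar_mem A hpM hA g⟩
  rcases eq_or_ne x 0 with rfl | hx
  · rw [map_zero]; exact zero_mem _
  obtain ⟨c, hc, r, hr0, hr⟩ := exists_const_mul_hasGaussRed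
    (exists_scalable_quotient A (residue A) M x x.2 fun h => hx (Subtype.ext h))
  set y : modularFunctionFieldBar M := algebraMap ℚ̄ _ c * x with hy
  have hyr : HasGaussRed (residue A) (y : LaurentSeries ℚ̄) r := by
    rw [hy, IntermediateField.coe_mul, coe_algebraMap_FL]
    exact hr
  have hyinv : ofBar M y⁻¹ ∈ gaussFM A :=
    (ofBar_mem_gaussFM A).2 ⟨_, by rw [IntermediateField.coe_inv]; exact (hyr.inv hr0).qExpand M⟩
  have hy0 : y ≠ 0 := mul_ne_zero ((map_ne_zero _).2 hc) hx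
  have h1 : algebraMap ℚ̄ (FM M) c⁻¹ ∈ gaussFM A := by
    have e : algebraMap ℚ̄ (FM M) c⁻¹ = g • ofBar M x * g • ofBar M y⁻¹ := by
      rw [← smul_mul', ← map_mul, hy, mul_inv_rev, ← mul_assoc, mul_inv_cancel₀ hx, one_mul,
        ← map_inv₀ (algebraMap ℚ̄ _), ofBar_algebraMap, smul_algebraMap_FM]
    rw [e]
    exact mul_mem h (smul_ofBar_mem A hpM hA g hyinv)
  have h2 : ofBar M x = algebraMap ℚ̄ (FM M) c⁻¹ * ofBar M y := by
    rw [← ofBar_algebraMap, ← map_mul, hy, ← mul_assoc, ← map_mul (algebraMap ℚ̄ _),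
      inv_mul_cancel₀ hc, map_one (algebraMap ℚ̄ _), one_mul]
  rw [h2]
  exact mul_mem h1 ((ofBar_mem_gaussFM A).2 ⟨_, hyr.qExpand M⟩)

/-- The stabiliser of the Gauss valuation. -/
def gaussStab : Subgroup SL(2, ℤ) where
  carrier := {g | ∀ y : FM M, g • y ∈ gaussFM A ↔ y ∈ gaussFM A}
  one_mem' y := by rw [one_smul]
  mul_mem' {g h} hg hh y := by rw [mul_smul, hg, hh]
  inv_mem' {g} hg y := by rw [← hg (g⁻¹ • y), smul_inv_smul]

theorem mem_gaussStab_of_mem_Gamma {g : SL(2, ℤ)} (hg : g ∈ Gamma M) :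
    g ∈ gaussStab (M := M) A := fun y => by rw [smul_eq_self_of_mem_Gamma M hg]

omit hM in
theorem T_pow_mem_Gamma : (ModularGroup.T ^ (M : ℤ) : SL(2, ℤ)) ∈ Gamma M := by
  rw [Gamma_mem, ModularGroup.coe_T_zpow]
  simp

theorem T_mem_gaussStab : (ModularGroup.T : SL(2, ℤ)) ∈ gaussStab (M := M) A := by
  obtain ⟨ζ, hζ, hT⟩ := exists_coeff_T_smul M
  have hM0 : 0 < M := Nat.pos_of_ne_zero (NeZero.ne M)
  have hζA : ζ ∈ A := by
    refine (A.valuation_le_one_iff ζ).1 (le_of_eq ?_)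
    have h1 : A.valuation ζ ^ M = 1 := by rw [← map_pow, hζ, map_one]
    exact (pow_eq_one_iff.1 h1).resolve_right hM0.ne'
  let u : Aˣ := Units.ofPowEqOne (⟨ζ, hζA⟩ : A) M (Subtype.ext hζ) hM0.ne'
  have hfwd : ∀ y : FM M, y ∈ gaussFM A → ModularGroup.T • y ∈ gaussFM A := by
    rintro y ⟨r, hr⟩
    refine ⟨twistCoeff (Units.map (residue A : A →* ResidueField A) u) r, ?_⟩
    have e : ((ModularGroup.T • y : FM M) : LaurentSeries ℚ̄) =
        twistCoeff (Units.map (A.subtype : A →* ℚ̄) u) (y : LaurentSeries ℚ̄) := by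
      ext n
      rw [hT, twistCoeff_coeff, Units.val_zpow_eq_zpow_val]
      rfl
    rw [e]
    exact hasGaussRed_twistCoeff u hr
  intro y
  refine ⟨fun h => ?_, hfwd y⟩
  have key : ∀ n : ℕ, ModularGroup.T ^ n • (ModularGroup.T • y) ∈ gaussFM A := by
    intro n
    induction n with
    | zero => rwa [pow_zero, one_smul]
    | succ n ih => rw [pow_succ', mul_smul]; exact hfwd _ ih
  have hk := key (M - 1)
  rwa [← mul_smul, ← pow_succ, Nat.sub_add_cancel hM0,
    smul_eq_self_of_mem_Gamma M (g := ModularGroup.T ^ M)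
      (by simpa using T_pow_mem_Gamma (M := M))] at hk

/-- The stabiliser meets every coset of `Γ₀(M)`. -/
theorem exists_mul_inv_mem_gaussStab (hpM : ¬p ∣ M) (hA : A.LiesOverPrime p) (g : SL(2, ℤ)) :
    ∃ h ∈ Gamma0 M, g * h⁻¹ ∈ gaussStab (M := M) A := by
  let act : SL(2, ℤ) →* RingAut (FM M) := MulSemiringAction.toRingAut SL(2, ℤ) (FM M)
  have hker : Gamma M ≤ act.ker := fun γ hγ => RingEquiv.ext fun y => smul_eq_self_of_mem_Gamma M hγ y
  haveI : act.ker.FiniteIndex := Subgroup.finiteIndex_of_le hker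
  haveI : Finite act.range := Nat.finite_of_card_ne_zero (by
    rw [← Subgroup.index_ker]; exact Subgroup.FiniteIndex.index_ne_zero)
  let G := (Gamma0 M).map act
  haveI : Finite G := Finite.of_injective (Subgroup.inclusion (Subgroup.map_le_range act _))
    (Subgroup.inclusion_injective _)
  obtain ⟨⟨σ, h, hh, rfl⟩, hσ⟩ := exists_smul_mem_iff (G := G) (V := gaussFM A)
    (V' := (gaussFM A).comap (MulSemiringAction.toRingHom SL(2, ℤ) (FM M) g))
    (fun x hx => by
      obtain ⟨z, hz, e⟩ := exists_eq_qExpand_of_smul_eq M x fun γ hγ =>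
        hx ⟨act γ, γ, hγ, rfl⟩
      obtain rfl : x = ofBar M ⟨z, hz⟩ := Subtype.ext (by rw [coe_ofBar]; exact e)
      exact (smul_ofBar_mem_iff A hpM hA g _).symm)
  refine ⟨h, hh, fun y => ?_⟩
  have := hσ (h⁻¹ • y)
  rw [ValuationSubring.mem_comap] at this
  show (g * h⁻¹) • y ∈ gaussFM A ↔ _
  rw [mul_smul]
  refine this.trans ?_
  show h • h⁻¹ • y ∈ gaussFM A ↔ _
  rw [smul_inv_smul]

theorem conj_T_mem_gaussStab {h : SL(2, ℤ)} (hh : h ∈ Gamma0 M) :
    h * ModularGroup.T * h⁻¹ ∈ gaussStab (M := M) A := by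
  set n : ℤ := h 0 0 * h 0 0
  have hγ : (ModularGroup.T ^ n)⁻¹ * (h * ModularGroup.T * h⁻¹) ∈ Gamma M := by
    rw [Gamma_mem', map_mul, map_inv, inv_mul_eq_one]
    have h10 : ((h 1 0 : ℤ) : ZMod M) = 0 := Gamma0_mem.mp hh
    have hdet : ((h 0 0 : ℤ) : ZMod M) * ((h 1 1 : ℤ) : ZMod M) = 1 := by
      have := congrArg (Int.cast : ℤ → ZMod M)
        ((Matrix.det_fin_two (h : Matrix (Fin 2) (Fin 2) ℤ)).symm.trans h.2)
      push_cast at this
      rw [h10, mul_zero, sub_zero] at this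
      exact this
    refine Matrix.SpecialLinearGroup.ext _ _ fun i j => ?_
    simp only [Matrix.SpecialLinearGroup.coe_mul, Matrix.SpecialLinearGroup.coe_inv,
      Matrix.SpecialLinearGroup.map_apply_coe, RingHom.mapMatrix_apply, ModularGroup.coe_T_zpow,
      Matrix.adjugate_fin_two]
    fin_cases i <;> fin_cases j <;>
      simp [Matrix.mul_apply, Fin.sum_univ_two, ModularGroup.coe_T, n, h10] <;>
      first | linear_combination hdet | linear_combination -hdet | ring
  have := mul_mem (zpow_mem (T_mem_gaussStab (M := M) A) n)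
    (mem_gaussStab_of_mem_Gamma A hγ)
  rwa [mul_inv_cancel_left] at this

/-- Every element of `SL₂(ℤ)` fixes the Gauss valuation. -/
theorem gaussStab_eq_top (hpM : ¬p ∣ M) (hA : A.LiesOverPrime p) :
    gaussStab (M := M) A = ⊤ := by
  have hconj : ∀ g : SL(2, ℤ), g * ModularGroup.T * g⁻¹ ∈ gaussStab (M := M) A := by
    intro g
    obtain ⟨h, hh, hd⟩ := exists_mul_inv_mem_gaussStab A hpM hA g
    have := mul_mem (mul_mem hd (conj_T_mem_gaussStab A hh)) (inv_mem hd)
    simpa [mul_assoc] using this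
  refine top_le_iff.1 ?_
  rw [← SpecialLinearGroup.SL2Z_generators, Subgroup.closure_le]
  rintro x (rfl | rfl)
  · have hS : (ModularGroup.S : SL(2, ℤ)) = (ModularGroup.T *
        (ModularGroup.S * ModularGroup.T * ModularGroup.S⁻¹) * ModularGroup.T)⁻¹ := by
      refine Matrix.SpecialLinearGroup.ext _ _ fun i j => ?_
      fin_cases i <;> fin_cases j <;> rfl
    rw [hS]
    exact inv_mem (mul_mem (mul_mem (T_mem_gaussStab A) (hconj _)) (T_mem_gaussStab A))
  · exact T_mem_gaussStab A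

theorem smul_mem_gaussFM_iff (hpM : ¬p ∣ M) (hA : A.LiesOverPrime p) (g : SL(2, ℤ)) (y : FM M) :
    g • y ∈ gaussFM A ↔ y ∈ gaussFM A :=
  (gaussStab_eq_top A hpM hA ▸ Subgroup.mem_top g : g ∈ gaussStab (M := M) A) y

/-- `⟨d⟩` is translation by `γ⁻¹`. -/
theorem gammaLift_inv_smul_ofFQ (d : (ZMod M)ˣ) (f : FQ M) :
    (gammaLift M d : SL(2, ℤ))⁻¹ • ofFQ M f = ofFQ M (diamond M ℚ̄ d f) := by
  refine (evFM M).injective ?_
  rw [evFM_smul, evFM_ofFQ, evFM_ofFQ, evQ_diamond (gammaLift M d) d]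
  rw [← coe_lowerUnit, lowerUnit_gammaLift]

/-- Diamond operators preserve having a reduction. -/
theorem exists_hasGaussRed_diamond_of_hasGaussRed (hpM : ¬p ∣ M) (hA : A.LiesOverPrime p)
    (d : (ZMod M)ˣ) {f : FQ M} {g : LaurentSeries (ResidueField A)}
    (h : HasGaussRed (residue A) (f : LaurentSeries ℚ̄) g) :
    ∃ g', HasGaussRed (residue A) (diamond M ℚ̄ d f : LaurentSeries ℚ̄) g' := by
  have h1 : ofFQ M f ∈ gaussFM A := (ofFQ_mem_gaussFM A).2 ⟨_, h.qExpand M⟩
  rw [← smul_mem_gaussFM_iff A hpM hA (gammaLift M d : SL(2, ℤ))⁻¹, gammaLift_inv_smul_ofFQ] at h1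
  obtain ⟨r, hr⟩ := (ofFQ_mem_gaussFM A).1 h1
  exact exists_hasGaussRed_of_qExpand (exists_scalable_quotient_FQ (residue A)) M
    (diamond M ℚ̄ d f).2 hr

/-- Diamond operators preserve having a non-zero reduction. -/
theorem exists_hasGaussRed_diamond (hpM : ¬p ∣ M) (hA : A.LiesOverPrime p) (d : (ZMod M)ˣ)
    {f : FQ M} {g : LaurentSeries (ResidueField A)}
    (h : HasGaussRed (residue A) (f : LaurentSeries ℚ̄) g) (hg : g ≠ 0) :
    ∃ g', g' ≠ 0 ∧ HasGaussRed (residue A) (diamond M ℚ̄ d f : LaurentSeries ℚ̄) g' := by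
  obtain ⟨g', hg'⟩ := exists_hasGaussRed_diamond_of_hasGaussRed A hpM hA d h
  obtain ⟨s, hs⟩ := exists_hasGaussRed_diamond_of_hasGaussRed A hpM hA d (f := f⁻¹)
    (g := g⁻¹) (by rw [IntermediateField.coe_inv]; exact h.inv hg)
  refine ⟨g', fun h0 => ?_, hg'⟩
  have hf0 : f ≠ 0 := by
    rintro rfl
    exact hg (h.unique hasGaussRed_zero)
  have h1 := hg'.mul hs
  rw [map_inv₀, IntermediateField.coe_inv, mul_inv_cancel₀
    (fun e => hf0 ((map_eq_zero _).1 (Subtype.ext e))), h0, zero_mul] at h1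
  exact one_ne_zero (hasGaussRed_one.unique h1)

/-- Diamond operators preserve reduction to zero. -/
theorem hasGaussRed_diamond_zero (hpM : ¬p ∣ M) (hA : A.LiesOverPrime p) (d : (ZMod M)ˣ)
    {f : FQ M} (h : HasGaussRed (residue A) (f : LaurentSeries ℚ̄) 0) :
    HasGaussRed (residue A) (diamond M ℚ̄ d f : LaurentSeries ℚ̄) 0 := by
  obtain ⟨g', hg'⟩ := exists_hasGaussRed_diamond_of_hasGaussRed A hpM hA d h
  rcases eq_or_ne g' 0 with rfl | hg0
  · exact hg'
  obtain ⟨g'', hg0', hg''⟩ := exists_hasGaussRed_diamond A hpM hA d⁻¹ hg' hg0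
  rw [← AlgEquiv.mul_apply, ← map_mul, inv_mul_cancel, map_one, AlgEquiv.one_apply] at hg''
  exact absurd (hg''.unique h) hg0'

end Fermat.Agent.DeligneSerre.XOne
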