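import Fermat.Agent.DeligneSerre.XOne.Kummer
import Fermat.Agent.DeligneSerre.XOne.IgusaValuation
import Fermat.Agent.DeligneSerre.XOne.GaussPair
import Fermat.Prelude.Def_FLTPrelim_Ramification

/-!
# Irreducibility of `X₁(M)` modulo `p ∤ M`

The Gauss valuation is invariant under the diamond operators: on the field of level `Γ(M)` its
decomposition group contains the unipotent upper triangular group, and meets every coset of the
Borel subgroup because `X₀(M)` is irreducible mod `p`, so it is everything.  Hence the diamond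
operators act on the reductions, faithfully up to sign, and the degree over `j` does not drop.
-/

set_option autoImplicit false
set_option linter.style.haveILetI false
set_option synthInstance.maxHeartbeats 400000

noncomputable section

open ModularCurve IntermediateField CongruenceSubgroup
open IsLocalRing (residue ResidueField)
open scoped IntermediateField

namespace Fermat.Agent.DeligneSerre.XOne

open Fermat.Agent.BadPrime

local notation "ℚ̄" => AlgebraicClosure ℚ

local instance : Algebra.IsAlgebraic ℚ ℚ̄ := AlgebraicClosure.isAlgebraic ℚ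

/-- The function field of `X₁(M)` over a field of any characteristic prime to `M`. -/
abbrev FRes (k : Type*) [Field k] (M : ℕ) : IntermediateField k (LaurentSeries k) :=
  IntermediateField.adjoin k (gens k M)

/-- `j` in `FRes k M`. -/
def jResElt (k : Type*) [Field k] (M : ℕ) [NeZero M] : FRes k M :=
  ⟨jqModC k, subset_adjoin k _ (Or.inl (by
    simpa [qExpand_one_apply] using mem_divisorExpansionsC k M (one_dvd M)))⟩

variable {M : ℕ} [NeZero M] [Fact (3 ≤ M)] {p : ℕ} [Fact p.Prime]

theorem not_dvd_of_coprime (hpM : p.Coprime M) : ¬p ∣ M :=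
  (Nat.Prime.coprime_iff_not_dvd Fact.out).1 hpM

/-- Diamond operators preserve the Gauss valuation: they preserve being a quotient of two integral
series with non-zero reduction of the denominator, and the reduction being non-zero.

Integrality of the expansion itself is not preserved (`1 / g`, `g` with a zero in the residue disc
of another cusp over infinity). -/
theorem exists_quotient_diamond (hpM : p.Coprime M) (A : ValuationSubring ℚ̄)
    (hA : A.LiesOverPrime p) (d : (ZMod M)ˣ) (f : FQ M) (a b : LaurentSeries A)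
    (hab : (f : LaurentSeries ℚ̄) * coeffMap A.subtype b = coeffMap A.subtype a)
    (hb : coeffMap (IsLocalRing.residue A) b ≠ 0) :
    ∃ a' b' : LaurentSeries A,
      (diamond M ℚ̄ d f : LaurentSeries ℚ̄) * coeffMap A.subtype b' = coeffMap A.subtype a' ∧
      coeffMap (IsLocalRing.residue A) b' ≠ 0 ∧
      (coeffMap (IsLocalRing.residue A) a ≠ 0 → coeffMap (IsLocalRing.residue A) a' ≠ 0) := by
  have h : HasGaussRed (residue A) (f : LaurentSeries ℚ̄)
      (coeffMap (residue A) a / coeffMap (residue A) b) :=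
    ⟨a, b, hb, hab, div_mul_cancel₀ _ hb⟩
  rcases eq_or_ne (coeffMap (residue A) a) 0 with ha | ha
  · rw [ha, zero_div] at h
    obtain ⟨a', b', hb', e, -⟩ :=
      hasGaussRed_diamond_zero A (not_dvd_of_coprime hpM) hA d h
    exact ⟨a', b', e, hb', fun h0 => absurd ha h0⟩
  · obtain ⟨g', hg', a', b', hb', e, e'⟩ :=
      exists_hasGaussRed_diamond A (not_dvd_of_coprime hpM) hA d h (div_ne_zero ha hb)
    exact ⟨a', b', e, hb', fun _ => e' ▸ mul_ne_zero hg' hb'⟩

theorem diamond_jdElt_qbar (d : (ZMod M)ˣ) {n : ℕ} [NeZero n] (hn : n ∣ M) :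
    diamond M ℚ̄ d (jdElt M ℚ̄ hn) = jdElt M ℚ̄ hn := by
  refine (evQ M).injective ?_
  rw [evQ_diamond (gammaLift M d) d (by rw [← coe_lowerUnit, lowerUnit_gammaLift]), evQ_jdElt,
    translate_algebraMap_jHol M (inv_mem (gammaLift M d).2) hn]

variable (A : ValuationSubring ℚ̄)

/-- `y` is the reduction of `⟨d⟩ f` for some `f` with reduction `x`. -/
def DiamondRel (d : (ZMod M)ˣ) (x y : LaurentSeries (ResidueField A)) : Prop :=
  ∃ f : FQ M, HasGaussRed (residue A) (f : LaurentSeries ℚ̄) x ∧
    HasGaussRed (residue A) (diamond M ℚ̄ d f : LaurentSeries ℚ̄) y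

variable {A}

theorem DiamondRel.unique (hpM : ¬p ∣ M) (hA : A.LiesOverPrime p) {d : (ZMod M)ˣ}
    {x y y' : LaurentSeries (ResidueField A)} (h : DiamondRel A d x y)
    (h' : DiamondRel A d x y') : y = y' := by
  obtain ⟨f, hf, hy⟩ := h
  obtain ⟨f', hf', hy'⟩ := h'
  have h0 : HasGaussRed (residue A) ((f - f' : FQ M) : LaurentSeries ℚ̄) 0 := by
    have := hf.add hf'.neg
    rw [← sub_eq_add_neg, ← sub_eq_add_neg, sub_self] at this
    rwa [AddSubgroupClass.coe_sub]
  have h1 := hasGaussRed_diamond_zero A hpM hA d h0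
  have h2 := hy.add hy'.neg
  rw [map_sub, AddSubgroupClass.coe_sub, sub_eq_add_neg] at h1
  exact add_neg_eq_zero.1 (h2.unique h1)

theorem DiamondRel.zero (d : (ZMod M)ˣ) : DiamondRel A d 0 0 :=
  ⟨0, by simpa using hasGaussRed_zero, by simpa using hasGaussRed_zero⟩

theorem DiamondRel.one (d : (ZMod M)ˣ) : DiamondRel A d 1 1 :=
  ⟨1, by simpa using hasGaussRed_one, by simpa using hasGaussRed_one⟩

theorem DiamondRel.add {d : (ZMod M)ˣ} {x x' y y' : LaurentSeries (ResidueField A)}
    (h : DiamondRel A d x y) (h' : DiamondRel A d x' y') :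
    DiamondRel A d (x + x') (y + y') := by
  obtain ⟨f, hf, hy⟩ := h
  obtain ⟨f', hf', hy'⟩ := h'
  refine ⟨f + f', ?_, ?_⟩
  · rw [IntermediateField.coe_add]; exact hf.add hf'
  · rw [map_add, IntermediateField.coe_add]; exact hy.add hy'

theorem DiamondRel.mul {d : (ZMod M)ˣ} {x x' y y' : LaurentSeries (ResidueField A)}
    (h : DiamondRel A d x y) (h' : DiamondRel A d x' y') :
    DiamondRel A d (x * x') (y * y') := by
  obtain ⟨f, hf, hy⟩ := h
  obtain ⟨f', hf', hy'⟩ := h'
  refine ⟨f * f', ?_, ?_⟩
  · rw [IntermediateField.coe_mul]; exact hf.mul hf'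
  · rw [map_mul, IntermediateField.coe_mul]; exact hy.mul hy'

/-- The action of a diamond operator on reductions. -/
theorem exists_diamondRes (hpM : ¬p ∣ M) (hA : A.LiesOverPrime p) (d : (ZMod M)ˣ) :
    ∃ δ : FRes (ResidueField A) M →+* LaurentSeries (ResidueField A),
      ∀ x : FRes (ResidueField A) M, DiamondRel A d (x : LaurentSeries (ResidueField A)) (δ x) := by
  have hex : ∀ x : FRes (ResidueField A) M,
      ∃ y, DiamondRel A d (x : LaurentSeries (ResidueField A)) y := fun x => by
    obtain ⟨f, hf⟩ := exists_hasGaussRed_of_mem_adjoin_gens IsLocalRing.residue_surjective x.2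
    obtain ⟨y, hy⟩ := exists_hasGaussRed_diamond_of_hasGaussRed A hpM hA d hf
    exact ⟨y, f, hf, hy⟩
  choose δ hδ using hex
  exact ⟨{
    toFun := δ
    map_one' := (hδ 1).unique hpM hA (by rw [IntermediateField.coe_one]; exact DiamondRel.one d)
    map_zero' := (hδ 0).unique hpM hA (by rw [ZeroMemClass.coe_zero]; exact DiamondRel.zero d)
    map_add' := fun a b => (hδ (a + b)).unique hpM hA
      (by rw [IntermediateField.coe_add]; exact (hδ a).add (hδ b))
    map_mul' := fun a b => (hδ (a * b)).unique hpM hA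
      (by rw [IntermediateField.coe_mul]; exact (hδ a).mul (hδ b)) }, hδ⟩

theorem modularFunctionFieldFullC_le_FRes (k : Type*) [Field k] :
    modularFunctionFieldFullC k M ≤ FRes k M :=
  IntermediateField.adjoin.mono k _ _ Set.subset_union_left

/-- Diamond operators fix the reductions from level `Γ₀(M)`. -/
theorem diamondRes_eq_of_mem_fullC (hpM : ¬p ∣ M) (hA : A.LiesOverPrime p) {d : (ZMod M)ˣ}
    {δ : FRes (ResidueField A) M →+* LaurentSeries (ResidueField A)}
    (hδ : ∀ x : FRes (ResidueField A) M, DiamondRel A d (x : LaurentSeries (ResidueField A)) (δ x))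
    (x : FRes (ResidueField A) M)
    (hx : (x : LaurentSeries (ResidueField A)) ∈
      modularFunctionFieldFullC (ResidueField A) M) :
    δ x = x := by
  suffices h : ∀ z ∈ modularFunctionFieldFullC (ResidueField A) M, DiamondRel A d z z from
    (hδ x).unique hpM hA (h _ hx)
  intro z hz
  rw [modularFunctionFieldFullC] at hz
  induction hz using IntermediateField.adjoin_induction with
  | mem y hy =>
    obtain ⟨n, hn0, hn, rfl⟩ := hy
    exact ⟨jdElt M ℚ̄ hn, hasGaussRed_jdElt hn, by
      rw [diamond_jdElt_qbar]; exact hasGaussRed_jdElt hn⟩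
  | algebraMap c =>
    obtain ⟨a, rfl⟩ := IsLocalRing.residue_surjective c
    have e : HasGaussRed (residue A) (algebraMap ℚ̄ (FQ M) (a : ℚ̄) : LaurentSeries ℚ̄)
        (algebraMap (ResidueField A) _ (residue A a)) := by
      show HasGaussRed (residue A) (algebraMap ℚ̄ (LaurentSeries ℚ̄) (a : ℚ̄)) _
      rw [algebraMap_laurentSeries_eq_single, algebraMap_laurentSeries_eq_single]
      simpa [HahnSeries.C_apply] using hasGaussRed_C (π := residue A) a
    exact ⟨_, e, by rw [AlgEquiv.commutes]; exact e⟩
  | add a b _ _ ha hb => exact ha.add hb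
  | inv a _ ha =>
    rcases eq_or_ne a 0 with rfl | ha0
    · rw [inv_zero]; exact DiamondRel.zero d
    obtain ⟨f, hf, hf'⟩ := ha
    exact ⟨f⁻¹, by rw [IntermediateField.coe_inv]; exact hf.inv ha0,
      by rw [map_inv₀, IntermediateField.coe_inv]; exact hf'.inv ha0⟩
  | mul a b _ _ ha hb => exact ha.mul hb

/-- The action on the reductions of the generators. -/
theorem diamondRel_rSeries (d a : (ZMod M)ˣ) :
    DiamondRel A d (rSeries M (a : ZMod M) (ResidueField A))
      (rSeries M ((d⁻¹ * a : (ZMod M)ˣ) : ZMod M) (ResidueField A) /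
        rSeries M ((d⁻¹ : (ZMod M)ˣ) : ZMod M) (ResidueField A)) := by
  have hM : 3 ≤ M := Fact.out
  have key : ∀ b : ZMod M, HasGaussRed (residue A) (eisRatio ℚ̄ M b)
      (rSeries M b (ResidueField A)) := fun b => by
    rw [← eisRatio_eq_rSeries _ _ hM]; exact hasGaussRed_eisRatio b
  refine ⟨rElt M ℚ̄ a, by rw [coe_rElt]; exact key _, ?_⟩
  rw [diamond_eisRatio M ℚ̄ d (a : ZMod M) a.isUnit (coe_rElt M ℚ̄ a), Units.val_mul]
  rw [div_eq_mul_inv, div_eq_mul_inv]
  exact (key _).mul ((key _).inv (rSeries_ne_zero hM (Units.isUnit _) _))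

/-- Diamond operators acting equally on reductions agree up to sign. -/
theorem eq_or_eq_neg_of_diamondRes_eq (hpM : ¬p ∣ M) (hA : A.LiesOverPrime p) {d e : (ZMod M)ˣ}
    {δ : FRes (ResidueField A) M →+* LaurentSeries (ResidueField A)}
    (hd : ∀ x : FRes (ResidueField A) M, DiamondRel A d (x : LaurentSeries (ResidueField A)) (δ x))
    (he : ∀ x : FRes (ResidueField A) M, DiamondRel A e (x : LaurentSeries (ResidueField A)) (δ x)) :
    d = e ∨ d = -e := by
  have hM : 3 ≤ M := Fact.out
  have hmem : ∀ a : (ZMod M)ˣ,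
      rSeries M (a : ZMod M) (ResidueField A) ∈ FRes (ResidueField A) M := fun a =>
    subset_adjoin _ _ (Or.inr ⟨a, a.isUnit, (eisRatio_eq_rSeries _ _ hM _).symm⟩)
  have hne : ∀ a : (ZMod M)ˣ, rSeries M (a : ZMod M) (ResidueField A) ≠ 0 := fun a =>
    rSeries_ne_zero hM a.isUnit _
  have hval : ∀ a : (ZMod M)ˣ,
      rSeries M ((d⁻¹ * a : (ZMod M)ˣ) : ZMod M) (ResidueField A) /
          rSeries M ((d⁻¹ : (ZMod M)ˣ) : ZMod M) (ResidueField A) =
        rSeries M ((e⁻¹ * a : (ZMod M)ˣ) : ZMod M) (ResidueField A) /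
          rSeries M ((e⁻¹ : (ZMod M)ˣ) : ZMod M) (ResidueField A) := fun a =>
    ((diamondRel_rSeries d a).unique hpM hA (hd ⟨_, hmem a⟩)).trans
      ((diamondRel_rSeries e a).unique hpM hA (he ⟨_, hmem a⟩)).symm
  set c : (ZMod M)ˣ := d⁻¹ * e with hc
  -- `r_{cb} = r_c r_b`
  have hmul : ∀ b : (ZMod M)ˣ, rSeries M ((c * b : (ZMod M)ˣ) : ZMod M) (ResidueField A) =
      rSeries M (b : ZMod M) (ResidueField A) * rSeries M (c : ZMod M) (ResidueField A) := by
    intro b
    have h1 := hval (e * b)
    have h2 := hval e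
    rw [← mul_assoc, ← mul_assoc, inv_mul_cancel, one_mul, ← hc] at h1
    rw [inv_mul_cancel, Units.val_one, rSeries_one hM, ← hc] at h2
    rw [div_eq_iff (hne _)] at h1 h2
    rw [h1, h2]
    ring
  by_cases h1 : (c : ZMod M) = 1
  · exact Or.inl (inv_mul_eq_one.1 (Units.ext h1))
  by_cases h2 : (c : ZMod M) = -1
  · right
    have h3 : c = -1 := Units.ext (by rw [h2, Units.val_neg, Units.val_one])
    rw [hc, inv_mul_eq_iff_eq_mul, mul_neg, mul_one] at h3
    rw [h3, neg_neg]
  obtain ⟨a, ha, hne'⟩ := exists_rSeries_mul_ne hM c.isUnit h1 h2 (ResidueField A)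
  exact absurd (by simpa using hmul ha.unit) hne'

/-- A homomorphism fixing a subfield, as an algebra homomorphism over it. -/
def extendAlgHom {k E : Type*} [Field k] [Field E] [Algebra k E] {K F : IntermediateField k E}
    (h : K ≤ F) (δ : F →+* E) (hfix : ∀ x : F, (x : E) ∈ K → δ x = x) :
    extendScalars h →ₐ[K] E :=
  { δ.comp ((extendScalars h).val.toRingHom.codRestrict F.toSubfield fun x => x.2) with
    commutes' := fun c => hfix ⟨(c : E), h c.2⟩ c.2 }

theorem extendAlgHom_congr {k E : Type*} [Field k] [Field E] [Algebra k E]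
    {K F : IntermediateField k E} (h : K ≤ F) {δ δ' : F →+* E}
    {hfix : ∀ x : F, (x : E) ∈ K → δ x = x} {hfix' : ∀ x : F, (x : E) ∈ K → δ' x = x}
    (e : extendAlgHom h δ hfix = extendAlgHom h δ' hfix') (x : F) : δ x = δ' x :=
  AlgHom.congr_fun e ⟨(x : E), x.2⟩

/-- At most as many homomorphisms as the degree. -/
theorem card_le_two_mul_finrank {K V W : Type*} [Field K] [Field V] [Algebra K V]
    [FiniteDimensional K V] [Field W] [Algebra K W] (Δ : (ZMod M)ˣ → (V →ₐ[K] W))
    (hfibre : ∀ d e, Δ d = Δ e → d = e ∨ d = -e) :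
    Fintype.card (ZMod M)ˣ ≤ 2 * Module.finrank K V := by
  classical
  set S := Finset.univ.image Δ
  have hS : S.card ≤ Module.finrank K V := by
    have h := ((linearIndependent_toLinearMap K V W).comp
      (Subtype.val : S → _) Subtype.val_injective).fintype_card_le_finrank
    rwa [Fintype.card_coe, Module.finrank_linearMap, Module.finrank_self, mul_one] at h
  refine le_trans ?_ (Nat.mul_le_mul_left 2 hS)
  refine Finset.card_univ.symm.trans_le
    (Finset.card_le_mul_card_image Finset.univ 2 fun b hb => ?_)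
  obtain ⟨e, -, rfl⟩ := Finset.mem_image.1 hb
  refine le_trans (Finset.card_le_card (t := {e, -e}) fun d hd => ?_) Finset.card_le_two
  rw [Finset.mem_filter] at hd
  simpa using hfibre d e hd.2

set_option maxHeartbeats 400000 in
/-- The degree over `j` does not drop. -/
theorem index_le_two_mul_finrank_FRes (hpM : p.Coprime M) (A : ValuationSubring ℚ̄)
    (hA : A.LiesOverPrime p) :
    (CongruenceSubgroup.Gamma1 M).index ≤
      2 * Module.finrank (IsLocalRing.ResidueField A)⟮jResElt (IsLocalRing.ResidueField A) M⟯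
        (FRes (IsLocalRing.ResidueField A) M) := by
  classical
  have hpM' := not_dvd_of_coprime hpM
  set k := ResidueField A
  set K0 := modularFunctionFieldFullC k M
  set F1 := FRes k M
  have h01 : K0 ≤ F1 := modularFunctionFieldFullC_le_FRes k
  have hj0 : k⟮jqModC k⟯ ≤ K0 := adjoin_simple_le_iff.2 (jqModC_mem_full k M)
  -- finiteness over `k(j)`
  have htr : Transcendental k (jResElt k M) := fun h =>
    transcendental_jqModC (h.algHom F1.val)
  have hjred : HasGaussRed (residue A) (jdElt M ℚ̄ (one_dvd M) : LaurentSeries ℚ̄) (jqModC k) := by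
    have := hasGaussRed_jdElt (π := residue A) (one_dvd M)
    rwa [qExpand_one_apply] at this
  haveI := finiteDimensional_FL M ℚ̄
  obtain ⟨hfin, -, -⟩ := red_of_finrank (π := residue A) (FQ M) F1 (jElt M ℚ̄) (jResElt k M)
    (transcendental_jElt M ℚ̄) htr (by rw [← jdElt_one]; exact hjred) (fun y hy => by
      obtain ⟨f, hf⟩ := exists_hasGaussRed_of_mem_adjoin_gens IsLocalRing.residue_surjective hy
      exact ⟨f, f.2, hf⟩)
  have hpos : 0 < Module.finrank k⟮jResElt k M⟯ F1 := Module.finrank_pos
  -- the tower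
  have htower : Module.finrank k⟮jResElt k M⟯ F1 =
      (Gamma0 M).index * Module.finrank K0 (extendScalars h01) := by
    rw [finrank_adjoin_eq_relfinrank, ← relfinrank_eq_finrank_of_le h01,
      ← Reduction.finrank_jBar M, ← Reduction.finrank_jRes M hpM' A hA, finrank_adjoin_eq_relfinrank]
    exact (relfinrank_mul_relfinrank hj0 h01).symm
  haveI : FiniteDimensional K0 (extendScalars h01) := Module.finite_of_finrank_pos (by
    rw [htower] at hpos
    exact Nat.pos_of_mul_pos_left hpos)
  -- the diamond operators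
  choose δ hδ using exists_diamondRes (M := M) hpM' hA
  let Δ : (ZMod M)ˣ → (extendScalars h01 →ₐ[K0] LaurentSeries k) := fun d =>
    extendAlgHom h01 (δ d) (diamondRes_eq_of_mem_fullC hpM' hA (hδ d))
  have hfibre : ∀ d e, Δ d = Δ e → d = e ∨ d = -e := fun d e h =>
    eq_or_eq_neg_of_diamondRes_eq hpM' hA (hδ d) fun x => by
      have : δ d x = δ e x := extendAlgHom_congr h01 h x
      rw [this]
      exact hδ e x
  have hcard := card_le_two_mul_finrank Δ hfibre
  rw [← card_units_mul_index, Nat.card_eq_fintype_card, htower]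
  calc Fintype.card (ZMod M)ˣ * (Gamma0 M).index
      ≤ 2 * Module.finrank K0 (extendScalars h01) * (Gamma0 M).index :=
        Nat.mul_le_mul_right _ hcard
    _ = _ := by ring

end Fermat.Agent.DeligneSerre.XOne
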