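import Fermat.Agent.DeligneSerre.XOne.GaussPair
import Fermat.Agent.DeligneSerre.XOne.GaussFQ
import Fermat.Agent.DeligneSerre.XOne.Igusa
import Fermat.Agent.DeligneSerre.XOne.DifferentFRes
import Fermat.Agent.EC.Red.ResidueQbar

/-!
# Gauss reduction of the function field of `X₁(M)`

The residue field of the Gauss valuation is `k(j(q^d), e_a / e_1)`.
-/

set_option autoImplicit false
set_option synthInstance.maxHeartbeats 400000

noncomputable section

open ModularCurve IntermediateField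
open Fermat.Agent.Igusa (castSeries)

namespace Fermat.Agent.DeligneSerre.XOne

local notation "ℚ̄" => AlgebraicClosure ℚ

section Span

variable (M : ℕ) [NeZero M] [hM : Fact (3 ≤ M)] {L : Type*} [Field L]

theorem adjoin_gens_le_intSpan : Algebra.adjoin L (gens L M) ≤ intSpan L := by
  refine Algebra.adjoin_le ?_
  rintro x (⟨d, hd0, hd, rfl⟩ | ⟨a, ha, rfl⟩)
  · have h : castSeries L (qExpand ℤ d (jqModC ℤ)) = qExpand L d (jqModC L) := by
      simp only [castSeries, coeffMap_qExpand, coeffMap_jqModC]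
    exact h ▸ castSeries_mem_intSpan L _
  · rw [eisRatio_eq_rSeries _ _ hM.out, ← coeffMap_rSeries (Int.castRingHom L)]
    exact castSeries_mem_intSpan L _

end Span

variable {M : ℕ} [NeZero M] [hM : Fact (3 ≤ M)] {p : ℕ} [Fact p.Prime]

theorem jElt_jResElt_mem_gaussRel (A : ValuationSubring ℚ̄) :
    ((jElt M ℚ̄ : LaurentSeries ℚ̄),
      (jResElt (IsLocalRing.ResidueField A) M : LaurentSeries (IsLocalRing.ResidueField A))) ∈
      gaussRel (IsLocalRing.residue A) := by
  have h := castSeries_mem_gaussRel (π := IsLocalRing.residue A) (jqModC ℤ)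
  rw [castSeries, castSeries, coeffMap_jqModC, coeffMap_jqModC] at h
  rwa [show (jElt M ℚ̄ : LaurentSeries ℚ̄) = jqModC ℚ̄ from by
    show coeffEmb ℚ̄ jq = _
    rw [coeffEmb, ← jqModC_rat, coeffMap_jqModC]]

theorem exists_mem_gaussRel_of_mem_FRes {A : ValuationSubring ℚ̄}
    {y : LaurentSeries (IsLocalRing.ResidueField A)}
    (hy : y ∈ FRes (IsLocalRing.ResidueField A) M) :
    ∃ x ∈ FQ M, (x, y) ∈ gaussRel (IsLocalRing.residue A) := by
  obtain ⟨f, hf⟩ := exists_hasGaussRed_of_mem_adjoin_gens IsLocalRing.residue_surjective hy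
  exact ⟨f, f.2, hf⟩

/-- The degree over `j` is preserved. -/
theorem finrank_jResElt (hpM : p.Coprime M) (A : ValuationSubring ℚ̄) (hA : A.LiesOverPrime p) :
    FiniteDimensional (IsLocalRing.ResidueField A)⟮jResElt (IsLocalRing.ResidueField A) M⟯
        (FRes (IsLocalRing.ResidueField A) M) ∧
      Module.finrank (IsLocalRing.ResidueField A)⟮jResElt (IsLocalRing.ResidueField A) M⟯
          (FRes (IsLocalRing.ResidueField A) M) = Module.finrank ℚ̄⟮jElt M ℚ̄⟯ (FQ M) := by
  have := finiteDimensional_FL M ℚ̄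
  have h := red_of_finrank (FQ M) _ (jElt M ℚ̄) (jResElt _ M) (transcendental_jElt M ℚ̄)
    (transcendental_jqRes M _) (jElt_jResElt_mem_gaussRel A)
    fun y hy => exists_mem_gaussRel_of_mem_FRes hy
  have h' := index_le_two_mul_finrank_FRes hpM A hA
  rw [← two_mul_finrank_FL M ℚ̄ hM.out] at h'
  exact ⟨h.1, le_antisymm h.2.1 (Nat.le_of_mul_le_mul_left h' two_pos)⟩

/-- The pair `FQ M`, `FRes k M`. -/
theorem isGaussPair (hpM : p.Coprime M) (A : ValuationSubring ℚ̄) (hA : A.LiesOverPrime p) :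
    IsGaussPair (IsLocalRing.residue A) (FQ M) (FRes (IsLocalRing.ResidueField A) M) := by
  have : Algebra.IsAlgebraic ℚ ℚ̄ := AlgebraicClosure.isAlgebraic ℚ
  have hgen : (FQ M : IntermediateField ℚ̄ (LaurentSeries ℚ̄)) = adjoin ℚ̄ (gens ℚ̄ M) :=
    FL_eq_adjoin M ℚ̄
  refine ⟨spanScalable_of_isAlgebraic _, fun x hx => ?_,
    fun y hy => exists_mem_gaussRel_of_mem_FRes hy, ?_⟩
  · rw [hgen] at hx
    obtain ⟨r, hr, s, hs, rfl⟩ := IntermediateField.mem_adjoin_iff_div.1 hx
    rcases eq_or_ne s 0 with rfl | hs0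
    · exact ⟨0, 1, zero_mem _, one_mem _, zero_mem _, one_mem _, one_ne_zero, by simp⟩
    exact ⟨r, s, adjoin_gens_le_intSpan M hr, adjoin_gens_le_intSpan M hs,
      mem_FQ_of_mem_adjoin_gens hr, mem_FQ_of_mem_adjoin_gens hs, hs0, div_mul_cancel₀ r hs0⟩
  · have := finiteDimensional_FL M ℚ̄
    exact (red_of_finrank (FQ M) _ (jElt M ℚ̄) (jResElt _ M) (transcendental_jElt M ℚ̄)
      (transcendental_jqRes M _) (jElt_jResElt_mem_gaussRel A)
      fun y hy => exists_mem_gaussRel_of_mem_FRes hy).2.2 (finrank_jResElt hpM A hA).2.ge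

/-- The reduction data of `X₁(M)` at a place over `p ∤ M`. -/
def gaussDataXOne (hpM : p.Coprime M) (A : ValuationSubring ℚ̄) (hA : A.LiesOverPrime p) :
    Reduction.GaussData (IsLocalRing.residue A) (FQ M) (FRes (IsLocalRing.ResidueField A) M) :=
  IsGaussPair.gaussData IsLocalRing.residue_surjective (isGaussPair hpM A hA)

theorem mem_gaussDataXOne_graph (hpM : p.Coprime M) (A : ValuationSubring ℚ̄)
    (hA : A.LiesOverPrime p) {f : FQ M} {g : FRes (IsLocalRing.ResidueField A) M} :
    (f, g) ∈ (gaussDataXOne hpM A hA).graph ↔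
      ((f : LaurentSeries ℚ̄), (g : LaurentSeries (IsLocalRing.ResidueField A))) ∈
        gaussRel (IsLocalRing.residue A) := Iff.rfl

end Fermat.Agent.DeligneSerre.XOne
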