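import Fermat.Agent.DeligneSerre.Periods.Hecke
import Fermat.Agent.Modular.PoleClearing
import Mathlib.Algebra.Group.AddChar

/-!
# Substitution by matrices of positive determinant in meromorphic functions

`glTranslate g : F ↦ F (g⁻¹ z)` extends `translate` from `SL₂(ℤ)` to `GL₂(ℝ)⁺`.  The product of
the substitutions by the representatives of `T_p` sends a function with multiplier `χ ∘ φ` on
`Γ₁(M)` to one with multiplier `χ ∘ T_p φ`, and keeps finite order at the cusps.
-/

set_option autoImplicit false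

noncomputable section

open UpperHalfPlane hiding I
open CongruenceSubgroup Filter
open scoped MatrixGroups Manifold Topology

namespace Fermat.Agent.DeligneSerre.XOne

open Fermat.Agent.Modular Fermat.Agent.Periods

/-- `GL₂(ℝ)⁺`. -/
abbrev GLp : Type := Matrix.GLPos (Fin 2) ℝ

/-- `SL₂(ℤ)` inside `GL₂(ℝ)⁺`. -/
def glSL : SL(2, ℤ) →* GLp :=
  (Matrix.SpecialLinearGroup.mapGL ℝ).codRestrict _ fun g => by
    rw [Matrix.mem_glpos]; simp

@[simp]
theorem coe_glSL (g : SL(2, ℤ)) : ((glSL g : GLp) : GL (Fin 2) ℝ) = (g : GL (Fin 2) ℝ) := rfl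

/-- `F ↦ (z ↦ F (g⁻¹ • z))`. -/
instance : SMul GLp Hol where
  smul g F := ⟨fun z => (F : ℍ → ℂ) (((g⁻¹ : GLp) : GL (Fin 2) ℝ) • z),
    F.2.comp (mdifferentiable_smul (g⁻¹ : GLp).2)⟩

@[simp]
theorem gl_smul_hol_apply (g : GLp) (F : Hol) (z : ℍ) :
    (g • F : Hol).1 z = F.1 (((g⁻¹ : GLp) : GL (Fin 2) ℝ) • z) := rfl

instance : MulSemiringAction GLp Hol where
  one_smul F := by ext z; simp
  mul_smul g h F := by ext z; simp [mul_smul]
  smul_zero g := by ext z; simp
  smul_add g F G := by ext z; simp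
  smul_one g := by ext z; simp
  smul_mul g F G := by ext z; simp

/-- Substitution as a ring automorphism of `Mero`. -/
def glTranslate : GLp →* (Mero ≃+* Mero) where
  toFun g := IsFractionRing.ringEquivOfRingEquiv (MulSemiringAction.toRingEquiv _ Hol g)
  map_one' := by
    refine RingEquiv.toRingHom_injective (IsLocalization.ringHom_ext (nonZeroDivisors Hol) ?_)
    ext F
    show IsFractionRing.ringEquivOfRingEquiv (K := Mero) (L := Mero)
      (MulSemiringAction.toRingEquiv _ Hol (1 : GLp)) (algebraMap Hol Mero F) = algebraMap Hol Mero F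
    rw [IsFractionRing.ringEquivOfRingEquiv_algebraMap]
    exact congrArg _ (one_smul GLp F)
  map_mul' g h := by
    refine RingEquiv.toRingHom_injective (IsLocalization.ringHom_ext (nonZeroDivisors Hol) ?_)
    ext F
    show IsFractionRing.ringEquivOfRingEquiv (K := Mero) (L := Mero)
        (MulSemiringAction.toRingEquiv _ Hol (g * h)) (algebraMap Hol Mero F) =
      IsFractionRing.ringEquivOfRingEquiv (K := Mero) (L := Mero)
        (MulSemiringAction.toRingEquiv _ Hol g)
        (IsFractionRing.ringEquivOfRingEquiv (K := Mero) (L := Mero)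
          (MulSemiringAction.toRingEquiv _ Hol h) (algebraMap Hol Mero F))
    rw [IsFractionRing.ringEquivOfRingEquiv_algebraMap,
      IsFractionRing.ringEquivOfRingEquiv_algebraMap, IsFractionRing.ringEquivOfRingEquiv_algebraMap]
    exact congrArg _ (mul_smul g h F)

@[simp]
theorem glTranslate_algebraMap (g : GLp) (F : Hol) :
    glTranslate g (algebraMap Hol Mero F) = algebraMap Hol Mero (g • F) :=
  IsFractionRing.ringEquivOfRingEquiv_algebraMap _ F

theorem glTranslate_mul (g h : GLp) (φ : Mero) :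
    glTranslate (g * h) φ = glTranslate g (glTranslate h φ) := by
  rw [map_mul]; rfl

@[simp]
theorem glTranslate_const (g : GLp) (c : ℂ) :
    glTranslate g (algebraMap ℂ Mero c) = algebraMap ℂ Mero c := by
  rw [IsScalarTower.algebraMap_apply ℂ Hol Mero, glTranslate_algebraMap]
  rfl

theorem glTranslate_glSL (g : SL(2, ℤ)) (φ : Mero) :
    glTranslate (glSL g) φ = translate g φ := by
  have h : ∀ F : Hol, glSL g • F = g • F := fun F => by
    refine Subtype.ext (funext fun z => ?_)
    rw [gl_smul_hol_apply, smul_hol_apply, ← map_inv, coe_glSL, ← ModularGroup.sl_moeb]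
  obtain ⟨a, b, -, rfl⟩ := IsFractionRing.div_surjective (A := Hol) φ
  rw [map_div₀, map_div₀, glTranslate_algebraMap, glTranslate_algebraMap, translate_algebraMap,
    translate_algebraMap, h, h]

section Hecke

variable (M p : ℕ) [hp : Fact p.Prime]

/-- The representatives of `T_p` in `GL₂(ℝ)⁺`. -/
def repPos (x : Option (Fin p)) : GLp :=
  ⟨repGL1 M p x, by
    rw [Matrix.mem_glpos, Matrix.GeneralLinearGroup.val_det_apply, val_repGL1]
    have h := (RingHom.map_det (Int.castRingHom ℝ) (repInt1 M p x)).symm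
    rw [det_repInt1] at h
    simp only [RingHom.mapMatrix_apply, Int.coe_castRingHom, Int.cast_natCast] at h
    rw [h]
    exact_mod_cast hp.out.pos⟩

/-- The product of the substitutions by the representatives of `T_p`. -/
def heckeMero (φ : Mero) : Mero := ∏ x, glTranslate (repPos M p x)⁻¹ φ

theorem heckeMero_mul (φ ψ : Mero) :
    heckeMero M p (φ * ψ) = heckeMero M p φ * heckeMero M p ψ := by
  simp [heckeMero, Finset.prod_mul_distrib]

theorem heckeMero_one : heckeMero M p 1 = 1 := by simp [heckeMero]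

theorem heckeMero_pow (φ : Mero) (n : ℕ) : heckeMero M p (φ ^ n) = heckeMero M p φ ^ n := by
  simp [heckeMero, Finset.prod_pow]

theorem heckeMero_ne_zero {φ : Mero} (hφ : φ ≠ 0) : heckeMero M p φ ≠ 0 :=
  Finset.prod_ne_zero_iff.mpr fun _ _ => (map_ne_zero _).mpr hφ

variable {M p}

theorem repPos_mul_glSL (hpM : p.Coprime M) (γ : Gamma1 M) (x : Option (Fin p)) :
    repPos M p x * glSL γ =
      glSL (stepElt hpM γ x : Gamma1 M) * repPos M p (stepIdx hpM γ x) := by
  refine Subtype.ext (Matrix.GeneralLinearGroup.ext fun a b => ?_)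
  have h := congrArg (fun X : IntMat => X.map (Int.castRingHom ℝ)) (step_spec hpM γ x)
  simp only [Matrix.map_mul] at h
  simp only [Subgroup.coe_mul, Units.val_mul, coe_glSL, repPos, val_repGL1]
  exact congrFun (congrFun h a) b

/-- `T_p` on multipliers. -/
theorem translate_heckeMero (hpM : p.Coprime M) {R : Type*} [Semiring R] {A : Type*}
    [AddCommGroup A] [Module R A] (χ : AddChar A ℂ) {G : Mero} {φ : Additive (Gamma1 M) →+ A}
    (hG : ∀ γ : Gamma1 M, translate (γ : SL(2, ℤ))⁻¹ G
      = algebraMap ℂ Mero (χ (φ (Additive.ofMul γ))) * G) (γ : Gamma1 M) :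
    translate (γ : SL(2, ℤ))⁻¹ (heckeMero M p G) =
      algebraMap ℂ Mero (χ (heckeHom1 hpM R A φ (Additive.ofMul γ))) * heckeMero M p G := by
  have hx : ∀ x, translate (γ : SL(2, ℤ))⁻¹ (glTranslate (repPos M p x)⁻¹ G) =
      algebraMap ℂ Mero (χ (φ (Additive.ofMul (stepElt hpM γ x)))) *
        glTranslate (repPos M p (stepIdx hpM γ x))⁻¹ G := by
    intro x
    rw [← glTranslate_glSL, ← glTranslate_mul,
      show glSL (γ : SL(2, ℤ))⁻¹ * (repPos M p x)⁻¹ =
        (repPos M p (stepIdx hpM γ x))⁻¹ * glSL ((stepElt hpM γ x : Gamma1 M) : SL(2, ℤ))⁻¹ by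
        rw [map_inv, map_inv, ← mul_inv_rev, ← mul_inv_rev, repPos_mul_glSL hpM],
      glTranslate_mul, glTranslate_glSL, hG, map_mul, glTranslate_const]
  have hsum : χ (∑ x, φ (Additive.ofMul (stepElt hpM γ x))) =
      ∏ x, χ (φ (Additive.ofMul (stepElt hpM γ x))) := by
    have h := map_prod χ.toMonoidHom
      (fun x => Multiplicative.ofAdd (φ (Additive.ofMul (stepElt hpM γ x)))) Finset.univ
    simpa [← ofAdd_sum] using h
  rw [heckeMero, map_prod, Finset.prod_congr rfl fun x _ => hx x, Finset.prod_mul_distrib,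
    heckeHom1_apply, hsum, map_prod,
    (stepIdx_bijective hpM γ).prod_comp fun x => glTranslate (repPos M p x)⁻¹ G]

theorem translate_heckeMero_of_invariant (hpM : p.Coprime M) {G : Mero}
    (hG : ∀ g ∈ Gamma1 M, translate g G = G) {g : SL(2, ℤ)} (hg : g ∈ Gamma1 M) :
    translate g (heckeMero M p G) = heckeMero M p G := by
  have h := translate_heckeMero hpM (R := ℤ) (A := ℤ) (1 : AddChar ℤ ℂ) (G := G) (φ := 0)
    (fun γ => by rw [hG _ (inv_mem γ.2), AddChar.one_apply, map_one, one_mul]) ⟨g⁻¹, inv_mem hg⟩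
  rwa [inv_inv, AddChar.one_apply, map_one, one_mul] at h

theorem im_rep_smul (x : Option (Fin p)) (z : ℍ) :
    (rep p x • z).im = x.elim ((p : ℝ) * z.im) fun _ => z.im / p := by
  have hv := rep_val x
  have hdet : 0 < (rep p x).det.val := by
    rw [Matrix.GeneralLinearGroup.val_det_apply, hv]
    cases x <;> simp [repInt, Matrix.det_fin_two, hp.out.pos]
  rw [← UpperHalfPlane.coe_im, coe_smul_of_det_pos hdet]
  cases x <;> simp [num, denom, hv, repInt, Complex.div_natCast_im]

theorem tendsto_rep_smul (x : Option (Fin p)) :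
    Tendsto (fun z : ℍ => rep p x • z) atImInfty atImInfty := by
  have hp1 : (1 : ℝ) ≤ p := by exact_mod_cast hp.out.one_le
  refine tendsto_comap_iff.mpr (tendsto_atTop.mpr fun A => ?_)
  filter_upwards [(UpperHalfPlane.atImInfty_mem _).mpr
    ⟨(p : ℝ) * max A 0, fun z (hz : (p : ℝ) * max A 0 ≤ z.im) =>
      (show z ∈ {w : ℍ | (p : ℝ) * max A 0 ≤ w.im} from hz)⟩] with z hz
  replace hz : (p : ℝ) * max A 0 ≤ z.im := hz
  show A ≤ (rep p x • z).im
  rw [im_rep_smul]
  rcases x with - | j
  · show A ≤ (p : ℝ) * z.im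
    have h1 : max A 0 ≤ (p : ℝ) * max A 0 := le_mul_of_one_le_left (le_max_right _ _) hp1
    nlinarith [le_max_left A 0, z.im_pos]
  · show A ≤ z.im / p
    rw [le_div_iff₀ (by linarith)]
    nlinarith [le_max_left A 0]

end Hecke

section Cusps

variable {M : ℕ} [NeZero M] {φ ψ : Mero}

omit [NeZero M] in
theorem hasFiniteOrderAtCusps_one : HasFiniteOrderAtCusps M 1 := fun g =>
  ⟨1, 1, Eventually.of_forall fun _ => one_ne_zero, by simp, 0,
    Asymptotics.isBigO_of_le _ fun τ => by simp⟩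

omit [NeZero M] in
theorem hasFiniteOrderAtCusps_mul (hφ : HasFiniteOrderAtCusps M φ)
    (hψ : HasFiniteOrderAtCusps M ψ) : HasFiniteOrderAtCusps M (φ * ψ) := by
  intro g
  obtain ⟨a, b, hb, hab, m, hm⟩ := hφ g
  obtain ⟨a', b', hb', hab', m', hm'⟩ := hψ g
  refine ⟨a * a', b * b', ?_, ?_, m + m', ?_⟩
  · filter_upwards [hb, hb'] with τ h h'
    exact mul_ne_zero h h'
  · rw [map_mul, map_mul, map_mul, mul_mul_mul_comm, hab, hab']
  · refine ((Asymptotics.IsBigO.mul hm hm').congr' (Eventually.of_forall fun τ => ?_)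
      (Eventually.of_forall fun τ => by simp))
    show _ = _ * ((a.1 τ * a'.1 τ) / (b.1 τ * b'.1 τ))
    rw [pow_add]
    ring

omit [NeZero M] in
theorem hasFiniteOrderAtCusps_prod {ι : Type*} (s : Finset ι) {f : ι → Mero}
    (h : ∀ i ∈ s, HasFiniteOrderAtCusps M (f i)) : HasFiniteOrderAtCusps M (∏ i ∈ s, f i) := by
  classical
  induction s using Finset.induction with
  | empty => exact hasFiniteOrderAtCusps_one
  | insert a s ha ih =>
    rw [Finset.prod_insert ha]
    exact hasFiniteOrderAtCusps_mul (h a (Finset.mem_insert_self a s))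
      (ih fun i hi => h i (Finset.mem_insert_of_mem hi))

theorem hasFiniteOrderAtCusps_heckeMero {p : ℕ} [hp : Fact p.Prime]
    (hφ : HasFiniteOrderAtCusps M φ) : HasFiniteOrderAtCusps M (heckeMero M p φ) := by
  refine hasFiniteOrderAtCusps_prod _ fun x _ g => ?_
  obtain ⟨h, y, hy⟩ := exists_eq_mul_repInt (p := p)
    (repInt1 M p x * ((g⁻¹ : SL(2, ℤ)) : Matrix (Fin 2) (Fin 2) ℤ)) (by
      rw [Matrix.det_mul, det_repInt1, (g⁻¹).det_coe, mul_one])
  have hdet : rep p y ∈ Matrix.GLPos (Fin 2) ℝ := by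
    rw [Matrix.mem_glpos, Matrix.GeneralLinearGroup.val_det_apply, rep_val]
    cases y <;> simp [repInt, Matrix.det_fin_two, hp.out.pos]
  have hmat : repPos M p x * glSL g⁻¹ = glSL h * ⟨rep p y, hdet⟩ := by
    refine Subtype.ext (Matrix.GeneralLinearGroup.ext fun a b => ?_)
    have e := congrArg (fun X : IntMat => X.map (Int.castRingHom ℝ)) hy
    simp only [Matrix.map_mul] at e
    simp only [Subgroup.coe_mul, Units.val_mul, coe_glSL, repPos, val_repGL1, rep_val]
    exact congrFun (congrFun e a) b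
  obtain ⟨a, b, hb, hab, m, hm⟩ := hφ h⁻¹
  set β : GLp := ⟨rep p y, hdet⟩
  refine ⟨β⁻¹ • a, β⁻¹ • b, ?_, ?_, m * p, ?_⟩
  · filter_upwards [(tendsto_rep_smul y).eventually hb] with τ hτ
    simpa [β] using hτ
  · have hβ : translate g (glTranslate (repPos M p x)⁻¹ φ) =
        glTranslate β⁻¹ (translate h⁻¹ φ) := by
      rw [← glTranslate_glSL, ← glTranslate_glSL, ← glTranslate_mul, ← glTranslate_mul]
      congr 1
      rw [map_inv, ← mul_inv_rev, ← hmat, mul_inv_rev, map_inv, inv_inv]
    rw [hβ, ← glTranslate_algebraMap, ← glTranslate_algebraMap, ← map_mul, hab]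
  · obtain ⟨C, A, hC⟩ := UpperHalfPlane.isBoundedAtImInfty_iff.mp hm
    obtain ⟨A', hA'⟩ := (UpperHalfPlane.atImInfty_mem _).mp
      ((tendsto_rep_smul (p := p) y) ((UpperHalfPlane.atImInfty_mem _).mpr ⟨A, fun z hz => hz⟩))
    refine UpperHalfPlane.isBoundedAtImInfty_iff.mpr ⟨C, A', fun z hz => ?_⟩
    refine le_trans ?_ (hC (rep p y • z) (hA' z hz))
    simp only [norm_mul, norm_pow, Function.Periodic.norm_qParam, gl_smul_hol_apply, inv_inv, β]
    refine mul_le_mul_of_nonneg_right ?_ (norm_nonneg _)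
    rw [← Real.exp_nat_mul, ← Real.exp_nat_mul, Real.exp_le_exp, UpperHalfPlane.coe_im,
      UpperHalfPlane.coe_im, im_rep_smul]
    have hM : (0 : ℝ) < M := Nat.cast_pos.mpr (NeZero.pos M)
    have hp1 : (1 : ℝ) ≤ p := by exact_mod_cast hp.out.one_le
    have hc : (y.elim ((p : ℝ) * z.im) fun _ => z.im / p) ≤ p * z.im := by
      rcases y with - | j
      · exact le_rfl
      · exact (div_le_self z.im_pos.le hp1).trans (le_mul_of_one_le_left z.im_pos.le hp1)
    have key := mul_le_mul_of_nonneg_left hc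
      (show (0 : ℝ) ≤ 2 * Real.pi * m / M by positivity)
    push_cast
    calc (m : ℝ) * p * (-2 * Real.pi * z.im / M)
        = -(2 * Real.pi * m / M * (p * z.im)) := by ring
      _ ≤ -(2 * Real.pi * m / M * (y.elim ((p : ℝ) * z.im) fun _ => z.im / p)) := neg_le_neg key
      _ = _ := by ring

end Cusps

section Diamond

variable {M : ℕ}

/-- Diamond operators on multipliers. -/
theorem translate_translate_diamond {R : Type*} [Semiring R] {A : Type*} [AddCommGroup A]
    [Module R A] (χ : AddChar A ℂ) {G : Mero} {φ : Additive (Gamma1 M) →+ A}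
    (hG : ∀ γ : Gamma1 M, translate (γ : SL(2, ℤ))⁻¹ G
      = algebraMap ℂ Mero (χ (φ (Additive.ofMul γ))) * G) (δ : Gamma0 M) (γ : Gamma1 M) :
    translate (γ : SL(2, ℤ))⁻¹ (translate (δ : SL(2, ℤ))⁻¹ G) =
      algebraMap ℂ Mero (χ (diamondHom R A δ φ (Additive.ofMul γ))) *
        translate (δ : SL(2, ℤ))⁻¹ G := by
  rw [← translate_mul, show (γ : SL(2, ℤ))⁻¹ * (δ : SL(2, ℤ))⁻¹ =
      (δ : SL(2, ℤ))⁻¹ * ((diamondConj δ γ : Gamma1 M) : SL(2, ℤ))⁻¹ by
    show _ = _ * ((δ : SL(2, ℤ)) * γ * (δ : SL(2, ℤ))⁻¹)⁻¹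
    group,
    translate_mul, hG, map_mul, translate_const, diamondHom_apply]

end Diamond

end Fermat.Agent.DeligneSerre.XOne
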