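import Fermat.Agent.DeligneSerre.XOne.Field
import Fermat.Agent.DeligneSerre.XOne.MeroPullback
import Fermat.Agent.DeligneSerre.XOne.DetNormLemmas
import Fermat.Agent.EichlerShimura.GaloisHecke
import Mathlib.FieldTheory.IsAlgClosed.Classification
import Mathlib.Analysis.Complex.Cardinality

/-!
# `T_p` on functions over `ℂ` is the product of the translates; descent to any field of constants
-/

set_option autoImplicit false

noncomputable section

open ModularCurve IntermediateField CongruenceSubgroup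
open UpperHalfPlane hiding I
open scoped MatrixGroups Cardinal

namespace Fermat.Agent.DeligneSerre.XOne

open Fermat.Agent.Modular

/-- A countable field of characteristic zero embeds into `ℂ`. -/
theorem exists_algHom_complex (K : Type*) [Field K] [Algebra ℚ K] [Countable K] :
    Nonempty (K →ₐ[ℚ] ℂ) := by
  obtain ⟨s, hs⟩ := exists_isTranscendenceBasis ℚ K
  obtain ⟨t, ht⟩ := exists_isTranscendenceBasis ℚ ℂ
  have hc : Cardinal.aleph0 < #ℂ := by rw [Cardinal.mk_complex]; exact Cardinal.aleph0_lt_continuum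
  have htc := IsAlgClosed.cardinal_eq_cardinal_transcendence_basis_of_aleph0_lt' _ ht
    Cardinal.mk_le_aleph0 hc
  have : Infinite t := Cardinal.infinite_iff.mpr (htc ▸ hc.le)
  obtain ⟨i, hi⟩ := Countable.exists_injective_nat s
  let w : s → ℂ := fun x => ((Infinite.natEmbedding t (i x) : t) : ℂ)
  have hw : AlgebraicIndependent ℚ w := ht.1.comp _ fun a b h => hi ((Infinite.natEmbedding t).injective h)
  let g : Algebra.adjoin ℚ (Set.range ((↑) : s → K)) →ₐ[ℚ] ℂ :=
    (MvPolynomial.aeval w).comp hs.1.aevalEquiv.symm.toAlgHom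
  have hg : Function.Injective g := fun a b h =>
    hs.1.aevalEquiv.symm.injective (algebraicIndependent_iff_injective_aeval.mp hw h)
  let := g.toRingHom.toAlgebra
  have : FaithfulSMul (Algebra.adjoin ℚ (Set.range ((↑) : s → K))) ℂ :=
    (faithfulSMul_iff_algebraMap_injective _ _).mpr hg
  have := hs.isAlgebraic
  exact ⟨((IsAlgClosed.lift :
    K →ₐ[Algebra.adjoin ℚ (Set.range ((↑) : s → K))] ℂ) : K →+* ℂ).toRatAlgHom⟩

variable {M : ℕ} [NeZero M] {p : ℕ} [hp : Fact p.Prime]

omit [NeZero M] in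
theorem repPos_none_smul (z : ℍ) :
    (repPos M p none : GL (Fin 2) ℝ) • z = (gamma0Lift M p) • mulH p z := by
  rw [ModularGroup.sl_moeb]
  show ((gamma0Lift M p : GL (Fin 2) ℝ) * rep p none) • z = _
  rw [mul_smul]
  congr 1
  apply UpperHalfPlane.ext
  rw [coe_smul_of_det_pos (by
    rw [Matrix.GeneralLinearGroup.val_det_apply, rep_val]
    simp [repInt, Matrix.det_fin_two, hp.out.pos])]
  simp [num, denom, rep_val, repInt]

omit [NeZero M] in
theorem repPos_some_smul (j : Fin p) (z : ℍ) :
    (repPos M p (some j) : GL (Fin 2) ℝ) • z = affineH 1 ((j : ℕ) : ℤ) p z := by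
  show ((((1 : SL(2, ℤ))) : GL (Fin 2) ℝ) * rep p (some j)) • z = _
  rw [map_one, map_one, one_mul]
  apply UpperHalfPlane.ext
  rw [coe_smul_of_det_pos (by
    rw [Matrix.GeneralLinearGroup.val_det_apply, rep_val]
    simp [repInt, Matrix.det_fin_two, hp.out.pos])]
  simp [num, denom, rep_val, repInt]

theorem series_ne_zero {b : Hol} {y : LaurentSeries ℂ} (hb : b ≠ 0) (hy : HasQExp 1 b.1 y) :
    y ≠ 0 := fun h => hb (Subtype.ext ((hy.eq_zero_iff one_pos).mpr h))

/-- Over `ℂ`, `T_p f` is the product of the translates of `f`. -/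
theorem exists_evalMero1_heckeSeries (hpM : p.Coprime M) (f : FL M ℂ) :
    ∃ F : FL M ℂ, (F : LaurentSeries ℂ) = heckeSeries p (f : LaurentSeries ℂ)
        (diamond M ℂ (ZMod.unitOfCoprime p hpM) f : LaurentSeries ℂ) ∧
      evalMero1 M F = heckeMero M p (evalMero1 M f) := by
  classical
  set φ := evalMero1 M f with hφ
  set df := diamond M ℂ (ZMod.unitOfCoprime p hpM) f
  have hd : evalMero1 M df = translate (gamma0Lift M p)⁻¹ φ :=
    evalMero1_diamond M ⟨gamma0Lift M p, gamma0Lift_mem hpM⟩ _
      (by simp [(gamma0Lift_spec hpM).2]) f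
  obtain ⟨a, b, x, y, hb, hx, hy, hab, hxy⟩ := evalMero1_spec M f
  obtain ⟨a₂, b₂, x₂, y₂, hb₂, hx₂, hy₂, hab₂, hxy₂⟩ := evalMero1_spec M df
  obtain ⟨F, hF⟩ := exists_evalMero1_eq M (φ := heckeMero M p φ)
    (fun g hg => translate_heckeMero_of_invariant hpM (fun g hg => translate_evalMero1 M hg f) hg)
    (hasFiniteOrderAtCusps_heckeMero (hasFiniteOrderAtCusps_evalMero1 M f))
  refine ⟨F, ?_, hF⟩
  obtain ⟨a', b', x', y', hb', hx', hy', hab', hxy'⟩ := evalMero1_spec M F
  set σ := gamma0Lift M p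
  let A : Hol := ((repPos M p none)⁻¹ • (σ • a₂)) * ∏ j : Fin p, (repPos M p (some j))⁻¹ • a
  let B : Hol := ((repPos M p none)⁻¹ • (σ • b₂)) * ∏ j : Fin p, (repPos M p (some j))⁻¹ • b
  have hval : ∀ c c₂ : Hol, ∀ τ : ℍ,
      (((repPos M p none)⁻¹ • (σ • c₂)) * ∏ j : Fin p, (repPos M p (some j))⁻¹ • c : Hol).1 τ =
      c₂.1 (mulH p τ) * ∏ j : Fin p, c.1 (affineH 1 ((j : ℕ) : ℤ) p τ) := by
    intro c c₂ τ
    rw [MulMemClass.coe_mul, SubmonoidClass.coe_finsetProd, Pi.mul_apply, Finset.prod_apply,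
      gl_smul_hol_apply, smul_hol_apply, inv_inv, repPos_none_smul, inv_smul_smul]
    simp only [gl_smul_hol_apply, inv_inv, repPos_some_smul]
  have hX : HasQExp 1 A.1 (qExpand ℂ p x₂ * detNorm p x) :=
    ((hx₂.comp_mulH p).mul (hasQExp_detNorm p hx)).congr fun τ => (hval a a₂ τ).symm
  have hY : HasQExp 1 B.1 (qExpand ℂ p y₂ * detNorm p y) :=
    ((hy₂.comp_mulH p).mul (hasQExp_detNorm p hy)).congr fun τ => (hval b b₂ τ).symm
  have hY0 : qExpand ℂ p y₂ * detNorm p y ≠ 0 :=
    mul_ne_zero ((map_ne_zero _).mpr (series_ne_zero hb₂ hy₂))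
      (detNorm_ne_zero' p (series_ne_zero hb hy))
  have hA : heckeMero M p φ * algebraMap Hol Mero B = algebraMap Hol Mero A := by
    have hnone : glTranslate (repPos M p none)⁻¹ φ *
        algebraMap Hol Mero ((repPos M p none)⁻¹ • (σ • b₂)) =
        algebraMap Hol Mero ((repPos M p none)⁻¹ • (σ • a₂)) := by
      rw [← glTranslate_algebraMap, ← glTranslate_algebraMap, ← map_mul]
      congr 1
      rw [← translate_algebraMap, ← translate_algebraMap, ← hab₂, map_mul, hd, ← translate_mul,
        mul_inv_cancel, map_one]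
      rfl
    simp only [A, B, heckeMero, Fintype.prod_option, map_mul, map_prod]
    rw [mul_mul_mul_comm, hnone, ← Finset.prod_mul_distrib]
    congr 1
    refine Finset.prod_congr rfl fun j _ => ?_
    rw [← glTranslate_algebraMap, ← glTranslate_algebraMap, ← map_mul, hab]
  have h1 : a' * B = A * b' := IsFractionRing.injective Hol Mero (by
    rw [map_mul _ a' B, map_mul _ A b', ← hab', hF, ← hA]
    ring)
  have h2 : x' * (qExpand ℂ p y₂ * detNorm p y) = (qExpand ℂ p x₂ * detNorm p x) * y' := by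
    refine (hx'.mul hY).unique ((hX.mul hy').congr fun τ => ?_) one_pos
    exact (congrFun (congrArg Subtype.val h1) τ).symm
  rw [← hxy', ← hxy, ← hxy₂, map_mul, detNorm_mul'] at h2
  refine mul_right_cancel₀ (mul_ne_zero (series_ne_zero hb' hy') hY0) ?_
  rw [heckeSeries]
  linear_combination h2

theorem coeffMap_heckeSeries {K L : Type*} [Field K] [Algebra ℚ K] [Field L] [Algebra ℚ L]
    (κ : K →ₐ[ℚ] L) (hpM : p.Coprime M) (f : FL M K) :
    coeffMap (κ : K →+* L) (heckeSeries p (f : LaurentSeries K)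
        (diamond M K (ZMod.unitOfCoprime p hpM) f : LaurentSeries K)) =
      heckeSeries p (EichlerShimura.bcHom (field M) κ f : LaurentSeries L)
        (diamond M L (ZMod.unitOfCoprime p hpM) (EichlerShimura.bcHom (field M) κ f) :
          LaurentSeries L) := by
  rw [heckeSeries, heckeSeries, map_mul, EichlerShimura.coeffMap_qExpand_comm, coeffMap_detNorm,
    coeffMap_diamond M K κ]
  rfl

theorem heckeSeries_mem_of_countable {K : Type*} [Field K] [Algebra ℚ K] [Countable K]
    (hpM : p.Coprime M) (f : FL M K) :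
    heckeSeries p (f : LaurentSeries K)
      (diamond M K (ZMod.unitOfCoprime p hpM) f : LaurentSeries K) ∈ FL M K := by
  obtain ⟨ι⟩ := exists_algHom_complex K
  obtain ⟨F, hF, -⟩ := exists_evalMero1_heckeSeries hpM (EichlerShimura.bcHom (field M) ι f)
  refine EichlerShimura.mem_of_coeffMap_mem (F₀ := field M) ι ?_
  rw [coeffMap_heckeSeries, ← hF]
  exact F.2

/-- `T_p` preserves the function field, over any field of constants. -/
theorem heckeSeries_mem' {L : Type*} [Field L] [Algebra ℚ L] (hpM : p.Coprime M) (f : FL M L) :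
    heckeSeries p (f : LaurentSeries L)
      (diamond M L (ZMod.unitOfCoprime p hpM) f : LaurentSeries L) ∈ FL M L := by
  let S : Set L := Set.range fun n => (f : LaurentSeries L).coeff n
  let K := IntermediateField.adjoin ℚ S
  have : Countable K := by
    rw [← Cardinal.mk_le_aleph0_iff]
    have h := IntermediateField.lift_cardinalMk_adjoin_le ℚ S
    have hS : #S ≤ Cardinal.aleph0 := Cardinal.mk_le_aleph0_iff.mpr (Set.countable_range _).to_subtype
    rw [Cardinal.lift_id'] at h
    refine h.trans (max_le (max_le ?_ ?_) le_rfl)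
    · simp
    · exact (Cardinal.lift_id' _).le.trans hS
  let _inst : Algebra ℚ K := K.algebra'
  let f₀ : LaurentSeries K :=
    { coeff := fun n => ⟨(f : LaurentSeries L).coeff n,
        IntermediateField.subset_adjoin ℚ S ⟨n, rfl⟩⟩
      isPWO_support' := (f : LaurentSeries L).isPWO_support.mono fun n hn h => hn (Subtype.ext h) }
  have hf₀ : coeffMap (K.val : K →+* L) f₀ = (f : LaurentSeries L) :=
    HahnSeries.ext (funext fun _ => rfl)
  let f' : FL M K :=
    ⟨f₀, EichlerShimura.mem_of_coeffMap_mem (F₀ := field M) K.val (hf₀ ▸ f.2)⟩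
  have hf' : EichlerShimura.bcHom (field M) K.val f' = f := Subtype.ext hf₀
  have := EichlerShimura.coeffMap_mem_baseChange (F₀ := field M) K.val
    (heckeSeries_mem_of_countable hpM f')
  rwa [coeffMap_heckeSeries, hf'] at this

end Fermat.Agent.DeligneSerre.XOne
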