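import Fermat.Agent.DeligneSerre.XOne.Field
import Fermat.Agent.DeligneSerre.XOne.DetNorm
import Fermat.Agent.DeligneSerre.XOne.HeckeComplex

/-!
# The Hecke operator `T_p` on functions of `X₁(M)`

`T_p f = (⟨p⟩ f)(q^p) · N f`, the product of the `p + 1` translates of `f`.
-/

set_option autoImplicit false

noncomputable section

open ModularCurve IntermediateField

namespace Fermat.Agent.DeligneSerre.XOne

variable {M : ℕ} [NeZero M] {L : Type*} [Field L] [Algebra ℚ L]

theorem detNorm_mul {R : Type*} [CommRing R] (p : ℕ) [NeZero p] (x y : LaurentSeries R) :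
    detNorm p (x * y) = detNorm p x * detNorm p y :=
  detNorm_mul' p x y

theorem detNorm_one {R : Type*} [CommRing R] (p : ℕ) [NeZero p] :
    detNorm p (1 : LaurentSeries R) = 1 :=
  detNorm_one' p

theorem detNorm_ne_zero {K : Type*} [Field K] (p : ℕ) [NeZero p] {x : LaurentSeries K}
    (hx : x ≠ 0) : detNorm p x ≠ 0 :=
  detNorm_ne_zero' p hx

/-- In characteristic `p` the norm applies Frobenius to the coefficients. -/
theorem detNorm_eq_coeffMap_frobenius {R : Type*} [CommRing R] [IsReduced R] (p : ℕ)
    [Fact p.Prime] [CharP R p] (x : LaurentSeries R) :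
    detNorm p x = coeffMap (frobenius R p) x :=
  detNorm_eq_coeffMap_frobenius' p x

variable (L) in
theorem heckeSeries_mem {p : ℕ} [Fact p.Prime] (hp : p.Coprime M) (f : FL M L) :
    heckeSeries p (f : LaurentSeries L) (diamond M L (ZMod.unitOfCoprime p hp) f : LaurentSeries L) ∈
      FL M L :=
  heckeSeries_mem' hp f

variable (L) in
/-- `T_p` on functions. -/
def heckeFun {p : ℕ} [Fact p.Prime] (hp : p.Coprime M) : FL M L →* FL M L where
  toFun f := ⟨_, heckeSeries_mem L hp f⟩
  map_one' := Subtype.ext (by simp [heckeSeries, detNorm_one])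
  map_mul' f g := Subtype.ext (by
    simp only [heckeSeries, map_mul, IntermediateField.coe_mul, detNorm_mul]
    ring)

@[simp]
theorem coe_heckeFun {p : ℕ} [Fact p.Prime] (hp : p.Coprime M) (f : FL M L) :
    (heckeFun L hp f : LaurentSeries L) =
      heckeSeries p (f : LaurentSeries L) (diamond M L (ZMod.unitOfCoprime p hp) f : LaurentSeries L) :=
  rfl

/-- `T_p` on constants. -/
theorem heckeFun_algebraMap {p : ℕ} [Fact p.Prime] (hp : p.Coprime M) (c : L) :
    heckeFun L hp (algebraMap L (FL M L) c) =
      algebraMap L (FL M L) c * algebraMap L (FL M L) c ^ p := by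
  refine Subtype.ext ?_
  rw [coe_heckeFun, AlgEquiv.commutes, heckeSeries, MulMemClass.coe_mul, SubmonoidClass.coe_pow]
  show qExpand L p (algebraMap L (LaurentSeries L) c) * detNorm p (algebraMap L (LaurentSeries L) c) =
    algebraMap L (LaurentSeries L) c * algebraMap L (LaurentSeries L) c ^ p
  rw [algebraMap_laurentSeries_eq_single, qExpand_single, mul_zero, ← HahnSeries.C_apply, detNorm_C,
    map_pow]

/-- Over `ℂ`, `T_p` on functions is the product of the translates. -/
theorem evalMero1_heckeFun {p : ℕ} [Fact p.Prime] (hp : p.Coprime M) (f : FL M ℂ) :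
    evalMero1 M (heckeFun ℂ hp f) = heckeMero M p (evalMero1 M f) := by
  obtain ⟨F, hF, hev⟩ := exists_evalMero1_heckeSeries hp f
  rw [← hev]
  exact congrArg _ (Subtype.ext hF.symm)

end Fermat.Agent.DeligneSerre.XOne
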