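import Fermat.Agent.DeligneSerre.XOne.KummerEval
import Fermat.Agent.DeligneSerre.Periods.Hecke
import Fermat.Agent.EichlerShimura.FiniteLevel

/-!
# The Kummer group of `X₁(M)`: functions with divisor divisible by `ℓ`, modulo constants and
`ℓ`-th powers

It carries the action of `Γ_ℚ`, of the diamond operators and of `T_p`, and is isomorphic to
`cuspidalHoms (Γ₁ M) (ℤ/ℓ)` through the multipliers of `ℓ`-th roots.
-/

set_option autoImplicit false

noncomputable section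

open AlgebraicCurve ModularCurve IntermediateField CongruenceSubgroup

namespace Fermat.Agent.DeligneSerre.XOne

local notation "ℚ̄" => AlgebraicClosure ℚ
local notation "Γℚ" => (AlgebraicClosure ℚ ≃ₐ[ℚ] AlgebraicClosure ℚ)

variable {M ℓ : ℕ} [NeZero M]

theorem galUnits_mem_divisibleUnits (σ : Γℚ) :
    ∀ f ∈ divisibleUnits M ℓ, galUnits σ f ∈ divisibleUnits M ℓ := by
  intro f hf P
  show (ℓ : ℤ) ∣ P.ord (arithmeticGalois (field M) σ • (f : FQ M))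
  rw [← smul_inv_smul (arithmeticGalois (field M) σ) P, SemilinearAut.ord_smul]
  exact hf _

theorem galUnits_mem_trivialUnits (σ : Γℚ) :
    ∀ f ∈ trivialUnits M ℓ, galUnits σ f ∈ trivialUnits M ℓ := by
  intro f hf
  obtain ⟨x, ⟨a, rfl⟩, y, ⟨g, rfl⟩, rfl⟩ := Subgroup.mem_sup.mp hf
  refine Subgroup.mem_sup.mpr
    ⟨_, ⟨Units.map (σ : ℚ̄ →* ℚ̄) a, rfl⟩, _, ⟨galUnits σ g, rfl⟩, ?_⟩
  rw [map_mul (galUnits σ), powMonoidHom_apply, powMonoidHom_apply, map_pow (galUnits σ)]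
  congr 1
  exact Units.ext (arithmeticRingAut_algebraMap (field M) σ (a : ℚ̄)).symm

theorem diamondUnits_mem_divisibleUnits (d : (ZMod M)ˣ) :
    ∀ f ∈ divisibleUnits M ℓ, diamondUnits d f ∈ divisibleUnits M ℓ := by
  intro f hf P
  show (ℓ : ℤ) ∣ P.ord (SemilinearAut.ofAlgAut (diamond M ℚ̄ d) • (f : FQ M))
  rw [← smul_inv_smul (SemilinearAut.ofAlgAut (diamond M ℚ̄ d)) P, SemilinearAut.ord_smul]
  exact hf _

theorem diamondUnits_mem_trivialUnits (d : (ZMod M)ˣ) :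
    ∀ f ∈ trivialUnits M ℓ, diamondUnits d f ∈ trivialUnits M ℓ := by
  intro f hf
  obtain ⟨x, ⟨a, rfl⟩, y, ⟨g, rfl⟩, rfl⟩ := Subgroup.mem_sup.mp hf
  refine Subgroup.mem_sup.mpr ⟨_, ⟨a, rfl⟩, _, ⟨diamondUnits d g, rfl⟩, ?_⟩
  rw [map_mul (diamondUnits d), powMonoidHom_apply, powMonoidHom_apply, map_pow (diamondUnits d)]
  congr 1
  exact Units.ext ((diamond M ℚ̄ d).commutes (a : ℚ̄)).symm

theorem heckeUnits_mem_divisibleUnits {p : ℕ} [Fact p.Prime] (hp : p.Coprime M) :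
    ∀ f ∈ divisibleUnits M ℓ, heckeUnits hp f ∈ divisibleUnits M ℓ := by
  intro f hf
  rcases eq_or_ne ℓ 0 with rfl | hℓ
  · have := isFunctionField1_FL M ℚ̄
    have hord : ∀ P : Place ℚ̄ (FQ M), P.ord (f : FQ M) = 0 := fun P =>
      zero_dvd_iff.mp (by exact_mod_cast hf P)
    obtain ⟨a, ha⟩ := EichlerShimura.mem_range_of_isAlgebraic (K := ℚ̄)
      (Curve.isAlgebraic_of_forall_ord_nonneg fun P => (hord P).ge)
    intro P
    refine zero_dvd_iff.mpr ?_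
    show P.ord (heckeFun ℚ̄ hp (f : FQ M)) = 0
    rw [← ha, heckeFun_algebraMap, ← map_pow, ← map_mul]
    exact Curve.ord_algebraMap P _
  · have : NeZero ℓ := ⟨hℓ⟩
    obtain ⟨φ, hφ, r, hr⟩ := exists_isKummerRoot hf
    exact mem_divisibleUnits_of_isKummerRoot (hr.heckeUnits hp)
      (heckeHom1_mem_cuspidalHoms hp hφ)

theorem heckeUnits_mem_trivialUnits {p : ℕ} [Fact p.Prime] (hp : p.Coprime M) :
    ∀ f ∈ trivialUnits M ℓ, heckeUnits hp f ∈ trivialUnits M ℓ := by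
  intro f hf
  obtain ⟨x, ⟨a, rfl⟩, y, ⟨g, rfl⟩, rfl⟩ := Subgroup.mem_sup.mp hf
  refine Subgroup.mem_sup.mpr ⟨_, ⟨a * a ^ p, rfl⟩, _, ⟨heckeUnits hp g, rfl⟩, ?_⟩
  rw [map_mul (heckeUnits hp), powMonoidHom_apply, powMonoidHom_apply, map_pow (heckeUnits hp)]
  congr 1
  refine Units.ext ?_
  show algebraMap ℚ̄ (FQ M) ((a : ℚ̄) * (a : ℚ̄) ^ p) = heckeFun ℚ̄ hp (algebraMap ℚ̄ (FQ M) a)
  rw [heckeFun_algebraMap, map_mul, map_pow]

variable (M ℓ)

/-- Galois on the Kummer group. -/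
def galK (σ : Γℚ) : Kummer M ℓ →+ Kummer M ℓ :=
  Kummer.map (galUnits σ) (galUnits_mem_divisibleUnits σ) (galUnits_mem_trivialUnits σ)

/-- Diamond operators on the Kummer group. -/
def diamondK (d : (ZMod M)ˣ) : Kummer M ℓ →+ Kummer M ℓ :=
  Kummer.map (diamondUnits d) (diamondUnits_mem_divisibleUnits d) (diamondUnits_mem_trivialUnits d)

variable {M}

/-- `T_p` on the Kummer group. -/
def heckeK {p : ℕ} [Fact p.Prime] (hp : p.Coprime M) : Kummer M ℓ →+ Kummer M ℓ :=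
  Kummer.map (heckeUnits hp) (heckeUnits_mem_divisibleUnits hp) (heckeUnits_mem_trivialUnits hp)

variable (M)

theorem galK_one : galK M ℓ 1 = AddMonoidHom.id _ := by
  refine AddMonoidHom.ext fun x => ?_
  obtain ⟨f, rfl⟩ := Kummer.mk_surjective x
  refine congrArg Kummer.mk (Subtype.ext (Units.ext ?_))
  show arithmeticGalois (field M) (1 : Γℚ) • ((f : (FQ M)ˣ) : FQ M) = _
  rw [map_one, one_smul]

theorem galK_mul (σ τ : Γℚ) : galK M ℓ (σ * τ) = (galK M ℓ σ).comp (galK M ℓ τ) := by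
  refine AddMonoidHom.ext fun x => ?_
  obtain ⟨f, rfl⟩ := Kummer.mk_surjective x
  refine congrArg Kummer.mk (Subtype.ext (Units.ext ?_))
  show arithmeticGalois (field M) (σ * τ) • ((f : (FQ M)ˣ) : FQ M) = _
  rw [map_mul, mul_smul]
  rfl

theorem galK_diamondK (σ : Γℚ) (d : (ZMod M)ˣ) (x : Kummer M ℓ) :
    galK M ℓ σ (diamondK M ℓ d x) = diamondK M ℓ d (galK M ℓ σ x) := by
  obtain ⟨f, rfl⟩ := Kummer.mk_surjective x
  refine congrArg Kummer.mk (Subtype.ext (Units.ext (Subtype.ext ?_)))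
  exact coeffMap_diamond M ℚ̄ (σ : ℚ̄ →ₐ[ℚ] ℚ̄) d ((f : (FQ M)ˣ) : FQ M)

theorem galK_heckeK {p : ℕ} [Fact p.Prime] (hp : p.Coprime M) (σ : Γℚ) (x : Kummer M ℓ) :
    galK M ℓ σ (heckeK ℓ hp x) = heckeK ℓ hp (galK M ℓ σ x) := by
  obtain ⟨f, rfl⟩ := Kummer.mk_surjective x
  refine congrArg Kummer.mk (Subtype.ext (Units.ext (Subtype.ext ?_)))
  exact coeffMap_heckeSeries (σ : ℚ̄ →ₐ[ℚ] ℚ̄) hp (((f : (FQ M)ˣ) : FQ M))

/-- Every class is fixed by an open subgroup. -/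
theorem exists_finite_level (x : Kummer M ℓ) :
    ∃ L : IntermediateField ℚ ℚ̄, FiniteDimensional ℚ L ∧
      ∀ σ : Γℚ, (∀ a ∈ L, σ a = a) → galK M ℓ σ x = x := by
  obtain ⟨f, rfl⟩ := Kummer.mk_surjective x
  obtain ⟨L, hL, hfix⟩ := EichlerShimura.hasFiniteLevel_fun (field M) ((f : (FQ M)ˣ) : FQ M)
  exact ⟨L, hL, fun σ hσ => congrArg Kummer.mk (Subtype.ext (Units.ext (hfix σ hσ)))⟩

/-- The multiplier of a function with all orders divisible by `ℓ`. -/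
def multiplier [NeZero ℓ] (f : divisibleUnits M ℓ) :
    Periods.cuspidalHoms (ZMod ℓ) (Gamma1 M) (ZMod ℓ) :=
  ⟨(exists_isKummerRoot f.2).choose, (exists_isKummerRoot f.2).choose_spec.1⟩

theorem multiplier_spec [NeZero ℓ] (f : divisibleUnits M ℓ) :
    ∃ r : Modular.Mero, IsKummerRoot (f : (FQ M)ˣ)
      (multiplier M ℓ f : Additive (Gamma1 M) →+ ZMod ℓ) r :=
  (exists_isKummerRoot f.2).choose_spec.2

/-- The multiplier as a homomorphism. -/
def multiplierHom [NeZero ℓ] :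
    divisibleUnits M ℓ →* Multiplicative (Periods.cuspidalHoms (ZMod ℓ) (Gamma1 M) (ZMod ℓ)) :=
  MonoidHom.mk' (fun f => Multiplicative.ofAdd (multiplier M ℓ f)) fun f g => by
    obtain ⟨r, hr⟩ := multiplier_spec M ℓ f
    obtain ⟨s, hs⟩ := multiplier_spec M ℓ g
    obtain ⟨t, ht⟩ := multiplier_spec M ℓ (f * g)
    rw [← ofAdd_add]
    exact congrArg _ (Subtype.ext (ht.eq (hr.mul hs)))

theorem multiplier_eq_zero_iff [NeZero ℓ] (f : divisibleUnits M ℓ) :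
    multiplierHom M ℓ f = 1 ↔ (f : (FQ M)ˣ) ∈ trivialUnits M ℓ := by
  show multiplier M ℓ f = 0 ↔ _
  obtain ⟨r, hr⟩ := multiplier_spec M ℓ f
  refine ⟨fun h => ?_, fun h => ?_⟩
  · rw [h, ZeroMemClass.coe_zero] at hr
    exact mem_trivialUnits_of_isKummerRoot_zero hr
  · obtain ⟨s, hs⟩ := exists_isKummerRoot_zero h
    exact Subtype.ext (hr.eq hs)

/-- The multiplier on the Kummer group. -/
def kummerHom [NeZero ℓ] :
    Kummer M ℓ →+ Periods.cuspidalHoms (ZMod ℓ) (Gamma1 M) (ZMod ℓ) :=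
  MonoidHom.toAdditiveLeft (QuotientGroup.lift _ (multiplierHom M ℓ)
    fun f hf => (multiplier_eq_zero_iff M ℓ f).mpr (Subgroup.mem_subgroupOf.mp hf))

theorem kummerHom_mk [NeZero ℓ] (f : divisibleUnits M ℓ) :
    kummerHom M ℓ (Kummer.mk f) = multiplier M ℓ f :=
  rfl

/-- The multipliers of `ℓ`-th roots: the Kummer group is the cuspidal cohomology mod `ℓ`. -/
theorem exists_kummerEquiv [Fact ℓ.Prime] :
    ∃ e : Kummer M ℓ ≃+ Periods.cuspidalHoms (ZMod ℓ) (Gamma1 M) (ZMod ℓ),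
      (∀ (p : ℕ) [Fact p.Prime] (hp : p.Coprime M) (x : Kummer M ℓ),
        ((e (heckeK ℓ hp x) : Periods.cuspidalHoms (ZMod ℓ) (Gamma1 M) (ZMod ℓ)) :
            Additive (Gamma1 M) →+ ZMod ℓ) =
          heckeHom1 hp (ZMod ℓ) (ZMod ℓ) (e x : Additive (Gamma1 M) →+ ZMod ℓ)) ∧
      ∀ (δ : Gamma0 M) (d : (ZMod M)ˣ),
        (d : ZMod M) = ((((δ : Gamma0 M) : Matrix.SpecialLinearGroup (Fin 2) ℤ) 1 1 : ℤ) : ZMod M) →
        ∀ x : Kummer M ℓ,
        ((e (diamondK M ℓ d x) : Periods.cuspidalHoms (ZMod ℓ) (Gamma1 M) (ZMod ℓ)) :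
            Additive (Gamma1 M) →+ ZMod ℓ) =
          diamondHom (ZMod ℓ) (ZMod ℓ) δ (e x : Additive (Gamma1 M) →+ ZMod ℓ) := by
  have : NeZero ℓ := ⟨(Fact.out : ℓ.Prime).ne_zero⟩
  have hinj : Function.Injective (kummerHom M ℓ) := by
    refine (injective_iff_map_eq_zero _).mpr fun x hx => ?_
    obtain ⟨f, rfl⟩ := Kummer.mk_surjective x
    rw [kummerHom_mk] at hx
    rw [Kummer.mk_eq_zero_iff, ← multiplier_eq_zero_iff]
    exact congrArg Multiplicative.ofAdd hx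
  have hsurj : Function.Surjective (kummerHom M ℓ) := by
    rintro ⟨φ, hφ⟩
    obtain ⟨f, hf, r, hr⟩ := exists_isKummerRoot_of_mem_cuspidalHoms hφ
    obtain ⟨s, hs⟩ := multiplier_spec M ℓ ⟨f, hf⟩
    exact ⟨Kummer.mk ⟨f, hf⟩, (kummerHom_mk M ℓ _).trans (Subtype.ext (hs.eq hr))⟩
  refine ⟨AddEquiv.ofBijective (kummerHom M ℓ) ⟨hinj, hsurj⟩, ?_, ?_⟩
  · intro p _ hp x
    obtain ⟨f, rfl⟩ := Kummer.mk_surjective x
    obtain ⟨r, hr⟩ := multiplier_spec M ℓ f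
    obtain ⟨s, hs⟩ :=
      multiplier_spec M ℓ ⟨heckeUnits hp f, heckeUnits_mem_divisibleUnits hp f f.2⟩
    exact hs.eq (hr.heckeUnits hp)
  · intro δ d hd x
    obtain ⟨f, rfl⟩ := Kummer.mk_surjective x
    obtain ⟨r, hr⟩ := multiplier_spec M ℓ f
    obtain ⟨s, hs⟩ :=
      multiplier_spec M ℓ ⟨diamondUnits d f, diamondUnits_mem_divisibleUnits d f f.2⟩
    exact hs.eq (hr.diamondUnits δ d hd)

end Fermat.Agent.DeligneSerre.XOne
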