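import Fermat.Agent.EichlerShimura.ClassDescent
import Fermat.Agent.Curve.Degree

/-!
# Functions with divisor divisible by `n` under extension of algebraically closed constants

Modulo constants and `n`-th powers the group does not change, once the `n`-torsion of the class
group over the larger field is finite.
-/

set_option autoImplicit false

noncomputable section

open AlgebraicCurve ModularCurve
open Fermat.Agent.Curve Fermat.Agent.EichlerShimura

namespace Fermat.Agent.DeligneSerre.XOne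

variable {k L : Type*} [Field k] [Field L] [Algebra ℚ k] [Algebra ℚ L]
variable {F₀ : IntermediateField ℚ (LaurentSeries ℚ)} {ι : k →ₐ[ℚ] L}
variable [IsAlgClosed k] [IsAlgClosed L]
variable [IsFunctionField1 k (laurentBaseChange k F₀)] [IsFunctionField1 L (laurentBaseChange L F₀)]

local notation "F_k" => laurentBaseChange k F₀
local notation "F_L" => laurentBaseChange L F₀

theorem ord_npow {K F : Type*} [Field K] [Field F] [Algebra K F] (v : Place K F) (f : F) (n : ℕ) :
    v.ord (f ^ n) = n * v.ord f := by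
  rw [← zpow_natCast, v.ord_zpow]

/-- Functions with the same divisor differ by a constant. -/
theorem exists_eq_const_mul_of_ord_eq {K F : Type*} [Field K] [Field F] [Algebra K F]
    [IsAlgClosed K] [IsFunctionField1 K F] {x y : F} (hx : x ≠ 0) (hy : y ≠ 0)
    (h : ∀ v : Place K F, v.ord x = v.ord y) :
    ∃ c : K, c ≠ 0 ∧ x = algebraMap K F c * y := by
  obtain ⟨c, hc⟩ := mem_range_of_isAlgebraic (K := K) (x := x / y)
    (isAlgebraic_of_forall_ord_nonneg fun v => by rw [place_ord_div v hx hy, h v, sub_self])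
  rw [eq_div_iff hy] at hc
  refine ⟨c, ?_, hc.symm⟩
  rintro rfl
  exact hx (by rw [← hc, map_zero, zero_mul])

theorem dvd_ord_bcHom {n : ℤ} {f : F_k} (h : ∀ w : Place k F_k, n ∣ w.ord f) (v : Place L F_L) :
    n ∣ v.ord (bcHom F₀ ι f) := by
  by_cases hv : v.ord (bcHom F₀ ι f) = 0
  · exact hv ▸ dvd_zero n
  · obtain ⟨w, rfl⟩ := mem_range_placeUp hv
    rw [ord_placeUp]
    exact h w

/-- Half of the comparison: nothing new becomes trivial. -/
theorem exists_const_mul_pow_of_bcHom [CharZero k] {n : ℕ} (hn : n ≠ 0) {f : F_k} (hf : f ≠ 0)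
    {c : L} (hc : c ≠ 0) {r : F_L} (h : bcHom F₀ ι f = algebraMap L F_L c * r ^ n) :
    ∃ (c' : k) (g : F_k), c' ≠ 0 ∧ g ≠ 0 ∧ f = algebraMap k F_k c' * g ^ n := by
  have hn' : (n : ℤ) ≠ 0 := Nat.cast_ne_zero.mpr hn
  have hr : r ≠ 0 := by
    rintro rfl
    rw [zero_pow hn, mul_zero, map_eq_zero] at h
    exact hf h
  have hdiv : ∀ v : Place L F_L, v.ord (bcHom F₀ ι f) = n * v.ord r := fun v => by
    rw [h, place_ord_smul_const v hc (pow_ne_zero n hr), ord_npow]
  set D : Divisor k F_k := (divisorOf f).mapRange (fun a => a / (n : ℤ)) (by simp) with hD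
  have hfw : ∀ w : Place k F_k, w.ord f = n * D w := fun w => by
    rw [hD, Finsupp.mapRange_apply, divisorOf_apply]
    refine (Int.mul_ediv_cancel' ⟨(placeUp ι w).ord r, ?_⟩).symm
    rw [← ord_placeUp (ι := ι) w f, hdiv]
  have hDL : ∀ v : Place L F_L, bcDiv ι D v = v.ord r := fun v => by
    have := bcDiv_eq_ord (ι := ι) (D := n • D) (f := f) (fun w => by
      rw [Finsupp.smul_apply, nsmul_eq_mul]; exact (hfw w).symm) v
    rw [map_nsmul, Finsupp.smul_apply, nsmul_eq_mul, hdiv] at this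
    exact mul_left_cancel₀ hn' this
  obtain ⟨g, hg, hgD⟩ := mem_principal_of_bcDiv_mem (ι := ι) (D := D) ⟨r, hr, hDL⟩
  obtain ⟨c', hc', e⟩ := exists_eq_const_mul_of_ord_eq hf (pow_ne_zero n hg) fun w => by
    rw [hfw, ord_npow, hgD]
  exact ⟨c', g, hc', hg, e⟩

/-- The other half: every function with divisor divisible by `n` over `L` comes from `k`. -/
theorem exists_bcHom_eq_const_mul_pow_mul [CharZero k] [Fact (jq ∈ F₀)] {n : ℕ} (hn : n ≠ 0)
    {F : F_L} (hF : F ≠ 0) (hdiv : ∀ v : Place L F_L, (n : ℤ) ∣ v.ord F)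
    (hfin : {x : Pic0 L F_L | n • x = 0}.Finite) :
    ∃ (f : F_k) (c : L) (r : F_L), f ≠ 0 ∧ c ≠ 0 ∧ r ≠ 0 ∧ (∀ w : Place k F_k, (n : ℤ) ∣ w.ord f) ∧
      bcHom F₀ ι f = algebraMap L F_L c * r ^ n * F := by
  have hn' : (n : ℤ) ≠ 0 := Nat.cast_ne_zero.mpr hn
  set D : Divisor L F_L := (divisorOf F).mapRange (fun a => a / (n : ℤ)) (by simp) with hD
  have hFv : ∀ v : Place L F_L, v.ord F = n * D v := fun v => by
    rw [hD, Finsupp.mapRange_apply, divisorOf_apply]
    exact (Int.mul_ediv_cancel' (hdiv v)).symm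
  have hnD : n • D = divisorOf F := Finsupp.ext fun v => by
    rw [Finsupp.smul_apply, nsmul_eq_mul, divisorOf_apply, hFv]
  have hdeg : Divisor.degree D = 0 := by
    have := congrArg Divisor.degree hnD
    rwa [map_nsmul, degree_divisorOf, nsmul_eq_mul, mul_eq_zero, or_iff_right hn'] at this
  set D0 : Divisor.degZero (K := L) (F := F_L) := ⟨D, hdeg⟩
  have hx : n • Pic0.mk D0 = 0 := by
    rw [show n • Pic0.mk D0 = Pic0.mk (n • D0) from rfl]
    refine (mk_eq_mk_of_sub_mem_principal (E := 0) ?_).trans rfl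
    refine ⟨F⁻¹, inv_ne_zero hF, fun v => ?_⟩
    rw [v.ord_inv, hFv v]
    simp [D0]
  obtain ⟨y, hy⟩ := exists_bcPic0_eq (ι := ι) (x := Pic0.mk D0) (hfin.subset (by
    rintro _ ⟨σ, rfl⟩
    show n • (fixingGalois F₀ ι σ • Pic0.mk D0) = 0
    have h := map_nsmul (DistribSMul.toAddMonoidHom (Pic0 L F_L) (fixingGalois F₀ ι σ)) n
      (Pic0.mk D0)
    rw [hx, map_zero] at h
    exact h.symm))
  obtain ⟨E, rfl⟩ := Pic0.mk_surjective y
  rw [bcPic0_mk] at hy
  obtain ⟨r, hr, hrD⟩ : bcDiv ι (E : Divisor k F_k) - D ∈ Divisor.principal (K := L) (F := F_L) := by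
    have h' := AddSubgroup.mem_addSubgroupOf.mp (QuotientAddGroup.eq.mp hy.symm)
    rwa [AddSubgroup.coe_add, AddSubgroup.coe_neg, neg_add_eq_sub] at h'
  have hEv : ∀ v : Place L F_L, (n : ℤ) * bcDiv ι (E : Divisor k F_k) v = v.ord (r ^ n * F) := by
    intro v
    have := hrD v
    rw [Finsupp.sub_apply] at this
    rw [v.ord_mul (pow_ne_zero n hr) hF, ord_npow, hFv, ← this]
    ring
  obtain ⟨f, hf, hfE⟩ := mem_principal_of_bcDiv_mem (ι := ι) (D := n • (E : Divisor k F_k))
    ⟨r ^ n * F, mul_ne_zero (pow_ne_zero n hr) hF, fun v => by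
      rw [map_nsmul, Finsupp.smul_apply, nsmul_eq_mul, hEv]⟩
  obtain ⟨c, hc, e⟩ := exists_eq_const_mul_of_ord_eq
    (x := bcHom F₀ ι f) (y := r ^ n * F) (by simpa using hf)
    (mul_ne_zero (pow_ne_zero n hr) hF) fun v => by
      rw [← bcDiv_eq_ord hfE v, map_nsmul, Finsupp.smul_apply, nsmul_eq_mul, hEv]
  refine ⟨f, c, r, hf, hc, hr, fun w => ⟨(E : Divisor k F_k) w, ?_⟩, by rw [e, mul_assoc]⟩
  rw [← hfE w, Finsupp.smul_apply, nsmul_eq_mul]

end Fermat.Agent.DeligneSerre.XOne
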