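import Fermat.Agent.DeligneSerre.XOne.KummerRoot
import Fermat.Agent.DeligneSerre.XOne.DiamondC
import Fermat.Agent.DeligneSerre.XOne.MeroPullback
import Fermat.Agent.EichlerShimura.KummerComplex

/-!
# A function whose root has trivial multiplier is a power

The root is then invariant under `Γ₁(M)` and of finite order at the cusps, so it is a function
on `X₁(M)`.
-/

set_option autoImplicit false

noncomputable section

open Filter
open UpperHalfPlane hiding I
open CongruenceSubgroup AlgebraicCurve ModularCurve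
open scoped MatrixGroups

namespace Fermat.Agent.DeligneSerre.XOne

open Fermat.Agent.Modular

theorem algebraMap_hol_ne_zero_of_eventually {b : Hol} (hb : ∀ᶠ τ in atImInfty, b.1 τ ≠ 0) :
    algebraMap Hol Mero b ≠ 0 := by
  obtain ⟨τ, hτ⟩ := hb.exists
  exact algebraMap_hol_ne_zero fun h => hτ (by rw [h]; rfl)

/-- Finite order at the cusps descends to roots. -/
theorem hasFiniteOrderAtCusps_of_pow {M n : ℕ} [NeZero M] (hn : n ≠ 0) {G : Mero} (hG : G ≠ 0)
    (h : HasFiniteOrderAtCusps M (G ^ n)) : HasFiniteOrderAtCusps M G := by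
  intro g
  obtain ⟨a, b, hb, hab, m, hm⟩ := h g
  have hb0 := algebraMap_hol_ne_zero_of_eventually hb
  have hroot : (translate g G * algebraMap Hol Mero b) ^ n =
      algebraMap Hol Mero (a * b ^ (n - 1)) := by
    rw [map_mul, map_pow, mul_pow, ← map_pow (translate g), ← hab, mul_assoc, ← pow_succ',
      Nat.sub_add_cancel (Nat.pos_of_ne_zero hn)]
  obtain ⟨H, hH⟩ := EichlerShimura.exists_hol_of_pow_eq hn
    (mul_ne_zero ((map_ne_zero _).mpr hG) hb0) hroot
  have hHn : H ^ n = a * b ^ (n - 1) :=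
    IsFractionRing.injective Hol Mero (by rw [map_pow, hH, hroot])
  refine ⟨H, b, hb, hH.symm, m, ?_⟩
  have hM : (0 : ℝ) < M := Nat.cast_pos.mpr (NeZero.pos M)
  obtain ⟨C, A, hC⟩ := UpperHalfPlane.isBoundedAtImInfty_iff.mp hm
  obtain ⟨B, hB⟩ := (UpperHalfPlane.atImInfty_mem _).mp
    (hb.and ((UpperHalfPlane.qParam_tendsto_atImInfty hM).eventually
      (Metric.ball_mem_nhds (0 : ℂ) one_pos)))
  refine UpperHalfPlane.isBoundedAtImInfty_iff.mpr ⟨max 1 C, max A B, fun τ hτ => ?_⟩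
  obtain ⟨hbτ, hq⟩ := hB τ (le_trans (le_max_right _ _) hτ)
  have hq1 : ‖Function.Periodic.qParam (M : ℝ) (τ : ℂ)‖ ≤ 1 := by
    have := Metric.mem_ball.mp hq
    rw [dist_zero_right] at this
    exact this.le
  set y := ‖Function.Periodic.qParam (M : ℝ) (τ : ℂ) ^ m * (H.1 τ / b.1 τ)‖ with hy
  have e : H.1 τ ^ n = a.1 τ * b.1 τ ^ (n - 1) := congrFun (congrArg Subtype.val hHn) τ
  have hdiv : (H.1 τ / b.1 τ) ^ n = a.1 τ / b.1 τ := by
    rw [div_pow, e]
    obtain ⟨k, rfl⟩ := Nat.exists_eq_succ_of_ne_zero hn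
    rw [Nat.succ_sub_one, pow_succ]
    field_simp
  have hyn : y ^ n ≤ C := by
    refine le_trans ?_ (hC τ (le_trans (le_max_left _ _) hτ))
    rw [hy, ← norm_pow, mul_pow, hdiv, ← pow_mul, norm_mul, norm_mul, norm_pow, norm_pow]
    exact mul_le_mul_of_nonneg_right (pow_le_pow_of_le_one (norm_nonneg _) hq1
      (Nat.le_mul_of_pos_right m (Nat.pos_of_ne_zero hn))) (norm_nonneg _)
  rcases le_or_gt y 1 with h1 | h1
  · exact le_trans h1 (le_max_left _ _)
  · exact le_trans ((le_self_pow₀ h1.le hn).trans hyn) (le_max_right _ _)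

variable {M : ℕ} [NeZero M] {ℓ : ℕ} [hℓ : NeZero ℓ]

/-- A root with trivial multiplier is a function on `X₁(M)`. -/
theorem exists_eq_pow_of_hasRootChar_zero {f : FL M ℂ} (h : HasRootChar M ℓ f 0) :
    ∃ g : FL M ℂ, g ≠ 0 ∧ f = g ^ ℓ := by
  obtain ⟨hf, G, hG, hmult⟩ := h
  have hG0 : G ≠ 0 := by
    rintro rfl
    rw [zero_pow (NeZero.ne ℓ), eq_comm, map_eq_zero] at hG
    exact hf hG
  obtain ⟨g, hg⟩ := exists_evalMero1_eq M (φ := G)
    (fun γ hγ => by
      have := hmult (⟨γ, hγ⟩⁻¹ : Gamma1 M)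
      simpa using this)
    (hasFiniteOrderAtCusps_of_pow (NeZero.ne ℓ) hG0
      (hG ▸ hasFiniteOrderAtCusps_evalMero1 M f))
  refine ⟨g, fun h0 => hG0 (by rw [← hg, h0, map_zero]), ?_⟩
  exact (evalMero1 M).toRingHom.injective (by
    show evalMero1 M f = evalMero1 M (g ^ ℓ)
    rw [map_pow, hg, hG])

end Fermat.Agent.DeligneSerre.XOne
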