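import Fermat.Agent.DeligneSerre.XOne.Eval
import Fermat.Agent.Periods.Defs
import Mathlib.Analysis.SpecialFunctions.Complex.CircleAddChar

/-!
# Multipliers of `ℓ`-th roots of functions on `X₁(M)`

`HasRootChar M ℓ f φ`: some meromorphic function on `ℍ` has `ℓ`-th power `f(τ)` and is multiplied
by the `ℓ`-th roots of unity given by `φ` under `Γ₁(M)`.
-/

set_option autoImplicit false

noncomputable section

open CongruenceSubgroup
open scoped MatrixGroups

namespace Fermat.Agent.DeligneSerre.XOne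

open Fermat.Agent.Modular

variable {M : ℕ} [NeZero M] {ℓ : ℕ} [hℓ : NeZero ℓ]

omit [NeZero M] in
/-- `G` transforms by the `ℓ`-th roots of unity given by `φ`. -/
def HasRootMultiplier (G : Mero) (φ : Additive (Gamma1 M) →+ ZMod ℓ) : Prop :=
  ∀ γ : Gamma1 M, translate (γ : SL(2, ℤ))⁻¹ G
    = algebraMap ℂ Mero (ZMod.stdAddChar (φ (Additive.ofMul γ))) * G

variable (M ℓ) in
/-- `φ` is the multiplier of an `ℓ`-th root of `f`. -/
def HasRootChar (f : FL M ℂ) (φ : Additive (Gamma1 M) →+ ZMod ℓ) : Prop :=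
  f ≠ 0 ∧ ∃ G : Mero, G ^ ℓ = evalMero1 M f ∧ HasRootMultiplier G φ

omit [NeZero M] in
theorem HasRootMultiplier.mul {G H : Mero} {φ ψ : Additive (Gamma1 M) →+ ZMod ℓ}
    (hG : HasRootMultiplier G φ) (hH : HasRootMultiplier H ψ) :
    HasRootMultiplier (G * H) (φ + ψ) := fun γ => by
  rw [map_mul, hG γ, hH γ, AddMonoidHom.add_apply, AddChar.map_add_eq_mul, map_mul]
  ring

omit [NeZero M] in
theorem HasRootMultiplier.inv {G : Mero} {φ : Additive (Gamma1 M) →+ ZMod ℓ}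
    (hG : HasRootMultiplier G φ) : HasRootMultiplier G⁻¹ (-φ) := fun γ => by
  rw [map_inv₀, hG γ, AddMonoidHom.neg_apply, AddChar.map_neg_eq_inv, map_inv₀, mul_inv]

omit [NeZero M] in
theorem hasRootMultiplier_const (c : ℂ) :
    HasRootMultiplier (algebraMap ℂ Mero c) (0 : Additive (Gamma1 M) →+ ZMod ℓ) := fun γ => by
  rw [translate_const, AddMonoidHom.zero_apply, AddChar.map_zero_eq_one, map_one, one_mul]

theorem hasRootMultiplier_evalMero1 (f : FL M ℂ) :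
    HasRootMultiplier (evalMero1 M f) (0 : Additive (Gamma1 M) →+ ZMod ℓ) := fun γ => by
  rw [translate_evalMero1 M (inv_mem γ.2) f, AddMonoidHom.zero_apply, AddChar.map_zero_eq_one,
    map_one, one_mul]

omit [NeZero M] in
theorem HasRootMultiplier.unique {G : Mero} {φ ψ : Additive (Gamma1 M) →+ ZMod ℓ} (hG0 : G ≠ 0)
    (h : HasRootMultiplier G φ) (h' : HasRootMultiplier G ψ) : φ = ψ := by
  refine AddMonoidHom.ext fun x => ?_
  have := (h x.toMul).symm.trans (h' x.toMul)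
  exact ZMod.injective_stdAddChar
    (FaithfulSMul.algebraMap_injective ℂ Mero (mul_right_cancel₀ hG0 this))

omit [NeZero M] in
/-- Two roots of the same function differ by a constant. -/
theorem exists_eq_const_mul_of_pow_eq {G H : Mero} (hG : G ≠ 0) (h : H ^ ℓ = G ^ ℓ) :
    ∃ c : ℂ, H = algebraMap ℂ Mero c * G := by
  have hζ := Complex.isPrimitiveRoot_exp ℓ (NeZero.ne ℓ)
  obtain ⟨i, -, hi⟩ := (hζ.map_of_injective (FaithfulSMul.algebraMap_injective ℂ Mero)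
    ).eq_pow_of_pow_eq_one (ξ := H / G) (by rw [div_pow, h, div_self (pow_ne_zero _ hG)])
  exact ⟨_ ^ i, by rw [map_pow, hi, div_mul_cancel₀ _ hG]⟩

theorem HasRootChar.unique {f : FL M ℂ} {φ ψ : Additive (Gamma1 M) →+ ZMod ℓ}
    (h : HasRootChar M ℓ f φ) (h' : HasRootChar M ℓ f ψ) : φ = ψ := by
  obtain ⟨hf, G, hG, hφ⟩ := h
  obtain ⟨-, H, hH, hψ⟩ := h'
  have hG0 : G ≠ 0 := by
    rintro rfl
    rw [zero_pow (NeZero.ne ℓ), eq_comm, map_eq_zero] at hG
    exact hf hG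
  obtain ⟨c, rfl⟩ := exists_eq_const_mul_of_pow_eq hG0 (hH.trans hG.symm)
  refine (zero_add φ).symm.trans
    (HasRootMultiplier.unique ?_ ((hasRootMultiplier_const c).mul hφ) hψ)
  intro h0
  rw [h0, zero_pow (NeZero.ne ℓ), eq_comm, map_eq_zero] at hH
  exact hf hH

theorem HasRootChar.mul {f g : FL M ℂ} {φ ψ : Additive (Gamma1 M) →+ ZMod ℓ}
    (hf : HasRootChar M ℓ f φ) (hg : HasRootChar M ℓ g ψ) :
    HasRootChar M ℓ (f * g) (φ + ψ) := by
  obtain ⟨hf0, G, hG, hφ⟩ := hf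
  obtain ⟨hg0, H, hH, hψ⟩ := hg
  exact ⟨mul_ne_zero hf0 hg0, G * H, by rw [mul_pow, hG, hH, map_mul], hφ.mul hψ⟩

theorem HasRootChar.inv {f : FL M ℂ} {φ : Additive (Gamma1 M) →+ ZMod ℓ}
    (hf : HasRootChar M ℓ f φ) : HasRootChar M ℓ f⁻¹ (-φ) := by
  obtain ⟨hf0, G, hG, hφ⟩ := hf
  exact ⟨inv_ne_zero hf0, G⁻¹, by rw [inv_pow, hG, map_inv₀], hφ.inv⟩

/-- Constants times `ℓ`-th powers have multiplier zero. -/
theorem hasRootChar_const_mul_pow {c : ℂ} (hc : c ≠ 0) {g : FL M ℂ} (hg : g ≠ 0) :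
    HasRootChar M ℓ (algebraMap ℂ (FL M ℂ) c * g ^ ℓ) 0 := by
  obtain ⟨d, hd⟩ := IsAlgClosed.exists_pow_nat_eq c (NeZero.pos ℓ)
  refine ⟨mul_ne_zero (by simpa using hc) (pow_ne_zero _ hg),
    algebraMap ℂ Mero d * evalMero1 M g, ?_, ?_⟩
  · rw [mul_pow, map_mul, map_pow, AlgHom.commutes, ← map_pow, hd]
  · simpa using (hasRootMultiplier_const (M := M) (ℓ := ℓ) d).mul (hasRootMultiplier_evalMero1 g)

end Fermat.Agent.DeligneSerre.XOne
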