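import Fermat.Agent.DeligneSerre.XOne.PlaceDivisibility
import Fermat.Agent.DeligneSerre.XOne.KummerRoot
import Fermat.Agent.DeligneSerre.XOne.DiamondC
import Fermat.Agent.DeligneSerre.XOne.KummerKernel
import Fermat.Agent.EichlerShimura.Surjective

/-!
# `ℓ`-th roots over `ℂ` on `X₁(M)`

A function on `X₁(M)` with all orders divisible by `ℓ` has a root with cuspidal multiplier, a root
with cuspidal multiplier forces the divisibility, and every cuspidal multiplier occurs.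
-/

set_option autoImplicit false

noncomputable section

open UpperHalfPlane hiding I
open AlgebraicCurve CongruenceSubgroup Filter Fermat.Agent.Modular Fermat.Agent.Curve
open scoped MatrixGroups IntermediateField

namespace Fermat.Agent.DeligneSerre.XOne

variable (M : ℕ) [NeZero M]

omit [NeZero M] in
/-- `±Γ₁(M)`. -/
def pmGamma1 : Subgroup SL(2, ℤ) where
  carrier := {g | g ∈ Gamma1 M ∨ -g ∈ Gamma1 M}
  one_mem' := Or.inl (one_mem _)
  mul_mem' := by
    rintro a b (ha | ha) (hb | hb)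
    · exact Or.inl (mul_mem ha hb)
    · exact Or.inr (by simpa using mul_mem ha hb)
    · exact Or.inr (by simpa using mul_mem ha hb)
    · exact Or.inl (by simpa using mul_mem ha hb)
  inv_mem' := by
    rintro a (ha | ha)
    · exact Or.inl (inv_mem ha)
    · exact Or.inr (by simpa [inv_neg] using inv_mem ha)

omit [NeZero M] in
theorem Gamma1_le_pmGamma1 : Gamma1 M ≤ pmGamma1 M := fun _ => Or.inl

omit [NeZero M] in
theorem neg_one_mem_pmGamma1 : (-1 : SL(2, ℤ)) ∈ pmGamma1 M :=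
  Or.inr (by rw [neg_neg]; exact one_mem _)

instance : (pmGamma1 M).FiniteIndex :=
  Subgroup.finiteIndex_of_le (Gamma1_le_pmGamma1 M)

theorem translate_evalMero1_of_pm {g : SL(2, ℤ)} (hg : g ∈ pmGamma1 M) (f : FL M ℂ) :
    translate g (evalMero1 M f) = evalMero1 M f := by
  rcases hg with hg | hg
  · exact translate_evalMero1 M hg f
  · rw [show g = (-1 : SL(2, ℤ)) * -g by simp, translate_mul, translate_evalMero1 M hg,
      translate_neg_one_evalMero1]

theorem mem_pmGamma1_of_translate_eq (g h : SL(2, ℤ))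
    (hgh : ∀ f, translate g (evalMero1 M f) = translate h (evalMero1 M f)) :
    g⁻¹ * h ∈ pmGamma1 M := by
  have hfix : ∀ f, translate (g⁻¹ * h) (evalMero1 M f) = evalMero1 M f := fun f => by
    rw [translate_mul, ← hgh f, ← translate_mul, inv_mul_cancel, map_one]; rfl
  have h1 := hgh (jdElt M ℂ (dvd_refl M))
  rw [evalMero1_jdElt, translate_algebraMap, translate_algebraMap] at h1
  have h2 : g • jHol M = h • jHol M := IsFractionRing.injective Hol Mero h1
  have h0 : g⁻¹ * h ∈ Gamma0 M := by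
    rw [← QuotientGroup.eq]
    refine conjAt_jLevel_injective M (funext fun z => ?_)
    simp only [(isModFun_jLevel M dvd_rfl).conjAt_mk]
    exact congrFun (congrArg Subtype.val h2) z
  have h3 := mem_Gamma1_of_pullC_eq_one M (γ := (⟨_, h0⟩ : Gamma0 M)⁻¹) (AlgEquiv.ext fun f =>
    evalMero1_injective M (by
      rw [evalMero1_diamondC, InvMemClass.coe_inv, inv_inv, AlgEquiv.one_apply, hfix]))
  exact inv_mem_iff.mp (show ((g⁻¹ * h)⁻¹ : SL(2, ℤ)) ∈ pmGamma1 M from h3)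

theorem transcendental_jElt_complex : Transcendental ℂ (jElt M ℂ) := fun h => by
  have h' : IsAlgebraic ℂ (evalMero M (jdC M (one_dvd M))) := by
    have := h.algHom (evalMero1 M)
    rwa [evalMero1_jElt, ← evalMero_jdC M (one_dvd M)] at this
  exact transcendental_jdC_one M ((isAlgebraic_algHom_iff _ (evalMero M).toRingHom.injective).mp h')

theorem translate_evalMero1_zero_mult {ℓ : ℕ} [NeZero ℓ] {G : Mero}
    {φ : Additive (Gamma1 M) →+ ZMod ℓ} (hG : HasRootMultiplier G φ) {γ : SL(2, ℤ)}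
    (hγ : γ ∈ pmGamma1 M)
    (hφ : φ ∈ Periods.cuspidalHoms (ZMod ℓ) (Gamma1 M) (ZMod ℓ))
    (htr : (γ : Matrix (Fin 2) (Fin 2) ℤ).trace ^ 2 ≤ 4) : translate γ G = G := by
  have key : ∀ g ∈ Gamma1 M, (g : Matrix (Fin 2) (Fin 2) ℤ).trace ^ 2 ≤ 4 → translate g G = G := by
    intro g hg hgt
    have h := hG (⟨g, hg⟩⁻¹ : Gamma1 M)
    rwa [InvMemClass.coe_inv, inv_inv, show Additive.ofMul (⟨g, hg⟩⁻¹ : Gamma1 M) =
      -Additive.ofMul ⟨g, hg⟩ from rfl, map_neg, hφ ⟨g, hg⟩ hgt, neg_zero,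
      AddChar.map_zero_eq_one, map_one, one_mul] at h
  rcases hγ with hg | hg
  · exact key γ hg htr
  · rw [show γ = (-1 : SL(2, ℤ)) * -γ by simp, translate_mul, key _ hg (by
      rwa [Matrix.SpecialLinearGroup.coe_neg, Matrix.trace_neg, neg_sq]), mero_translate_neg_one]

variable {M} {ℓ : ℕ} [NeZero ℓ]

/-- (i) A function with all orders divisible by `ℓ` has a root with cuspidal multiplier. -/
theorem exists_hasRootChar {f : FL M ℂ} (hf : f ≠ 0)
    (hdvd : ∀ P : Place ℂ (FL M ℂ), (ℓ : ℤ) ∣ P.ord f) :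
    ∃ φ ∈ Periods.cuspidalHoms (ZMod ℓ) (Gamma1 M) (ZMod ℓ), HasRootChar M ℓ f φ := by
  have hℓ : ℓ ≠ 0 := NeZero.ne ℓ
  have hconst : ∀ a : ℂ, (evalMero1 M).toRingHom (algebraMap ℂ (FL M ℂ) a) =
      algebraMap ℂ Mero (RingHom.id ℂ a) := fun a => (evalMero1 M).commutes a
  have hinv : ∀ γ ∈ Gamma1 M, ∀ x, translate γ ((evalMero1 M).toRingHom x) =
      (evalMero1 M).toRingHom x := fun γ hγ x => translate_evalMero1 M hγ x
  obtain ⟨G, hG⟩ := exists_mero_root (RingHom.id ℂ) _ hconst hℓ hf hdvd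
  have hG0 : G ≠ 0 := fun h => (map_ne_zero (evalMero1 M).toRingHom).mpr hf
    (by rw [← hG, h, zero_pow hℓ])
  have key : ∀ γ : Gamma1 M, ∃ t : ZMod ℓ,
      translate (γ : SL(2, ℤ))⁻¹ G = algebraMap ℂ Mero (ZMod.stdAddChar t) * G := by
    intro γ
    have hp : translate (γ : SL(2, ℤ))⁻¹ G ^ ℓ = G ^ ℓ := by
      rw [← map_pow, hG, hinv _ (inv_mem γ.2)]
    obtain ⟨d, hd⟩ := EichlerShimura.eq_algebraMap_mul_of_pow hℓ hG0
      (P := translate (γ : SL(2, ℤ))⁻¹ G) (c := 1) (by rw [hp, map_one, one_mul])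
    have hdn : d ^ ℓ = 1 := by
      rw [hd, mul_pow, mul_eq_right₀ (pow_ne_zero _ hG0), ← map_pow,
        map_eq_one_iff _ (algebraMap ℂ Mero).injective] at hp
      exact hp
    obtain ⟨i, -, hi⟩ := (Complex.isPrimitiveRoot_exp ℓ hℓ).eq_pow_of_pow_eq_one hdn
    refine ⟨((i : ℤ) : ZMod ℓ), ?_⟩
    rw [hd, ← hi, ← Complex.exp_nat_mul, ZMod.stdAddChar_coe]
    congr 3
    push_cast
    ring
  choose φ hφ using key
  have hadd : ∀ γ δ : Gamma1 M, φ (γ * δ) = φ γ + φ δ := fun γ δ => by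
    refine ZMod.injective_stdAddChar ((algebraMap ℂ Mero).injective (mul_right_cancel₀ hG0 ?_))
    rw [← hφ, Subgroup.coe_mul, mul_inv_rev, translate_mul, hφ γ, map_mul, translate_const, hφ δ,
      AddChar.map_add_eq_mul, map_mul, mul_assoc]
  let Φ : Additive (Gamma1 M) →+ ZMod ℓ :=
    AddMonoidHom.mk' (fun γ => φ (Additive.toMul γ)) fun γ δ => hadd _ _
  refine ⟨Φ, fun γ htr => ?_, hf, G, hG, fun γ => hφ γ⟩
  show φ γ = 0
  refine ZMod.injective_stdAddChar ?_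
  rw [AddChar.map_zero_eq_one]
  rcases eq_or_lt_of_le htr with h4 | h4
  · refine root_fixed_of_parabolic (RingHom.id ℂ) _ hconst hinv M
      (fun g x => translate_evalMero1_mem M g x) hℓ hf hdvd hG γ.2 (hφ γ) ?_ h4
    rw [← AddChar.map_nsmul_eq_pow, nsmul_eq_mul, ZMod.natCast_self, zero_mul,
      AddChar.map_zero_eq_one]
  · obtain ⟨z, hz⟩ := EichlerShimura.exists_fixed_of_trace_sq_lt h4
    exact root_fixed_of_elliptic (RingHom.id ℂ) _ hconst hinv hℓ hf hdvd hG γ.2 hz (hφ γ)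

variable [IsFunctionField1 ℂ (FL M ℂ)]
  (hdeg : Module.finrank ℂ⟮jElt M ℂ⟯ (FL M ℂ) = (pmGamma1 M).index)

include hdeg

/-- Divisibility at every place from an admissible holomorphic root. -/
theorem dvd_ord_of_hol_root {G : Hol} (hG0 : G ≠ 0)
    (hG : ∀ γ ∈ pmGamma1 M, (γ : Matrix (Fin 2) (Fin 2) ℤ).trace ^ 2 ≤ 4 → γ • G = G)
    (hGexp : ∀ g : SL(2, ℤ), g • G ∈ HolExp M) {f : FL M ℂ} (hf : f ≠ 0)
    (hfG : evalMero1 M f = algebraMap Hol Mero G ^ ℓ) (P : Place ℂ (FL M ℂ)) :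
    (ℓ : ℤ) ∣ P.ord f := by
  exact dvd_ord_of_root_generic (Γ := pmGamma1 M) (neg_one_mem_pmGamma1 M) (RingHom.id ℂ)
    (evalMero1 M).toRingHom (fun a => (evalMero1 M).commutes a)
    (fun γ hγ x => translate_evalMero1_of_pm M hγ x) (mem_pmGamma1_of_translate_eq M)
    (evalMero1_jElt M) (transcendental_jElt_complex M) hdeg M
    (fun g x => translate_evalMero1_mem M g x) hG0 hG hGexp hf hfG P

omit [IsFunctionField1 ℂ (FL M ℂ)] hdeg in
theorem smul_mem_holExp_of_admissible {G : Hol}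
    (hG : ∀ γ ∈ pmGamma1 M, (γ : Matrix (Fin 2) (Fin 2) ℤ).trace ^ 2 ≤ 4 → γ • G = G)
    (hgrow : ∀ α : SL(2, ℤ),
      IsBoundedAtImInfty fun z : ℍ => G.1 (α • z) * ModularForm.discriminant z ^ 13)
    (g : SL(2, ℤ)) : g • G ∈ HolExp M := by
  have hinv : ∀ w : ℍ,
      G.1 ((g⁻¹ * ModularGroup.T ^ (M : ℤ) * g⁻¹⁻¹) • w) = G.1 w := by
    intro w
    have hmem : g⁻¹ * ModularGroup.T ^ (M : ℤ) * g⁻¹⁻¹ ∈ Gamma1 M := by
      have hT : (ModularGroup.T ^ (M : ℤ)) ∈ CongruenceSubgroup.Gamma M :=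
        ModularGroup_T_pow_mem_Gamma M M dvd_rfl
      have hn := Gamma_mem.mp ((CongruenceSubgroup.Gamma_normal M).conj_mem _ hT g⁻¹)
      exact (Gamma1_mem M _).mpr ⟨hn.1, hn.2.2.2, hn.2.2.1⟩
    have htr : ((g⁻¹ * ModularGroup.T ^ (M : ℤ) * g⁻¹⁻¹ : SL(2, ℤ)) :
        Matrix (Fin 2) (Fin 2) ℤ).trace ^ 2 ≤ 4 := by
      rw [inv_inv, EichlerShimura.trace_conj_SL, EichlerShimura.trace_T_zpow]; norm_num
    have h := congrArg (fun F : Hol => F.1 ((g⁻¹ * ModularGroup.T ^ (M : ℤ) * g⁻¹⁻¹) • w))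
      (hG _ (Or.inl hmem) htr)
    simp only [smul_hol_apply, inv_smul_smul] at h
    exact h.symm
  obtain ⟨x, hx⟩ := EichlerShimura.Poincare.exists_hasQExp_translate g⁻¹ (NeZero.pos M)
    (hgrow g⁻¹) hinv
  rw [inv_inv] at hx
  exact ⟨x, hx⟩

/-- (iii) Riemann existence: every cuspidal multiplier occurs. -/
theorem exists_hasRootChar_of_cuspidal {φ : Additive (Gamma1 M) →+ ZMod ℓ}
    (hφ : φ ∈ Periods.cuspidalHoms (ZMod ℓ) (Gamma1 M) (ZMod ℓ)) :
    ∃ f : FL M ℂ, (∀ P : Place ℂ (FL M ℂ), (ℓ : ℤ) ∣ P.ord f) ∧ HasRootChar M ℓ f φ := by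
  let χ : Gamma1 M →* ℂˣ :=
    { toFun := fun γ => Units.mk0 (ZMod.stdAddChar (-φ (Additive.ofMul γ)))
        (AddChar.val_isUnit _ _).ne_zero
      map_one' := Units.ext (by simp)
      map_mul' := fun a b => Units.ext (by
        simp only [ofMul_mul, map_add, neg_add_rev, AddChar.map_add_eq_mul, Units.val_mk0,
          Units.val_mul]
        exact mul_comm _ _) }
  have hχ : ∀ γ, (χ γ : ℂ) = ZMod.stdAddChar (-φ (Additive.ofMul γ)) := fun _ => rfl
  have hpow : ∀ γ, χ γ ^ ℓ = 1 := fun γ => Units.ext (by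
    rw [Units.val_pow_eq_pow_val, hχ, ← AddChar.map_nsmul_eq_pow, nsmul_eq_mul,
      ZMod.natCast_self, zero_mul, AddChar.map_zero_eq_one, Units.val_one])
  obtain ⟨G, hG0, hG, hgrow⟩ := EichlerShimura.Poincare.exists_hol_of_character (Gamma1 M) χ
    (NeZero.ne ℓ) hpow (fun γ hγ => Units.ext (by
      rw [hχ, hφ γ (by rw [hγ]; simp), neg_zero,
        AddChar.map_zero_eq_one, Units.val_one]))
  have hmult : HasRootMultiplier (algebraMap Hol Mero G) φ := fun γ => by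
    have h := hG γ⁻¹
    rw [InvMemClass.coe_inv, hχ,
      show φ (Additive.ofMul γ⁻¹) = -φ (Additive.ofMul γ) from map_neg φ _, neg_neg] at h
    rw [translate_algebraMap, h, map_mul, ← IsScalarTower.algebraMap_apply]
  have hadm : ∀ γ ∈ pmGamma1 M, (γ : Matrix (Fin 2) (Fin 2) ℤ).trace ^ 2 ≤ 4 → γ • G = G :=
    fun γ hγ htr => IsFractionRing.injective Hol Mero (by
      rw [← translate_algebraMap]; exact translate_evalMero1_zero_mult M hmult hγ hφ htr)
  have hexpG := smul_mem_holExp_of_admissible hadm hgrow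
  have hinvn : ∀ g ∈ Gamma1 M, translate g (algebraMap Hol Mero (G ^ ℓ)) =
      algebraMap Hol Mero (G ^ ℓ) := fun g hg => by
    rw [translate_algebraMap]
    exact congrArg _ (EichlerShimura.Poincare.smul_pow_eq_of_multiplier hG hpow ⟨g, hg⟩)
  have hcusp : HasFiniteOrderAtCusps M (algebraMap Hol Mero (G ^ ℓ)) := fun g =>
    exists_bounded_of_mem_fieldRange M (by
      rw [translate_algebraMap]
      exact ⟨algebraMap (HolExp M) _ ⟨g • G ^ ℓ, by
        rw [smul_pow']; exact (HolExp M).pow_mem (hexpG g) ℓ⟩, expIntoMero_algebraMap M _⟩)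
  obtain ⟨f, hf⟩ := exists_evalMero1_eq M hinvn hcusp
  rw [map_pow] at hf
  have hf0 : f ≠ 0 := fun h => pow_ne_zero ℓ (algebraMap_mero_ne_zero hG0) (by rw [← hf, h, map_zero])
  exact ⟨f, dvd_ord_of_hol_root hdeg hG0 hadm hexpG hf0 hf, hf0, _, hf.symm, hmult⟩

/-- (ii) A root with cuspidal multiplier forces all orders to be divisible by `ℓ`. -/
theorem dvd_ord_of_hasRootChar {f : FL M ℂ} {φ : Additive (Gamma1 M) →+ ZMod ℓ}
    (hφ : φ ∈ Periods.cuspidalHoms (ZMod ℓ) (Gamma1 M) (ZMod ℓ)) (h : HasRootChar M ℓ f φ)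
    (P : Place ℂ (FL M ℂ)) : (ℓ : ℤ) ∣ P.ord f := by
  obtain ⟨g, hg, hgφ⟩ := exists_hasRootChar_of_cuspidal hdeg hφ
  obtain ⟨k, hk0, hk⟩ := exists_eq_pow_of_hasRootChar_zero (f := f * g⁻¹)
    (by simpa using h.mul hgφ.inv)
  have e : f = k ^ ℓ * g := by rw [← hk, inv_mul_cancel_right₀ hgφ.1]
  rw [e, P.ord_mul (pow_ne_zero _ hk0) hgφ.1, Curve.ord_pow]
  exact dvd_add (dvd_mul_right _ _) (hg P)

end Fermat.Agent.DeligneSerre.XOne

end
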