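import Fermat.Agent.DeligneSerre.XOne.KummerTransfer
import Fermat.Agent.DeligneSerre.XOne.RootComplex
import Fermat.Agent.DeligneSerre.XOne.Degree

/-!
# `ℓ`-th roots of functions on `X₁(M)` over `ℚ̄`

The function on `ℍ` of `f` is `evalMero1 M (toC M f)`.
-/

set_option autoImplicit false

noncomputable section

open CongruenceSubgroup AlgebraicCurve ModularCurve
open Fermat.Agent.Modular Fermat.Agent.Curve
open scoped MatrixGroups IntermediateField

namespace Fermat.Agent.DeligneSerre.XOne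

local notation "ℚ̄" => AlgebraicClosure ℚ

variable {M : ℕ} [NeZero M] {ℓ : ℕ} [hℓ : NeZero ℓ]

/-- All orders divisible by `ℓ` give a root with cuspidal multiplier. -/
theorem exists_root_qbar {f : FL M ℚ̄} (hf : f ≠ 0)
    (hdiv : ∀ P : Place ℚ̄ (FL M ℚ̄), (ℓ : ℤ) ∣ P.ord f) :
    ∃ φ ∈ Periods.cuspidalHoms (ZMod ℓ) (Gamma1 M) (ZMod ℓ), ∃ r : Mero,
      r ^ ℓ = evalMero1 M (toC M f) ∧ HasRootMultiplier r φ := by
  have := isFunctionField1_FL M ℚ̄
  have := isFunctionField1_FL M ℂ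
  obtain ⟨φ, hφ, -, r, hr, hm⟩ :=
    exists_hasRootChar_toC (ℓ := ℓ) (p := fun φ => φ ∈ Periods.cuspidalHoms (ZMod ℓ) (Gamma1 M) (ZMod ℓ))
      (fun F hF hd => exists_hasRootChar hF hd) hf hdiv
  exact ⟨φ, hφ, r, hr, hm⟩

/-- A root with trivial multiplier makes the function trivial. -/
theorem exists_eq_const_mul_pow_qbar {f : FL M ℚ̄} (hf : f ≠ 0) {r : Mero}
    (hr : r ^ ℓ = evalMero1 M (toC M f))
    (hm : HasRootMultiplier r (0 : Additive (Gamma1 M) →+ ZMod ℓ)) :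
    ∃ (c : ℚ̄) (g : FL M ℚ̄), c ≠ 0 ∧ g ≠ 0 ∧ f = algebraMap ℚ̄ (FL M ℚ̄) c * g ^ ℓ :=
  have := isFunctionField1_FL M ℚ̄
  have := isFunctionField1_FL M ℂ
  exists_eq_const_mul_pow_of_hasRootChar_toC ⟨by simpa using hf, r, hr, hm⟩

variable (M) in
/-- The degree over `ℂ(j)` is the index of `±Γ₁(M)`. -/
theorem finrank_FL_eq_index_pmGamma1 :
    Module.finrank ℂ⟮jElt M ℂ⟯ (FL M ℂ) = (pmGamma1 M).index := by
  have hle : pmGamma1 M ≤ Gamma0 M := by
    rintro g (hg | hg)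
    · exact Gamma1_in_Gamma0 M hg
    · have h := Gamma1_in_Gamma0 M hg
      rw [Gamma0_mem] at h ⊢
      simpa using h
  rw [(finrank_FL M ℂ).2.1, ← Subgroup.relIndex_mul_index hle, mul_comm]
  congr 1
  have hker : ((diamondQ M).comp (lowerUnit M)).ker = (pmGamma1 M).subgroupOf (Gamma0 M) := by
    ext γ
    rw [MonoidHom.mem_ker, MonoidHom.comp_apply, ← MonoidHom.mem_ker, mem_ker_diamondQ,
      Subgroup.mem_subgroupOf]
    constructor
    · rintro (h | h)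
      · exact Or.inl (mem_Gamma1_of_lowerUnit_eq_one M h)
      · refine Or.inr ?_
        have hm : (-1 : SL(2, ℤ)) ∈ Gamma0 M := by simp [Gamma0_mem]
        have := mem_Gamma1_of_lowerUnit_eq_one M (γ := ⟨-1, hm⟩ * γ) (by
          rw [map_mul, h, show lowerUnit M ⟨-1, hm⟩ = -1 from Units.ext (by simp [coe_lowerUnit]),
            neg_mul_neg, one_mul])
        rwa [Subgroup.coe_mul, neg_one_mul] at this
    · rintro (h | h)
      · refine Or.inl (Units.ext ?_)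
        rw [coe_lowerUnit, Units.val_one]
        exact ((Gamma1_mem M _).1 h).2.1
      · refine Or.inr (Units.ext ?_)
        have h' := ((Gamma1_mem M _).1 h).2.1
        rw [coe_lowerUnit, Units.val_neg, Units.val_one, ← h']
        simp
  rw [Subgroup.relIndex, ← hker, Subgroup.index_ker, MonoidHom.range_comp,
    MonoidHom.range_eq_top.mpr (lowerUnit_surjective M), ← MonoidHom.range_eq_map]

/-- A root with cuspidal multiplier forces divisibility. -/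
theorem dvd_ord_qbar {f : FL M ℚ̄} (hf : f ≠ 0) {φ : Additive (Gamma1 M) →+ ZMod ℓ}
    (hφ : φ ∈ Periods.cuspidalHoms (ZMod ℓ) (Gamma1 M) (ZMod ℓ)) {r : Mero}
    (hr : r ^ ℓ = evalMero1 M (toC M f)) (hm : HasRootMultiplier r φ)
    (P : Place ℚ̄ (FL M ℚ̄)) : (ℓ : ℤ) ∣ P.ord f :=
  have := isFunctionField1_FL M ℚ̄
  have := isFunctionField1_FL M ℂ
  dvd_ord_of_dvd_ord_toC (fun Q => dvd_ord_of_hasRootChar (finrank_FL_eq_index_pmGamma1 M) hφ
    ⟨by simpa using hf, r, hr, hm⟩ Q) P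

/-- Every cuspidal multiplier occurs over `ℚ̄`. -/
theorem exists_root_of_cuspidal_qbar {φ : Additive (Gamma1 M) →+ ZMod ℓ}
    (hφ : φ ∈ Periods.cuspidalHoms (ZMod ℓ) (Gamma1 M) (ZMod ℓ)) :
    ∃ f : FL M ℚ̄, f ≠ 0 ∧ (∀ P : Place ℚ̄ (FL M ℚ̄), (ℓ : ℤ) ∣ P.ord f) ∧
      ∃ r : Mero, r ^ ℓ = evalMero1 M (toC M f) ∧ HasRootMultiplier r φ := by
  have := isFunctionField1_FL M ℚ̄
  have := isFunctionField1_FL M ℂ
  obtain ⟨F, hdiv, hF⟩ := exists_hasRootChar_of_cuspidal (finrank_FL_eq_index_pmGamma1 M) hφ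
  obtain ⟨f, hf, hfdiv, -, h⟩ := exists_hasRootChar_toC_eq
    (fun G hG hd => let ⟨ψ, _, h⟩ := exists_hasRootChar hG hd; ⟨ψ, h⟩) hF hdiv
  exact ⟨f, hf, hfdiv, h⟩

end Fermat.Agent.DeligneSerre.XOne
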