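import Fermat.Agent.DeligneSerre.XOne.KummerUnits
import Fermat.Agent.DeligneSerre.XOne.KummerQbar
import Fermat.Agent.DeligneSerre.XOne.MeroPullback
import Fermat.Agent.EichlerShimura.PlaceDescent
import Fermat.Agent.EichlerShimura.KummerChar
import Fermat.Agent.Curve.Places
import Fermat.Prelude.Def_GaloisRep_ComplexConjugation
import Mathlib.Analysis.SpecialFunctions.Complex.CircleAddChar

/-!
# `ℓ`-th roots on `ℍ` of functions on `X₁(M)` and their multipliers

`IsKummerRoot f φ r`: `r ^ ℓ` is the function of `f` on `ℍ` and `r` has multiplier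
`exp (2πi φ / ℓ)`.  The roots are compatible with `T_p` and with the diamond operators.
-/

set_option autoImplicit false

noncomputable section

open AlgebraicCurve ModularCurve IntermediateField CongruenceSubgroup
open scoped MatrixGroups

namespace Fermat.Agent.DeligneSerre.XOne

open Fermat.Agent.Modular

local notation "ℚ̄" => AlgebraicClosure ℚ

variable (M : ℕ) [NeZero M]

/-- The function on `ℍ` of a function on `X₁(M)` over `ℚ̄`. -/
def evQ : FQ M →+* Mero :=
  (evalMero1 M).toRingHom.comp (EichlerShimura.bcHom (field M) complexEmbedding)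

variable {M}

theorem evQ_apply (f : FQ M) :
    evQ M f = evalMero1 M (EichlerShimura.bcHom (field M) complexEmbedding f) := rfl

theorem evQ_algebraMap (c : ℚ̄) :
    evQ M (algebraMap ℚ̄ (FQ M) c) = algebraMap ℂ Mero (complexEmbedding c) := by
  rw [evQ_apply, EichlerShimura.bcHom_algebraMap, AlgHom.commutes]

theorem translate_evQ {g : SL(2, ℤ)} (hg : g ∈ Gamma1 M) (f : FQ M) :
    translate g (evQ M f) = evQ M f :=
  translate_evalMero1 M hg _

theorem evQ_diamond (δ : Gamma0 M) (d : (ZMod M)ˣ)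
    (hd : (d : ZMod M) = (((δ : SL(2, ℤ)) 1 1 : ℤ) : ZMod M)) (f : FQ M) :
    evQ M (diamond M ℚ̄ d f) = translate (δ : SL(2, ℤ))⁻¹ (evQ M f) := by
  rw [evQ_apply, evQ_apply, ← evalMero1_diamond M δ d hd]
  exact congrArg _ (Subtype.ext (coeffMap_diamond M ℚ̄ complexEmbedding d f))

theorem evQ_heckeFun {p : ℕ} [Fact p.Prime] (hp : p.Coprime M) (f : FQ M) :
    evQ M (heckeFun ℚ̄ hp f) = heckeMero M p (evQ M f) := by
  rw [evQ_apply, evQ_apply, ← evalMero1_heckeFun hp]
  exact congrArg _ (Subtype.ext (coeffMap_heckeSeries complexEmbedding hp f))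

variable {ℓ : ℕ} [NeZero ℓ]

/-- `a ↦ exp (2πi a / ℓ)`. -/
abbrev kchar (ℓ : ℕ) [NeZero ℓ] : AddChar (ZMod ℓ) ℂ := ZMod.stdAddChar

/-- `r` is an `ℓ`-th root of the function of `f`, with multiplier given by `φ`. -/
structure IsKummerRoot (f : (FQ M)ˣ) (φ : Additive (Gamma1 M) →+ ZMod ℓ) (r : Mero) : Prop where
  root : r ^ ℓ = evQ M f
  mult : ∀ γ : Gamma1 M, translate (γ : SL(2, ℤ))⁻¹ r
    = algebraMap ℂ Mero (kchar ℓ (φ (Additive.ofMul γ))) * r

namespace IsKummerRoot

variable {f g : (FQ M)ˣ} {φ ψ : Additive (Gamma1 M) →+ ZMod ℓ} {r s : Mero}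

theorem ne_zero (h : IsKummerRoot f φ r) : r ≠ 0 := by
  intro h0
  have := h.root
  rw [h0, zero_pow (NeZero.ne ℓ), eq_comm, map_eq_zero] at this
  exact f.ne_zero this

theorem mul (h : IsKummerRoot f φ r) (k : IsKummerRoot g ψ s) :
    IsKummerRoot (f * g) (φ + ψ) (r * s) where
  root := by rw [mul_pow, h.root, k.root, Units.val_mul, map_mul]
  mult γ := by
    rw [map_mul, h.mult, k.mult, AddMonoidHom.add_apply, AddChar.map_add_eq_mul, map_mul]
    ring

theorem one : IsKummerRoot (M := M) (ℓ := ℓ) 1 0 1 where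
  root := by rw [one_pow, Units.val_one, map_one]
  mult γ := by simp

theorem eq (h : IsKummerRoot f φ r) (k : IsKummerRoot f ψ s) : φ = ψ := by
  obtain ⟨c, hc⟩ := EichlerShimura.eq_algebraMap_mul_of_pow (NeZero.ne ℓ) k.ne_zero (P := r) (c := 1)
    (by rw [h.root, k.root, map_one, one_mul])
  refine AddMonoidHom.ext fun y => ?_
  obtain ⟨γ, rfl⟩ := Additive.ofMul.surjective y
  have h1 := h.mult γ
  rw [hc, map_mul, translate_const, k.mult, ← mul_assoc, mul_comm (algebraMap ℂ Mero c),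
    mul_assoc] at h1
  exact ZMod.injective_stdAddChar ((algebraMap ℂ Mero).injective
    (mul_right_cancel₀ (hc ▸ h.ne_zero) h1)).symm

theorem heckeUnits {p : ℕ} [Fact p.Prime] (hp : p.Coprime M) (h : IsKummerRoot f φ r) :
    IsKummerRoot (XOne.heckeUnits hp f) (heckeHom1 hp (ZMod ℓ) (ZMod ℓ) φ) (heckeMero M p r) where
  root := by
    rw [← heckeMero_pow, h.root]
    exact (evQ_heckeFun hp _).symm
  mult := translate_heckeMero hp (kchar ℓ) h.mult

theorem diamondUnits (δ : Gamma0 M) (d : (ZMod M)ˣ)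
    (hd : (d : ZMod M) = (((δ : SL(2, ℤ)) 1 1 : ℤ) : ZMod M)) (h : IsKummerRoot f φ r) :
    IsKummerRoot (XOne.diamondUnits d f) (diamondHom (ZMod ℓ) (ZMod ℓ) δ φ)
      (translate (δ : SL(2, ℤ))⁻¹ r) where
  root := by
    rw [← map_pow, h.root]
    exact (evQ_diamond δ d hd _).symm
  mult := translate_translate_diamond (kchar ℓ) h.mult δ

end IsKummerRoot

/-- A constant times an `ℓ`-th power has a root with trivial multiplier. -/
theorem exists_isKummerRoot_zero {f : (FQ M)ˣ} (hf : f ∈ trivialUnits M ℓ) :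
    ∃ r : Mero, IsKummerRoot f (0 : Additive (Gamma1 M) →+ ZMod ℓ) r := by
  obtain ⟨x, ⟨a, rfl⟩, y, ⟨g, rfl⟩, rfl⟩ := Subgroup.mem_sup.mp hf
  obtain ⟨c, hc⟩ := IsAlgClosed.exists_pow_nat_eq (complexEmbedding (a : ℚ̄)) (Nat.pos_of_ne_zero (NeZero.ne ℓ))
  refine ⟨algebraMap ℂ Mero c * evQ M g, ?_, fun γ => ?_⟩
  · rw [mul_pow, ← map_pow, hc, ← evQ_algebraMap (M := M), ← map_pow, Units.val_mul, map_mul]
    rfl
  · rw [map_mul, translate_const, translate_evQ (inv_mem γ.2), AddMonoidHom.zero_apply,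
      AddChar.map_zero_eq_one, map_one, one_mul]

/-- A function with all orders divisible by `ℓ` has a root, and its multiplier is cuspidal. -/
theorem exists_isKummerRoot {f : (FQ M)ˣ} (hf : f ∈ divisibleUnits M ℓ) :
    ∃ φ ∈ Periods.cuspidalHoms (ZMod ℓ) (Gamma1 M) (ZMod ℓ), ∃ r : Mero, IsKummerRoot f φ r := by
  obtain ⟨φ, hφ, r, hr, hm⟩ := exists_root_qbar f.ne_zero hf
  exact ⟨φ, hφ, r, hr, hm⟩

/-- A function with a root of cuspidal multiplier has all orders divisible by `ℓ`. -/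
theorem mem_divisibleUnits_of_isKummerRoot {f : (FQ M)ˣ} {φ : Additive (Gamma1 M) →+ ZMod ℓ}
    {r : Mero} (h : IsKummerRoot f φ r)
    (hφ : φ ∈ Periods.cuspidalHoms (ZMod ℓ) (Gamma1 M) (ZMod ℓ)) : f ∈ divisibleUnits M ℓ :=
  fun P => dvd_ord_qbar f.ne_zero hφ h.root h.mult P

/-- Riemann existence and descent: every cuspidal multiplier occurs. -/
theorem exists_isKummerRoot_of_mem_cuspidalHoms {φ : Additive (Gamma1 M) →+ ZMod ℓ}
    (hφ : φ ∈ Periods.cuspidalHoms (ZMod ℓ) (Gamma1 M) (ZMod ℓ)) :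
    ∃ f ∈ divisibleUnits M ℓ, ∃ r : Mero, IsKummerRoot f φ r := by
  obtain ⟨f, hf, hdiv, r, hr, hm⟩ := exists_root_of_cuspidal_qbar hφ
  exact ⟨Units.mk0 f hf, hdiv, r, hr, hm⟩

/-- GAGA and descent: a root with trivial multiplier makes `f` trivial. -/
theorem mem_trivialUnits_of_isKummerRoot_zero {f : (FQ M)ˣ}
    {r : Mero} (h : IsKummerRoot f (0 : Additive (Gamma1 M) →+ ZMod ℓ) r) :
    f ∈ trivialUnits M ℓ := by
  obtain ⟨c, g, hc, hg, e⟩ := exists_eq_const_mul_pow_qbar f.ne_zero h.root h.mult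
  exact Subgroup.mem_sup.mpr
    ⟨_, ⟨Units.mk0 c hc, rfl⟩, _, ⟨Units.mk0 g hg, rfl⟩, Units.ext e.symm⟩

end Fermat.Agent.DeligneSerre.XOne
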