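import Fermat.Agent.DeligneSerre.XOne.KummerDescent
import Fermat.Agent.DeligneSerre.XOne.KummerKernel
import Fermat.Agent.Periods.Group
import Fermat.Prelude.Def_GaloisRep_ComplexConjugation
import Mathlib.GroupTheory.Schreier

/-!
# Root characters of functions on `X₁(M)` over `ℚ̄`

The complex statements transported along `complexEmbedding`.
-/

set_option autoImplicit false

noncomputable section

open CongruenceSubgroup AlgebraicCurve ModularCurve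
open Fermat.Agent.Curve
open scoped MatrixGroups

namespace Fermat.Agent.DeligneSerre.XOne

local notation "ℚ̄" => AlgebraicClosure ℚ

variable (M : ℕ) [NeZero M]

theorem finite_homs (ℓ : ℕ) [NeZero ℓ] : Finite (Additive (Gamma1 M) →+ ZMod ℓ) := by
  have : Group.FG SL(2, ℤ) :=
    Group.fg_iff.2 ⟨{ModularGroup.S, ModularGroup.T}, SpecialLinearGroup.SL2Z_generators,
      Set.toFinite _⟩
  have : Group.FG (Gamma1 M) := Subgroup.fg_of_index_ne_zero _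
  have : AddGroup.FG (Additive (Gamma1 M)) := GroupFG.iff_add_fg.mp inferInstance
  obtain ⟨S, hS⟩ := AddGroup.fg_def.mp this
  exact Finite.of_injective (fun φ => fun s : S => φ s) fun φ ψ h =>
    AddMonoidHom.eq_of_eqOn_dense hS fun s hs => congrFun h ⟨s, hs⟩

/-- Base change of functions from `ℚ̄` to `ℂ`. -/
abbrev toC : FL M ℚ̄ →+* FL M ℂ := EichlerShimura.bcHom (field M) complexEmbedding

variable {M} {ℓ : ℕ} [hℓ : NeZero ℓ]

theorem exists_finite_torsion [IsFunctionField1 ℂ (FL M ℂ)]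
    (hroot : ∀ F : FL M ℂ, F ≠ 0 → (∀ P : Place ℂ (FL M ℂ), (ℓ : ℤ) ∣ P.ord F) →
      ∃ φ, HasRootChar M ℓ F φ) :
    {x : Pic0 ℂ (FL M ℂ) | ℓ • x = 0}.Finite := by
  classical
  have key : ∀ x : {x : Pic0 ℂ (FL M ℂ) | ℓ • x = 0},
      ∃ (φ : Additive (Gamma1 M) →+ ZMod ℓ) (D : Divisor.degZero (K := ℂ) (F := FL M ℂ))
        (F : FL M ℂ), Pic0.mk D = x ∧ HasRootChar M ℓ F φ ∧
          ∀ v, (ℓ : ℤ) * (D : Divisor ℂ (FL M ℂ)) v = v.ord F := by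
    rintro ⟨x, hx⟩
    obtain ⟨D, rfl⟩ := Pic0.mk_surjective x
    have h : Pic0.mk (ℓ • D) = 0 := hx
    rw [Pic0.mk, QuotientAddGroup.eq_zero_iff, AddSubgroup.mem_addSubgroupOf] at h
    obtain ⟨F, hF, hdiv⟩ := h
    have hv : ∀ v, (ℓ : ℤ) * (D : Divisor ℂ (FL M ℂ)) v = v.ord F := fun v => by
      rw [← hdiv v, AddSubgroup.coe_nsmul, Finsupp.smul_apply, nsmul_eq_mul]
    obtain ⟨φ, hφ⟩ := hroot F hF fun v => ⟨_, (hv v).symm⟩
    exact ⟨φ, D, F, rfl, hφ, hv⟩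
  choose Φ D F hmk hΦ hv using key
  have := finite_homs M ℓ
  refine Set.finite_coe_iff.mp (Finite.of_injective Φ fun a b hab => Subtype.ext ?_)
  obtain ⟨g, hg, hgF⟩ := exists_eq_pow_of_hasRootChar_zero (ℓ := ℓ)
    (f := F a * (F b)⁻¹) (by simpa [hab] using (hΦ a).mul (hΦ b).inv)
  rw [← hmk a, ← hmk b]
  refine EichlerShimura.mk_eq_mk_of_sub_mem_principal ⟨g⁻¹, inv_ne_zero hg, fun v => ?_⟩
  have h := congrArg v.ord hgF
  rw [v.ord_mul (hΦ a).1 (inv_ne_zero (hΦ b).1), v.ord_inv, ← hv a v, ← hv b v, ord_npow] at h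
  rw [v.ord_inv, Finsupp.sub_apply]
  refine mul_left_cancel₀ (Nat.cast_ne_zero.mpr (NeZero.ne ℓ) : (ℓ : ℤ) ≠ 0) ?_
  linarith

variable [IsFunctionField1 ℚ̄ (FL M ℚ̄)] [IsFunctionField1 ℂ (FL M ℂ)]

/-- A root with trivial multiplier makes the function trivial. -/
theorem exists_eq_const_mul_pow_of_hasRootChar_toC {f : FL M ℚ̄}
    (h : HasRootChar M ℓ (toC M f) 0) :
    ∃ (c : ℚ̄) (g : FL M ℚ̄), c ≠ 0 ∧ g ≠ 0 ∧ f = algebraMap ℚ̄ (FL M ℚ̄) c * g ^ ℓ := by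
  obtain ⟨g, -, hg⟩ := exists_eq_pow_of_hasRootChar_zero h
  exact exists_const_mul_pow_of_bcHom (NeZero.ne ℓ) (fun h0 => h.1 (by rw [h0, map_zero]))
    (c := (1 : ℂ)) one_ne_zero (r := g) (by rw [map_one, one_mul, ← hg])

/-- Divisibility gives a root over `ℂ`. -/
theorem exists_hasRootChar_toC {p : (Additive (Gamma1 M) →+ ZMod ℓ) → Prop}
    (hroot : ∀ F : FL M ℂ, F ≠ 0 → (∀ P : Place ℂ (FL M ℂ), (ℓ : ℤ) ∣ P.ord F) →
      ∃ φ, p φ ∧ HasRootChar M ℓ F φ)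
    {f : FL M ℚ̄} (hf : f ≠ 0) (hdiv : ∀ P : Place ℚ̄ (FL M ℚ̄), (ℓ : ℤ) ∣ P.ord f) :
    ∃ φ, p φ ∧ HasRootChar M ℓ (toC M f) φ :=
  hroot _ (by simpa using hf) fun P => dvd_ord_bcHom hdiv P

omit [NeZero M] in
/-- Divisibility descends. -/
theorem dvd_ord_of_dvd_ord_toC {n : ℤ} {f : FL M ℚ̄}
    (h : ∀ P : Place ℂ (FL M ℂ), n ∣ P.ord (toC M f)) (w : Place ℚ̄ (FL M ℚ̄)) : n ∣ w.ord f := by
  have := h (EichlerShimura.placeUp complexEmbedding w)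
  rwa [EichlerShimura.ord_placeUp] at this

/-- A character realised over `ℂ` is realised over `ℚ̄`. -/
theorem exists_hasRootChar_toC_eq
    (hroot : ∀ F : FL M ℂ, F ≠ 0 → (∀ P : Place ℂ (FL M ℂ), (ℓ : ℤ) ∣ P.ord F) →
      ∃ φ, HasRootChar M ℓ F φ)
    {F : FL M ℂ} {φ : Additive (Gamma1 M) →+ ZMod ℓ} (h : HasRootChar M ℓ F φ)
    (hdiv : ∀ P : Place ℂ (FL M ℂ), (ℓ : ℤ) ∣ P.ord F) :
    ∃ f : FL M ℚ̄, f ≠ 0 ∧ (∀ P : Place ℚ̄ (FL M ℚ̄), (ℓ : ℤ) ∣ P.ord f) ∧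
      HasRootChar M ℓ (toC M f) φ := by
  obtain ⟨f, c, r, hf, hc, hr, hfdiv, e⟩ := exists_bcHom_eq_const_mul_pow_mul
    (ι := complexEmbedding) (F₀ := field M) (NeZero.ne ℓ) h.1 hdiv (exists_finite_torsion hroot)
  refine ⟨f, hf, hfdiv, ?_⟩
  have := (hasRootChar_const_mul_pow (ℓ := ℓ) hc hr).mul h
  rwa [zero_add, ← e] at this

end Fermat.Agent.DeligneSerre.XOne
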