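import Fermat.Agent.DeligneSerre.XOne.KummerEval
import Fermat.Agent.DeligneSerre.XOne.HeckeComplex

/-!
# Substitution by integral matrices, series of the pull-backs, descent of substitutions

Tools for functions of higher level: a substitution by an integral matrix of positive determinant
keeps finite order at the cusps, a function on `X₁(N)` has the series predicted by any
representation as a quotient, and a substitution fixing a transcendental function of `X₁(N)` over
`ℚ̄` preserves being defined over `ℚ̄`.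
-/

set_option autoImplicit false

noncomputable section

open UpperHalfPlane hiding I
open ModularCurve CongruenceSubgroup Filter IntermediateField
open scoped MatrixGroups Topology IntermediateField

namespace Fermat.Agent.DeligneSerre.XOne

open Fermat.Agent.Modular

local notation "ℚ̄" => AlgebraicClosure ℚ

/-- An integral matrix of positive determinant in `GL₂(ℝ)⁺`. -/
def posMat (Z : Matrix (Fin 2) (Fin 2) ℤ) (hZ : 0 < Z.det) : GLp :=
  ⟨Matrix.GeneralLinearGroup.mkOfDetNeZero (Z.map (Int.castRingHom ℝ)) (by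
      rw [← RingHom.mapMatrix_apply, ← RingHom.map_det]
      simpa using hZ.ne'), by
    rw [Matrix.mem_glpos, Matrix.GeneralLinearGroup.val_det_apply]
    show 0 < (Z.map (Int.castRingHom ℝ)).det
    rw [← RingHom.mapMatrix_apply, ← RingHom.map_det]
    simpa using hZ⟩

@[simp]
theorem val_posMat (Z : Matrix (Fin 2) (Fin 2) ℤ) (hZ : 0 < Z.det) :
    (((posMat Z hZ : GLp) : GL (Fin 2) ℝ) : Matrix (Fin 2) (Fin 2) ℝ) =
      Z.map (Int.castRingHom ℝ) := rfl

theorem posMat_mul {Z W : Matrix (Fin 2) (Fin 2) ℤ} (hZ : 0 < Z.det) (hW : 0 < W.det) :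
    posMat Z hZ * posMat W hW = posMat (Z * W) (by rw [Matrix.det_mul]; exact mul_pos hZ hW) :=
  Subtype.ext (Units.ext (Matrix.map_mul (f := Int.castRingHom ℝ)).symm)

theorem glSL_eq_posMat (g : SL(2, ℤ)) :
    glSL g = posMat g.1 (by simp) := by
  refine Subtype.ext (Units.ext ?_)
  ext i j
  rfl

theorem posMat_congr {Z W : Matrix (Fin 2) (Fin 2) ℤ} (hZ : 0 < Z.det) (e : Z = W) :
    posMat Z hZ = posMat W (e ▸ hZ) := by
  subst e; rfl

/-- The action of `posMat` by fractional linear transformations. -/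
theorem coe_posMat_smul (Z : Matrix (Fin 2) (Fin 2) ℤ) (hZ : 0 < Z.det) (z : ℍ) :
    (((posMat Z hZ : GLp) : GL (Fin 2) ℝ) • z : ℍ) =
      ((Z 0 0 : ℂ) * z + Z 0 1) / ((Z 1 0 : ℂ) * z + Z 1 1) := by
  have h : 0 < (((posMat Z hZ : GLp) : GL (Fin 2) ℝ)).det.val :=
    (Matrix.mem_glpos _).mp (posMat Z hZ).2
  rw [coe_smul_of_det_pos h]
  simp [num, denom]

/-- Every integral matrix of positive determinant is unimodular times upper triangular. -/
theorem exists_eq_mul_upper (Z : Matrix (Fin 2) (Fin 2) ℤ) (hZ : 0 < Z.det) :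
    ∃ (k : SL(2, ℤ)) (a : ℕ) (b : ℤ) (d : ℕ), 0 < a ∧ 0 < d ∧
      Z = k.1 * !![(a : ℤ), b; 0, (d : ℤ)] := by
  have hg0 : Int.gcd (Z 0 0) (Z 1 0) ≠ 0 := by
    intro h
    obtain ⟨h0, h1⟩ := Int.gcd_eq_zero_iff.mp h
    rw [Matrix.det_fin_two, h0, h1] at hZ
    simp at hZ
  set g : ℕ := Int.gcd (Z 0 0) (Z 1 0) with hg
  obtain ⟨x, hx⟩ : (g : ℤ) ∣ Z 0 0 := Int.gcd_dvd_left _ _
  obtain ⟨y, hy⟩ : (g : ℤ) ∣ Z 1 0 := Int.gcd_dvd_right _ _
  obtain ⟨u, v, huv⟩ : ∃ u v : ℤ, u * x + v * y = 1 := by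
    refine ⟨Int.gcdA (Z 0 0) (Z 1 0), Int.gcdB (Z 0 0) (Z 1 0), ?_⟩
    have h := Int.gcd_eq_gcd_ab (Z 0 0) (Z 1 0)
    rw [← hg] at h
    refine mul_left_cancel₀ (a := (g : ℤ)) (Nat.cast_ne_zero.mpr hg0) ?_
    linear_combination -(h : (g : ℤ) = _) - Int.gcdA (Z 0 0) (Z 1 0) * hx
      - Int.gcdB (Z 0 0) (Z 1 0) * hy
  have hdet : (g : ℤ) * (x * Z 1 1 - y * Z 0 1) = Z.det := by
    rw [Matrix.det_fin_two]
    linear_combination -(Z 1 1) * hx + (Z 0 1) * hy
  have hd : 0 < x * Z 1 1 - y * Z 0 1 :=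
    (pos_iff_pos_of_mul_pos (hdet ▸ hZ)).mp (Int.natCast_pos.mpr (Nat.pos_of_ne_zero hg0))
  refine ⟨⟨!![x, -v; y, u], by rw [Matrix.det_fin_two_of]; linear_combination huv⟩, g,
    u * Z 0 1 + v * Z 1 1, (x * Z 1 1 - y * Z 0 1).toNat, Nat.pos_of_ne_zero hg0, by omega, ?_⟩
  rw [Int.toNat_of_nonneg hd.le]
  ext i j
  fin_cases i <;> fin_cases j <;> simp [Matrix.mul_apply, Fin.sum_univ_two]
  · linear_combination hx
  · linear_combination -(Z 0 1) * huv
  · linear_combination hy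
  · linear_combination -(Z 1 1) * huv

theorem glp_smul_hol_eq {Y : GLp} {k : SL(2, ℤ)} {a : ℕ} [NeZero a] {b : ℤ} {d : ℕ} [NeZero d]
    (hY : ∀ z : ℍ, ((Y⁻¹ : GLp) : GL (Fin 2) ℝ) • z = k • affineH a b d z) (F : Hol) (z : ℍ) :
    ((Y * glSL k) • F : Hol).1 z = F.1 (affineH a b d z) := by
  rw [mul_smul, gl_smul_hol_apply, hY]
  rw [gl_smul_hol_apply, ← map_inv, coe_glSL]
  rw [← ModularGroup.sl_moeb, inv_smul_smul]

/-- A substitution by an integral matrix keeps finite order at the cusps, at any level. -/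
theorem hasFiniteOrderAtCusps_glTranslate {K N : ℕ} [NeZero K] [NeZero N] {φ : Mero}
    (hφ : HasFiniteOrderAtCusps K φ) (X : GLp)
    (hX : ∀ h : SL(2, ℤ), ∃ (Z : Matrix (Fin 2) (Fin 2) ℤ) (hZ : 0 < Z.det), ∀ z : ℍ,
      (((glSL h * X)⁻¹ : GLp) : GL (Fin 2) ℝ) • z = ((posMat Z hZ : GLp) : GL (Fin 2) ℝ) • z) :
    HasFiniteOrderAtCusps N (glTranslate X φ) := by
  intro h
  obtain ⟨Z, hZ, hXZ⟩ := hX h
  obtain ⟨k, a, b, d, ha, hd, hk⟩ := exists_eq_mul_upper Z hZ
  have : NeZero a := ⟨ha.ne'⟩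
  have : NeZero d := ⟨hd.ne'⟩
  have hY : ∀ z : ℍ, (((glSL h * X)⁻¹ : GLp) : GL (Fin 2) ℝ) • z = k • affineH a b d z := by
    intro z
    have hW : 0 < (!![(a : ℤ), b; 0, (d : ℤ)]).det := by
      rw [Matrix.det_fin_two_of]; simp [ha, hd]
    rw [hXZ, posMat_congr hZ hk, ← posMat_mul (by simp) hW, ← glSL_eq_posMat,
      Subgroup.coe_mul, mul_smul, coe_glSL, ← ModularGroup.sl_moeb]
    congr 1
    refine UpperHalfPlane.ext ?_
    rw [coe_posMat_smul]
    simp
  obtain ⟨A, B, hB, hAB, m, hm⟩ := hφ k⁻¹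
  set Y : GLp := glSL h * X * glSL k with hYdef
  have hval : ∀ (F : Hol) (z : ℍ), (Y • F : Hol).1 z = F.1 (affineH a b d z) :=
    fun F z => glp_smul_hol_eq hY F z
  refine ⟨Y • A, Y • B, ?_, ?_, m * a * N, ?_⟩
  · filter_upwards [(tendsto_affineH a b d).eventually hB] with τ hτ
    rwa [hval]
  · have e : translate h (glTranslate X φ) = glTranslate Y (translate k⁻¹ φ) := by
      rw [← glTranslate_glSL, ← glTranslate_glSL, ← glTranslate_mul, ← glTranslate_mul, hYdef,
        map_inv, mul_assoc _ (glSL k), mul_inv_cancel, mul_one]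
    rw [e, ← glTranslate_algebraMap, ← glTranslate_algebraMap, ← map_mul, hAB]
  · obtain ⟨C, A₀, hC⟩ := UpperHalfPlane.isBoundedAtImInfty_iff.mp hm
    obtain ⟨A', hA'⟩ := (UpperHalfPlane.atImInfty_mem _).mp
      ((tendsto_affineH a b d) ((UpperHalfPlane.atImInfty_mem _).mpr ⟨A₀, fun z hz => hz⟩))
    refine UpperHalfPlane.isBoundedAtImInfty_iff.mpr ⟨C, A', fun z hz => ?_⟩
    refine le_trans ?_ (hC (affineH a b d z) (hA' z hz))
    simp only [norm_mul, norm_pow, Function.Periodic.norm_qParam, hval]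
    refine mul_le_mul_of_nonneg_right ?_ (norm_nonneg _)
    rw [← Real.exp_nat_mul, ← Real.exp_nat_mul, Real.exp_le_exp, coe_affineH,
      Complex.div_natCast_im]
    have hN : (N : ℝ) ≠ 0 := Nat.cast_ne_zero.mpr (NeZero.ne N)
    have hKd : (1 : ℝ) ≤ (d : ℝ) * K := by
      exact_mod_cast Nat.one_le_iff_ne_zero.mpr (Nat.mul_ne_zero hd.ne' (NeZero.ne K))
    simp only [Complex.add_im, Complex.mul_im, Complex.natCast_re, Complex.natCast_im,
      Complex.intCast_im, zero_mul, add_zero, UpperHalfPlane.coe_im]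
    push_cast
    have hpos : (0 : ℝ) ≤ 2 * Real.pi * m * a * z.im := by have := z.im_pos; positivity
    calc (m : ℝ) * a * N * (-2 * Real.pi * z.im / N)
        = -(2 * Real.pi * m * a * z.im) := by field_simp
      _ ≤ -(2 * Real.pi * m * a * z.im / (d * K)) := neg_le_neg (div_le_self hpos hKd)
      _ = _ := by ring

variable {N : ℕ} [NeZero N]

/-- The series of a function on `X₁(N)` from any representation as a quotient. -/
theorem coe_mul_eq_of_evalMero1_mul_eq {F : FL N ℂ} {A B : Hol} {X Y : LaurentSeries ℂ}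
    (hA : HasQExp 1 A.1 X) (hB : HasQExp 1 B.1 Y)
    (h : evalMero1 N F * algebraMap Hol Mero B = algebraMap Hol Mero A) :
    (F : LaurentSeries ℂ) * Y = X := by
  obtain ⟨a, b, x, y, hb, hx, hy, hab, hxy⟩ := evalMero1_spec N F
  have h1 : a * B = A * b := IsFractionRing.injective Hol Mero (by
    rw [map_mul _ a B, map_mul _ A b, ← hab, ← h]; ring)
  have h2 : x * Y = X * y := by
    refine (hx.mul hB).unique ((hA.mul hy).congr fun τ => ?_) one_pos
    exact (congrFun (congrArg Subtype.val h1) τ).symm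
  refine mul_right_cancel₀ (series_ne_zero hb hy) ?_
  rw [← h2, ← hxy]; ring

omit [NeZero N] in
theorem coe_bcHom_eq (f : FQ N) :
    (EichlerShimura.bcHom (field N) complexEmbedding f : LaurentSeries ℂ) =
      coeffMap (complexEmbedding : ℚ̄ →+* ℂ) (f : LaurentSeries ℚ̄) := rfl

/-- `evQ` as a quotient of functions with expansions. -/
theorem exists_evQ_spec (f : FQ N) :
    ∃ (a b : Hol) (x y : LaurentSeries ℂ), b ≠ 0 ∧ y ≠ 0 ∧ HasQExp 1 a.1 x ∧ HasQExp 1 b.1 y ∧
      evQ N f * algebraMap Hol Mero b = algebraMap Hol Mero a ∧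
      coeffMap (complexEmbedding : ℚ̄ →+* ℂ) (f : LaurentSeries ℚ̄) * y = x := by
  obtain ⟨a, b, x, y, hb, hx, hy, hab, hxy⟩ :=
    evalMero1_spec N (EichlerShimura.bcHom (field N) complexEmbedding f)
  exact ⟨a, b, x, y, hb, series_ne_zero hb hy, hx, hy, hab, hxy⟩

/-- A function over `ℂ` with series over `ℚ̄` is a function over `ℚ̄`. -/
theorem exists_evQ_eq_of_coeffMap {F : FL N ℂ} {y : LaurentSeries ℚ̄}
    (h : coeffMap (complexEmbedding : ℚ̄ →+* ℂ) y = (F : LaurentSeries ℂ)) :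
    ∃ x : FQ N, (x : LaurentSeries ℚ̄) = y ∧ evQ N x = evalMero1 N F :=
  ⟨⟨y, EichlerShimura.mem_of_coeffMap_mem (F₀ := field N) complexEmbedding (h ▸ F.2)⟩, rfl,
    congrArg (evalMero1 N) (Subtype.ext h)⟩

/-- Coefficients fixed up to finitely many values come from `ℚ̄`. -/
theorem exists_coeffMap_eq_of_finite (y : LaurentSeries ℂ)
    (h : (Set.range fun σ : EichlerShimura.fixingAuts complexEmbedding =>
      coeffMap ((σ : ℂ ≃ₐ[ℚ] ℂ).toRingEquiv.toRingHom) y).Finite) :
    ∃ x : LaurentSeries ℚ̄, coeffMap (complexEmbedding : ℚ̄ →+* ℂ) x = y := by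
  have hcoef : ∀ n, y.coeff n ∈ Set.range complexEmbedding := by
    intro n
    refine EichlerShimura.mem_range_of_finite_orbit complexEmbedding (H := ⊤) (by simp)
      ((h.image fun z => z.coeff n).subset ?_)
    rintro _ ⟨σ, rfl⟩
    exact ⟨_, ⟨(σ : EichlerShimura.fixingAuts complexEmbedding), rfl⟩, rfl⟩
  choose c hc using hcoef
  let x : LaurentSeries ℚ̄ :=
    { coeff := c
      isPWO_support' := y.isPWO_support.mono fun n hn h0 => hn
        (complexEmbedding.injective ((hc n).trans (h0.trans (map_zero complexEmbedding).symm))) }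
  exact ⟨x, HahnSeries.ext (funext hc)⟩

/-- A substitution fixing a transcendental function and the constants preserves being defined
over `ℚ̄`, if it preserves being a function on `X₁(N)`. -/
theorem exists_evQ_eq_of_fixed (Θ : Mero →+* Mero) (u : FQ N) (hu : Transcendental ℚ̄ u)
    (hΘu : Θ (evQ N u) = evQ N u)
    (hΘc : ∀ c : ℂ, Θ (algebraMap ℂ Mero c) = algebraMap ℂ Mero c)
    (f : FQ N) (F : FL N ℂ) (hF : evalMero1 N F = Θ (evQ N f)) :
    ∃ x : FQ N, evQ N x = Θ (evQ N f) := by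
  have := isFunctionField1_FL N ℚ̄
  have hfd := Curve.finiteDimensional_adjoin (K := ℚ̄) hu
  set p := (minpoly ℚ̄⟮u⟯ f).map (algebraMap ℚ̄⟮u⟯ (FQ N)) with hp
  have hp0 : p ≠ 0 := Polynomial.map_monic_ne_zero
    (minpoly.monic (Algebra.IsIntegral.isIntegral f))
  have hpf : p.eval f = 0 := by
    rw [hp, Polynomial.eval_map, ← Polynomial.aeval_def, minpoly.aeval]
  have hfix : ∀ z : ℚ̄⟮u⟯, Θ (evQ N (z : FQ N)) = evQ N (z : FQ N) := by
    have hle : (ℚ̄⟮u⟯).toSubfield ≤ (Θ.comp (evQ N)).eqLocusField (evQ N) := by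
      rw [IntermediateField.adjoin_toSubfield, Subfield.closure_le]
      rintro _ (⟨c, rfl⟩ | h)
      · show Θ (evQ N _) = evQ N _
        rw [evQ_algebraMap, hΘc]
      · rw [Set.mem_singleton_iff] at h
        subst h
        exact hΘu
    exact fun z => hle z.2
  set ι : FQ N →+* LaurentSeries ℂ :=
    (FL N ℂ).val.toRingHom.comp (EichlerShimura.bcHom (field N) complexEmbedding)
  have hpF : (p.map (EichlerShimura.bcHom (field N) complexEmbedding)).eval F = 0 := by
    refine evalMero1_injective N ?_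
    show (evalMero1 N).toRingHom _ = (evalMero1 N).toRingHom 0
    rw [map_zero, ← map_zero (Θ.comp (evQ N)), ← hpf, ← Polynomial.eval_map_apply,
      ← Polynomial.eval_map_apply, Polynomial.map_map]
    rw [RingHom.comp_apply, ← hF]
    refine congrArg₂ Polynomial.eval rfl ?_
    ext n
    simp only [hp, Polynomial.coeff_map, RingHom.comp_apply]
    exact (hfix _).symm
  have hq0 : p.map ι ≠ 0 := Polynomial.map_ne_zero hp0
  have hroot : (p.map ι).IsRoot (F : LaurentSeries ℂ) := by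
    rw [Polynomial.IsRoot.def, ← Polynomial.map_map]
    show (Polynomial.map _ _).eval ((FL N ℂ).val.toRingHom F) = 0
    rw [Polynomial.eval_map_apply, hpF, map_zero]
  obtain ⟨y, hy⟩ := exists_coeffMap_eq_of_finite (F : LaurentSeries ℂ)
    ((Polynomial.finite_setOfPred_isRoot hq0).subset (by
      rintro _ ⟨σ, rfl⟩
      show (p.map ι).IsRoot _
      set s := coeffMap ((σ : ℂ ≃ₐ[ℚ] ℂ).toRingEquiv.toRingHom)
      have hs : s.comp ι = ι := by
        refine RingHom.ext fun z => ?_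
        show coeffMap _ (coeffMap (complexEmbedding : ℚ̄ →+* ℂ) _) = _
        rw [coeffMap_coeffMap]
        exact coeffMap_congr (RingHom.ext fun a => σ.2 a) _
      have := hroot.map (f := s)
      rwa [Polynomial.map_map, hs] at this))
  obtain ⟨x, -, hx⟩ := exists_evQ_eq_of_coeffMap hy
  exact ⟨x, hx.trans hF⟩

end Fermat.Agent.DeligneSerre.XOne
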