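import Fermat.Agent.DeligneSerre.XOne.KummerEval
import Fermat.Agent.DeligneSerre.XOne.LevelGAGA
import Mathlib.NumberTheory.ModularForms.CongruenceSubgroups

/-!
# The field of level `Γ(M)` over `ℚ̄` and the action of `SL₂(ℤ)`

Series in `q_M = exp (2πiτ / M)`: `x` stands for `τ ↦ F (τ / M)` where `F` is the function of level
`Γ₁(M²)` with expansion `x`.  The field of `X₁(M)` is embedded by `q ↦ q_M ^ M`.
-/

set_option autoImplicit false

noncomputable section

open UpperHalfPlane hiding I
open ModularCurve CongruenceSubgroup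
open scoped MatrixGroups

namespace Fermat.Agent.DeligneSerre.XOne

open Fermat.Agent.Modular

local notation "ℚ̄" => AlgebraicClosure ℚ

variable (M : ℕ) [NeZero M]

/-- `diag (1, M)`. -/
def shrinkMat : GLp :=
  ⟨Matrix.GeneralLinearGroup.mkOfDetNeZero !![(1 : ℝ), 0; 0, (M : ℝ)]
      (by simp [Matrix.det_fin_two, NeZero.ne M]), by
    rw [Matrix.mem_glpos, Matrix.GeneralLinearGroup.val_det_apply]
    simp [Matrix.det_fin_two, Nat.pos_of_ne_zero (NeZero.ne M)]⟩

/-- `F ↦ (τ ↦ F (τ / M))`. -/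
def shrink : Mero ≃+* Mero := glTranslate (shrinkMat M)⁻¹

/-- The function on `ℍ` of a function of level `M²`, in the variable `τ / M`. -/
def evShrink : FQ (M * M) →+* Mero := (shrink M).toRingHom.comp (evQ (M * M))

theorem evShrink_algebraMap (c : ℚ̄) :
    evShrink M (algebraMap ℚ̄ (FQ (M * M)) c) = algebraMap ℂ Mero (complexEmbedding c) := by
  show glTranslate _ (evQ (M * M) _) = _
  rw [evQ_algebraMap, glTranslate_const]

/-- The functions of level `M²` which become invariant under `Γ(M)`. -/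
def levelFieldIn : IntermediateField ℚ̄ (FQ (M * M)) where
  carrier := {f | ∀ g ∈ Gamma M, translate g (evShrink M f) = evShrink M f}
  mul_mem' := fun ha hb g hg => by rw [map_mul, map_mul, ha g hg, hb g hg]
  one_mem' := fun g _ => by rw [map_one, map_one]
  add_mem' := fun ha hb g hg => by rw [map_add, map_add, ha g hg, hb g hg]
  zero_mem' := fun g _ => by rw [map_zero, map_zero]
  algebraMap_mem' := fun c g _ => by rw [evShrink_algebraMap, translate_const]
  inv_mem' := fun f hf g hg => by rw [map_inv₀, map_inv₀, hf g hg]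

/-- The function field of level `Γ(M)` over `ℚ̄`, as series in `q_M`. -/
def FM : IntermediateField ℚ̄ (LaurentSeries ℚ̄) :=
  (levelFieldIn M).map (FQ (M * M)).val

theorem FM_le : FM M ≤ FQ (M * M) := by
  rintro _ ⟨f, -, rfl⟩
  exact f.2

/-- The function on `ℍ` of an element of `FM`. -/
def evFM : FM M →+* Mero :=
  (evShrink M).comp (IntermediateField.inclusion (FM_le M)).toRingHom

theorem evFM_algebraMap (c : ℚ̄) :
    evFM M (algebraMap ℚ̄ (FM M) c) = algebraMap ℂ Mero (complexEmbedding c) := by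
  show evShrink M (IntermediateField.inclusion (FM_le M) _) = _
  rw [AlgHom.commutes, evShrink_algebraMap]

theorem translate_evFM_of_mem_Gamma {g : SL(2, ℤ)} (hg : g ∈ Gamma M) (f : FM M) :
    translate g (evFM M f) = evFM M f := by
  obtain ⟨x, hx, e⟩ := f.2
  have h : IntermediateField.inclusion (FM_le M) f = x := Subtype.ext e.symm
  show translate g (evShrink M (IntermediateField.inclusion (FM_le M) f)) = evShrink M (IntermediateField.inclusion (FM_le M) f)
  rw [h]
  exact hx g hg

theorem shrinkMat_eq : shrinkMat M = posMat !![(1 : ℤ), 0; 0, (M : ℤ)] (by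
    rw [Matrix.det_fin_two_of]; simp [NeZero.pos M]) := by
  refine Subtype.ext (Units.ext ?_)
  ext i j
  fin_cases i <;> fin_cases j <;> simp [shrinkMat, posMat]

theorem coe_shrinkMat_smul (z : ℍ) :
    (((shrinkMat M : GLp) : GL (Fin 2) ℝ) • z : ℍ) = (z : ℂ) / M := by
  rw [shrinkMat_eq, coe_posMat_smul]
  simp

theorem shrinkMat_inv_smul (z : ℍ) :
    (((shrinkMat M)⁻¹ : GLp) : GL (Fin 2) ℝ) • z = mulH M z := by
  rw [Subgroup.coe_inv, inv_smul_eq_iff]
  refine UpperHalfPlane.ext ?_
  rw [coe_shrinkMat_smul, coe_mulH, mul_div_cancel_left₀ _ (Nat.cast_ne_zero.mpr (NeZero.ne M))]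

/-- `F ↦ (τ ↦ F (M τ))`, inverse to `shrink`. -/
theorem shrink_symm_apply (φ : Mero) :
    shrink M (glTranslate (shrinkMat M) φ) = φ := by
  rw [shrink, ← glTranslate_mul, inv_mul_cancel, map_one]
  rfl

theorem glTranslate_shrink (φ : Mero) :
    glTranslate (shrinkMat M) (shrink M φ) = φ := by
  rw [shrink, ← glTranslate_mul, mul_inv_cancel, map_one]
  rfl

theorem shrinkMat_smul_hol (F : Hol) (z : ℍ) :
    (shrinkMat M • F : Hol).1 z = F.1 (mulH M z) := by
  rw [gl_smul_hol_apply, shrinkMat_inv_smul]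

/-- The function of level `M²` underlying an element of `FM`. -/
def baseFM : FM M →+* FQ (M * M) := (IntermediateField.inclusion (FM_le M)).toRingHom

theorem evFM_eq (f : FM M) : evFM M f = shrink M (evQ (M * M) (baseFM M f)) := rfl

theorem coe_baseFM (f : FM M) : (baseFM M f : LaurentSeries ℚ̄) = (f : LaurentSeries ℚ̄) := rfl

/-- An element of level `M²` with `Γ(M)`-invariant function gives an element of `FM`. -/
theorem exists_evFM_eq_of_invariant (x : FQ (M * M))
    (h : ∀ g ∈ Gamma M, translate g (evShrink M x) = evShrink M x) :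
    ∃ f : FM M, evFM M f = evShrink M x ∧ (f : LaurentSeries ℚ̄) = x :=
  ⟨⟨x, x, h, rfl⟩, congrArg (evShrink M) (Subtype.ext rfl), rfl⟩

/-- Conjugation by `diag (1, M)` maps `Γ₁(M²)` into `Γ(M)`. -/
theorem exists_shrink_conj {γ : SL(2, ℤ)} (hγ : γ ∈ Gamma1 (M * M)) :
    ∃ δ ∈ Gamma M, glSL γ * shrinkMat M = shrinkMat M * glSL δ := by
  obtain ⟨h00, h11, h10⟩ := (Gamma1_mem _ _).mp hγ
  obtain ⟨c, hc⟩ := (ZMod.intCast_zmod_eq_zero_iff_dvd (γ 1 0) (M * M)).mp h10
  push_cast at hc
  have hdet : γ 0 0 * γ 1 1 - γ 0 1 * γ 1 0 = 1 := by rw [← Matrix.det_fin_two]; exact γ.2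
  have hred : ∀ {x : ℤ}, (x : ZMod (M * M)) = 1 → (x : ZMod M) = 1 := fun {x} hx => by
    simpa using congrArg (ZMod.castHom (dvd_mul_left M M) (ZMod M)) hx
  refine ⟨⟨!![γ 0 0, γ 0 1 * M; M * c, γ 1 1], by
    rw [Matrix.det_fin_two_of]; linear_combination hdet + γ 0 1 * hc⟩, ?_, ?_⟩
  · rw [Gamma_mem]
    exact ⟨hred h00, by simp, by simp, hred h11⟩
  · rw [shrinkMat_eq, glSL_eq_posMat, glSL_eq_posMat, posMat_mul, posMat_mul]
    refine posMat_congr _ ?_
    ext i j
    fin_cases i <;> fin_cases j <;> simp [Matrix.mul_apply, Fin.sum_univ_two]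
    all_goals first
      | ring1
      | linear_combination hc

/-- Pulled back by `τ ↦ M τ`, a `Γ(M)`-invariant function is `Γ₁(M²)`-invariant. -/
theorem translate_glTranslate_shrinkMat {φ : Mero} (hφ : ∀ g ∈ Gamma M, translate g φ = φ)
    {γ : SL(2, ℤ)} (hγ : γ ∈ Gamma1 (M * M)) :
    translate γ (glTranslate (shrinkMat M) φ) = glTranslate (shrinkMat M) φ := by
  obtain ⟨δ, hδ, e⟩ := exists_shrink_conj M hγ
  rw [← glTranslate_glSL, ← glTranslate_mul, e, glTranslate_mul, glTranslate_glSL, hφ δ hδ]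

/-- `j (M τ)` at level `M²`. -/
def jMElt : FQ (M * M) := jdElt (M * M) ℚ̄ (d := M) (dvd_mul_left M M)

theorem transcendental_jMElt : Transcendental ℚ̄ (jMElt M) := by
  intro h
  obtain ⟨c, e⟩ := minpoly.mem_range_of_degree_eq_one ℚ̄ (jMElt M)
    (IsAlgClosed.degree_eq_one_of_irreducible _ (minpoly.irreducible h.isIntegral))
  have h1 := congrArg (fun z : FQ (M * M) => (z : LaurentSeries ℚ̄).coeff ((M : ℤ) * (-1))) e
  simp only [jMElt, coe_jdElt, qExpand_coeff_mul] at h1
  rw [show ((algebraMap ℚ̄ (FQ (M * M)) c : FQ (M * M)) : LaurentSeries ℚ̄) =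
    algebraMap ℚ̄ (LaurentSeries ℚ̄) c from rfl, algebraMap_laurentSeries_eq_single,
    HahnSeries.coeff_single_of_ne (by simp [NeZero.ne M]), coeff_jqModC_neg_one] at h1
  exact zero_ne_one h1

theorem evQ_jMElt : evQ (M * M) (jMElt M) = glTranslate (shrinkMat M) (algebraMap Hol Mero (jHol 1)) := by
  rw [glTranslate_algebraMap]
  refine evalMero1_eq_algebraMap _ ?_
  rw [coe_bcHom_eq, jMElt, coe_jdElt, EichlerShimura.coeffMap_qExpand_comm, coeffMap_jqModC]
  refine (hasQExp_jHol M).congr fun τ => ?_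
  rw [shrinkMat_smul_hol, jHol_apply, jHol_apply]
  congr 1
  refine UpperHalfPlane.ext ?_
  simp

theorem evQ_jMElt_fixed (g : SL(2, ℤ)) :
    glTranslate (shrinkMat M) (translate g (shrink M (evQ (M * M) (jMElt M)))) =
      evQ (M * M) (jMElt M) := by
  rw [evQ_jMElt, shrink_symm_apply]
  congr 1
  exact translate_algebraMap_jHol 1 (by simp [Gamma0_mem, Subsingleton.elim _ (0 : ZMod 1)]) dvd_rfl

/-- The translates of a function of level `Γ(M)` are such functions: GAGA and descent. -/
theorem exists_evFM_eq_translate (g : SL(2, ℤ)) (f : FM M) :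
    ∃ f' : FM M, evFM M f' = translate g (evFM M f) := by
  set φ := translate g (evFM M f) with hφdef
  have hφ : ∀ δ ∈ Gamma M, translate δ φ = φ := fun δ hδ => by
    have hn := (Gamma_normal M).conj_mem δ hδ g⁻¹
    rw [inv_inv] at hn
    rw [hφdef, ← translate_mul, show δ * g = g * (g⁻¹ * δ * g) by group, translate_mul,
      translate_evFM_of_mem_Gamma M hn]
  set Θ : Mero →+* Mero := ((glTranslate (shrinkMat M)).toRingHom.comp
    ((translate g).toRingHom.comp (shrink M).toRingHom))
  have hΘ : Θ (evQ (M * M) (baseFM M f)) = glTranslate (shrinkMat M) φ := rfl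
  have hcusp : HasFiniteOrderAtCusps (M * M) (glTranslate (shrinkMat M) φ) := by
    rw [hφdef, evFM_eq, shrink, ← glTranslate_glSL, ← glTranslate_mul, ← glTranslate_mul]
    refine hasFiniteOrderAtCusps_glTranslate
      (hasFiniteOrderAtCusps_evalMero1 (M * M) _) _ fun h => ?_
    have hT : (0 : ℤ) < (!![(M : ℤ), 0; 0, 1]).det := by
      rw [Matrix.det_fin_two_of]; simp [NeZero.pos M]
    have hS : (0 : ℤ) < (!![(1 : ℤ), 0; 0, (M : ℤ)]).det := by
      rw [Matrix.det_fin_two_of]; simp [NeZero.pos M]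
    have hTS : ∀ w : ℍ, (((shrinkMat M)⁻¹ : GLp) : GL (Fin 2) ℝ) • w =
        ((posMat _ hT : GLp) : GL (Fin 2) ℝ) • w := fun w => by
      refine UpperHalfPlane.ext ?_
      rw [shrinkMat_inv_smul, coe_mulH, coe_posMat_smul]
      simp
    have hdet : 0 < (!![(1 : ℤ), 0; 0, (M : ℤ)] * g⁻¹.1 * !![(M : ℤ), 0; 0, 1] * h⁻¹.1).det := by
      rw [Matrix.det_mul, Matrix.det_mul, Matrix.det_mul, Matrix.SpecialLinearGroup.det_coe,
        Matrix.SpecialLinearGroup.det_coe, mul_one, mul_one]
      exact mul_pos hS hT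
    refine ⟨_, hdet, fun z => ?_⟩
    rw [show posMat _ hdet = shrinkMat M * glSL g⁻¹ * posMat _ hT * glSL h⁻¹ by
      rw [shrinkMat_eq, glSL_eq_posMat, glSL_eq_posMat, posMat_mul, posMat_mul, posMat_mul]]
    simp only [mul_inv_rev, inv_inv, Subgroup.coe_mul, Subgroup.coe_inv, mul_smul, map_inv]
    rw [← Subgroup.coe_inv (H := Matrix.GLPos (Fin 2) ℝ) (shrinkMat M), hTS]
  obtain ⟨F, hF⟩ := exists_evalMero1_eq (M * M)
    (fun γ hγ => translate_glTranslate_shrinkMat M hφ hγ) hcusp
  obtain ⟨x, hx⟩ := exists_evQ_eq_of_fixed Θ (jMElt M) (transcendental_jMElt M)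
    (evQ_jMElt_fixed M g) (fun c => by
      show glTranslate _ (translate g (glTranslate _ (algebraMap ℂ Mero c))) = _
      rw [glTranslate_const, translate_const, glTranslate_const]) (baseFM M f) F (hF.trans hΘ.symm)
  have hev : evShrink M x = φ := by
    show shrink M (evQ (M * M) x) = φ
    rw [hx, hΘ, shrink_symm_apply]
  obtain ⟨f', hf', -⟩ := exists_evFM_eq_of_invariant M x (by rwa [hev])
  exact ⟨f', hf'.trans hev⟩

/-- The action of `SL₂(ℤ)`. -/
instance : MulSemiringAction SL(2, ℤ) (FM M) where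
  smul g f := (exists_evFM_eq_translate M g f).choose
  one_smul f := (evFM M).injective
    ((exists_evFM_eq_translate M 1 f).choose_spec.trans (by rw [map_one]; rfl))
  mul_smul g h f := (evFM M).injective (by
    show evFM M (exists_evFM_eq_translate M (g * h) f).choose =
      evFM M (exists_evFM_eq_translate M g (exists_evFM_eq_translate M h f).choose).choose
    rw [(exists_evFM_eq_translate M (g * h) f).choose_spec,
      (exists_evFM_eq_translate M g _).choose_spec,
      (exists_evFM_eq_translate M h f).choose_spec, map_mul]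
    rfl)
  smul_zero g := (evFM M).injective (by
    show evFM M (exists_evFM_eq_translate M g 0).choose = _
    rw [(exists_evFM_eq_translate M g 0).choose_spec, map_zero, map_zero])
  smul_add g f f' := (evFM M).injective (by
    show evFM M (exists_evFM_eq_translate M g (f + f')).choose =
      evFM M ((exists_evFM_eq_translate M g f).choose + (exists_evFM_eq_translate M g f').choose)
    rw [(exists_evFM_eq_translate M g _).choose_spec, map_add (evFM M) (exists_evFM_eq_translate M g f).choose,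
      (exists_evFM_eq_translate M g f).choose_spec,
      (exists_evFM_eq_translate M g f').choose_spec, map_add, map_add])
  smul_one g := (evFM M).injective (by
    show evFM M (exists_evFM_eq_translate M g 1).choose = _
    rw [(exists_evFM_eq_translate M g 1).choose_spec, map_one, map_one])
  smul_mul g f f' := (evFM M).injective (by
    show evFM M (exists_evFM_eq_translate M g (f * f')).choose =
      evFM M ((exists_evFM_eq_translate M g f).choose * (exists_evFM_eq_translate M g f').choose)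
    rw [(exists_evFM_eq_translate M g _).choose_spec, map_mul (evFM M) (exists_evFM_eq_translate M g f).choose,
      (exists_evFM_eq_translate M g f).choose_spec,
      (exists_evFM_eq_translate M g f').choose_spec, map_mul, map_mul])

theorem evFM_smul (g : SL(2, ℤ)) (f : FM M) : evFM M (g • f) = translate g (evFM M f) :=
  (exists_evFM_eq_translate M g f).choose_spec

theorem smul_algebraMap_FM (g : SL(2, ℤ)) (c : ℚ̄) :
    g • algebraMap ℚ̄ (FM M) c = algebraMap ℚ̄ (FM M) c :=
  (evFM M).injective (by rw [evFM_smul, evFM_algebraMap, translate_const])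

theorem smul_eq_self_of_mem_Gamma {g : SL(2, ℤ)} (hg : g ∈ Gamma M) (f : FM M) : g • f = f :=
  (evFM M).injective (by rw [evFM_smul, translate_evFM_of_mem_Gamma M hg])

/-- `T` multiplies the coefficient of `q_M ^ n` by `ζ ^ n`. -/
theorem exists_coeff_T_smul : ∃ ζ : ℚ̄, ζ ^ M = 1 ∧ ∀ (f : FM M) (n : ℤ),
    ((ModularGroup.T • f : FM M) : LaurentSeries ℚ̄).coeff n =
      ζ ^ n * (f : LaurentSeries ℚ̄).coeff n := by
  set c : ℂˣ := Units.mk0 (Function.Periodic.qParam (M : ℝ) ((-1 : ℤ) : ℂ))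
    (Function.Periodic.qParam_ne_zero _) with hc
  have hcM : ((c : ℂ)) ^ M = 1 := by
    rw [hc, Units.val_mk0, Function.Periodic.qParam, ← Complex.exp_nat_mul,
      Complex.exp_eq_one_iff]
    exact ⟨-1, by
      have : (M : ℂ) ≠ 0 := Nat.cast_ne_zero.mpr (NeZero.ne M)
      push_cast
      field_simp⟩
  obtain ⟨ξ, hξ⟩ := HasEnoughRootsOfUnity.exists_primitiveRoot ℚ̄ M
  obtain ⟨i, -, hi⟩ := (hξ.map_of_injective (f := complexEmbedding)
    complexEmbedding.injective).eq_pow_of_pow_eq_one hcM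
  refine ⟨ξ ^ i, by rw [← pow_mul, mul_comm, pow_mul, hξ.pow_eq_one, one_pow], fun f n => ?_⟩
  obtain ⟨a, b, x, y, -, hy, hx, hb, hab, hxy⟩ := exists_evQ_spec (baseFM M f)
  let φ : ℍ → ℍ := affineH M (-1) M
  set X : GLp := shrinkMat M * glSL ModularGroup.T * (shrinkMat M)⁻¹
  have hX : ∀ z, ((X⁻¹ : GLp) : GL (Fin 2) ℝ) • z = φ z := fun z => by
    simp only [X, mul_inv_rev, inv_inv, ← map_inv, Subgroup.coe_mul, mul_smul, coe_glSL,
      shrinkMat_inv_smul]
    refine UpperHalfPlane.ext ?_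
    rw [coe_shrinkMat_smul, ← ModularGroup.sl_moeb, UpperHalfPlane.coe_specialLinearGroup_apply]
    simp [φ]
  have htw : ∀ {F : Hol} {Z : LaurentSeries ℂ}, HasQExp 1 F.1 Z →
      HasQExp 1 (X • F : Hol).1 (twistSeries c Z) := fun {F Z} h => by
    have h1 := h.comp_of_qParam_eq (h' := 1) φ 1 c fun τ => by
      rw [pow_one, hc, Units.val_mk0, Function.Periodic.qParam, Function.Periodic.qParam,
        Function.Periodic.qParam, ← Complex.exp_add]
      congr 1
      simp only [φ, coe_affineH]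
      have : (M : ℂ) ≠ 0 := Nat.cast_ne_zero.mpr (NeZero.ne M)
      push_cast
      field_simp
      ring
    rw [qExpand_one_apply] at h1
    exact h1.congr fun τ => by rw [gl_smul_hol_apply, hX]; rfl
  set f' := baseFM M (ModularGroup.T • f)
  have key : evQ (M * M) f' = glTranslate X (evQ (M * M) (baseFM M f)) := by
    have h := congrArg (glTranslate (shrinkMat M)) (evFM_smul M ModularGroup.T f)
    rw [evFM_eq, evFM_eq, glTranslate_shrink, ← glTranslate_glSL, shrink, ← glTranslate_mul,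
      ← glTranslate_mul] at h
    exact h
  have hser := coe_mul_eq_of_evalMero1_mul_eq
    (F := EichlerShimura.bcHom (field (M * M)) complexEmbedding f') (htw hx) (htw hb)
    (by rw [← evQ_apply, key, ← glTranslate_algebraMap, ← glTranslate_algebraMap, ← map_mul, hab])
  rw [← hxy, map_mul] at hser
  have hco := congrArg (fun Z : LaurentSeries ℂ => Z.coeff n)
    (mul_right_cancel₀ ((map_ne_zero _).mpr hy) hser)
  simp only [coe_bcHom_eq, twistSeries_coeff, coeffMap_coeff, Units.val_zpow_eq_zpow_val] at hco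
  refine complexEmbedding.injective ?_
  show complexEmbedding _ = complexEmbedding _
  rw [map_mul, map_zpow₀, map_pow, hi]
  exact hco

/-- `τ ↦ f (M τ)` is defined over `ℚ̄` at level `M²`, with series `qExpand M f`. -/
theorem exists_evShrink_eq (f : FQ M) :
    ∃ x : FQ (M * M), (x : LaurentSeries ℚ̄) = qExpand ℚ̄ M (f : LaurentSeries ℚ̄) ∧
      evShrink M x = evQ M f := by
  have hinv : ∀ g ∈ Gamma M, translate g (evQ M f) = evQ M f := fun g hg => by
    refine translate_evQ ?_ f
    obtain ⟨h00, -, h10, h11⟩ := Gamma_mem.mp hg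
    exact (Gamma1_mem _ _).mpr ⟨h00, h11, h10⟩
  obtain ⟨F, hF⟩ := exists_evalMero1_eq (M * M)
    (fun γ hγ => translate_glTranslate_shrinkMat M hinv hγ)
    (hasFiniteOrderAtCusps_glTranslate (hasFiniteOrderAtCusps_evalMero1 M _) _ fun h => by
      have hT : (0 : ℤ) < (!![(M : ℤ), 0; 0, 1]).det := by
        rw [Matrix.det_fin_two_of]; simp [NeZero.pos M]
      refine ⟨!![(M : ℤ), 0; 0, 1] * h⁻¹.1, by
        rw [Matrix.det_mul, Matrix.SpecialLinearGroup.det_coe, mul_one]; exact hT, fun z => ?_⟩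
      rw [← posMat_mul hT (by rw [Matrix.SpecialLinearGroup.det_coe]; exact one_pos), ← glSL_eq_posMat]
      simp only [mul_inv_rev, Subgroup.coe_mul, mul_smul, map_inv, shrinkMat_inv_smul]
      refine UpperHalfPlane.ext ?_
      rw [coe_mulH, coe_posMat_smul]
      simp)
  obtain ⟨a, b, x, y, -, hy, hx, hb, hab, hxy⟩ := exists_evQ_spec f
  have hser := coe_mul_eq_of_evalMero1_mul_eq (F := F) (A := shrinkMat M • a) (B := shrinkMat M • b)
    ((hx.comp_mulH M).congr fun τ => (shrinkMat_smul_hol M a τ).symm)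
    ((hb.comp_mulH M).congr fun τ => (shrinkMat_smul_hol M b τ).symm)
    (by rw [hF, ← glTranslate_algebraMap, ← glTranslate_algebraMap, ← map_mul, hab])
  rw [← hxy, map_mul] at hser
  obtain ⟨z, hz, hzev⟩ := exists_evQ_eq_of_coeffMap (F := F)
    (y := qExpand ℚ̄ M (f : LaurentSeries ℚ̄)) (by
      rw [EichlerShimura.coeffMap_qExpand_comm]
      exact (mul_right_cancel₀ ((map_ne_zero _).mpr hy) hser).symm)
  refine ⟨z, hz, ?_⟩
  show shrink M (evQ (M * M) z) = _
  rw [hzev, hF, shrink_symm_apply]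

/-- `q ↦ q_M ^ M` maps the field of `X₁(M)` into `FM`. -/
theorem qExpand_mem_FM (f : FQ M) : qExpand ℚ̄ M (f : LaurentSeries ℚ̄) ∈ FM M := by
  obtain ⟨x, hx, hev⟩ := exists_evShrink_eq M f
  refine ⟨x, fun g hg => ?_, hx⟩
  obtain ⟨h00, -, h10, h11⟩ := Gamma_mem.mp hg
  rw [hev]
  exact translate_evQ ((Gamma1_mem _ _).mpr ⟨h00, h11, h10⟩) f

/-- The field of `X₁(M)` inside the field of level `Γ(M)`. -/
def ofFQ : FQ M →+* FM M :=
  ((qExpand ℚ̄ M).comp (FQ M).val.toRingHom).codRestrict _ fun f => qExpand_mem_FM M f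

@[simp]
theorem coe_ofFQ (f : FQ M) :
    (ofFQ M f : LaurentSeries ℚ̄) = qExpand ℚ̄ M (f : LaurentSeries ℚ̄) := rfl

theorem evFM_ofFQ (f : FQ M) : evFM M (ofFQ M f) = evQ M f := by
  obtain ⟨x, hx, hev⟩ := exists_evShrink_eq M f
  rw [← hev, evFM_eq]
  exact congrArg (fun z => shrink M (evQ (M * M) z)) (Subtype.ext hx.symm)

/-- The invariants of `Γ₀(M)` are the functions on `X₀(M)`: GAGA and descent. -/
theorem exists_eq_qExpand_of_smul_eq (f : FM M) (hf : ∀ g ∈ Gamma0 M, g • f = f) :
    ∃ x ∈ modularFunctionFieldBar M, (f : LaurentSeries ℚ̄) = qExpand ℚ̄ M x := by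
  have hS : (0 : ℤ) < (!![(1 : ℤ), 0; 0, (M : ℤ)]).det := by
    rw [Matrix.det_fin_two_of]; simp [NeZero.pos M]
  obtain ⟨c, hc⟩ := exists_evalMero_eq (N := M) (φ := evFM M f)
    (fun g hg => by rw [← evFM_smul, hf g hg])
    (hasFiniteOrderAtCusps_glTranslate (hasFiniteOrderAtCusps_evalMero1 (M * M)
      (EichlerShimura.bcHom (field (M * M)) complexEmbedding (baseFM M f))) (shrinkMat M)⁻¹
      fun h => by
        refine ⟨!![(1 : ℤ), 0; 0, (M : ℤ)] * h⁻¹.1, by
          rw [Matrix.det_mul, Matrix.SpecialLinearGroup.det_coe, mul_one]; exact hS, fun z => ?_⟩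
        rw [← posMat_mul hS (by rw [Matrix.SpecialLinearGroup.det_coe]; exact one_pos), ← glSL_eq_posMat,
          ← shrinkMat_eq]
        simp only [mul_inv_rev, inv_inv, Subgroup.coe_mul, map_inv])
  obtain ⟨a, b, x, y, hbne, hx, hb, hab, hxy⟩ := evalMero1_spec M (ofFC M c)
  rw [evalMero1_ofFC, hc] at hab
  rw [coe_ofFC] at hxy
  have hser := coe_mul_eq_of_evalMero1_mul_eq
    (F := EichlerShimura.bcHom (field (M * M)) complexEmbedding (baseFM M f))
    (A := shrinkMat M • a) (B := shrinkMat M • b)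
    ((hx.comp_mulH M).congr fun τ => (shrinkMat_smul_hol M a τ).symm)
    ((hb.comp_mulH M).congr fun τ => (shrinkMat_smul_hol M b τ).symm)
    (by rw [← glTranslate_algebraMap, ← glTranslate_algebraMap, ← hab, map_mul, evFM_eq,
      glTranslate_shrink, evQ_apply])
  rw [← hxy, map_mul, coe_bcHom_eq, coe_baseFM] at hser
  have hq := mul_right_cancel₀ ((map_ne_zero _).mpr (series_ne_zero hbne hb)) hser
  have hcoef : ∀ n, complexEmbedding ((f : LaurentSeries ℚ̄).coeff ((M : ℤ) * n)) =
      (c : LaurentSeries ℂ).coeff n := fun n => by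
    have h := congrArg (fun Z : LaurentSeries ℂ => Z.coeff ((M : ℤ) * n)) hq
    simpa [qExpand_coeff_mul] using h
  let x₀ : LaurentSeries ℚ̄ :=
    { coeff := fun n => (f : LaurentSeries ℚ̄).coeff ((M : ℤ) * n)
      isPWO_support' := (c : LaurentSeries ℂ).isPWO_support.mono fun n hn h => hn
        (complexEmbedding.injective ((hcoef n).trans (h.trans (map_zero complexEmbedding).symm))) }
  have hx₀ : coeffMap (complexEmbedding : ℚ̄ →+* ℂ) x₀ = (c : LaurentSeries ℂ) :=
    HahnSeries.ext (funext hcoef)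
  refine ⟨x₀, EichlerShimura.mem_of_coeffMap_mem (F₀ := modularFunctionFieldFull M)
    complexEmbedding ?_, HahnSeries.ext (funext fun n => complexEmbedding.injective ?_)⟩
  · rw [hx₀, show laurentBaseChange ℂ (modularFunctionFieldFull M) = FC M from FL_complex_eq_FC M]
    exact c.2
  · show (coeffMap (complexEmbedding : ℚ̄ →+* ℂ) (f : LaurentSeries ℚ̄)).coeff n =
      (coeffMap (complexEmbedding : ℚ̄ →+* ℂ) (qExpand ℚ̄ M x₀)).coeff n
    rw [EichlerShimura.coeffMap_qExpand_comm, hx₀, ← hq]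

end Fermat.Agent.DeligneSerre.XOne
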