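import Fermat.Agent.EichlerShimura.KummerExists
import Fermat.Agent.EichlerShimura.KummerComplex
import Fermat.Agent.Modular.CuspPlaces

/-!
# Roots of functions all whose orders are divisible by `n`, for any group

`F` is a function field with an evaluation `Λ : F →+* Mero`, invariant under `Γ` and with expansions
at level `M` at every cusp.  If all orders of `f` are divisible by `n`, then `Λ f` has an `n`-th
root in `Mero`, invariant under the elements of `Γ` of squared trace at most four.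
-/

set_option autoImplicit false

noncomputable section

open UpperHalfPlane hiding I
open AlgebraicCurve CongruenceSubgroup Filter
open Fermat.Agent.Modular Fermat.Agent.EichlerShimura
open scoped MatrixGroups Topology

namespace Fermat.Agent.DeligneSerre.XOne

theorem algebraMap_mero_ne_zero {F : Hol} (hF : F ≠ 0) : algebraMap Hol Mero F ≠ 0 :=
  (map_ne_zero_iff _ (IsFractionRing.injective Hol Mero)).mpr hF

/-- The multiplier at a fixed point is the power of the derivative given by the order. -/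
theorem multiplier_eq_zpow_ordPt {γ : SL(2, ℤ)} {z : ℍ} (hγ : γ • z = z) {φ : Mero} (hφ : φ ≠ 0)
    {c : ℂ} (h : translate γ⁻¹ φ = algebraMap ℂ Mero c * φ) :
    c = (1 / denom (γ : GL (Fin 2) ℝ) z ^ 2) ^ ordPt z φ := by
  obtain ⟨a, b, hb, rfl⟩ := IsFractionRing.div_surjective (A := Hol) φ
  have hb0 : b ≠ 0 := nonZeroDivisors.ne_zero hb
  have ha0 : a ≠ 0 := by rintro rfl; simp at hφ
  rw [map_div₀, translate_algebraMap, translate_algebraMap, ← mul_div_assoc,
    div_eq_div_iff (algebraMap_mero_ne_zero ((smul_ne_zero_iff_ne γ⁻¹).mpr hb0))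
      (algebraMap_mero_ne_zero hb0),
    IsScalarTower.algebraMap_apply ℂ Hol Mero, ← map_mul, ← map_mul, ← map_mul] at h
  have he := IsFractionRing.injective Hol Mero h
  obtain ⟨ca, hca, hta⟩ := exists_leading z ha0
  obtain ⟨cb, hcb, htb⟩ := exists_leading z hb0
  set ζ := 1 / denom (γ : GL (Fin 2) ℝ) z ^ 2 with hζ
  set na := holOrd z a with hna
  set nb := holOrd z b with hnb
  have l1 := (tendsto_leading_smul hγ hta).mul htb
  have l2 := (hta.mul (tendsto_leading_smul hγ htb)).const_mul c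
  have heq : (fun w : ℂ => ((γ⁻¹ • a : Hol) : ℍ → ℂ) (ofComplex w) / (w - z) ^ na *
      ((b : ℍ → ℂ) (ofComplex w) / (w - z) ^ nb)) = fun w : ℂ =>
      c * ((a : ℍ → ℂ) (ofComplex w) / (w - z) ^ na *
      (((γ⁻¹ • b : Hol) : ℍ → ℂ) (ofComplex w) / (w - z) ^ nb)) := by
    funext w
    have := congrArg (fun F : Hol => (F : ℍ → ℂ) (ofComplex w)) he
    simp only [MulMemClass.coe_mul, Pi.mul_apply] at this
    rw [show ((algebraMap ℂ Hol c : Hol) : ℍ → ℂ) (ofComplex w) = c from rfl] at this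
    rw [div_mul_div_comm, div_mul_div_comm, this]
    ring
  rw [heq] at l1
  have h' := tendsto_nhds_unique l2 l1
  rw [← hζ] at h'
  have hpow : c * ζ ^ nb = ζ ^ na := mul_left_cancel₀ (mul_ne_zero hca hcb) (by linear_combination h')
  have hord : ordPt z (algebraMap Hol Mero a / algebraMap Hol Mero b) = (na : ℤ) - nb := by
    have h2 := ordPt_mul (z := z) (φ := algebraMap Hol Mero a / algebraMap Hol Mero b)
      (ψ := algebraMap Hol Mero b) hφ (algebraMap_mero_ne_zero hb0)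
    rw [div_mul_cancel₀ _ (algebraMap_mero_ne_zero hb0), ordPt_algebraMap ha0,
      ordPt_algebraMap hb0] at h2
    omega
  rw [hord, zpow_sub₀ (multiplier_ne_zero γ z), zpow_natCast, zpow_natCast, ← hpow,
    mul_div_assoc, div_self (pow_ne_zero _ (multiplier_ne_zero γ z)), mul_one]

/-- `τ ↦ τ + i y`. -/
def shiftUp {y : ℝ} (hy : 0 ≤ y) (τ : ℍ) : ℍ :=
  ⟨(τ : ℂ) + Complex.I * y, by
    have := τ.im_pos
    simp
    linarith⟩

theorem coe_shiftUp {y : ℝ} (hy : 0 ≤ y) (τ : ℍ) :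
    (shiftUp hy τ : ℂ) = (τ : ℂ) + Complex.I * y := rfl

theorem im_shiftUp {y : ℝ} (hy : 0 ≤ y) (τ : ℍ) : (shiftUp hy τ).im = τ.im + y := by
  show ((τ : ℂ) + Complex.I * y).im = _
  simp

theorem vadd_shiftUp {y : ℝ} (hy : 0 ≤ y) (k : ℝ) (τ : ℍ) :
    shiftUp hy (k +ᵥ τ) = k +ᵥ shiftUp hy τ := by
  refine UpperHalfPlane.ext ?_
  rw [UpperHalfPlane.coe_vadd, coe_shiftUp, coe_shiftUp, UpperHalfPlane.coe_vadd]
  ring

/-- `eq_one_of_period_root` for a function continuous near `i∞` only. -/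
theorem eq_one_of_period_root_near {n : ℕ} (hn : n ≠ 0) {w : ℍ → ℂ} {Y : ℝ}
    (hw : ContinuousOn w {τ : ℍ | Y < τ.im}) {L : ℂ}
    (hL : L ≠ 0) (hlim : Tendsto (fun τ => w τ ^ n) atImInfty (𝓝 L)) {k : ℝ} {c : ℂ}
    (hcn : c ^ n = 1) (hper : ∀ τ : ℍ, Y < τ.im → w (k +ᵥ τ) = c * w τ) : c = 1 := by
  have hy : (0 : ℝ) ≤ max Y 0 := le_max_right _ _
  have hlt : ∀ τ : ℍ, Y < (shiftUp hy τ).im := fun τ => by
    rw [im_shiftUp]
    have := τ.im_pos
    have := le_max_left Y 0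
    linarith
  have hcont : Continuous (shiftUp hy) := by
    refine UpperHalfPlane.isEmbedding_coe.continuous_iff.mpr ?_
    exact UpperHalfPlane.continuous_coe.add continuous_const
  refine eq_one_of_period_root hn (w := w ∘ shiftUp hy) (hw.comp_continuous hcont hlt) hL
    (hlim.comp ?_) hcn (k := k) fun τ => ?_
  · refine tendsto_comap_iff.mpr (tendsto_atTop_mono (fun τ : ℍ => ?_) tendsto_comap)
    show τ.im ≤ (shiftUp hy τ).im
    rw [im_shiftUp]
    linarith
  · show w (shiftUp hy (k +ᵥ τ)) = c * w (shiftUp hy τ)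
    rw [vadd_shiftUp]
    exact hper _ (hlt τ)

/-- The expansion of a translate by a power of `T`. -/
theorem meroSeries_translate_T_zpow (M : ℕ) [NeZero M] (k : ℤ) {φ : Mero}
    (hφ : φ ∈ (expIntoMero M).fieldRange)
    (h : translate (ModularGroup.T ^ k) φ ∈ (expIntoMero M).fieldRange) :
    meroSeries M ⟨_, h⟩ = twistSeries (cuspRoot M (-k)) (meroSeries M ⟨φ, hφ⟩) := by
  have hφ' := hφ
  obtain ⟨z, hz⟩ := hφ'
  obtain ⟨a, b, hb, rfl⟩ := IsFractionRing.div_surjective (A := HolExp M) z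
  have hz' : φ = algebraMap Hol Mero (a : Hol) / algebraMap Hol Mero (b : Hol) := by
    rw [← hz, map_div₀, expIntoMero_algebraMap, expIntoMero_algebraMap]
  have hmem : ∀ c : HolExp M, algebraMap Hol Mero (c : Hol) ∈ (expIntoMero M).fieldRange :=
    fun c => ⟨algebraMap (HolExp M) _ c, expIntoMero_algebraMap M c⟩
  have e1 : (⟨φ, hφ⟩ : (expIntoMero M).fieldRange) = ⟨_, hmem a⟩ / ⟨_, hmem b⟩ :=
    Subtype.ext hz'
  have e2 : (⟨_, h⟩ : (expIntoMero M).fieldRange) =
      ⟨_, hmem ⟨_, T_zpow_smul_mem_holExp M a.2 k⟩⟩ /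
        ⟨_, hmem ⟨_, T_zpow_smul_mem_holExp M b.2 k⟩⟩ := by
    refine Subtype.ext ?_
    show translate _ φ = algebraMap Hol Mero _ / algebraMap Hol Mero _
    rw [hz', map_div₀, translate_algebraMap, translate_algebraMap]
  rw [e1, e2, map_div₀, map_div₀, meroSeries_mk M (T_zpow_smul_mem_holExp M a.2 k),
    meroSeries_mk M (T_zpow_smul_mem_holExp M b.2 k), meroSeries_mk M a.2, meroSeries_mk M b.2,
    map_div₀, qSeries_T_zpow_smul, qSeries_T_zpow_smul]

section Generic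

variable {K F : Type*} [Field K] [Field F] [Algebra K F] (ι : K →+* ℂ) (Λ : F →+* Mero)
  (hconst : ∀ a : K, Λ (algebraMap K F a) = algebraMap ℂ Mero (ι a))
variable {n : ℕ} {f : F}

include hconst

/-- A function with all orders divisible by `n` is an `n`-th power in `Mero`. -/
theorem exists_mero_root (hn : n ≠ 0) (hf : f ≠ 0)
    (hdvd : ∀ P : Place K F, (n : ℤ) ∣ P.ord f) : ∃ G : Mero, G ^ n = Λ f := by
  obtain ⟨A, B, hB, hab⟩ := IsFractionRing.div_surjective (A := Hol) (Λ f)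
  have hB0 : B ≠ 0 := nonZeroDivisors.ne_zero hB
  have hB' := algebraMap_mero_ne_zero hB0
  have hev : Λ f ≠ 0 := (map_ne_zero Λ).mpr hf
  have hA0 : A ≠ 0 := fun h => hev (by rw [← hab, h, map_zero, zero_div])
  have hH0 : A * B ^ (n - 1) ≠ 0 := mul_ne_zero hA0 (pow_ne_zero _ hB0)
  have hH : algebraMap Hol Mero (A * B ^ (n - 1)) = Λ f * algebraMap Hol Mero B ^ n := by
    rw [← hab, map_mul, map_pow, div_mul_eq_mul_div, eq_div_iff hB', mul_assoc, ← pow_succ,
      Nat.sub_add_cancel (Nat.one_le_iff_ne_zero.mpr hn)]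
  obtain ⟨R, hR⟩ := exists_hol_root hn hH0 fun z => by
    obtain ⟨t, r, m, -, -, hm⟩ := exists_valuation_eq_mul (K := K) (addOrd z) Λ
      (fun a ha => by rw [hconst]; exact addOrd_const z ((map_ne_zero ι).mpr ha)) hf hdvd
    have h := congrArg (ordPt z) hH
    rw [ordPt_algebraMap hH0, ordPt_mul hev (pow_ne_zero _ hB'), (ordPt_eq_of_addOrd hm).2,
      ← map_pow, ordPt_algebraMap (pow_ne_zero _ hB0), ordPt_pow_hol hB0] at h
    exact Int.natCast_dvd_natCast.mp ⟨m * r + holOrd z B, by rw [h]; ring⟩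
  refine ⟨algebraMap Hol Mero R / algebraMap Hol Mero B, ?_⟩
  rw [div_pow, ← map_pow, hR, hH, mul_div_assoc, div_self (pow_ne_zero _ hB'), mul_one]

variable {Γ : Subgroup SL(2, ℤ)} (hinv : ∀ γ ∈ Γ, ∀ x : F, translate γ (Λ x) = Λ x)
include hinv

/-- An `n`-th root is invariant under the elliptic elements of `Γ`. -/
theorem root_fixed_of_elliptic (hn : n ≠ 0) (hf : f ≠ 0)
    (hdvd : ∀ P : Place K F, (n : ℤ) ∣ P.ord f) {G : Mero} (hG : G ^ n = Λ f)
    {γ : SL(2, ℤ)} (hγ : γ ∈ Γ) {z : ℍ} (hz : γ • z = z)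
    {c : ℂ} (hc : translate γ⁻¹ G = algebraMap ℂ Mero c * G) : c = 1 := by
  have hev : Λ f ≠ 0 := (map_ne_zero Λ).mpr hf
  have hG0 : G ≠ 0 := fun h => hev (by rw [← hG, h, zero_pow hn])
  obtain ⟨t, r, m, ht, hr, hm⟩ := exists_valuation_eq_mul (K := K) (addOrd z) Λ
    (fun a ha => by rw [hconst]; exact addOrd_const z ((map_ne_zero ι).mpr ha)) hf hdvd
  have hζr : (1 / denom (γ : GL (Fin 2) ℝ) z ^ 2) ^ r = 1 :=
    (ordPt_eq_of_addOrd hr).2 ▸ multiplier_zpow_ordPt hz ((map_ne_zero Λ).mpr ht) (hinv γ hγ t)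
  have hpow : ∀ k : ℕ, ordPt z (G ^ k) = k * ordPt z G := by
    intro k
    induction k with
    | zero => simp [ordPt]
    | succ k ih => rw [pow_succ, ordPt_mul (pow_ne_zero k hG0) hG0, ih]; push_cast; ring
  have h := hpow n
  rw [hG, (ordPt_eq_of_addOrd hm).2] at h
  rw [multiplier_eq_zpow_ordPt hz hG0 hc, ← mul_left_cancel₀ (Nat.cast_ne_zero.mpr hn) h,
    mul_comm m, zpow_mul, hζr, one_zpow]

variable (M : ℕ) [NeZero M]
  (hexp : ∀ (g : SL(2, ℤ)) (x : F), translate g (Λ x) ∈ (expIntoMero M).fieldRange)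
include hexp

/-- An `n`-th root is invariant under the elements of `Γ` of trace `±2`. -/
theorem root_fixed_of_parabolic (hn : n ≠ 0) (hf : f ≠ 0)
    (hdvd : ∀ P : Place K F, (n : ℤ) ∣ P.ord f) {G : Mero} (hG : G ^ n = Λ f)
    {γ : SL(2, ℤ)} (hγ : γ ∈ Γ) {c : ℂ} (hc : translate γ⁻¹ G = algebraMap ℂ Mero c * G)
    (hcn : c ^ n = 1) (htr : (γ : Matrix (Fin 2) (Fin 2) ℤ).trace ^ 2 = 4) : c = 1 := by
  obtain ⟨δ, k, hk⟩ := Periods.exists_conj_translation γ htr
  have hsmul : ∀ H : Hol, ModularGroup.T ^ (-k) • (δ⁻¹ • H) = δ⁻¹ • (γ⁻¹ • H) := fun H => by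
    refine Subtype.ext (funext fun τ => ?_)
    simp only [smul_hol_apply, inv_inv, ← zpow_neg, neg_neg, modular_T_zpow_smul, hk]
  have htrans : ∀ φ : Mero, translate (ModularGroup.T ^ (-k)) (translate δ⁻¹ φ) =
      translate δ⁻¹ (translate γ⁻¹ φ) := fun φ => by
    obtain ⟨a, b, -, rfl⟩ := IsFractionRing.div_surjective (A := Hol) φ
    simp only [map_div₀, translate_algebraMap, hsmul]
  let σ : F →+* LaurentSeries ℂ := (meroSeries M).comp
    (((translate δ⁻¹).toRingHom.comp Λ).codRestrict _ (hexp δ⁻¹))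
  have hσ : ∀ x, σ x = meroSeries M ⟨translate δ⁻¹ (Λ x), hexp _ x⟩ := fun _ => rfl
  have hσconst : ∀ a : K, σ (algebraMap K F a) = algebraMap ℂ (LaurentSeries ℂ) (ι a) := fun a => by
    have he : translate δ⁻¹ (Λ (algebraMap K F a)) =
        algebraMap Hol Mero (algebraMap ℂ Hol (ι a)) := by
      rw [hconst, translate_const, IsScalarTower.algebraMap_apply ℂ Hol Mero]
    rw [hσ, show (⟨_, hexp δ⁻¹ (algebraMap K F a)⟩ : (expIntoMero M).fieldRange) =
      ⟨_, he ▸ hexp δ⁻¹ (algebraMap K F a)⟩ from Subtype.ext he,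
      meroSeries_mk M ((HolExp M).algebraMap_mem (ι a))]
    exact (qSeries M).commutes (ι a)
  let v := HahnSeries.addVal ℤ ℂ
  obtain ⟨t, r, m, ht, hr, hm⟩ := exists_valuation_eq_mul (K := K) v σ (fun x hx => by
    rw [hσconst, ModularCurve.algebraMap_laurentSeries_eq_single, HahnSeries.addVal_apply,
      HahnSeries.orderTop_single ((map_ne_zero ι).mpr hx)]
    rfl) hf hdvd
  have hfix : ∀ x, translate (ModularGroup.T ^ (-k)) (translate δ⁻¹ (Λ x)) = translate δ⁻¹ (Λ x) :=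
    fun x => by rw [htrans, hinv _ (inv_mem hγ)]
  have htw : twistSeries (cuspRoot M k) (σ t) = σ t := by
    have h := meroSeries_translate_T_zpow M (-k) (hexp δ⁻¹ t) ((hfix t).symm ▸ hexp δ⁻¹ t)
    rw [neg_neg] at h
    rw [hσ, ← h]
    exact congrArg _ (Subtype.ext (hfix t))
  have hkr : (M : ℤ) ∣ k * r := dvd_mul_of_twistSeries_eq M htw hr
  have hks : (M : ℤ) ∣ k * (m * r) := by rw [mul_left_comm]; exact Dvd.dvd.mul_left hkr m
  -- a presentation at the cusp
  obtain ⟨z, hz⟩ := hexp δ⁻¹ f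
  obtain ⟨A, B, hB, rfl⟩ := IsFractionRing.div_surjective (A := HolExp M) z
  have hB0 : B ≠ 0 := nonZeroDivisors.ne_zero hB
  have hBH : (B : Hol) ≠ 0 := fun h => hB0 (Subtype.ext h)
  have hB' := algebraMap_mero_ne_zero hBH
  have hev : translate δ⁻¹ (Λ f) =
      algebraMap Hol Mero (A : Hol) / algebraMap Hol Mero (B : Hol) := by
    rw [← hz, map_div₀, expIntoMero_algebraMap, expIntoMero_algebraMap]
  have hev0 : translate δ⁻¹ (Λ f) ≠ 0 := (map_ne_zero _).mpr ((map_ne_zero Λ).mpr hf)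
  have hG0 : G ≠ 0 := fun h => (map_ne_zero Λ).mpr hf (by rw [← hG, h, zero_pow hn])
  have hA0 : A ≠ 0 := fun h => hev0 (by rw [hev, h, ZeroMemClass.coe_zero, map_zero, zero_div])
  obtain ⟨H, hH⟩ := exists_hol_of_pow_eq hn
    (P := translate δ⁻¹ G * algebraMap Hol Mero (B : Hol))
    (mul_ne_zero ((map_ne_zero _).mpr hG0) hB') (A := (A : Hol) * (B : Hol) ^ (n - 1)) (by
      rw [mul_pow, ← map_pow (translate δ⁻¹), hG, hev, map_mul, map_pow, div_mul_eq_mul_div,
        div_eq_iff hB', mul_assoc, ← pow_succ, Nat.sub_add_cancel (Nat.one_le_iff_ne_zero.mpr hn)])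
  have hHn : H ^ n = (A : Hol) * (B : Hol) ^ (n - 1) := by
    refine IsFractionRing.injective Hol Mero ?_
    rw [map_pow, hH, mul_pow, ← map_pow (translate δ⁻¹), hG, hev, map_mul, map_pow,
      div_mul_eq_mul_div, div_eq_iff hB', mul_assoc, ← pow_succ,
      Nat.sub_add_cancel (Nat.one_le_iff_ne_zero.mpr hn)]
  -- periodicity
  have hperH : (ModularGroup.T ^ (-k) • H) * (B : Hol) =
      algebraMap ℂ Hol c * H * (ModularGroup.T ^ (-k) • (B : Hol)) := by
    refine IsFractionRing.injective Hol Mero ?_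
    rw [map_mul, map_mul, map_mul, ← translate_algebraMap, ← translate_algebraMap, hH, map_mul,
      htrans, hc, map_mul, translate_const, ← IsScalarTower.algebraMap_apply]
    ring
  -- near infinity
  set xA := qSeries M A with hxA
  set xB := qSeries M B with hxB
  have hxA0 : xA ≠ 0 := (map_ne_zero_iff _ (qSeries_injective M)).mpr hA0
  have hxB0 : xB ≠ 0 := (map_ne_zero_iff _ (qSeries_injective M)).mpr hB0
  have hσf : σ f * xB = xA := by
    rw [hσ]
    have e : (⟨translate δ⁻¹ (Λ f), hexp δ⁻¹ f⟩ : (expIntoMero M).fieldRange) *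
        ⟨algebraMap Hol Mero (B : Hol), ⟨_, expIntoMero_algebraMap M B⟩⟩ =
        ⟨algebraMap Hol Mero (A : Hol), ⟨_, expIntoMero_algebraMap M A⟩⟩ := Subtype.ext (by
      show translate δ⁻¹ (Λ f) * _ = _
      rw [hev, div_mul_cancel₀ _ hB'])
    have := congrArg (meroSeries M) e
    rwa [map_mul, meroSeries_mk, meroSeries_mk] at this
  have hord : xA.order = (n : ℤ) * (m * r) + xB.order := by
    have h := congrArg v hσf
    rw [AddValuation.map_mul, hm, HahnSeries.addVal_apply, HahnSeries.addVal_apply,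
      ← HahnSeries.order_eq_orderTop_of_ne_zero hxA0,
      ← HahnSeries.order_eq_orderTop_of_ne_zero hxB0, ← WithTop.coe_add, WithTop.coe_eq_coe] at h
    exact h.symm
  have hM : (0 : ℝ) < M := Nat.cast_pos.mpr (NeZero.pos M)
  have hlA := (hasQExp_qSeries M A).tendsto hM (m := xA.order)
    fun i hi => HahnSeries.coeff_eq_zero_of_lt_order hi
  have hlB := (hasQExp_qSeries M B).tendsto hM (m := xB.order)
    fun i hi => HahnSeries.coeff_eq_zero_of_lt_order hi
  have hcA := HahnSeries.coeff_order_eq_zero.not.mpr hxA0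
  have hcB := HahnSeries.coeff_order_eq_zero.not.mpr hxB0
  obtain ⟨Y, hY⟩ := (UpperHalfPlane.atImInfty_mem _).mp (hlB.eventually_ne hcB)
  have hBne : ∀ τ : ℍ, Y ≤ τ.im → (B : Hol).1 τ ≠ 0 := fun τ h => left_ne_zero_of_mul (hY τ h)
  let q : ℍ → ℂ := fun τ => Function.Periodic.qParam (M : ℝ) τ
  have hq0 : ∀ τ, q τ ≠ 0 := fun τ => Function.Periodic.qParam_ne_zero _
  refine eq_one_of_period_root_near hn (Y := Y)
    (w := fun τ => H.1 τ / (B : Hol).1 τ * (q τ ^ (m * r))⁻¹) ?_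
    (div_ne_zero hcA hcB) ?_ hcn (k := (k : ℝ)) ?_
  · refine ContinuousOn.mul (H.2.continuous.continuousOn.div (B : Hol).2.continuous.continuousOn
      fun τ h => hBne τ (le_of_lt h)) (Continuous.continuousOn ?_)
    exact (((Function.Periodic.differentiable_qParam).continuous.comp
      UpperHalfPlane.continuous_coe).zpow₀ _ fun τ => Or.inl (hq0 τ)).inv₀
        fun τ => zpow_ne_zero _ (hq0 τ)
  · refine (hlA.div hlB hcB).congr' ?_
    filter_upwards [(UpperHalfPlane.atImInfty_mem {τ | Y ≤ τ.im}).mpr ⟨Y, fun τ h => h⟩] with τ hτ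
    have hb := hBne τ hτ
    have hH' : H.1 τ ^ n = (A : Hol).1 τ * (B : Hol).1 τ ^ (n - 1) := by
      have := congrArg (fun F : Hol => F.1 τ) hHn
      simpa using this
    have e : (H.1 τ / (B : Hol).1 τ) ^ n = (A : Hol).1 τ / (B : Hol).1 τ := by
      rw [div_pow, hH']
      obtain ⟨n, rfl⟩ := Nat.exists_eq_succ_of_ne_zero hn
      rw [Nat.succ_sub_one, pow_succ]
      field_simp
    show (A : Hol).1 τ * (q τ ^ xA.order)⁻¹ / ((B : Hol).1 τ * (q τ ^ xB.order)⁻¹) =
      (H.1 τ / (B : Hol).1 τ * (q τ ^ (m * r))⁻¹) ^ n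
    rw [hord, zpow_add₀ (hq0 τ), mul_pow, e, inv_pow, ← zpow_natCast (q τ ^ (m * r)), ← zpow_mul,
      mul_comm (m * r)]
    have := zpow_ne_zero xB.order (hq0 τ)
    field_simp
  · intro τ hτ
    have h := congrArg (fun F : Hol => F.1 τ) hperH
    simp only [MulMemClass.coe_mul, Pi.mul_apply, smul_hol_apply, ← zpow_neg, neg_neg,
      modular_T_zpow_smul] at h
    rw [show ((algebraMap ℂ Hol c : Hol) : ℍ → ℂ) τ = c from rfl] at h
    have h1 : Y ≤ ((k : ℝ) +ᵥ τ).im := by rw [UpperHalfPlane.vadd_im]; exact hτ.le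
    have h2 : q ((k : ℝ) +ᵥ τ) ^ (m * r) = q τ ^ (m * r) := by
      show Function.Periodic.qParam (M : ℝ) _ ^ _ = _
      rw [← modular_T_zpow_smul, qParam_T_zpow_smul, mul_zpow, ← Units.val_zpow_eq_zpow_val,
        (cuspRoot_zpow_eq_one_iff M k _).mpr hks, one_mul]
    show H.1 _ / (B : Hol).1 _ * (q _ ^ _)⁻¹ = c * (H.1 τ / (B : Hol).1 τ * (q τ ^ _)⁻¹)
    rw [h2, ← mul_assoc, mul_div_assoc']
    congr 1
    rw [div_eq_div_iff (hBne _ h1) (hBne _ hτ.le), h]

end Generic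

end Fermat.Agent.DeligneSerre.XOne

end
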