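import Fermat.Agent.EichlerShimura.PlaceDivisibility
import Fermat.Agent.DeligneSerre.XOne.Root

/-!
# Divisibility at every place, for any group

`F` is a function field with an evaluation `Λ : F →+* Mero` of degree `[SL₂(ℤ) : Γ]` over `j`,
invariant under `Γ ∋ -1`, separating its cosets, with expansions at level `M`.  Every place comes
from a point or a cusp; hence if `Λ f = G ^ n` with `G` holomorphic, invariant under the elliptic
and parabolic elements of `Γ` and with expansions at level `M`, then `n` divides all orders of `f`.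
-/

set_option autoImplicit false

noncomputable section

open UpperHalfPlane hiding I
open AlgebraicCurve CongruenceSubgroup Fermat.Agent.Modular Fermat.Agent.Curve
open Fermat.Agent.EichlerShimura
open scoped MatrixGroups IntermediateField

namespace Fermat.Agent.DeligneSerre.XOne

section Series

variable {F : Type*} [Field F] (M : ℕ) [NeZero M]

/-- The expansion of an embedding all whose values have one. -/
def seriesHom (φ : F →+* Mero) (h : ∀ x, φ x ∈ (expIntoMero M).fieldRange) :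
    F →+* LaurentSeries ℂ :=
  (meroSeries M).comp (φ.codRestrict _ h)

theorem seriesHom_apply (φ : F →+* Mero) (h : ∀ x, φ x ∈ (expIntoMero M).fieldRange) (x : F) :
    seriesHom M φ h x = meroSeries M (⟨φ x, h x⟩ : (expIntoMero M).fieldRange) := rfl

theorem seriesHom_eq_qSeries {φ : F →+* Mero} (h : ∀ x, φ x ∈ (expIntoMero M).fieldRange) {x : F}
    {F₀ : Hol} (hF : F₀ ∈ HolExp M) (hx : φ x = algebraMap Hol Mero F₀) :
    seriesHom M φ h x = qSeries M ⟨F₀, hF⟩ := by
  have e : (⟨φ x, h x⟩ : (expIntoMero M).fieldRange) = ⟨algebraMap Hol Mero F₀, hx ▸ h x⟩ :=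
    Subtype.ext hx
  rw [seriesHom_apply, e]
  exact meroSeries_mk M hF _

theorem seriesHom_translate_T_zpow {φ ψ : F →+* Mero}
    (hφ : ∀ x, φ x ∈ (expIntoMero M).fieldRange) (hψ : ∀ x, ψ x ∈ (expIntoMero M).fieldRange)
    {k : ℤ} {x : F} (hx : translate (ModularGroup.T ^ k) (φ x) = ψ x) :
    seriesHom M ψ hψ x = twistSeries (cuspRoot M (-k)) (seriesHom M φ hφ x) := by
  have e : (⟨ψ x, hψ x⟩ : (expIntoMero M).fieldRange) =
      ⟨translate (ModularGroup.T ^ k) (φ x), hx.symm ▸ hψ x⟩ := Subtype.ext hx.symm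
  rw [seriesHom_apply, seriesHom_apply, e]
  exact meroSeries_translate_T_zpow M k (hφ x) _

theorem seriesHom_injective_ext {φ ψ : F →+* Mero}
    (hφ : ∀ x, φ x ∈ (expIntoMero M).fieldRange) (hψ : ∀ x, ψ x ∈ (expIntoMero M).fieldRange)
    (h : seriesHom M φ hφ = seriesHom M ψ hψ) (x : F) : φ x = ψ x :=
  congrArg Subtype.val (meroSeries_injective M (RingHom.congr_fun h x))

attribute [irreducible] seriesHom

end Series

variable (Γ : Subgroup SL(2, ℤ))

/-- The class of a coset under the stabiliser of `z`. -/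
def stabCls (z : ℍ) (q : SL(2, ℤ) ⧸ Γ) :
    Quotient (MulAction.orbitRel (MulAction.stabilizer SL(2, ℤ) z) (SL(2, ℤ) ⧸ Γ)) :=
  Quotient.mk'' q

/-- The class of a coset under translations. -/
def cuspCls (q : SL(2, ℤ) ⧸ Γ) :
    Quotient (MulAction.orbitRel (Subgroup.zpowers ModularGroup.T) (SL(2, ℤ) ⧸ Γ)) :=
  Quotient.mk'' q

theorem stabCls_eq_iff (z : ℍ) (q q' : SL(2, ℤ) ⧸ Γ) :
    stabCls Γ z q = stabCls Γ z q' ↔ ∃ γ : SL(2, ℤ), γ • z = z ∧ γ • q' = q := by
  rw [stabCls, stabCls, Quotient.eq'', MulAction.orbitRel_apply]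
  constructor
  · rintro ⟨γ, rfl⟩; exact ⟨γ, γ.2, rfl⟩
  · rintro ⟨γ, hγ, rfl⟩; exact ⟨⟨γ, hγ⟩, rfl⟩

theorem T_zpow_card_cuspCls_smul (q : SL(2, ℤ) ⧸ Γ) :
    ModularGroup.T ^ (Nat.card {p : SL(2, ℤ) ⧸ Γ // cuspCls Γ p = cuspCls Γ q} : ℤ) • q = q := by
  have h : Nat.card {p : SL(2, ℤ) ⧸ Γ // cuspCls Γ p = cuspCls Γ q} =
      Function.minimalPeriod (ModularGroup.T • ·) q := by
    rw [Nat.card_congr (Equiv.subtypeEquivRight (q := (· ∈
      MulAction.orbit (Subgroup.zpowers ModularGroup.T) q)) fun p => by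
        rw [cuspCls, cuspCls, Quotient.eq'', MulAction.orbitRel_apply])]
    rw [← Nat.card_zmod (Function.minimalPeriod (ModularGroup.T • ·) q)]
    exact Nat.card_congr (MulAction.orbitZPowersEquiv ModularGroup.T q)
  rw [h, MulAction.zpow_smul_eq_iff_minimalPeriod_dvd]

variable {Γ}
variable (hneg : (-1 : SL(2, ℤ)) ∈ Γ)

include hneg

theorem neg_smul_cls (g : SL(2, ℤ)) (q : SL(2, ℤ) ⧸ Γ) : (-g) • q = g • q := by
  induction q using QuotientGroup.induction_on with
  | H h =>
    rw [MulAction.Quotient.smul_coe, MulAction.Quotient.smul_coe, QuotientGroup.eq]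
    simp only [smul_eq_mul, neg_mul, inv_neg, inv_mul_cancel]
    exact hneg

/-- The divisibility at `z` used to count the places above `j (z)`. -/
theorem exists_dvd_card_mul_ordPt (c : ℂ) : ∃ z : ℍ, kleinJ z = c ∧
    ∀ (q : SL(2, ℤ) ⧸ Γ) (φ : Mero), φ ≠ 0 →
      (∀ γ : SL(2, ℤ), γ • z = z → γ • q = q → translate γ φ = φ) →
      (jDegree z : ℤ) ∣
        (Nat.card {q' // stabCls Γ z q' = stabCls Γ z q} : ℤ) * ordPt z φ := by
  classical
  by_cases h0 : c = 0
  · refine ⟨pointRho, h0 ▸ (kleinJ_eq_zero_iff _).2 E4_pointRho, fun q φ hφ hfix => ?_⟩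
    rw [jDegree_pointRho]
    set R : SL(2, ℤ) := ModularGroup.S * ModularGroup.T with hR
    have h3 : ∀ x : SL(2, ℤ) ⧸ Γ, R ^ 3 • x = x := fun x => by
      rw [show R ^ 3 = (-1 : SL(2, ℤ)) by rw [hR]; decide +kernel, neg_smul_cls hneg, one_smul]
    by_cases hq : R • q = q
    · exact Dvd.dvd.mul_left (three_dvd_ordPt_pointRho hφ
        (hfix _ ((stabilizer_pointRho_iff _).2 (by tauto)) hq)) _
    have : ∀ q', stabCls Γ pointRho q' = stabCls Γ pointRho q ↔
        q' ∈ ({q, R • q, R ^ 2 • q} : Finset _) := by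
      intro q'
      rw [stabCls_eq_iff]
      simp only [Finset.mem_insert, Finset.mem_singleton]
      constructor
      · rintro ⟨γ, hγ, rfl⟩
        rcases (stabilizer_pointRho_iff γ).1 hγ with rfl | rfl | rfl | rfl | rfl | rfl <;>
          simp [neg_smul_cls hneg, hR]
      · rintro (rfl | rfl | rfl)
        · exact ⟨1, one_smul _ _, one_smul _ _⟩
        · exact ⟨R, (stabilizer_pointRho_iff _).2 (by tauto), rfl⟩
        · exact ⟨R ^ 2, (stabilizer_pointRho_iff _).2 (by tauto), rfl⟩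
    have hcard : ({q, R • q, R ^ 2 • q} : Finset _).card = 3 := by
      refine Finset.card_eq_three.mpr ⟨q, R • q, R ^ 2 • q, Ne.symm hq, fun e => hq ?_,
        fun e => hq ?_, rfl⟩
      · calc R • q = R • (R ^ 2 • q) := by rw [← e]
          _ = q := by rw [← mul_smul, ← pow_succ', h3]
      · rw [pow_two, mul_smul R R q] at e
        exact (MulAction.injective R e).symm
    rw [Nat.card_congr (Equiv.subtypeEquivRight this), Nat.card_eq_finsetCard, hcard]
    exact dvd_mul_right _ _
  by_cases h1 : c = 1728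
  · refine ⟨UpperHalfPlane.I, h1 ▸ (kleinJ_eq_1728_iff _).2 E6_I, fun q φ hφ hfix => ?_⟩
    rw [jDegree_I]
    by_cases hq : ModularGroup.S • q = q
    · exact Dvd.dvd.mul_left
        (two_dvd_ordPt_I hφ (hfix _ ((stabilizer_I_iff _).2 (by tauto)) hq)) _
    have : ∀ q', stabCls Γ UpperHalfPlane.I q' = stabCls Γ UpperHalfPlane.I q ↔
        q' ∈ ({q, ModularGroup.S • q} : Finset _) := by
      intro q'
      rw [stabCls_eq_iff]
      simp only [Finset.mem_insert, Finset.mem_singleton]
      constructor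
      · rintro ⟨γ, hγ, rfl⟩
        rcases (stabilizer_I_iff γ).1 hγ with rfl | rfl | rfl | rfl <;>
          simp [neg_smul_cls hneg]
      · rintro (rfl | rfl)
        · exact ⟨1, one_smul _ _, one_smul _ _⟩
        · exact ⟨ModularGroup.S, (stabilizer_I_iff _).2 (by tauto), rfl⟩
    rw [Nat.card_congr (Equiv.subtypeEquivRight this), Nat.card_eq_finsetCard,
      Finset.card_pair (Ne.symm hq)]
    exact dvd_mul_right _ _
  obtain ⟨z, rfl⟩ := kleinJ_surjective c
  exact ⟨z, rfl, fun q φ _ _ => by rw [jDegree_eq_one h0 h1]; exact one_dvd _⟩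

omit hneg in
/-- A translate of an invariant function is invariant under the small elements fixing the coset. -/
theorem smul_translate_of_fixed {G : Hol}
    (hG : ∀ γ ∈ Γ, (γ : Matrix (Fin 2) (Fin 2) ℤ).trace ^ 2 ≤ 4 → γ • G = G)
    {γ g : SL(2, ℤ)} (htr : (γ : Matrix (Fin 2) (Fin 2) ℤ).trace ^ 2 ≤ 4)
    (hfix : γ • (g : SL(2, ℤ) ⧸ Γ) = (g : SL(2, ℤ) ⧸ Γ)) : γ • (g • G) = g • G := by
  have hmem : g⁻¹ * γ * g ∈ Γ := by
    rw [MulAction.Quotient.smul_coe, smul_eq_mul] at hfix
    simpa [mul_assoc] using QuotientGroup.eq.mp hfix.symm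
  have h := hG _ hmem (by rwa [trace_conj_SL])
  calc γ • (g • G) = g • ((g⁻¹ * γ * g) • G) := by
        rw [← mul_smul, ← mul_smul]; simp [mul_assoc]
    _ = g • G := by rw [h]

variable [Γ.FiniteIndex] {K F : Type*} [Field K] [IsAlgClosed K] [CharZero K] [Field F] [Algebra K F]
  [IsFunctionField1 K F] (ι : K →+* ℂ) (Λ : F →+* Mero)
  (hconst : ∀ a : K, Λ (algebraMap K F a) = algebraMap ℂ Mero (ι a))
  (hinv : ∀ γ ∈ Γ, ∀ x : F, translate γ (Λ x) = Λ x)
  (hdist : ∀ g h : SL(2, ℤ), (∀ x, translate g (Λ x) = translate h (Λ x)) → g⁻¹ * h ∈ Γ)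
  {j : F} (hj : Λ j = algebraMap Hol Mero (jHol 1)) (hjt : Transcendental K j)
  (hdeg : Module.finrank K⟮j⟯ F = Γ.index)
  (M : ℕ) [NeZero M]
  (hexp : ∀ (g : SL(2, ℤ)) (x : F), translate g (Λ x) ∈ (expIntoMero M).fieldRange)

include hconst hinv hdist hj hjt hdeg hexp

/-- If `Λ f = G ^ n` with `G` admissible, `n` divides every order of `f`. -/
theorem dvd_ord_of_root_generic {G : Hol} (hG0 : G ≠ 0)
    (hG : ∀ γ ∈ Γ, (γ : Matrix (Fin 2) (Fin 2) ℤ).trace ^ 2 ≤ 4 → γ • G = G)
    (hGexp : ∀ g : SL(2, ℤ), g • G ∈ HolExp M)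
    {n : ℕ} {f : F} (hf : f ≠ 0) (hfG : Λ f = algebraMap Hol Mero G ^ n)
    (P : Place K F) : (n : ℤ) ∣ P.ord f := by
  classical
  let _ : Fintype (SL(2, ℤ) ⧸ Γ) := Fintype.ofFinite _
  let σ : SL(2, ℤ) ⧸ Γ → F →+* Mero := fun q => (translate q.out).toRingHom.comp Λ
  have hσ : ∀ (g : SL(2, ℤ)) (x : F), σ (g : SL(2, ℤ) ⧸ Γ) x = translate g (Λ x) := by
    intro g x
    obtain ⟨γ, hγ⟩ := QuotientGroup.mk_out_eq_mul Γ g
    show translate _ (Λ x) = _
    rw [hγ, translate_mul, hinv _ γ.2]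
  have hσm : ∀ (γ : SL(2, ℤ)) q x, translate γ (σ q x) = σ (γ • q) x := by
    intro γ q x
    induction q using QuotientGroup.induction_on with
    | H g => rw [MulAction.Quotient.smul_coe, smul_eq_mul, hσ, hσ, translate_mul]
  have hσinj : ∀ q q', (∀ x, σ q x = σ q' x) → q = q' := by
    intro q q' h
    induction q using QuotientGroup.induction_on with
    | H g =>
      induction q' using QuotientGroup.induction_on with
      | H g' =>
        rw [QuotientGroup.eq]
        exact hdist g g' fun x => by rw [← hσ, ← hσ, h]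
  have hσG : ∀ g : SL(2, ℤ), σ (g : SL(2, ℤ) ⧸ Γ) f = algebraMap Hol Mero (g • G) ^ n := fun g => by
    rw [hσ, hfG, map_pow, translate_algebraMap]
  have hjk : Λ j = algebraMap Hol Mero kleinJHol := by
    rw [hj]
    exact congrArg _ (Subtype.ext (funext fun w => congrArg kleinJ (UpperHalfPlane.ext (by simp))))
  rcases lt_or_ge (P.ord j) 0 with hlt | hge
  · -- a cusp
    let _ : Fintype (Quotient (MulAction.orbitRel (Subgroup.zpowers ModularGroup.T) (SL(2, ℤ) ⧸ Γ))) :=
      Fintype.ofFinite _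
    have hj0 : j ≠ 0 := fun h => hjt (h ▸ isAlgebraic_zero)
    have hmem : ∀ q x, σ q x ∈ (expIntoMero M).fieldRange := fun q x => hexp q.out x
    let τ : SL(2, ℤ) ⧸ Γ → F →+* LaurentSeries ℂ := fun q => seriesHom M (σ q) (hmem q)
    have hτval : ∀ q x (F₀ : Hol) (hF : F₀ ∈ HolExp M), σ q x = algebraMap Hol Mero F₀ →
        τ q x = qSeries M ⟨F₀, hF⟩ := by
      intro q x F₀ hF h
      exact seriesHom_eq_qSeries M (hmem q) hF h
    have hτT : ∀ (k : ℤ) q x, τ (ModularGroup.T ^ k • q) x = twistSeries (cuspRoot M (-k)) (τ q x) := by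
      intro k q x
      exact seriesHom_translate_T_zpow M (hmem q) (hmem _) (hσm _ q x)
    have h1 : jHol 1 ∈ HolExp M := by simpa using smul_jHol_mem M 1 (one_dvd M)
    have hτj : ∀ q, τ q j = ModularCurve.qExpand ℂ M (ModularCurve.jqModC ℂ) := fun q => by
      rw [hτval q j (jHol 1) h1 (by
        show translate _ (Λ j) = _
        rw [hj, translate_algebraMap, smul_jHol_one]), qSeries_jHol_one]
    have hτc : ∀ q (a : K), τ q (algebraMap K F a) = algebraMap ℂ (LaurentSeries ℂ) (ι a) := by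
      intro q a
      rw [hτval q _ _ ((HolExp M).algebraMap_mem (ι a)) (by
        show translate _ (Λ _) = _
        rw [hconst, translate_const, IsScalarTower.algebraMap_apply ℂ Hol Mero])]
      exact (qSeries M).commutes (ι a)
    have hfield : K⟮j⁻¹⟯ = K⟮j⟯ := by
      refine le_antisymm ?_ ?_
      · exact IntermediateField.adjoin_simple_le_iff.mpr
          (inv_mem (IntermediateField.mem_adjoin_simple_self K j))
      · exact IntermediateField.adjoin_simple_le_iff.mpr
          (by simpa using inv_mem (IntermediateField.mem_adjoin_simple_self K j⁻¹))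
    have hM : (M : ℤ) ≠ 0 := by exact_mod_cast NeZero.ne M
    have hvy : ∀ q, HahnSeries.addVal ℤ ℂ (τ q j⁻¹) = ((M : ℤ) : WithTop ℤ) := fun q => by
      rw [map_inv₀, AddValuation.map_inv, hτj, addVal_qExpand_jqModC,
        ← WithTop.LinearOrderedAddCommGroup.coe_neg, neg_neg]
    obtain ⟨Φ, hΦ, hmemΦ⟩ := exists_equiv_places_above (HahnSeries.addVal ℤ ℂ) (cuspCls Γ)
      Quotient.mk''_surjective j⁻¹ (fun h => hjt (by simpa using h.inv)) τ
      (fun q q' h => hσinj q q' (seriesHom_injective_ext M (hmem q) (hmem q') h))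
      (by rw [hfield, hdeg, ← Nat.card_eq_fintype_card]; rfl)
      (fun p q a => by rw [hτc, hτc]) (fun p q => by rw [map_inv₀, map_inv₀, hτj, hτj])
      (fun q a ha => by
        rw [hτc, ModularCurve.algebraMap_laurentSeries_eq_single, HahnSeries.addVal_apply,
          HahnSeries.orderTop_single (by simpa using ha)]
        rfl)
      (M : ℤ) (by omega) hvy
      (fun p q hpq x => by
        rw [cuspCls, cuspCls, Quotient.eq'', MulAction.orbitRel_apply] at hpq
        obtain ⟨⟨y, hy⟩, rfl⟩ := hpq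
        obtain ⟨k, rfl⟩ := Subgroup.mem_zpowers_iff.mp hy
        show HahnSeries.addVal ℤ ℂ (τ (ModularGroup.T ^ k • q) x) = _
        rw [hτT, addVal_twistSeries])
      (fun q x m hm => by
        have h := hτT (Nat.card {p : SL(2, ℤ) ⧸ Γ // cuspCls Γ p = cuspCls Γ q} : ℤ) q x
        rw [T_zpow_card_cuspCls_smul] at h
        have := dvd_mul_of_twistSeries_eq M h.symm hm
        rwa [neg_mul, dvd_neg] at this)
    obtain ⟨o, ho⟩ := Φ.surjective ⟨P, by rw [Place.ord_inv]; omega⟩
    obtain ⟨q, rfl⟩ := Quotient.mk''_surjective o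
    induction q using QuotientGroup.induction_on with
    | H g =>
      have hPo : (Φ (cuspCls Γ (g : SL(2, ℤ) ⧸ Γ))).1 = P := congrArg Subtype.val ho
      have hr0 : qSeries M ⟨g • G, hGexp g⟩ ≠ 0 := (map_ne_zero_iff _ (qSeries_injective M)).mpr
        fun h => (smul_ne_zero_iff_ne g).mpr hG0 (congrArg Subtype.val h)
      obtain ⟨k, hk⟩ := WithTop.ne_top_iff_exists.mp
        ((AddValuation.ne_top_iff (HahnSeries.addVal ℤ ℂ)).mpr hr0)
      refine dvd_ord_of_root (HahnSeries.addVal ℤ ℂ) (τ (g : SL(2, ℤ) ⧸ Γ)) P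
        (fun x => by rw [← hPo]; exact hmemΦ _ x) (inv_ne_zero hj0) hM (hvy _) hf
        (r := qSeries M ⟨g • G, hGexp g⟩) ?_ hk.symm ?_
      · rw [hτval _ f ((g • G) ^ n) ((HolExp M).pow_mem (hGexp g) n)
          (by rw [hσG, map_pow])]
        exact map_pow (qSeries M) ⟨g • G, hGexp g⟩ n
      · rw [← hPo, hΦ]
        have hfix := smul_translate_of_fixed (Γ := Γ) hG (g := g)
          (γ := ModularGroup.T ^ (Nat.card
            {p : SL(2, ℤ) ⧸ Γ // cuspCls Γ p = cuspCls Γ (g : SL(2, ℤ) ⧸ Γ)} : ℤ))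
          (by rw [trace_T_zpow]; norm_num) (T_zpow_card_cuspCls_smul Γ _)
        have htw := (qSeries_T_zpow_smul M ⟨g • G, hGexp g⟩ _).symm.trans
          (congrArg (qSeries M) (Subtype.ext (a2 := (⟨g • G, hGexp g⟩ : HolExp M)) hfix))
        have := dvd_mul_of_twistSeries_eq M htw hk.symm
        rwa [neg_mul, dvd_neg] at this
  · -- a point
    obtain ⟨c, hc | hc⟩ := exists_sub_algebraMap_ord_pos P (mem_of_ord_nonneg P hge)
    · exact absurd (sub_eq_zero.mp hc) fun h => hjt (h ▸ isAlgebraic_algebraMap c)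
    obtain ⟨z, hz, hdiv⟩ := exists_dvd_card_mul_ordPt hneg (ι c)
    let _ : Fintype (Quotient (MulAction.orbitRel (MulAction.stabilizer SL(2, ℤ) z)
      (SL(2, ℤ) ⧸ Γ))) := Fintype.ofFinite _
    set y := j - algebraMap K F c with hy
    have hyt : Transcendental K y := fun h => hjt (by
      have := h.add (isAlgebraic_algebraMap c)
      simpa [hy] using this)
    have hy0 : y ≠ 0 := fun h => hyt (h ▸ isAlgebraic_zero)
    have hevy : Λ y = algebraMap Hol Mero (kleinJHol - algebraMap ℂ Hol (kleinJ z)) := by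
      rw [hy, map_sub, map_sub, hjk, hconst, hz, ← IsScalarTower.algebraMap_apply]
    have hσy : ∀ q, σ q y = Λ y := by
      intro q
      show translate _ (Λ y) = Λ y
      rw [hevy, map_sub, map_sub, translate_kleinJHol, ← IsScalarTower.algebraMap_apply,
        translate_const]
    have hvy : ∀ q, addOrd z (σ q y) = ((jDegree z : ℤ) : WithTop ℤ) := fun q => by
      rw [hσy, hevy, addOrd_apply _ (fun h0 => kleinJHol_sub_const_ne_zero (kleinJ z)
        (IsFractionRing.injective Hol Mero (h0.trans (map_zero _).symm))),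
        ordPt_algebraMap (kleinJHol_sub_const_ne_zero _), holOrd_kleinJHol_sub]
    have hde : 0 < (jDegree z : ℤ) := by unfold jDegree; split_ifs <;> norm_num
    obtain ⟨Φ, hΦ, hmemΦ⟩ := exists_equiv_places_above (addOrd z) (stabCls Γ z)
      Quotient.mk''_surjective y hyt σ
      (fun q q' h => hσinj q q' (RingHom.congr_fun h))
      (by rw [hy, Modular.adjoin_sub_algebraMap j c, hdeg, ← Nat.card_eq_fintype_card]; rfl)
      (fun q q' a => by
        show translate _ (Λ _) = translate _ (Λ _)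
        rw [hconst, translate_const, translate_const])
      (fun q q' => by rw [hσy, hσy])
      (fun q a ha => by
        show addOrd z (translate _ (Λ _)) = 0
        rw [hconst, translate_const]
        exact addOrd_const z (by simpa using ha))
      (jDegree z : ℤ) hde hvy
      (fun q q' h x => by
        obtain ⟨γ, hγ, rfl⟩ := (stabCls_eq_iff Γ z q q').1 h
        rw [← hσm, addOrd_translate, inv_smul_eq_iff.mpr hγ.symm])
      (fun q x m h => by
        obtain ⟨hne, rfl⟩ := ordPt_eq_of_addOrd h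
        exact hdiv q _ hne fun γ _ hγ => by rw [hσm, hγ])
    obtain ⟨o, ho⟩ := Φ.surjective ⟨P, hc⟩
    obtain ⟨q, rfl⟩ := Quotient.mk''_surjective o
    induction q using QuotientGroup.induction_on with
    | H g =>
      have hPo : (Φ (stabCls Γ z (g : SL(2, ℤ) ⧸ Γ))).1 = P := congrArg Subtype.val ho
      have hr0 : algebraMap Hol Mero (g • G) ≠ 0 :=
        algebraMap_mero_ne_zero ((smul_ne_zero_iff_ne g).mpr hG0)
      refine dvd_ord_of_root (addOrd z) (σ g) P
        (fun x => by rw [← hPo]; exact hmemΦ _ x) hy0 hde.ne' (hvy _) hf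
        (r := algebraMap Hol Mero (g • G)) (hσG g) (addOrd_apply z hr0) ?_
      rw [← hPo, hΦ]
      refine hdiv _ _ hr0 fun γ hγz hγq => ?_
      rw [translate_algebraMap, smul_translate_of_fixed hG (trace_sq_le_four_of_fixed hγz) hγq]

end Fermat.Agent.DeligneSerre.XOne

end
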